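import Fermat.Agent.LevelRaise.Pairing

/-!
# The pairing is invariant under conjugation by matrices of positive determinant
-/

set_option autoImplicit false

noncomputable section

namespace FLTAgent.LevelRaise

open scoped MatrixGroups
open ModularGroup

/-- The area form `det(w, M w)`. -/
def areaForm (M : Matrix (Fin 2) (Fin 2) ℤ) (w : Fin 2 → ℤ) : ℤ :=
  w 0 * M.mulVec w 1 - w 1 * M.mulVec w 0

theorem areaForm_conj {g M M' : Matrix (Fin 2) (Fin 2) ℤ} (h : g * M = M' * g) (w : Fin 2 → ℤ) :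
    areaForm M' (g.mulVec w) = g.det * areaForm M w := by
  simp only [areaForm, Matrix.mulVec_mulVec, ← h]
  rw [← Matrix.mulVec_mulVec]
  simp [Matrix.det_fin_two, Matrix.mulVec, dotProduct, Fin.sum_univ_two]
  ring

theorem areaForm_smul (M : Matrix (Fin 2) (Fin 2) ℤ) (c : ℤ) (w : Fin 2 → ℤ) :
    areaForm M (c • w) = c ^ 2 * areaForm M w := by
  simp [areaForm]
  ring

/-- A nontrivial parabolic element rotating in the positive sense. -/
def PosPar (h : SL(2, ℤ)) : Prop :=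
  h ≠ 1 ∧ h ≠ -1 ∧ trSL h ^ 2 = 4 ∧
    ∀ w, trSL h * areaForm (matSL h) w ≤ 0

theorem PosPar.neg {h : SL(2, ℤ)} (hh : PosPar h) : PosPar (-h) := by
  obtain ⟨h1, h2, h3, h4⟩ := hh
  refine ⟨fun e => h2 (by rw [← e, neg_neg]), fun e => h1 (neg_inj.mp e), by rwa [trSL_neg, neg_sq],
    fun w => ?_⟩
  have : areaForm (matSL (-h)) w = -areaForm (matSL h) w := by
    simp [areaForm, matSL, Matrix.neg_mulVec]; ring
  rw [trSL_neg, this, neg_mul_neg]
  exact h4 w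

theorem matSL_conj_eq (δ h : SL(2, ℤ)) :
    matSL δ * matSL h = matSL (δ * h * δ⁻¹) * matSL δ := by
  simp only [matSL, ← Matrix.SpecialLinearGroup.coe_mul]
  exact congrArg Subtype.val (show δ * h = δ * h * δ⁻¹ * δ by group)

theorem PosPar.conj {h : SL(2, ℤ)} (hh : PosPar h) (δ : SL(2, ℤ)) : PosPar (δ * h * δ⁻¹) := by
  obtain ⟨h1, h2, h3, h4⟩ := hh
  refine ⟨fun e => h1 ?_, fun e => h2 ?_, by rwa [trSL_conj], fun w => ?_⟩
  · have := congrArg (fun z => δ⁻¹ * z * δ) e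
    simpa [mul_assoc] using this
  · have := congrArg (fun z => δ⁻¹ * z * δ) e
    simpa [mul_assoc] using this
  · obtain ⟨w, rfl⟩ : ∃ v, w = (matSL δ).mulVec v :=
      ⟨(matSL δ⁻¹).mulVec w, by
        rw [Matrix.mulVec_mulVec, ← Matrix.SpecialLinearGroup.coe_mul, mul_inv_cancel,
          Matrix.SpecialLinearGroup.coe_one, Matrix.one_mulVec]⟩
    rw [trSL_conj, areaForm_conj (matSL_conj_eq δ h), δ.det_coe, one_mul]
    exact h4 w

theorem posPar_T_zpow_iff {m : ℤ} : PosPar ((T : SL(2, ℤ)) ^ m) ↔ 0 < m := by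
  have harea : ∀ w, trSL ((T : SL(2, ℤ)) ^ m) * areaForm (matSL ((T : SL(2, ℤ)) ^ m)) w
      = -(2 * m) * w 1 ^ 2 := fun w => by
    rw [trSL, matSL, coe_T_zpow]
    simp [areaForm, Matrix.trace_fin_two, Matrix.mulVec, dotProduct, Fin.sum_univ_two]
    ring
  constructor
  · rintro ⟨h1, -, -, h4⟩
    have h := h4 ![0, 1]
    rw [harea] at h
    simp at h
    rcases h.eq_or_lt with rfl | h'
    · exact absurd (zpow_zero _) h1
    · exact h'
  · intro hm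
    refine ⟨fun e => ?_, fun e => ?_, by rw [trSL, coe_T_zpow]; simp [Matrix.trace_fin_two], fun w => ?_⟩
    · have := congrArg (fun z : SL(2, ℤ) => matSL z 0 1) e
      simp only [matSL, coe_T_zpow] at this
      simp at this
      omega
    · have := congrArg (fun z : SL(2, ℤ) => matSL z 0 0) e
      simp only [matSL, coe_T_zpow] at this
      simp at this
    · rw [harea]
      nlinarith [sq_nonneg (w 1)]

theorem eq_T_zpow_of_commute {k : SL(2, ℤ)} {w w' : ℤ} (hw : w ≠ 0)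
    (h : k * T ^ w = T ^ w' * k) : ∃ n : ℤ, k = T ^ n ∨ k = -(T ^ n) := by
  refine FLTAgent.Periods.eq_T_zpow_or_neg ?_
  have h' := congrArg (fun z : SL(2, ℤ) => matSL z 1 1) h
  simp only [matSL, Matrix.SpecialLinearGroup.coe_mul, coe_T_zpow, Matrix.mul_apply,
    Fin.sum_univ_two] at h'
  simp at h'
  exact h'.resolve_right hw

theorem T_zpow_injective {m n : ℤ} (h : (T : SL(2, ℤ)) ^ m = T ^ n) : m = n := by
  have h' := congrArg (fun z : SL(2, ℤ) => matSL z 0 1) h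
  simp only [matSL, coe_T_zpow] at h'
  simpa using h'

theorem T_zpow_ne_neg (m n : ℤ) : (T : SL(2, ℤ)) ^ m ≠ -(T ^ n) := by
  intro h
  have h' := congrArg (fun z : SL(2, ℤ) => matSL z 0 0) h
  simp only [matSL, Matrix.SpecialLinearGroup.coe_neg, coe_T_zpow] at h'
  simp at h'

/-- A generator, up to sign, of the stabiliser of a cusp. -/
def IsCuspGen (Γ : Subgroup SL(2, ℤ)) (h : Γ) : Prop :=
  PosPar (h : SL(2, ℤ)) ∧ ∀ δ : Γ, δ * h = h * δ →
    ∃ n : ℤ, (δ : SL(2, ℤ)) = (h : SL(2, ℤ)) ^ n ∨ (δ : SL(2, ℤ)) = -((h : SL(2, ℤ)) ^ n)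

variable {Γ : Subgroup SL(2, ℤ)} [Γ.FiniteIndex]

theorem period_T_pos (o : PowOrbits T (Cos Γ)) :
    0 < (MulAction.period (T : SL(2, ℤ)) o.out : ℤ) := by
  exact_mod_cast period_pos_of_finite (T : SL(2, ℤ)) o.out

omit [Γ.FiniteIndex] in
theorem cuspElt_conj (o : PowOrbits T (Cos Γ)) : (cuspElt Γ o : SL(2, ℤ))
    = o.out.out⁻¹ * T ^ (MulAction.period (T : SL(2, ℤ)) o.out : ℤ) * o.out.out⁻¹⁻¹ := by
  rw [cuspElt, cellG_of_fixed (MulAction.pow_period_smul T o.out), zpow_natCast]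

theorem isCuspGen_cuspElt (hneg : (-1 : SL(2, ℤ)) ∈ Γ) (o : PowOrbits T (Cos Γ)) :
    IsCuspGen Γ (cuspElt Γ o) := by
  have hw := period_T_pos o
  refine ⟨by rw [cuspElt_conj]; exact (posPar_T_zpow_iff.mpr hw).conj _, fun δ hδ => ?_⟩
  obtain ⟨g, hg⟩ : ∃ g, g = o.out.out := ⟨_, rfl⟩
  obtain ⟨w, hwdef⟩ : ∃ w, w = (MulAction.period (T : SL(2, ℤ)) o.out : ℤ) := ⟨_, rfl⟩
  have hδ' := congrArg (fun z : Γ => g * (z : SL(2, ℤ)) * g⁻¹) hδ
  simp only [Subgroup.coe_mul, cuspElt_conj, ← hg, ← hwdef] at hδ'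
  have hcomm : g * (δ : SL(2, ℤ)) * g⁻¹ * T ^ w = T ^ w * (g * (δ : SL(2, ℤ)) * g⁻¹) := by
    convert hδ' using 1 <;> group
  obtain ⟨n, hn⟩ := eq_T_zpow_of_commute (by omega) hcomm
  have hgx : g • cosBase Γ = o.out := by rw [hg]; exact out_smul_base _
  have hfix : (g * (δ : SL(2, ℤ)) * g⁻¹) • o.out = o.out := by
    rw [← hgx, ← mul_smul, inv_mul_cancel_right, mul_smul, smul_base_of_mem δ.2]
  have hfixn : (T : SL(2, ℤ)) ^ n • o.out = o.out := by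
    rcases hn with hn | hn <;> rw [hn] at hfix
    · exact hfix
    · rwa [← neg_one_mul, mul_smul, neg_one_smul_cos hneg] at hfix
  obtain ⟨j, hj⟩ := MulAction.zpow_smul_eq_iff_period_dvd.mp hfixn
  refine ⟨j, ?_⟩
  rw [cuspElt_conj, conj_zpow, ← zpow_mul, ← hg, ← hwdef]
  rw [← hwdef] at hj
  rw [← hj]
  rcases hn with hn | hn
  · left
    rw [← hn]; group
  · right
    rw [← conj_neg, ← hn]; group

theorem exists_conj_cuspElt (hneg : (-1 : SL(2, ℤ)) ∈ Γ) {h : Γ} (hh : IsCuspGen Γ h) :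
    ∃ (o : PowOrbits T (Cos Γ)) (γ : Γ), (h : SL(2, ℤ)) = γ * cuspElt Γ o * γ⁻¹ ∨
      (h : SL(2, ℤ)) = -(γ * cuspElt Γ o * γ⁻¹) := by
  obtain ⟨δ, m, hm⟩ := FLTAgent.Periods.exists_mul_eq_mul_T_zpow hh.1.2.2.1
  obtain ⟨hd, hhd⟩ : ∃ hd, hd = δ * T ^ m * δ⁻¹ := ⟨_, rfl⟩
  have hcases : (h : SL(2, ℤ)) = hd ∨ (h : SL(2, ℤ)) = -hd := by
    rcases hm with hm | hm
    · exact Or.inl (hhd ▸ eq_mul_inv_of_mul_eq hm)
    · exact Or.inr (by rw [hhd, eq_mul_inv_of_mul_eq hm, neg_mul])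
  have hpos : 0 < m := by
    have hp : PosPar hd := by
      rcases hcases with e | e
      · exact e ▸ hh.1
      · rw [show hd = -(h : SL(2, ℤ)) by rw [e, neg_neg]]; exact hh.1.neg
    refine posPar_T_zpow_iff.mp ?_
    have := hp.conj δ⁻¹
    rw [hhd] at this
    rwa [show δ⁻¹ * (δ * T ^ m * δ⁻¹) * δ⁻¹⁻¹ = T ^ m by group] at this
  obtain ⟨x, hx⟩ : ∃ x, x = δ⁻¹ • cosBase Γ := ⟨_, rfl⟩
  have hTx : (T : SL(2, ℤ)) ^ m • x = x := by
    have h1 : hd • cosBase Γ = cosBase Γ := by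
      rcases hcases with e | e
      · rw [← e]; exact smul_base_of_mem h.2
      · rw [show hd = -1 * (h : SL(2, ℤ)) by rw [e, neg_one_mul, neg_neg], mul_smul,
          smul_base_of_mem h.2, neg_one_smul_cos hneg]
    apply MulAction.injective δ
    show δ • _ = δ • _
    rw [hx, ← mul_smul, ← mul_smul, ← mul_smul, mul_inv_cancel, one_smul, ← hhd, h1]
  obtain ⟨o, ho⟩ : ∃ o : PowOrbits T (Cos Γ), o = Quotient.mk'' x := ⟨_, rfl⟩
  obtain ⟨j, -, hj⟩ := exists_pow_smul_out (T : SL(2, ℤ)) x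
  rw [← ho] at hj
  obtain ⟨g, hg⟩ : ∃ g, g = o.out.out := ⟨_, rfl⟩
  have hgx : g • cosBase Γ = o.out := by rw [hg]; exact out_smul_base _
  have hmem : g⁻¹ * (T ^ j)⁻¹ * δ⁻¹ ∈ Γ := by
    have h1 : δ⁻¹ • cosBase Γ = (T ^ j * g) • cosBase Γ := by rw [mul_smul, hgx, hj, hx]
    rw [MulAction.Quotient.smul_mk, MulAction.Quotient.smul_mk, QuotientGroup.eq] at h1
    simp only [smul_eq_mul, mul_one, inv_inv] at h1
    have h3 := Γ.inv_mem h1
    convert h3 using 1; group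
  have hdvd : (MulAction.period (T : SL(2, ℤ)) o.out : ℤ) ∣ m := by
    refine MulAction.zpow_smul_eq_iff_period_dvd.mp ?_
    apply MulAction.injective ((T : SL(2, ℤ)) ^ j)
    show (T : SL(2, ℤ)) ^ j • _ = (T : SL(2, ℤ)) ^ j • _
    rw [← mul_smul, ← zpow_natCast, Commute.eq ((Commute.refl (T : SL(2, ℤ))).zpow_zpow _ _),
      mul_smul, zpow_natCast, hj, hTx]
  obtain ⟨r, hr⟩ := hdvd
  have hw := period_T_pos o
  obtain ⟨w, hwdef⟩ : ∃ w, w = (MulAction.period (T : SL(2, ℤ)) o.out : ℤ) := ⟨_, rfl⟩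
  rw [← hwdef] at hr hw
  obtain ⟨γ, hγ⟩ : ∃ γ : Γ, (γ : SL(2, ℤ)) = δ * T ^ j * g :=
    ⟨⟨_, Γ.inv_mem hmem⟩, by show (g⁻¹ * (T ^ j)⁻¹ * δ⁻¹)⁻¹ = _; group⟩
  obtain ⟨c, hc⟩ : ∃ c : Γ, c = γ * cuspElt Γ o * γ⁻¹ := ⟨_, rfl⟩
  have hcT : (c : SL(2, ℤ)) = δ * T ^ w * δ⁻¹ := by
    rw [hc, Subgroup.coe_mul, Subgroup.coe_mul, Subgroup.coe_inv, hγ, cuspElt_conj, ← hg, ← hwdef]
    have hcomm : (T : SL(2, ℤ)) ^ j * T ^ w = T ^ w * T ^ j := by
      rw [← zpow_natCast]; exact (Commute.refl (T : SL(2, ℤ))).zpow_zpow _ _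
    calc δ * T ^ j * g * (g⁻¹ * T ^ w * g⁻¹⁻¹) * (δ * T ^ j * g)⁻¹
        = δ * (T ^ j * T ^ w) * (T ^ j)⁻¹ * δ⁻¹ := by group
      _ = δ * T ^ w * δ⁻¹ := by rw [hcomm]; group
  have hcomm' : c * h = h * c := by
    apply Subtype.ext
    rw [Subgroup.coe_mul, Subgroup.coe_mul, hcT]
    have hTT : (T : SL(2, ℤ)) ^ w * T ^ m = T ^ m * T ^ w :=
      (Commute.refl (T : SL(2, ℤ))).zpow_zpow _ _
    have e0 : δ * T ^ w * δ⁻¹ * hd = hd * (δ * T ^ w * δ⁻¹) := by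
      rw [hhd]
      calc δ * T ^ w * δ⁻¹ * (δ * T ^ m * δ⁻¹) = δ * (T ^ w * T ^ m) * δ⁻¹ := by group
        _ = δ * T ^ m * δ⁻¹ * (δ * T ^ w * δ⁻¹) := by rw [hTT]; group
    rcases hcases with e | e <;> rw [e]
    · exact e0
    · rw [mul_neg, neg_mul, e0]
  obtain ⟨n, hn⟩ := hh.2 c hcomm'
  have hdn : (c : SL(2, ℤ)) = hd ^ n ∨ (c : SL(2, ℤ)) = -(hd ^ n) := by
    rcases hcases with e | e <;> rw [e] at hn
    · exact hn
    · rcases Int.even_or_odd n with hev | hod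
      · rwa [hev.neg_zpow] at hn
      · rw [hod.neg_zpow, neg_neg] at hn; exact hn.symm
  have hwm : w = m * n := by
    rw [hcT, hhd, conj_zpow, ← zpow_mul] at hdn
    rcases hdn with e | e
    · exact T_zpow_injective (mul_left_cancel (mul_right_cancel e))
    · rw [← conj_neg] at e
      exact absurd (mul_left_cancel (mul_right_cancel e)) (T_zpow_ne_neg _ _)
  have hr1 : r = 1 := by
    have h1 : w * (r * n - 1) = 0 := by rw [hr] at hwm; linear_combination -hwm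
    have h3 : r * n = 1 := by
      have := (mul_eq_zero.mp h1).resolve_left (by omega)
      linarith
    rcases Int.eq_one_or_neg_one_of_mul_eq_one h3 with e | e
    · exact e
    · rw [e] at hr; omega
  refine ⟨o, γ, ?_⟩
  have hcd : (c : SL(2, ℤ)) = hd := by rw [hcT, hhd, hr, hr1, mul_one]
  have hc' : (γ * cuspElt Γ o * γ⁻¹ : SL(2, ℤ)) = hd := by
    rw [← hcd, hc]; simp
  simp only [Subgroup.coe_inv] at hc' ⊢
  rw [hc']
  exact hcases

theorem cusp_eq_of_conj (hneg : (-1 : SL(2, ℤ)) ∈ Γ) {o o' : PowOrbits T (Cos Γ)} (γ : Γ)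
    (h : (γ : SL(2, ℤ)) * cuspElt Γ o * (γ : SL(2, ℤ))⁻¹ = cuspElt Γ o' ∨
      (γ : SL(2, ℤ)) * cuspElt Γ o * (γ : SL(2, ℤ))⁻¹ = -(cuspElt Γ o' : SL(2, ℤ))) : o = o' := by
  rcases h with h | h
  swap
  · have := congrArg trSL h
    rw [trSL_conj, trSL_neg, trSL_cuspElt, trSL_cuspElt] at this
    norm_num at this
  have hw := period_T_pos o
  rw [cuspElt_conj, cuspElt_conj] at h
  obtain ⟨g, hg⟩ : ∃ g, g = o.out.out := ⟨_, rfl⟩
  obtain ⟨g', hg'⟩ : ∃ g', g' = o'.out.out := ⟨_, rfl⟩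
  rw [← hg, ← hg'] at h
  generalize hw1 : (MulAction.period (T : SL(2, ℤ)) o.out : ℤ) = w at h hw
  generalize (MulAction.period (T : SL(2, ℤ)) o'.out : ℤ) = w' at h
  have hk : g' * (γ : SL(2, ℤ)) * g⁻¹ * T ^ w = T ^ w' * (g' * (γ : SL(2, ℤ)) * g⁻¹) := by
    have h' := congrArg (fun z => g' * z * ((γ : SL(2, ℤ)) * g⁻¹)) h
    convert h' using 1 <;> group
  obtain ⟨n, hn⟩ := eq_T_zpow_of_commute (by omega) hk
  have hgx : g • cosBase Γ = o.out := by rw [hg]; exact out_smul_base _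
  have hgx' : g' • cosBase Γ = o'.out := by rw [hg']; exact out_smul_base _
  have hT : (T : SL(2, ℤ)) ^ n • o.out = o'.out := by
    have h1 : (g' * (γ : SL(2, ℤ)) * g⁻¹) • o.out = o'.out := by
      rw [← hgx, ← mul_smul, inv_mul_cancel_right, mul_smul, smul_base_of_mem γ.2, hgx']
    rcases hn with hn | hn <;> rw [hn] at h1
    · exact h1
    · rwa [← neg_one_mul, mul_smul, neg_one_smul_cos hneg] at h1
  rw [← Quotient.out_eq' o, ← Quotient.out_eq' o']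
  exact (Quotient.sound' ⟨⟨T ^ n, Subgroup.mem_zpowers_iff.mpr ⟨n, rfl⟩⟩, hT⟩ :
    (Quotient.mk'' o'.out : PowOrbits T (Cos Γ)) = Quotient.mk'' o.out).symm

variable {k : Type*} [Field k] {Γ₁ Γ₂ : Subgroup SL(2, ℤ)} {g : Matrix (Fin 2) (Fin 2) ℤ}

theorem ConjLE.hom_injective (hg : ConjLE g Γ₁ Γ₂) : Function.Injective hg.hom := by
  intro γ δ h
  have e : g * matSL (γ : SL(2, ℤ)) = g * matSL (δ : SL(2, ℤ)) := by rw [hg.spec, hg.spec, h]
  have e' := congrArg (g.adjugate * ·) e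
  simp only [← Matrix.mul_assoc, Matrix.adjugate_mul, Matrix.smul_mul, Matrix.one_mul] at e'
  exact Subtype.ext (Subtype.ext (smul_right_injective _ hg.det_pos.ne' e'))

theorem ConjLE.hom_negOne (hg : ConjLE g Γ₁ Γ₂) (h1 : (-1 : SL(2, ℤ)) ∈ Γ₁) :
    (hg.hom ⟨-1, h1⟩ : SL(2, ℤ)) = -1 :=
  eq_of_mul_conj hg.det_pos (hg.spec _) (by simp)

theorem ConjLE.posPar_hom (hg : ConjLE g Γ₁ Γ₂) {h : Γ₁} (hh : PosPar (h : SL(2, ℤ))) :
    PosPar (hg.hom h : SL(2, ℤ)) := by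
  obtain ⟨h1, h2, h3, h4⟩ := hh
  refine ⟨fun e => h1 ?_, fun e => h2 ?_, by rwa [hg.trSL_hom], fun w => ?_⟩
  · have : hg.hom h = 1 := Subtype.ext e
    rw [← map_one hg.hom] at this
    exact congrArg Subtype.val (hg.hom_injective this)
  · have hgg : g * matSL (h : SL(2, ℤ)) = g * matSL (-1) := by rw [hg.spec, e]; simp
    have e' := congrArg (g.adjugate * ·) hgg
    simp only [← Matrix.mul_assoc, Matrix.adjugate_mul, Matrix.smul_mul, Matrix.one_mul] at e'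
    exact Subtype.ext (smul_right_injective _ hg.det_pos.ne' e')
  · obtain ⟨v, hv⟩ : ∃ v, g.det • w = g.mulVec v := ⟨g.adjugate.mulVec w, by
      rw [Matrix.mulVec_mulVec, Matrix.mul_adjugate, Matrix.smul_mulVec, Matrix.one_mulVec]⟩
    have h5 : areaForm (matSL (hg.hom h : SL(2, ℤ))) (g.det • w) = g.det * areaForm (matSL (h : SL(2, ℤ))) v := by
      rw [hv]; exact areaForm_conj (hg.spec h) v
    rw [areaForm_smul] at h5
    rw [hg.trSL_hom]
    refine nonpos_of_mul_nonpos_right ?_ (pow_pos hg.det_pos 2)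
    have h6 := mul_nonpos_of_nonneg_of_nonpos hg.det_pos.le (h4 v)
    linear_combination h6 + trSL (h : SL(2, ℤ)) * h5

variable [Γ₁.FiniteIndex] [Γ₂.FiniteIndex]

/-- The pairing is invariant under conjugation. -/
theorem pairing_conjPull (hg : ConjLE g Γ₁ Γ₂) (hsurj : Function.Surjective hg.hom)
    (h1 : (-1 : SL(2, ℤ)) ∈ Γ₁) (h2' : (-1 : SL(2, ℤ)) ∈ Γ₂) (h2 : (2 : k) ≠ 0)
    {φ ψ : Additive Γ₂ →+ k} (hφ : φ ∈ parHom Γ₂ k) (hψ : ψ ∈ parHom Γ₂ k) :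
    pairing (conjPull hg φ) (conjPull hg ψ) = pairing φ ψ := by
  classical
  obtain ⟨F, hF⟩ := exists_isQuadHom h2' h2 (parHom_le_ellHom hφ) (parHom_le_ellHom hψ)
  have hF' : IsQuadHom (conjPull hg φ) (conjPull hg ψ) fun γ => F (hg.hom γ) :=
    ⟨fun γ δ => by simp only [map_mul, hF.1, conjPull_apply],
      fun γ hγ => hF.2 _ (hg.isElliptic_hom hγ)⟩
  rw [pairing_eq_sum_cuspElt h1 h2 (conjPull_mem_parHom hg hφ) (conjPull_mem_parHom hg hψ) hF',
    pairing_eq_sum_cuspElt h2' h2 hφ hψ hF]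
  have hm1 : ∀ δ : Γ₂, F (⟨-(δ : SL(2, ℤ)), by simpa using Γ₂.mul_mem h2' δ.2⟩) = F δ := by
    intro δ
    have e : (⟨-(δ : SL(2, ℤ)), by simpa using Γ₂.mul_mem h2' δ.2⟩ : Γ₂) = ⟨-1, h2'⟩ * δ :=
      Subtype.ext (by simp)
    rw [e, hF.1, hF.2 ⟨-1, h2'⟩ (Or.inr (Or.inr rfl)),
      parHom_le_ellHom hφ ⟨-1, h2'⟩ (Or.inr (Or.inr rfl)), zero_mul, add_zero, zero_add]
  have hcj : ∀ (o : PowOrbits T (Cos Γ₂)) (γ : Γ₂), F (γ * cuspElt Γ₂ o * γ⁻¹) = F (cuspElt Γ₂ o) := by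
    intro o γ
    have htr : trSL (cuspElt Γ₂ o : SL(2, ℤ)) ^ 2 ≤ 4 := by rw [trSL_cuspElt]; norm_num
    have h1' : F 1 = 0 := hF.2 1 (Or.inr (Or.inl rfl))
    have h11 := hF.1 γ γ⁻¹
    rw [mul_inv_cancel, h1'] at h11
    rw [hF.1, hF.1, hψ _ htr, ofMul_mul, map_add, hφ _ htr]
    linear_combination -h11
  have hgen : ∀ o, IsCuspGen Γ₂ (hg.hom (cuspElt Γ₁ o)) := by
    intro o
    obtain ⟨hp, hc⟩ := isCuspGen_cuspElt h1 o
    refine ⟨hg.posPar_hom hp, fun δ hδ => ?_⟩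
    obtain ⟨δ, rfl⟩ := hsurj δ
    obtain ⟨n, hn | hn⟩ := hc δ (hg.hom_injective (by rw [map_mul, map_mul, hδ]))
    · refine ⟨n, Or.inl ?_⟩
      rw [← Subgroup.coe_zpow, ← map_zpow]
      exact congrArg (fun z => (hg.hom z : SL(2, ℤ))) (Subtype.ext (by simpa using hn))
    · refine ⟨n, Or.inr ?_⟩
      have e : δ = ⟨-1, h1⟩ * cuspElt Γ₁ o ^ n := Subtype.ext (by simpa using hn)
      rw [e, map_mul, Subgroup.coe_mul, hg.hom_negOne, neg_one_mul, map_zpow, Subgroup.coe_zpow]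
  choose σ γσ hσ using fun o => exists_conj_cuspElt h2' (hgen o)
  refine Finset.sum_bij (fun o _ => σ o) (fun _ _ => Finset.mem_univ _) ?_ ?_ ?_
  · intro o _ o' _ he
    obtain ⟨γ', hγ'⟩ := hsurj (γσ o' * (γσ o)⁻¹)
    refine cusp_eq_of_conj h1 γ' ?_
    have himg : (hg.hom (γ' * cuspElt Γ₁ o * γ'⁻¹) : SL(2, ℤ)) = hg.hom (cuspElt Γ₁ o') ∨
        (hg.hom (γ' * cuspElt Γ₁ o * γ'⁻¹) : SL(2, ℤ)) = -(hg.hom (cuspElt Γ₁ o') : SL(2, ℤ)) := by
      rw [map_mul, map_mul, map_inv, hγ']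
      simp only [Subgroup.coe_mul, Subgroup.coe_inv, mul_inv_rev, inv_inv]
      rcases hσ o with e | e <;> rcases hσ o' with e' | e' <;> rw [e, e', he] <;>
        simp [mul_assoc]
    rcases himg with e | e
    · left
      have := hg.hom_injective (Subtype.ext e)
      rw [← this]; simp
    · right
      have e2 : hg.hom (γ' * cuspElt Γ₁ o * γ'⁻¹) = hg.hom (⟨-1, h1⟩ * cuspElt Γ₁ o') :=
        Subtype.ext (by rw [e, map_mul hg.hom ⟨-1, h1⟩, Subgroup.coe_mul, hg.hom_negOne, neg_one_mul])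
      have := congrArg Subtype.val (hg.hom_injective e2)
      simpa using this
  · intro o' _
    obtain ⟨h, hh⟩ := hsurj (cuspElt Γ₂ o')
    have hgenh : IsCuspGen Γ₁ h := by
      obtain ⟨hp, hc⟩ := isCuspGen_cuspElt h2' o'
      rw [← hh] at hp hc
      refine ⟨?_, fun δ hδ => ?_⟩
      · -- positivity descends along the inverse
        obtain ⟨q1, q2, q3, q4⟩ := hp
        refine ⟨fun e => q1 ?_, fun e => q2 ?_, by rwa [← hg.trSL_hom], fun w => ?_⟩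
        · rw [show h = 1 from Subtype.ext e, map_one]; rfl
        · rw [show h = ⟨-1, h1⟩ from Subtype.ext e, hg.hom_negOne]
        · have h5 := q4 (g.mulVec w)
          rw [areaForm_conj (hg.spec h) w, hg.trSL_hom, mul_left_comm] at h5
          exact nonpos_of_mul_nonpos_right h5 hg.det_pos
      · obtain ⟨n, hn | hn⟩ := hc (hg.hom δ) (by rw [← map_mul, hδ, map_mul])
        · rw [← Subgroup.coe_zpow, ← map_zpow] at hn
          exact ⟨n, Or.inl (by simpa using congrArg Subtype.val (hg.hom_injective (Subtype.ext hn)))⟩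
        · refine ⟨n, Or.inr ?_⟩
          have e : hg.hom δ = hg.hom (⟨-1, h1⟩ * h ^ n) :=
            Subtype.ext (by rw [map_mul, Subgroup.coe_mul, hg.hom_negOne, neg_one_mul, map_zpow,
              Subgroup.coe_zpow]; exact hn)
          simpa using congrArg Subtype.val (hg.hom_injective e)
    obtain ⟨o, γ, hoγ⟩ := exists_conj_cuspElt h1 hgenh
    refine ⟨o, Finset.mem_univ _, (cusp_eq_of_conj h2' ((γσ o)⁻¹ * (hg.hom γ)⁻¹) ?_).symm⟩
    -- compare the two descriptions of the image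
    have himg : (hg.hom h : SL(2, ℤ))
        = (hg.hom γ : SL(2, ℤ)) * hg.hom (cuspElt Γ₁ o) * (hg.hom γ : SL(2, ℤ))⁻¹ ∨
        (hg.hom h : SL(2, ℤ))
        = -((hg.hom γ : SL(2, ℤ)) * hg.hom (cuspElt Γ₁ o) * (hg.hom γ : SL(2, ℤ))⁻¹) := by
      rcases hoγ with e | e
      · left
        rw [show h = γ * cuspElt Γ₁ o * γ⁻¹ from Subtype.ext (by simpa using e)]
        simp
      · right
        rw [show h = ⟨-1, h1⟩ * (γ * cuspElt Γ₁ o * γ⁻¹) from Subtype.ext (by simpa using e),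
          map_mul, Subgroup.coe_mul, hg.hom_negOne, neg_one_mul]
        simp
    rw [hh] at himg
    simp only [Subgroup.coe_mul, Subgroup.coe_inv, mul_inv_rev, inv_inv]
    rcases himg with e | e <;> rcases hσ o with e' | e' <;> rw [e'] at e <;> rw [e] <;>
      simp [mul_assoc]
  · intro o _
    rcases hσ o with e | e
    · rw [show hg.hom (cuspElt Γ₁ o) = γσ o * cuspElt Γ₂ (σ o) * (γσ o)⁻¹ from
        Subtype.ext (by simpa using e), hcj]
    · rw [← hcj (σ o) (γσ o), ← hm1 (γσ o * cuspElt Γ₂ (σ o) * (γσ o)⁻¹)]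
      congr 1
      exact Subtype.ext (by simpa using e)

end FLTAgent.LevelRaise
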