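import Fermat.Agent.LevelRaise.TransferSum
import Fermat.Agent.LevelRaise.ConjInvariance
import Mathlib.NumberTheory.ModularForms.CongruenceSubgroups
import Mathlib.RingTheory.Int.Basic
import Mathlib.Algebra.Field.ZMod

/-!
# Hecke operators on homomorphisms of `Γ₀(N)`
-/

set_option autoImplicit false

noncomputable section

namespace FLTAgent.LevelRaise

open scoped MatrixGroups
open CongruenceSubgroup

theorem mem_gamma0_iff {N : ℕ} {γ : SL(2, ℤ)} :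
    γ ∈ Gamma0 N ↔ (N : ℤ) ∣ matSL γ 1 0 := by
  rw [Gamma0_mem, ZMod.intCast_zmod_eq_zero_iff_dvd]

theorem gamma0_le {N M : ℕ} (h : N ∣ M) : Gamma0 M ≤ Gamma0 N := fun γ hγ =>
  mem_gamma0_iff.mpr ((Int.natCast_dvd_natCast.mpr h).trans (mem_gamma0_iff.mp hγ))

theorem gamma0_mul_le (N ℓ : ℕ) : Gamma0 (N * ℓ) ≤ Gamma0 N := gamma0_le (dvd_mul_right N ℓ)

theorem neg_one_mem_gamma0 (N : ℕ) : (-1 : SL(2, ℤ)) ∈ Gamma0 N :=
  mem_gamma0_iff.mpr (by simp [matSL])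

/-- An element of `SL(2, ℤ)` from its entries. -/
def slMk (a b c d : ℤ) (h : a * d - b * c = 1) : SL(2, ℤ) :=
  ⟨!![a, b; c, d], by rw [Matrix.det_fin_two_of, h]⟩

@[simp] theorem matSL_slMk (a b c d : ℤ) (h : a * d - b * c = 1) :
    matSL (slMk a b c d h) = !![a, b; c, d] := rfl

theorem det_matSL (γ : SL(2, ℤ)) :
    matSL γ 0 0 * matSL γ 1 1 - matSL γ 0 1 * matSL γ 1 0 = 1 := by
  rw [← Matrix.det_fin_two]; exact γ.det_coe

/-- The standard representatives of determinant `ℓ`. -/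
def tRepZ (ℓ : ℕ) : Option (ZMod ℓ) → Matrix (Fin 2) (Fin 2) ℤ
  | none => !![(ℓ : ℤ), 0; 0, 1]
  | some j => !![1, (j.val : ℤ); 0, (ℓ : ℤ)]

theorem tRepZ_apply_one_zero (ℓ : ℕ) (i : Option (ZMod ℓ)) : tRepZ ℓ i 1 0 = 0 := by
  cases i <;> rfl

theorem distinctFam_tRepZ (ℓ : ℕ) [NeZero ℓ] (hℓ : 1 < ℓ) : DistinctFam (tRepZ ℓ) := by
  intro i j δ h
  have h00 := congrArg (fun M => M 0 0) h
  have h01 := congrArg (fun M => M 0 1) h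
  have h11 := congrArg (fun M => M 1 1) h
  have h10 := congrArg (fun M => M 1 0) h
  rcases i with _ | i <;> rcases j with _ | j <;>
    simp [tRepZ, Matrix.mul_apply, Fin.sum_univ_two, -ZMod.natCast_val] at h00 h01 h10 h11 ⊢
  · rw [← h10, zero_mul, zero_add] at h11
    have := Int.le_of_dvd one_pos ⟨matSL δ 1 1, by rw [mul_comm]; exact h11⟩
    omega
  · have := Int.le_of_dvd one_pos ⟨matSL δ 0 0, by rw [mul_comm]; exact h00⟩
    omega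
  · have h1 : ((i.val : ℤ) : ZMod ℓ) = ((j.val : ℤ) : ZMod ℓ) := by
      rw [h01, ← h00]; push_cast; simp
    simpa using h1

/-- Primitive matrices of prime determinant with lower left entry divisible by `N`. -/
theorem exists_eq_mul_tRepZ {N ℓ : ℕ} (hℓ : ℓ.Prime) (hℓN : ¬ ℓ ∣ N)
    (X : Matrix (Fin 2) (Fin 2) ℤ) (hdet : X.det = ℓ) (hX : (N : ℤ) ∣ X 1 0) :
    ∃ (i : Option (ZMod ℓ)) (δ : Gamma0 N), X = matSL (δ : SL(2, ℤ)) * tRepZ ℓ i := by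
  have : Fact ℓ.Prime := ⟨hℓ⟩
  rw [Matrix.det_fin_two] at hdet
  have hℓ0 : (ℓ : ℤ) ≠ 0 := by exact_mod_cast hℓ.ne_zero
  have hcop : IsCoprime (N : ℤ) (ℓ : ℤ) :=
    (Nat.isCoprime_iff_coprime).mpr ((hℓ.coprime_iff_not_dvd).mpr hℓN).symm
  by_cases h : ((X 0 0 : ℤ) : ZMod ℓ) = 0 ∧ ((X 1 0 : ℤ) : ZMod ℓ) = 0
  · obtain ⟨a, ha⟩ := (ZMod.intCast_zmod_eq_zero_iff_dvd _ _).mp h.1
    obtain ⟨c, hc⟩ := (ZMod.intCast_zmod_eq_zero_iff_dvd _ _).mp h.2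
    have hd : a * X 1 1 - X 0 1 * c = 1 := by
      apply mul_left_cancel₀ hℓ0
      rw [ha, hc] at hdet; linear_combination hdet
    refine ⟨none, ⟨slMk a (X 0 1) c (X 1 1) hd, mem_gamma0_iff.mpr ?_⟩, ?_⟩
    · rw [hc] at hX
      exact hcop.dvd_of_dvd_mul_left hX
    · ext r s
      fin_cases r <;> fin_cases s <;> simp [tRepZ, Matrix.mul_apply, Fin.sum_univ_two, ha, hc, mul_comm]
  · have hj : ∃ j : ZMod ℓ, ((X 0 1 : ℤ) : ZMod ℓ) = X 0 0 * j ∧ ((X 1 1 : ℤ) : ZMod ℓ) = X 1 0 * j := by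
      have hd0 : ((X 0 0 : ℤ) : ZMod ℓ) * X 1 1 - X 0 1 * X 1 0 = 0 := by
        have := congrArg (fun z : ℤ => (z : ZMod ℓ)) hdet
        push_cast at this
        rw [this]; simp
      by_cases ha : ((X 0 0 : ℤ) : ZMod ℓ) = 0
      · have hc : ((X 1 0 : ℤ) : ZMod ℓ) ≠ 0 := fun hc => h ⟨ha, hc⟩
        refine ⟨X 1 1 / X 1 0, ?_, (mul_div_cancel₀ _ hc).symm⟩
        rw [ha, zero_mul] at hd0 ⊢
        rw [zero_sub, neg_eq_zero] at hd0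
        exact (mul_eq_zero.mp hd0).resolve_right hc
      · refine ⟨X 0 1 / X 0 0, (mul_div_cancel₀ _ ha).symm, ?_⟩
        rw [← mul_div_assoc, eq_div_iff ha]
        linear_combination hd0
    obtain ⟨j, hj1, hj2⟩ := hj
    have e : ((j.val : ℤ) : ZMod ℓ) = j := by simp
    obtain ⟨b, hb⟩ := (ZMod.intCast_zmod_eq_zero_iff_dvd (X 0 1 - X 0 0 * j.val) ℓ).mp (by
      push_cast at e ⊢; rw [e, hj1, sub_self])
    obtain ⟨d, hd⟩ := (ZMod.intCast_zmod_eq_zero_iff_dvd (X 1 1 - X 1 0 * j.val) ℓ).mp (by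
      push_cast at e ⊢; rw [e, hj2, sub_self])
    have hone : X 0 0 * d - b * X 1 0 = 1 := by
      apply mul_left_cancel₀ hℓ0
      linear_combination hdet - X 0 0 * hd + X 1 0 * hb
    refine ⟨some j, ⟨slMk (X 0 0) b (X 1 0) d hone, mem_gamma0_iff.mpr hX⟩, ?_⟩
    ext r s
    fin_cases r <;> fin_cases s <;> simp [tRepZ, Matrix.mul_apply, Fin.sum_univ_two, -ZMod.natCast_val] <;>
      first
        | linear_combination hb
        | linear_combination hd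

theorem det_tRepZ (ℓ : ℕ) (i : Option (ZMod ℓ)) : (tRepZ ℓ i).det = ℓ := by
  cases i <;> simp [tRepZ, Matrix.det_fin_two_of]

/-- Right multiplication by `Γ₀(N)` permutes the representatives. -/
theorem exists_transfer_tRepZ {N ℓ : ℕ} (hℓ : ℓ.Prime) (hℓN : ¬ ℓ ∣ N) (γ : Gamma0 N) :
    ∃ (σ : Option (ZMod ℓ) → Option (ZMod ℓ)) (δ : Option (ZMod ℓ) → Gamma0 N),
      IsTransferZ (tRepZ ℓ) (γ : SL(2, ℤ)) σ δ := by
  choose σ δ h using fun i => exists_eq_mul_tRepZ hℓ hℓN (tRepZ ℓ i * matSL (γ : SL(2, ℤ)))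
    (by rw [Matrix.det_mul, det_tRepZ, (γ : SL(2, ℤ)).det_coe, mul_one])
    (by
      rw [Matrix.mul_apply, Fin.sum_univ_two, tRepZ_apply_one_zero, zero_mul, zero_add]
      exact dvd_mul_of_dvd_right (mem_gamma0_iff.mp γ.2) _)
  exact ⟨σ, δ, h⟩

/-- `diag(ℓ, 1)`. -/
abbrev gUp (ℓ : ℕ) : Matrix (Fin 2) (Fin 2) ℤ := !![(ℓ : ℤ), 0; 0, 1]

/-- `diag(1, ℓ)`. -/
abbrev gDown (ℓ : ℕ) : Matrix (Fin 2) (Fin 2) ℤ := !![1, 0; 0, (ℓ : ℤ)]

/-- The elements of `Γ₀(N)` with upper right entry divisible by `ℓ`. -/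
def upper0 (N ℓ : ℕ) : Subgroup SL(2, ℤ) where
  carrier := {γ | γ ∈ Gamma0 N ∧ (ℓ : ℤ) ∣ matSL γ 0 1}
  one_mem' := ⟨one_mem _, by simp [matSL]⟩
  mul_mem' {γ δ} hγ hδ := ⟨mul_mem hγ.1 hδ.1, by
    rw [matSL_mul, Matrix.mul_apply, Fin.sum_univ_two]
    exact dvd_add (dvd_mul_of_dvd_right hδ.2 _) (dvd_mul_of_dvd_left hγ.2 _)⟩
  inv_mem' {γ} hγ := ⟨inv_mem hγ.1, by
    rw [matSL, Matrix.SpecialLinearGroup.coe_inv, Matrix.adjugate_fin_two]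
    simpa using hγ.2⟩

instance finiteIndex_upper0 (N ℓ : ℕ) [NeZero N] [NeZero ℓ] : (upper0 N ℓ).FiniteIndex := by
  refine Subgroup.finiteIndex_of_le (H := Gamma (N * ℓ)) fun γ hγ => ?_
  rw [Gamma_mem] at hγ
  have h1 := (ZMod.intCast_zmod_eq_zero_iff_dvd _ _).mp hγ.2.2.1
  have h2 := (ZMod.intCast_zmod_eq_zero_iff_dvd _ _).mp hγ.2.1
  push_cast at h1 h2
  exact ⟨mem_gamma0_iff.mpr ((dvd_mul_right _ _).trans h1), (dvd_mul_left _ _).trans h2⟩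

theorem upper0_le (N ℓ : ℕ) : upper0 N ℓ ≤ Gamma0 N := fun _ h => h.1

theorem neg_one_mem_upper0 (N ℓ : ℕ) : (-1 : SL(2, ℤ)) ∈ upper0 N ℓ :=
  ⟨neg_one_mem_gamma0 N, by simp [matSL]⟩

variable {N ℓ : ℕ}

theorem exists_gUp_eq {γ : SL(2, ℤ)} (hγ : γ ∈ Gamma0 (N * ℓ)) :
    ∃ δ ∈ upper0 N ℓ, gUp ℓ * matSL γ = matSL δ * gUp ℓ := by
  obtain ⟨c, hc⟩ := mem_gamma0_iff.mp hγ
  push_cast at hc
  have hd := det_matSL γ
  refine ⟨slMk (matSL γ 0 0) ((ℓ : ℤ) * matSL γ 0 1) (N * c) (matSL γ 1 1)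
    (by rw [hc] at hd; linear_combination hd), ⟨mem_gamma0_iff.mpr ⟨c, rfl⟩, ⟨_, rfl⟩⟩, ?_⟩
  ext r s
  fin_cases r <;> fin_cases s <;> simp [Matrix.mul_apply, Fin.sum_univ_two, hc] <;> ring

theorem exists_gDown_eq {γ : SL(2, ℤ)} (hγ : γ ∈ upper0 N ℓ) :
    ∃ δ ∈ Gamma0 (N * ℓ), gDown ℓ * matSL γ = matSL δ * gDown ℓ := by
  obtain ⟨b, hb⟩ := hγ.2
  have hd := det_matSL γ
  refine ⟨slMk (matSL γ 0 0) b ((ℓ : ℤ) * matSL γ 1 0) (matSL γ 1 1)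
    (by rw [hb] at hd; linear_combination hd), mem_gamma0_iff.mpr ?_, ?_⟩
  · push_cast
    rw [mul_comm (N : ℤ)]
    exact mul_dvd_mul_left _ (mem_gamma0_iff.mp hγ.1)
  · ext r s
    fin_cases r <;> fin_cases s <;> simp [Matrix.mul_apply, Fin.sum_univ_two, hb] <;> ring

variable [NeZero ℓ]

theorem det_gUp_pos : 0 < (gUp ℓ).det := by
  simp [gUp, Matrix.det_fin_two_of, Nat.pos_of_neZero ℓ]

theorem det_gDown_pos : 0 < (gDown ℓ).det := by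
  simp [gDown, Matrix.det_fin_two_of, Nat.pos_of_neZero ℓ]

theorem conjLE_gUp (N ℓ : ℕ) [NeZero ℓ] : ConjLE (gUp ℓ) (Gamma0 (N * ℓ)) (upper0 N ℓ) :=
  ⟨det_gUp_pos, fun _ h => exists_gUp_eq h⟩

theorem conjLE_gUp' (N ℓ : ℕ) [NeZero ℓ] : ConjLE (gUp ℓ) (Gamma0 (N * ℓ)) (Gamma0 N) :=
  ⟨det_gUp_pos, fun γ h => by
    obtain ⟨δ, hδ, e⟩ := exists_gUp_eq h
    exact ⟨δ, hδ.1, e⟩⟩

theorem conjLE_gDown (N ℓ : ℕ) [NeZero ℓ] : ConjLE (gDown ℓ) (upper0 N ℓ) (Gamma0 (N * ℓ)) :=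
  ⟨det_gDown_pos, fun _ h => exists_gDown_eq h⟩

theorem conjLE_gDown' (N ℓ : ℕ) [NeZero ℓ] : ConjLE (gDown ℓ) (upper0 N ℓ) (Gamma0 N) :=
  ⟨det_gDown_pos, fun γ h => by
    obtain ⟨δ, hδ, e⟩ := exists_gDown_eq h
    exact ⟨δ, gamma0_mul_le N ℓ hδ, e⟩⟩

theorem hom_gUp_gDown (γ : upper0 N ℓ) :
    (conjLE_gUp N ℓ).hom ((conjLE_gDown N ℓ).hom γ) = γ := by
  refine (conjLE_gUp N ℓ).hom_eq ?_
  have hud : gUp ℓ * gDown ℓ = (ℓ : ℤ) • 1 := by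
    ext r s
    fin_cases r <;> fin_cases s <;> simp [Matrix.mul_apply, Fin.sum_univ_two]
  refine mul_right_cancel_of_det_pos (det_gDown_pos (ℓ := ℓ)) ?_
  rw [Matrix.mul_assoc, ← (conjLE_gDown N ℓ).spec, ← Matrix.mul_assoc, hud, Matrix.mul_assoc, hud,
    smul_mul_assoc, Matrix.one_mul, Matrix.mul_smul, Matrix.mul_one]

variable {A : Type*} [AddCommGroup A] [NeZero N]

/-- The operator `T ℓ` on homomorphisms. -/
def heckeOp (N ℓ : ℕ) [NeZero N] [NeZero ℓ] (φ : Additive (Gamma0 N) →+ A) :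
    Additive (Gamma0 N) →+ A :=
  cores (gamma0_mul_le N ℓ) (conjPull (conjLE_gUp' N ℓ) φ)

theorem heckeOp_mem_parHom {φ : Additive (Gamma0 N) →+ A} (hφ : φ ∈ parHom (Gamma0 N) A) :
    heckeOp N ℓ φ ∈ parHom (Gamma0 N) A :=
  cores_mem_parHom _ (conjPull_mem_parHom _ hφ)

theorem exists_bezout {N ℓ : ℕ} (hℓ : ℓ.Prime) (hℓN : ¬ ℓ ∣ N) :
    ∃ u v : ℤ, (ℓ : ℤ) * u - (N : ℤ) * v = 1 := by
  obtain ⟨u, v, h⟩ := (Nat.isCoprime_iff_coprime).mpr ((hℓ.coprime_iff_not_dvd).mpr hℓN)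
  exact ⟨u, -v, by linear_combination h⟩

/-- The transfer formula for `T ℓ`. -/
theorem heckeOp_apply (hℓ : ℓ.Prime) (hℓN : ¬ ℓ ∣ N) (φ : Additive (Gamma0 N) →+ A) (γ : Gamma0 N)
    {σ : Option (ZMod ℓ) → Option (ZMod ℓ)} {δ : Option (ZMod ℓ) → Gamma0 N}
    (h : IsTransferZ (tRepZ ℓ) (γ : SL(2, ℤ)) σ δ) :
    heckeOp N ℓ φ (Additive.ofMul γ) = ∑ i, φ (Additive.ofMul (δ i)) := by
  obtain ⟨u, v, huv⟩ := exists_bezout hℓ hℓN
  let r : Option (ZMod ℓ) → Gamma0 N := fun i => match i with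
    | none => 1
    | some j => ⟨slMk 1 (-v + (j.val : ℤ)) (-N) ((ℓ : ℤ) * u - N * (j.val : ℤ))
        (by linear_combination huv), mem_gamma0_iff.mpr (by simp)⟩
  let ε : Option (ZMod ℓ) → Gamma0 N := fun i => match i with
    | none => 1
    | some j => ⟨slMk (ℓ : ℤ) (-v) (-N) u (by linear_combination huv),
        mem_gamma0_iff.mpr (by simp)⟩
  have hr : ∀ i, gUp ℓ * matSL (r i : SL(2, ℤ)) = matSL (ε i : SL(2, ℤ)) * tRepZ ℓ i := by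
    intro i
    rcases i with _ | j
    · simp [r, ε, tRepZ, matSL]
    · ext a b
      fin_cases a <;> fin_cases b <;> simp [r, ε, tRepZ, Matrix.mul_apply, Fin.sum_univ_two] <;> ring
  refine cores_conjPull_eq_sum (gamma0_mul_le N ℓ) _ (distinctFam_tRepZ ℓ hℓ.one_lt) r ε hr
    (fun γ => ?_) φ γ σ δ h
  obtain ⟨i, ε', hi⟩ := exists_eq_mul_tRepZ hℓ hℓN (gUp ℓ * matSL (γ : SL(2, ℤ)))
    (by rw [Matrix.det_mul, (γ : SL(2, ℤ)).det_coe, mul_one]; simp [gUp, Matrix.det_fin_two_of])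
    (by simpa [Matrix.mul_apply, Fin.sum_univ_two] using mem_gamma0_iff.mp γ.2)
  refine ⟨i, mem_gamma0_iff.mpr ?_⟩
  obtain ⟨D, hD⟩ : ∃ D : SL(2, ℤ), gUp ℓ * matSL ((γ : SL(2, ℤ)) * (r i : SL(2, ℤ))⁻¹)
      = matSL D * gUp ℓ := by
    refine ⟨(ε' : SL(2, ℤ)) * (ε i : SL(2, ℤ))⁻¹, ?_⟩
    rw [matSL_mul, ← Matrix.mul_assoc, hi, matSL_mul, Matrix.mul_assoc, Matrix.mul_assoc]
    congr 1
    rw [show tRepZ ℓ i = matSL (ε i : SL(2, ℤ))⁻¹ * (gUp ℓ * matSL (r i : SL(2, ℤ))) by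
      rw [hr, matSL_inv_mul_cancel], Matrix.mul_assoc, matSL_mul_inv_cancel]
  obtain ⟨Y, hY⟩ : ∃ Y, Y = matSL ((γ : SL(2, ℤ)) * (r i : SL(2, ℤ))⁻¹) := ⟨_, rfl⟩
  rw [← hY] at hD
  have h10 := congrArg (fun M => M 1 0) hD
  simp [Matrix.mul_apply, Fin.sum_univ_two] at h10
  push_cast
  refine IsCoprime.mul_dvd ((Nat.isCoprime_iff_coprime).mpr ((hℓ.coprime_iff_not_dvd).mpr hℓN).symm) ?_ ?_
  · exact mem_gamma0_iff.mp ((Gamma0 N).mul_mem γ.2 ((Gamma0 N).inv_mem (r i).2))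
  · rw [← hY, h10]; exact dvd_mul_left _ _

/-- The same operator from the opposite diagonal matrix. -/
theorem heckeOp_eq_cores_gDown (hℓ : ℓ.Prime) (hℓN : ¬ ℓ ∣ N) (φ : Additive (Gamma0 N) →+ A) :
    heckeOp N ℓ φ = cores (upper0_le N ℓ) (conjPull (conjLE_gDown' N ℓ) φ) := by
  refine AddMonoidHom.ext fun γ => ?_
  obtain ⟨γ, rfl⟩ := Additive.ofMul.surjective γ
  obtain ⟨σ, δ, h⟩ := exists_transfer_tRepZ hℓ hℓN γ
  rw [heckeOp_apply hℓ hℓN φ γ h]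
  obtain ⟨u, v, huv⟩ := exists_bezout hℓ hℓN
  let r : Option (ZMod ℓ) → Gamma0 N := fun i => match i with
    | none => ⟨slMk ((ℓ : ℤ) * u) v N 1 (by linear_combination huv),
        mem_gamma0_iff.mpr (by simp)⟩
    | some j => ⟨slMk 1 (j.val : ℤ) 0 1 (by ring), mem_gamma0_iff.mpr (by simp)⟩
  let ε : Option (ZMod ℓ) → Gamma0 N := fun i => match i with
    | none => ⟨slMk u v N (ℓ : ℤ) (by linear_combination huv), mem_gamma0_iff.mpr (by simp)⟩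
    | some j => 1
  have hr : ∀ i, gDown ℓ * matSL (r i : SL(2, ℤ)) = matSL (ε i : SL(2, ℤ)) * tRepZ ℓ i := by
    intro i
    rcases i with _ | j
    · ext a b
      fin_cases a <;> fin_cases b <;> simp [r, ε, tRepZ, Matrix.mul_apply, Fin.sum_univ_two] <;> ring
    · ext a b
      fin_cases a <;> fin_cases b <;> simp [r, ε, tRepZ, matSL, slMk, Matrix.mul_apply, Fin.sum_univ_two]
  refine (cores_conjPull_eq_sum (upper0_le N ℓ) _ (distinctFam_tRepZ ℓ hℓ.one_lt) r ε hr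
    (fun γ => ?_) φ γ σ δ h).symm
  obtain ⟨i, ε', hi⟩ := exists_eq_mul_tRepZ hℓ hℓN (gDown ℓ * matSL (γ : SL(2, ℤ)))
    (by rw [Matrix.det_mul, (γ : SL(2, ℤ)).det_coe, mul_one]; simp [gDown, Matrix.det_fin_two_of])
    (by
      simp [Matrix.mul_apply, Fin.sum_univ_two]
      exact dvd_mul_of_dvd_right (mem_gamma0_iff.mp γ.2) _)
  refine ⟨i, (Gamma0 N).mul_mem γ.2 ((Gamma0 N).inv_mem (r i).2), ?_⟩
  obtain ⟨D, hD⟩ : ∃ D : SL(2, ℤ), gDown ℓ * matSL ((γ : SL(2, ℤ)) * (r i : SL(2, ℤ))⁻¹)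
      = matSL D * gDown ℓ := by
    refine ⟨(ε' : SL(2, ℤ)) * (ε i : SL(2, ℤ))⁻¹, ?_⟩
    rw [matSL_mul, ← Matrix.mul_assoc, hi, matSL_mul, Matrix.mul_assoc, Matrix.mul_assoc]
    congr 1
    rw [show tRepZ ℓ i = matSL (ε i : SL(2, ℤ))⁻¹ * (gDown ℓ * matSL (r i : SL(2, ℤ))) by
      rw [hr, matSL_inv_mul_cancel], Matrix.mul_assoc, matSL_mul_inv_cancel]
  obtain ⟨Y, hY⟩ : ∃ Y, Y = matSL ((γ : SL(2, ℤ)) * (r i : SL(2, ℤ))⁻¹) := ⟨_, rfl⟩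
  rw [← hY] at hD
  have h01 := congrArg (fun M => M 0 1) hD
  simp [Matrix.mul_apply, Fin.sum_univ_two] at h01
  rw [← hY, h01]; exact dvd_mul_left _ _

/-- `T ℓ` is self-adjoint. -/
theorem pairing_heckeOp {k : Type*} [Field k] (h2 : (2 : k) ≠ 0) (hℓ : ℓ.Prime) (hℓN : ¬ ℓ ∣ N)
    {φ ψ : Additive (Gamma0 N) →+ k} (hφ : φ ∈ parHom (Gamma0 N) k) (hψ : ψ ∈ parHom (Gamma0 N) k) :
    pairing (heckeOp N ℓ φ) ψ = pairing φ (heckeOp N ℓ ψ) := by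
  have hne := neg_one_mem_gamma0
  have hψ' := resHom_mem_parHom (gamma0_mul_le N ℓ) hψ
  have hψ0 : resHom (gamma0_mul_le N ℓ) ψ
      = conjPull (conjLE_gUp N ℓ) (conjPull (conjLE_gDown N ℓ) (resHom (gamma0_mul_le N ℓ) ψ)) := by
    refine AddMonoidHom.ext fun γ => ?_
    obtain ⟨γ, rfl⟩ := Additive.ofMul.surjective γ
    simp only [conjPull_apply]
    have e := hom_gUp_gDown ((conjLE_gUp N ℓ).hom γ)
    rw [(conjLE_gUp N ℓ).hom_injective e]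
  have hφ0 : conjPull (conjLE_gUp' N ℓ) φ = conjPull (conjLE_gUp N ℓ) (resHom (upper0_le N ℓ) φ) := by
    refine AddMonoidHom.ext fun γ => ?_
    obtain ⟨γ, rfl⟩ := Additive.ofMul.surjective γ
    simp only [conjPull_apply, resHom_apply]
    congr 2
    exact (conjLE_gUp' N ℓ).hom_eq ((conjLE_gUp N ℓ).spec γ)
  have hψ2 : conjPull (conjLE_gDown N ℓ) (resHom (gamma0_mul_le N ℓ) ψ)
      = conjPull (conjLE_gDown' N ℓ) ψ := by
    refine AddMonoidHom.ext fun γ => ?_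
    obtain ⟨γ, rfl⟩ := Additive.ofMul.surjective γ
    simp only [conjPull_apply, resHom_apply]
    congr 2
    exact ((conjLE_gDown' N ℓ).hom_eq ((conjLE_gDown N ℓ).spec γ)).symm
  rw [heckeOp, ← pairing_res_right (hne N) h2 (gamma0_mul_le N ℓ) (hne _) hψ
      (conjPull_mem_parHom _ hφ), hψ0, hφ0,
    pairing_conjPull (conjLE_gUp N ℓ) (fun δ => ⟨_, hom_gUp_gDown δ⟩) (hne _)
      (neg_one_mem_upper0 N ℓ) h2 (resHom_mem_parHom _ hφ) (conjPull_mem_parHom _ hψ'),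
    hψ2, pairing_res_left (hne N) h2 (upper0_le N ℓ) (neg_one_mem_upper0 N ℓ) hφ
      (conjPull_mem_parHom _ hψ), ← heckeOp_eq_cores_gDown hℓ hℓN]

/-- `T ℓ` commutes with change of coefficients. -/
theorem map_heckeOp {B : Type*} [AddCommGroup B] (f : A →+ B) (φ : Additive (Gamma0 N) →+ A) :
    heckeOp N ℓ (f.comp φ) = f.comp (heckeOp N ℓ φ) := by
  classical
  refine AddMonoidHom.ext fun γ => ?_
  obtain ⟨γ, rfl⟩ := Additive.ofMul.surjective γ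
  let := Fintype.ofFinite (Cos (Gamma0 (N * ℓ)))
  simp only [heckeOp, cores_apply, AddMonoidHom.comp_apply, map_sum]
  rfl

end FLTAgent.LevelRaise
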