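import Fermat.Agent.LevelDrop.Residual
import Fermat.Agent.GalRep.Dense
import Fermat.Agent.Reduction.VariableChange

/-!
# An odd irreducible `E[p]` is not everywhere special

If `a_ℓ ^ 2 ≡ (ℓ + 1) ^ 2` for almost all `ℓ`, then in an eigenbasis of complex conjugation every
element of the image of `E[p]` is triangular, so there is a stable line.
-/

set_option autoImplicit false

open scoped WeierstrassCurve.Affine
open WeierstrassCurve Polynomial

namespace FLTAgent.LevelRaise

section Linear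

variable {k : Type*} [Field k] {G : Type*} [Monoid G] {V : Type*} [AddCommGroup V] [Module k V]

/-- A group of matrices, each upper or lower triangular, has a common zero off the diagonal. -/
theorem forall_eq_zero_or_forall_eq_zero (M : G →* Matrix (Fin 2) (Fin 2) k)
    (hdet : ∀ g, (M g).det ≠ 0) (h : ∀ g, M g 0 1 * M g 1 0 = 0) :
    (∀ g, M g 0 1 = 0) ∨ (∀ g, M g 1 0 = 0) := by
  by_contra! hcon
  obtain ⟨⟨g, hg⟩, ⟨g', hg'⟩⟩ := hcon
  have h1 : M g 1 0 = 0 := (mul_eq_zero.mp (h g)).resolve_left hg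
  have h2 : M g' 0 1 = 0 := (mul_eq_zero.mp (h g')).resolve_right hg'
  have d1 : M g 0 0 * M g 1 1 ≠ 0 := by
    have := hdet g
    rw [Matrix.det_fin_two, h1, mul_zero, sub_zero] at this
    exact this
  have d2 : M g' 0 0 * M g' 1 1 ≠ 0 := by
    have := hdet g'
    rw [Matrix.det_fin_two, h2, zero_mul, sub_zero] at this
    exact this
  have := h (g * g')
  rw [map_mul, Matrix.mul_apply, Matrix.mul_apply, Fin.sum_univ_two, Fin.sum_univ_two, h1, h2,
    mul_zero, zero_add, zero_mul, zero_add] at this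
  exact mul_ne_zero (mul_ne_zero hg (right_ne_zero_of_mul d2))
    (mul_ne_zero (right_ne_zero_of_mul d1) hg') this

/-- If every element satisfies `tr ^ 2 = (1 + det) ^ 2` and there is an involution of determinant
`-1`, then there is a stable line. -/
theorem exists_stable_line_of_special (h2 : (2 : k) ≠ 0) (hV : Module.finrank k V = 2)
    (ρ : G →* Module.End k V) (hρ : ∀ g, LinearMap.det (ρ g) ≠ 0)
    (hsp : ∀ g, LinearMap.trace k V (ρ g) ^ 2 = (1 + LinearMap.det (ρ g)) ^ 2)
    (c : G) (hc : c * c = 1) (hcdet : LinearMap.det (ρ c) = -1) :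
    ∃ U : Submodule k V, U ≠ ⊥ ∧ U ≠ ⊤ ∧ ∀ g, ∀ x ∈ U, ρ g x ∈ U := by
  have : Module.Finite k V := Module.finite_of_finrank_eq_succ hV
  set f := ρ c with hf
  have hff : ∀ x, f (f x) = x := fun x ↦ by
    rw [hf, ← Module.End.mul_apply, ← map_mul, hc, map_one, Module.End.one_apply]
  have hev : ∀ s : k, s * s = 1 → ∃ u : V, u ≠ 0 ∧ f u = s • u := by
    intro s hs
    obtain ⟨x, hx⟩ : ∃ x, f x + s • x ≠ 0 := by
      by_contra! hall
      have : f = (-s) • (1 : Module.End k V) := LinearMap.ext fun x ↦ by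
        simpa [neg_smul] using eq_neg_of_add_eq_zero_left (hall x)
      rw [this, LinearMap.det_smul, hV, map_one, mul_one, neg_sq, sq, hs] at hcdet
      exact h2 (by linear_combination hcdet)
    refine ⟨f x + s • x, hx, ?_⟩
    rw [map_add, map_smul, hff, smul_add, smul_smul, hs, one_smul]
    abel
  obtain ⟨u, hu0, hu⟩ := hev 1 (mul_one 1)
  obtain ⟨w, hw0, hw⟩ := hev (-1) (by ring)
  have hli : LinearIndependent k ![u, w] := by
    rw [LinearIndependent.pair_iff]
    intro s t hst
    have h1 := congrArg f hst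
    rw [map_add, map_smul, map_smul, hu, hw, map_zero, one_smul, neg_one_smul, smul_neg,
      ← sub_eq_add_neg] at h1
    have hs : ((2 : k) * s) • u = 0 := by
      rw [mul_smul, two_smul]
      calc s • u + s • u = (s • u + t • w) + (s • u - t • w) := by abel
        _ = 0 := by rw [hst, h1, add_zero]
    have hs0 : s = 0 := by simpa [hu0, h2] using hs
    subst hs0
    simpa [hw0] using hst
  let b : Module.Basis (Fin 2) k V :=
    basisOfLinearIndependentOfCardEqFinrank hli (by rw [hV, Fintype.card_fin])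
  have hb0 : b 0 = u := by simp [b]
  have hb1 : b 1 = w := by simp [b]
  let M : G →* Matrix (Fin 2) (Fin 2) k :=
    (LinearMap.toMatrixAlgEquiv b).toAlgHom.toRingHom.toMonoidHom.comp ρ
  have hM : ∀ g, M g = LinearMap.toMatrix b b (ρ g) := fun g => rfl
  have hMdet : ∀ g, (M g).det = LinearMap.det (ρ g) := fun g => by
    rw [hM, LinearMap.det_toMatrix]
  have hMtr : ∀ g, (M g).trace = LinearMap.trace k V (ρ g) := fun g => by
    rw [hM, LinearMap.trace_eq_matrix_trace k b]
  have hcM : M c = !![1, 0; 0, -1] := by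
    rw [hM, ← hf]
    ext i j
    rw [LinearMap.toMatrix_apply]
    fin_cases j
    · simp only [Fin.zero_eta, hb0, hu, one_smul]
      rw [← hb0, Module.Basis.repr_self]
      fin_cases i <;> simp
    · simp only [Fin.mk_one, hb1, hw]
      rw [← hb1, map_smul, Module.Basis.repr_self]
      fin_cases i <;> simp
  have hzero : ∀ g, M g 0 1 * M g 1 0 = 0 := by
    intro g
    have e1 : (M g).trace ^ 2 = (1 + (M g).det) ^ 2 := by rw [hMtr, hMdet]; exact hsp g
    have e2 : (M (g * c)).trace ^ 2 = (1 + (M (g * c)).det) ^ 2 := by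
      rw [hMtr, hMdet]; exact hsp _
    rw [map_mul, Matrix.det_mul, hcM, Matrix.det_fin_two_of, Matrix.trace_fin_two,
      Matrix.det_fin_two] at e2
    rw [Matrix.trace_fin_two, Matrix.det_fin_two] at e1
    simp [Matrix.mul_apply, Fin.sum_univ_two] at e2
    apply mul_left_cancel₀ (a := (2 : k) * 2) (mul_ne_zero h2 h2)
    linear_combination e1 - e2
  have hline : ∀ i j : Fin 2, i ≠ j → (∀ g, M g j i = 0) →
      ∃ U : Submodule k V, U ≠ ⊥ ∧ U ≠ ⊤ ∧ ∀ g, ∀ x ∈ U, ρ g x ∈ U := by
    intro i j hij hz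
    refine ⟨k ∙ b i, fun h => b.ne_zero i (Submodule.span_singleton_eq_bot.mp h), fun h => ?_,
      fun g x hx => ?_⟩
    · have := finrank_span_singleton (K := k) (b.ne_zero i)
      rw [h, finrank_top, hV] at this
      omega
    · obtain ⟨t, rfl⟩ := Submodule.mem_span_singleton.mp hx
      rw [map_smul]
      refine Submodule.smul_mem _ _ (Submodule.mem_span_singleton.mpr ⟨M g i i, ?_⟩)
      rw [← b.sum_repr (ρ g (b i)), Fin.sum_univ_two]
      simp only [← LinearMap.toMatrix_apply, ← hM]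
      fin_cases i <;> fin_cases j <;> simp_all
  rcases forall_eq_zero_or_forall_eq_zero M (fun g => by rw [hMdet]; exact hρ g) hzero with h | h
  · exact hline 1 0 (by decide) h
  · exact hline 0 1 (by decide) h

end Linear

local notation "Qbar" => AlgebraicClosure ℚ
local notation "Γℚ" => AlgebraicClosure ℚ ≃ₐ[ℚ] AlgebraicClosure ℚ

/-- Transport of points along an equality of curves. -/
def castPoint {L : Type*} [Field L] [DecidableEq L] {C C' : WeierstrassCurve L} (h : C = C') :
    C.toAffine.Point ≃+ C'.toAffine.Point := h ▸ AddEquiv.refl _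

theorem castPoint_some {L : Type*} [Field L] [DecidableEq L] {C C' : WeierstrassCurve L}
    (h : C = C') {x y : L} (hn : C.toAffine.Nonsingular x y) :
    castPoint h (.some x y hn) = .some x y (h ▸ hn) := by
  subst h; rfl

theorem galoisRepIsIrreducible_of_smul (C : VariableChange ℚ) (W₁ W₂ : Affine ℚ) (hC : C • W₁ = W₂)
    {n : ℕ} (h : Affine.Point.GaloisRepIsIrreducible (K := Qbar) ℚ W₁ n) :
    Affine.Point.GaloisRepIsIrreducible (K := Qbar) ℚ W₂ n := by
  have hh : C.map (algebraMap ℚ Qbar) • (W₁⁄Qbar) = (W₂⁄Qbar) := by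
    subst hC; exact map_variableChange _ _ _
  let e : Affine.Point (W₁⁄Qbar) ≃+ Affine.Point (W₂⁄Qbar) :=
    (FLTAgent.Reduction.vcEquiv (C.map (algebraMap ℚ Qbar)) (W₁⁄Qbar)).trans (castPoint hh)
  have he : ∀ (σ : Γℚ) (P : Affine.Point (W₁⁄Qbar)), e (σ • P) = σ • e P := by
    intro σ P
    rcases P with _ | ⟨x, y, hn⟩
    · change e (σ • (0 : Affine.Point (W₁⁄Qbar))) = σ • e (0 : Affine.Point (W₁⁄Qbar))
      exact (congrArg e (smul_zero σ)).trans ((map_zero e).trans
        ((congrArg (σ • ·) (map_zero e)).trans (smul_zero (A := (W₂⁄Qbar).Point) σ)).symm)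
    · rw [Affine.Point.algEquiv_smul_def, Affine.Point.map_some]
      simp only [e, AddEquiv.trans_apply, FLTAgent.Reduction.vcEquiv_some, castPoint_some]
      rw [Affine.Point.algEquiv_smul_def, Affine.Point.map_some, Affine.Point.some.injEq]
      constructor <;>
        simp [FLTAgent.Reduction.vcX, FLTAgent.Reduction.vcY, VariableChange.map]
  let T₁ := Submodule.torsionBy ℤ (W₁⁄Qbar).Point (n : ℤ)
  let T₂ := Submodule.torsionBy ℤ (W₂⁄Qbar).Point (n : ℤ)
  have h1 : ∀ x : T₁, e x ∈ T₂ := fun x => by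
    have := (Submodule.mem_torsionBy_iff _ _).mp x.2
    rw [Submodule.mem_torsionBy_iff, ← map_zsmul, this, map_zero]
  have h2 : ∀ x : T₂, e.symm x ∈ T₁ := fun x => by
    have := (Submodule.mem_torsionBy_iff _ _).mp x.2
    rw [Submodule.mem_torsionBy_iff, ← map_zsmul, this, map_zero]
  let et : T₁ ≃+ T₂ :=
    { toFun := fun x => ⟨e x, h1 x⟩
      invFun := fun x => ⟨e.symm x, h2 x⟩
      left_inv := fun x => Subtype.ext (e.symm_apply_apply _)
      right_inv := fun x => Subtype.ext (e.apply_symm_apply _)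
      map_add' := fun x y => Subtype.ext (map_add e _ _) }
  let L : T₁ →ₗ[ZMod n] T₂ := AddMonoidHom.toZModLinearMap n et.toAddMonoidHom
  refine ⟨@Equiv.nontrivial _ _ et.symm.toEquiv h.1, fun N hN => ?_⟩
  have hst : Affine.Point.IsGaloisStable (K := Qbar) ℚ (N.comap L) := fun σ x hx => by
    have := hN σ _ (Submodule.mem_comap.mp hx)
    rw [Submodule.mem_comap]
    convert this using 1
    exact Subtype.ext (he σ _)
  rcases h.2 _ hst with h0 | h0
  · left
    refine eq_bot_iff.mpr fun y hy => ?_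
    have : et.symm y ∈ N.comap L := by
      rw [Submodule.mem_comap]
      change et (et.symm y) ∈ N
      rwa [et.apply_symm_apply]
    rw [h0, Submodule.mem_bot] at this
    rw [Submodule.mem_bot]
    exact et.symm.injective (this.trans (map_zero et.symm).symm)
  · right
    refine eq_top_iff.mpr fun y _ => ?_
    have : et.symm y ∈ N.comap L := h0 ▸ Submodule.mem_top
    rw [Submodule.mem_comap] at this
    change et (et.symm y) ∈ N at this
    rwa [et.apply_symm_apply] at this

/-- Irreducibility of `E[p]` does not depend on the model. -/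
theorem modRepIsIrreducible_of_isIntegralModelOf (E : WeierstrassCurve ℚ) {W : WeierstrassCurve ℤ}
    (hW : W.IsIntegralModelOf E) {n : ℕ}
    (h : Affine.Point.GaloisRepIsIrreducible (K := Qbar) ℚ E n) : W.ModRepIsIrreducible n := by
  obtain ⟨C, hC⟩ := hW
  exact galoisRepIsIrreducible_of_smul C E _ hC h

theorem Δ_ne_zero_of_isIntegralModelOf (E : WeierstrassCurve ℚ) [E.IsElliptic]
    {W : WeierstrassCurve ℤ} (hW : W.IsIntegralModelOf E) : W.Δ ≠ 0 := by
  obtain ⟨C, hC⟩ := hW
  intro h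
  have h1 : (C • E).Δ = 0 := by rw [hC, WeierstrassCurve.map_Δ, h, map_zero]
  exact (C • E).isUnit_Δ.ne_zero h1

/-- If `E[p]` is irreducible and `p ≠ 2` then infinitely many good primes have
`a_ℓ ^ 2 ≢ (ℓ + 1) ^ 2` modulo `p`. -/
theorem exists_prime_sq_ne {W : WeierstrassCurve ℤ} (hΔ : W.Δ ≠ 0) (p : ℕ) [hp : Fact p.Prime]
    (hp2 : p ≠ 2) (hirr : W.ModRepIsIrreducible p) (S : Finset ℕ) :
    ∃ ℓ : ℕ, ℓ.Prime ∧ ℓ ∉ S ∧ W.IsGoodPrimeFor ℓ ∧ ℓ ≠ p ∧
      (W.apOfModel ℓ : ZMod p) ^ 2 ≠ ((ℓ : ZMod p) + 1) ^ 2 := by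
  classical
  by_contra! hcon
  set r := FLTAgent.LevelDrop.torsRep hΔ p with hr
  have h2 : (2 : ZMod p) ≠ 0 := by
    intro h
    have h2 : ((2 : ℕ) : ZMod p) = 0 := by exact_mod_cast h
    rw [ZMod.natCast_eq_zero_iff] at h2
    exact hp2 ((Nat.prime_dvd_prime_iff_eq hp.out Nat.prime_two).mp h2)
  have : Module.Finite (ZMod p) r.V := Module.finite_of_finrank_eq_succ r.finrank_eq
  have key : ∀ g : Γℚ, LinearMap.trace (ZMod p) r.V (r.ρ g) ^ 2 =
      (1 + LinearMap.det (r.ρ g)) ^ 2 := by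
    intro g
    obtain ⟨L, hL, hfix⟩ := r.factorsThroughFiniteLevel
    obtain ⟨ℓ, hℓ, hℓS, A, hA, σ, hσ, hag⟩ :=
      FLTAgent.GalRep.frobeniusDense L hL g (S ∪ W.Δ.natAbs.primeFactors ∪ {p})
    simp only [Finset.mem_union, Finset.mem_singleton, not_or] at hℓS
    have hgood : W.IsGoodPrimeFor ℓ := fun hd => hℓS.1.2 (Nat.mem_primeFactors.mpr
      ⟨hℓ, Int.natCast_dvd.mp hd, Int.natAbs_ne_zero.mpr hΔ⟩)
    have hgσ : r.ρ g = r.ρ σ := by
      rw [show σ = g * (g⁻¹ * σ) by group, map_mul,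
        hfix _ (FLTAgent.GalRep.fixing_of_agree hag).1, mul_one]
    have hcp : LinearMap.charpoly (r.ρ σ) =
        X ^ 2 - C (W.apOfModel ℓ : ZMod p) * X + C (ℓ : ZMod p) :=
      FLTAgent.LevelDrop.charpoly_torsRep_frobenius hΔ p hℓ hgood hℓS.2 A hA σ hσ
    have e := hcon ℓ hℓ hℓS.1.1 hgood hℓS.2
    have hd : (X ^ 2 - C (W.apOfModel ℓ : ZMod p) * X + C (ℓ : ZMod p)).natDegree = 2 := by
      compute_degree!
    have htr : LinearMap.trace (ZMod p) r.V (r.ρ σ) = -(LinearMap.charpoly (r.ρ σ)).nextCoeff := by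
      rw [LinearMap.trace_eq_matrix_trace (ZMod p) (Module.finBasis (ZMod p) r.V),
        Matrix.trace_eq_neg_charpoly_nextCoeff, LinearMap.charpoly_toMatrix]
    rw [hgσ, htr, LinearMap.det_eq_sign_charpoly_coeff,
      r.finrank_eq, hcp, Polynomial.nextCoeff_of_natDegree_pos (by omega), hd]
    simp only [show 2 - 1 = 1 from rfl, coeff_add, coeff_sub, coeff_X_pow, coeff_C_mul, coeff_X,
      coeff_C]
    norm_num
    linear_combination e
  obtain ⟨U, hU0, hU1, hU⟩ := exists_stable_line_of_special h2 r.finrank_eq r.ρ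
    (fun g => (Units.map (LinearMap.det (A := ZMod p) (M := r.V))
      (MonoidHom.toHomUnits r.ρ g)).ne_zero) key complexConjugation complexConjugation_mul_self
    (FLTAgent.LevelDrop.det_torsRep_involution hΔ p hp2 complexConjugation_mul_self
      FLTAgent.GalRep.complexConjugation_ne_one)
  rcases FLTAgent.LevelDrop.isIrreducible_torsRep hΔ p hirr U (fun σ x hx => hU σ x hx) with h | h
  exacts [hU0 h, hU1 h]

end FLTAgent.LevelRaise
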