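import Fermat.Agent.LevelRaise.TauInvariance

/-!
# Ihara's lemma for the degeneracy map

A parabolic homomorphism in the kernel of the degeneracy map is killed by `T ℓ ^ 2 - (ℓ + 1) ^ 2`
for almost all primes `ℓ`.
-/

set_option autoImplicit false

noncomputable section

namespace FLTAgent.LevelRaise

open scoped MatrixGroups
open CongruenceSubgroup

/-- `γ` is congruent to `1` modulo `L`, with lower left entry divisible by `N L`. -/
def DeepZ (N L : ℕ) (γ : SL(2, ℤ)) : Prop :=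
  ∃ H : Matrix (Fin 2) (Fin 2) ℤ, (N : ℤ) ∣ H 1 0 ∧ matSL γ = 1 + (L : ℤ) • H

theorem DeepZ.mem_gamma0 {N L : ℕ} {γ : SL(2, ℤ)} (h : DeepZ N L γ) : γ ∈ Gamma0 N := by
  obtain ⟨H, hH, e⟩ := h
  refine mem_gamma0_iff.mpr ?_
  rw [e, Matrix.add_apply, Matrix.smul_apply, Matrix.one_apply_ne (by decide), zero_add, smul_eq_mul]
  exact dvd_mul_of_dvd_right hH _

theorem DeepZ.toQ_mem {N q L : ℕ} {γ : SL(2, ℤ)} (h : DeepZ N L γ) : toQ γ ∈ deepR N q L := by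
  obtain ⟨H, ⟨c, hc⟩, e⟩ := h
  refine mem_deepR.mpr ⟨(toQ_mem_gamR (N := 1) (q := q) (mem_gamma0_iff.mpr (by simp))).1, ?_, ?_, ?_, ?_⟩ <;>
    simp only [toQ_apply, e, Matrix.add_apply, Matrix.smul_apply, smul_eq_mul]
  · exact ⟨0, H 0 0, by simp⟩
  · exact ⟨0, H 0 1, by simp⟩
  · exact ⟨0, c, by simp [hc]; ring⟩
  · exact ⟨0, H 1 1, by simp⟩

theorem DeepZ.of_mul {N L m : ℕ} {γ : SL(2, ℤ)} (h : DeepZ N (L * m) γ) : DeepZ N L γ := by
  obtain ⟨H, hH, e⟩ := h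
  exact ⟨(m : ℤ) • H, by simpa using dvd_mul_of_dvd_right hH (m : ℤ),
    by rw [e, smul_smul]; push_cast; rfl⟩

/-- Conjugation by an upper triangular integral matrix, at the level of integral matrices. -/
theorem DeepZ.exists_conj {N L m : ℕ} (hm : m ≠ 0) {γ : SL(2, ℤ)} (h : DeepZ N (L * m) γ)
    {X : Matrix (Fin 2) (Fin 2) ℤ} (hX : X.det = m) (h10 : X 1 0 = 0) :
    ∃ δ : SL(2, ℤ), DeepZ N L δ ∧ X * matSL γ = matSL δ * X := by
  obtain ⟨H, hH, e⟩ := h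
  have hmul : X * matSL γ = (1 + (L : ℤ) • (X * H * X.adjugate)) * X := by
    rw [e, Matrix.add_mul, Matrix.mul_add, Matrix.one_mul, Matrix.mul_one, Matrix.mul_smul,
      Matrix.smul_mul, Matrix.mul_assoc (X * H), Matrix.adjugate_mul, hX, Matrix.mul_smul,
      Matrix.mul_one, smul_smul]
    push_cast; rfl
  have hdet : (1 + (L : ℤ) • (X * H * X.adjugate)).det = 1 := by
    have h1 := congrArg Matrix.det hmul
    rw [Matrix.det_mul, Matrix.det_mul, hX, γ.det_coe, mul_one] at h1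
    exact (mul_right_cancel₀ (b := (m : ℤ)) (Int.natCast_ne_zero.mpr hm) (by rw [one_mul, ← h1])).symm
  refine ⟨⟨_, hdet⟩, ⟨X * H * X.adjugate, ?_, rfl⟩, hmul⟩
  simp [Matrix.mul_apply, Fin.sum_univ_two, Matrix.adjugate_fin_two, h10]
  exact dvd_mul_of_dvd_left (dvd_mul_of_dvd_right hH _) _

/-- An integral matrix of nonzero determinant as a rational one. -/
def ratMat (X : Matrix (Fin 2) (Fin 2) ℤ) (h : X.det ≠ 0) : GL (Fin 2) ℚ :=
  Matrix.GeneralLinearGroup.mkOfDetNeZero (X.map (Int.castRingHom ℚ))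
    (by
      rw [← RingHom.mapMatrix_apply, ← RingHom.map_det]
      simpa using h)

theorem val_ratMat (X : Matrix (Fin 2) (Fin 2) ℤ) (h : X.det ≠ 0) :
    (ratMat X h).val = X.map (Int.castRingHom ℚ) := rfl

theorem val_toQ (γ : SL(2, ℤ)) : (toQ γ).val = (matSL γ).map (Int.castRingHom ℚ) := rfl

theorem toQ_eq_conj {X : Matrix (Fin 2) (Fin 2) ℤ} (h : X.det ≠ 0) {γ δ : SL(2, ℤ)}
    (e : X * matSL γ = matSL δ * X) : toQ δ = ratMat X h * toQ γ * (ratMat X h)⁻¹ := by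
  rw [eq_mul_inv_iff_mul_eq]
  refine Units.ext ?_
  rw [Units.val_mul, Units.val_mul, val_ratMat, val_toQ, val_toQ, ← Matrix.map_mul, ← Matrix.map_mul, e]

/-- The scalar matrix `c`. -/
def scQ (c : ℚ) (h : c ≠ 0) : GL (Fin 2) ℚ :=
  Matrix.GeneralLinearGroup.mkOfDetNeZero !![c, 0; 0, c] (by simp [Matrix.det_fin_two_of, h])

theorem scQ_comm (c : ℚ) (h : c ≠ 0) (g : GL (Fin 2) ℚ) : scQ c h * g = g * scQ c h := by
  refine Units.ext ?_
  ext i j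
  simp only [Units.val_mul, Matrix.mul_apply, Fin.sum_univ_two]
  fin_cases i <;> fin_cases j <;> simp [scQ] <;> ring

theorem conj_scQ_mul (c : ℚ) (h : c ≠ 0) (X g : GL (Fin 2) ℚ) :
    scQ c h * X * g * (scQ c h * X)⁻¹ = X * g * X⁻¹ := by
  rw [show scQ c h * X * g * (scQ c h * X)⁻¹ = scQ c h * (X * g * X⁻¹) * (scQ c h)⁻¹ by group,
    scQ_comm, mul_inv_cancel_right]

/-- `diag(ℓ, ℓ⁻¹)`. -/
def dQ (ℓ : ℕ) [NeZero ℓ] : GL (Fin 2) ℚ :=
  Matrix.GeneralLinearGroup.mkOfDetNeZero !![(ℓ : ℚ), 0; 0, (ℓ : ℚ)⁻¹]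
    (by simp [Matrix.det_fin_two_of, NeZero.ne ℓ])

variable {N q ℓ : ℕ} [NeZero q] {A : Type*} [AddCommGroup A]

/-- A homomorphism on `Γ₀(N)` over `ℤ[1/q]` extending `φ`, for parabolic `φ`. -/
structure IsQHom (N q : ℕ) (φ : Additive (Gamma0 N) →+ A) (χ : GL (Fin 2) ℚ → A) : Prop where
  map_mul : ∀ g ∈ gamR N q, ∀ h ∈ gamR N q, χ (g * h) = χ g + χ h
  val : ∀ γ : Gamma0 N, χ (toQ γ) = φ (Additive.ofMul γ)
  par : φ ∈ parHom (Gamma0 N) A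

variable {φ : Additive (Gamma0 N) →+ A} {χ : GL (Fin 2) ℚ → A} (hχ : IsQHom N q φ χ)
include hχ

omit [NeZero q] in
theorem IsQHom.map_one : χ 1 = 0 := by
  have h := hχ.map_mul 1 (one_mem _) 1 (one_mem _)
  rwa [one_mul, left_eq_add] at h

omit [NeZero q] in
theorem IsQHom.map_conj {g h : GL (Fin 2) ℚ} (hg : g ∈ gamR N q) (hh : h ∈ gamR N q) :
    χ (g * h * g⁻¹) = χ h := by
  have h1 := hχ.map_mul g hg g⁻¹ (inv_mem hg)
  rw [mul_inv_cancel, hχ.map_one] at h1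
  rw [hχ.map_mul _ (mul_mem hg hh) _ (inv_mem hg), hχ.map_mul _ hg _ hh, add_right_comm, ← h1, zero_add]

omit hχ in
/-- Some element conjugates a unipotent element to its `q ^ (2 m)`-th power, where
`q ^ m ≡ 1` modulo `N`. -/
theorem exists_torus_conj {m : ℕ} (hm : (N : ℤ) ∣ (q : ℤ) ^ m - 1) {g : GL (Fin 2) ℚ}
    (hdet : g.val.det = 1) (htr : g.val.trace = 2) :
    ∃ h ∈ gamR N q, (h * g * h⁻¹).val = 1 + ((q : ℚ) ^ (2 * m)) • (g.val - 1) := by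
  have hq0 : (q : ℚ) ≠ 0 := by exact_mod_cast NeZero.ne q
  rw [Matrix.trace_fin_two] at htr
  rw [Matrix.det_fin_two] at hdet
  -- the fixed line
  obtain ⟨a, c, u, v, huv, hl0, hl1⟩ : ∃ a c u v : ℤ, (u : ℚ) * a + v * c = 1 ∧
      (c : ℚ) * (g.val 0 0 - 1) = a * g.val 1 0 ∧ (c : ℚ) * g.val 0 1 = a * (g.val 1 1 - 1) := by
    by_cases hc : g.val 1 0 = 0
    · refine ⟨1, 0, 1, 0, by norm_num, by simp [hc], ?_⟩
      have h1 : (g.val 0 0 - 1) * (g.val 0 0 - 1) = 0 := by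
        rw [hc, mul_zero, sub_zero] at hdet
        linear_combination (g.val 0 0) * htr - hdet
      have h0 := mul_self_eq_zero.mp h1
      simp
      linarith
    · obtain ⟨r, hr⟩ : ∃ r : ℚ, r = (g.val 0 0 - 1) / g.val 1 0 := ⟨_, rfl⟩
      obtain ⟨u, v, huv⟩ := (Int.isCoprime_iff_nat_coprime.mpr
        (by simpa using r.reduced) : IsCoprime r.num (r.den : ℤ))
      have hr' : (r.den : ℚ) * r = r.num := by rw [mul_comm]; exact r.mul_den_eq_num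
      have hrc : r * g.val 1 0 = g.val 0 0 - 1 := by rw [hr, div_mul_cancel₀ _ hc]
      refine ⟨r.num, r.den, u, v, by exact_mod_cast huv, ?_, ?_⟩
      · push_cast
        linear_combination g.val 1 0 * hr' - (r.den : ℚ) * hrc
      · have h1 : r * (g.val 1 1 - 1) = g.val 0 1 := by
          apply mul_right_cancel₀ hc
          linear_combination (g.val 1 1 - 1) * hrc + hdet - htr
        push_cast
        linear_combination (g.val 1 1 - 1) * hr' - (r.den : ℚ) * h1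
  obtain ⟨e, he⟩ : ∃ e, e = (q : ℚ) ^ m - 1 := ⟨_, rfl⟩
  obtain ⟨f, hf⟩ : ∃ f, f = ((q : ℚ) ^ m)⁻¹ - 1 := ⟨_, rfl⟩
  obtain ⟨w, hw⟩ := hm
  have hw' : e = (N : ℚ) * w := by rw [he]; exact_mod_cast hw
  have heR : InR q N e := ⟨0, w, by rw [hw', pow_zero, mul_one]⟩
  have hfR : InR q N f := ⟨m, -w, by
    rw [hf, sub_mul, inv_mul_cancel₀ (pow_ne_zero _ hq0), one_mul]
    push_cast
    linear_combination -(he.symm.trans hw')⟩
  let X : Matrix (Fin 2) (Fin 2) ℚ :=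
    !![1 + (e * a * u + f * v * c), (e - f) * a * v; (e - f) * c * u, 1 + (e * c * v + f * u * a)]
  have hX : X.det = 1 := by
    have h1 : (1 + e) * (1 + f) = 1 := by
      rw [he, hf, add_sub_cancel, add_sub_cancel, mul_inv_cancel₀ (pow_ne_zero _ hq0)]
    simp only [X, Matrix.det_fin_two_of]
    linear_combination ((u : ℚ) * a + v * c) ^ 2 * h1 - (e + f) * ((u : ℚ) * a + v * c) * huv
  let h : GL (Fin 2) ℚ := Matrix.GeneralLinearGroup.mkOfDetNeZero X (by rw [hX]; exact one_ne_zero)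
  have h1R : InR q 1 (1 : ℚ) := inR_one_one q
  have hI : ∀ z : ℤ, InR q 1 (z : ℚ) := fun z => inR_intCast (by simp)
  have hE : ∀ z : ℤ, InR q 1 (e * z) := fun z => (heR.of_dvd (one_dvd N)).mul_right (hI z)
  have hF : ∀ z : ℤ, InR q 1 (f * z) := fun z => (hfR.of_dvd (one_dvd N)).mul_right (hI z)
  have hmem : h ∈ gamR N q := by
    refine ⟨hX, fun i j => ?_, ?_⟩
    · fin_cases i <;> fin_cases j <;> simp [h, X]
      · refine h1R.add (InR.add ?_ ?_)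
        · simpa [mul_assoc] using hE (a * u)
        · simpa [mul_assoc] using hF (v * c)
      · simpa [sub_mul, mul_assoc] using (hE (a * v)).sub (hF (a * v))
      · simpa [sub_mul, mul_assoc] using (hE (c * u)).sub (hF (c * u))
      · refine h1R.add (InR.add ?_ ?_)
        · simpa [mul_assoc] using hE (c * v)
        · simpa [mul_assoc] using hF (u * a)
    · simp [h, X]
      simpa [sub_mul, mul_assoc] using (heR.mul_right (hI (c * u))).sub (hfR.mul_right (hI (c * u)))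
  refine ⟨h, hmem, ?_⟩
  have hA : h.val * (g.val - 1) = ((q : ℚ) ^ m) • (g.val - 1) := by
    rw [show (q : ℚ) ^ m = 1 + e by rw [he]; ring]
    ext i j
    fin_cases i <;> fin_cases j <;> simp [h, X, Matrix.mul_apply, Fin.sum_univ_two]
    · linear_combination e * (g.val 0 0 - 1) * huv - (e - f) * v * hl0
    · linear_combination e * g.val 0 1 * huv - (e - f) * v * hl1
    · linear_combination e * g.val 1 0 * huv + (e - f) * u * hl0
    · linear_combination e * (g.val 1 1 - 1) * huv + (e - f) * u * hl1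
  have hB : (g.val - 1) * h.val = ((q : ℚ) ^ m)⁻¹ • (g.val - 1) := by
    rw [show ((q : ℚ) ^ m)⁻¹ = 1 + f by rw [hf]; ring]
    have hk0 : (g.val 0 0 - 1) * a + g.val 0 1 * c = 0 := by
      linear_combination hl1 + (a : ℚ) * htr
    have hk1 : g.val 1 0 * a + (g.val 1 1 - 1) * c = 0 := by
      linear_combination -hl0 + (c : ℚ) * htr
    ext i j
    fin_cases i <;> fin_cases j <;> simp [h, X, Matrix.mul_apply, Fin.sum_univ_two]
    · linear_combination f * (g.val 0 0 - 1) * huv + (e - f) * u * hk0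
    · linear_combination f * g.val 0 1 * huv + (e - f) * v * hk0
    · linear_combination f * g.val 1 0 * huv + (e - f) * u * hk1
    · linear_combination f * (g.val 1 1 - 1) * huv + (e - f) * v * hk1
  rw [Units.val_mul, Units.val_mul]
  calc h.val * g.val * (h⁻¹).val
      = (h.val + h.val * (g.val - 1)) * (h⁻¹).val := by rw [mul_sub, mul_one, add_sub_cancel]
    _ = (h.val + ((q : ℚ) ^ (2 * m)) • ((g.val - 1) * h.val)) * (h⁻¹).val := by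
        rw [hA, hB, smul_smul, two_mul, pow_add,
          mul_inv_cancel_right₀ (pow_ne_zero _ hq0)]
    _ = 1 + ((q : ℚ) ^ (2 * m)) • (g.val - 1) := by
        rw [add_mul, Units.mul_inv, smul_mul_assoc, Units.mul_inv_cancel_right]

/-- Unipotent elements are killed, if `q` is invertible or zero on `A`. -/
theorem IsQHom.unipotent (hqN : Nat.Coprime N q)
    (hqA : (∀ a : A, q • a = 0 → a = 0) ∨ ∀ a : A, q • a = 0)
    {g : GL (Fin 2) ℚ} (hg : g ∈ gamR N q) (htr : g.val.trace = 2) : χ g = 0 := by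
  rcases hqA with hqA | hqA
  swap
  · obtain ⟨h, hh, hconj⟩ := exists_torus_conj (N := N) (m := N.totient) (by
      rw [← ZMod.intCast_zmod_eq_zero_iff_dvd]
      push_cast
      have := congrArg Units.val (ZMod.pow_totient (ZMod.unitOfCoprime q hqN.symm))
      simp only [Units.val_pow_eq_pow_val, ZMod.coe_unitOfCoprime, Units.val_one] at this
      rw [this, sub_self]) hg.1 htr
    by_cases hN : N.totient = 0
    · rw [Nat.totient_eq_zero] at hN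
      subst hN
      obtain rfl : q = 1 := by simpa using hqN
      simpa using hqA (χ g)
    have hpow : ∀ k : ℕ, χ (g ^ k) = k • χ g ∧ (g ^ k).val = 1 + (k : ℚ) • (g.val - 1) := by
      intro k
      induction k with
      | zero => exact ⟨by simp [hχ.map_one], by simp⟩
      | succ k ih =>
        refine ⟨by rw [pow_succ, hχ.map_mul _ (pow_mem hg k) _ hg, ih.1, succ_nsmul], ?_⟩
        rw [pow_succ, Units.val_mul, ih.2]
        have h1 := hg.1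
        rw [Matrix.det_fin_two] at h1
        rw [Matrix.trace_fin_two] at htr
        ext i j
        fin_cases i <;> fin_cases j <;> simp [Matrix.mul_apply, Fin.sum_univ_two]
        · linear_combination (k : ℚ) * (g.val 0 0) * htr - (k : ℚ) * h1
        · linear_combination (k : ℚ) * (g.val 0 1) * htr
        · linear_combination (k : ℚ) * (g.val 1 0) * htr
        · linear_combination (k : ℚ) * (g.val 1 1) * htr - (k : ℚ) * h1
    obtain ⟨h1, h2⟩ := hpow (q ^ (2 * N.totient))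
    have he : h * g * h⁻¹ = g ^ q ^ (2 * N.totient) := by
      refine Units.ext ?_
      rw [hconj, h2]
      push_cast
      rfl
    rw [← hχ.map_conj hh hg, he, h1, show q ^ (2 * N.totient) = q * q ^ (2 * N.totient - 1) by
      rw [← pow_succ']; congr 1; omega, mul_nsmul']
    exact hqA _
  obtain ⟨hd, hint, hc⟩ := hg
  rw [Matrix.trace_fin_two] at htr
  rw [Matrix.det_fin_two] at hd
  have hpow : ∀ k : ℕ, g ^ k ∈ gamR N q ∧ χ (g ^ k) = k • χ g ∧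
      (g ^ k).val = 1 + (k : ℚ) • (g.val - 1) := by
    have hgmem : g ∈ gamR N q := ⟨by rw [Matrix.det_fin_two]; exact hd, hint, hc⟩
    intro k
    induction k with
    | zero => exact ⟨one_mem _, by simp [hχ.map_one], by simp⟩
    | succ k ih =>
      refine ⟨pow_mem hgmem _, by rw [pow_succ, hχ.map_mul _ ih.1 _ hgmem, ih.2.1, succ_nsmul], ?_⟩
      rw [pow_succ, Units.val_mul, ih.2.2]
      ext i j
      fin_cases i <;> fin_cases j <;> simp [Matrix.mul_apply, Fin.sum_univ_two]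
      · linear_combination (k : ℚ) * (g.val 0 0) * htr - (k : ℚ) * hd
      · linear_combination (k : ℚ) * (g.val 0 1) * htr
      · linear_combination (k : ℚ) * (g.val 1 0) * htr
      · linear_combination (k : ℚ) * (g.val 1 1) * htr - (k : ℚ) * hd
  choose e z hz using fun i j => hint i j
  obtain ⟨n, hn⟩ : ∃ n, ∀ i j, e i j ≤ n := ⟨e 0 0 + e 0 1 + e 1 0 + e 1 1, fun i j => by
    fin_cases i <;> fin_cases j <;> simp <;> omega⟩
  obtain ⟨hk1, hk2, hk3⟩ := hpow (q ^ n)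
  have hentry : ∀ i j, IsIntQ ((g ^ q ^ n).val i j) := by
    intro i j
    obtain ⟨d, hd'⟩ := Nat.exists_eq_add_of_le (hn i j)
    refine ⟨(1 : Matrix (Fin 2) (Fin 2) ℤ) i j + ((q : ℤ) ^ d * z i j - (q : ℤ) ^ n * (1 : Matrix (Fin 2) (Fin 2) ℤ) i j), ?_⟩
    have h := hz i j
    simp only [Nat.cast_one, one_mul] at h
    rw [hk3, Matrix.add_apply, Matrix.smul_apply, Matrix.sub_apply, smul_eq_mul]
    push_cast
    rw [show ((1 : Matrix (Fin 2) (Fin 2) ℤ) i j : ℚ) = (1 : Matrix (Fin 2) (Fin 2) ℚ) i j by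
      simp [Matrix.one_apply], hd', pow_add, ← h]
    ring
  choose w hw using hentry
  have hwd : w 0 0 * w 1 1 - w 0 1 * w 1 0 = 1 := by
    have := hk1.1
    rw [Matrix.det_fin_two, hw, hw, hw, hw] at this
    exact_mod_cast this
  let γ : Gamma0 N := ⟨slMk (w 0 0) (w 0 1) (w 1 0) (w 1 1) hwd, mem_gamma0_iff.mpr (by
    simpa using dvd_of_inR hqN (hw 1 0 ▸ hk1.2.2))⟩
  have hγ : toQ γ = g ^ q ^ n := by
    refine Units.ext ?_
    ext i j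
    rw [toQ_apply]
    fin_cases i <;> fin_cases j <;> simp [γ, hw]
  have htrγ : trSL (γ : SL(2, ℤ)) ^ 2 ≤ 4 := by
    have : ((w 0 0 + w 1 1 : ℤ) : ℚ) = (2 : ℤ) := by
      push_cast
      rw [← hw, ← hw, hk3]
      simp only [Matrix.add_apply, Matrix.smul_apply, Matrix.sub_apply, smul_eq_mul, Matrix.one_apply_eq]
      push_cast
      linear_combination ((q : ℚ) ^ n) * htr
    have h2 : w 0 0 + w 1 1 = 2 := by exact_mod_cast this
    simp [trSL, γ, Matrix.trace_fin_two, h2]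
  have h0 : q ^ n • χ g = 0 := by rw [← hk2, ← hγ, hχ.val, hχ.par γ htrγ]
  have hcancel : ∀ (n : ℕ) (a : A), q ^ n • a = 0 → a = 0 := by
    intro n
    induction n with
    | zero => intro a ha; simpa using ha
    | succ n ih =>
      intro a ha
      refine hqA _ (ih _ ?_)
      rwa [← mul_nsmul', ← pow_succ]
  exact hcancel n _ h0

omit hχ [NeZero q] in
theorem uQ_scaled_isScale [NeZero ℓ] {x : ℚ} (hx : InR q 1 ((ℓ : ℚ) * x)) (hℓ : (ℓ : ℚ) ≠ 0) :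
    IsScale N q (ℓ ^ 2) (scQ ℓ hℓ * uQ x) := by
  refine ⟨fun i j => ?_, ?_, ?_, pow_ne_zero _ (NeZero.ne ℓ)⟩
  · fin_cases i <;> fin_cases j <;> simp [scQ, Matrix.mul_apply, Fin.sum_univ_two, inR_zero, hx] <;>
      exact inR_intCast (q := q) (m := 1) (z := (ℓ : ℤ)) (by simp) |> fun h => by simpa using h
  · simp [scQ, Matrix.mul_apply, Fin.sum_univ_two, inR_zero]
  · rw [Units.val_mul, Matrix.det_mul]; simp [scQ, Matrix.det_fin_two_of]; ring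

omit hχ [NeZero q] in
theorem uQ_conj_mem [NeZero ℓ] {x : ℚ} (hx : InR q 1 ((ℓ : ℚ) * x)) {L : ℕ} {g : GL (Fin 2) ℚ}
    (hg : g ∈ deepR N q (L * ℓ ^ 2)) : uQ x * g * (uQ x)⁻¹ ∈ deepR N q L := by
  have hℓ : (ℓ : ℚ) ≠ 0 := by exact_mod_cast NeZero.ne ℓ
  rw [← conj_scQ_mul ℓ hℓ]
  exact (uQ_scaled_isScale (N := N) hx hℓ).conj_mem hg

omit hχ [NeZero q] in
theorem dQ_conj_mem [NeZero ℓ] {L : ℕ} {g : GL (Fin 2) ℚ} (hg : g ∈ deepR N q (L * ℓ ^ 2)) :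
    dQ ℓ * g * (dQ ℓ)⁻¹ ∈ deepR N q L ∧ (dQ ℓ)⁻¹ * g * dQ ℓ ∈ deepR N q L := by
  have hℓ : (ℓ : ℚ) ≠ 0 := by exact_mod_cast NeZero.ne ℓ
  have hsq : InR q 1 ((ℓ : ℚ) * ℓ) := inR_intCast (z := (ℓ : ℤ) * ℓ) (m := 1) (by simp) |> fun h => by
    simpa using h
  constructor
  · rw [← conj_scQ_mul ℓ hℓ]
    refine IsScale.conj_mem ⟨fun i j => ?_, ?_, ?_, pow_ne_zero _ (NeZero.ne ℓ)⟩ hg
    · fin_cases i <;> fin_cases j <;>
        simp [scQ, dQ, Matrix.mul_apply, Fin.sum_univ_two, inR_zero, inR_one_one, hℓ, hsq]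
    · simp [scQ, dQ, Matrix.mul_apply, Fin.sum_univ_two, inR_zero]
    · rw [Units.val_mul, Matrix.det_mul]; simp [scQ, dQ, Matrix.det_fin_two_of, hℓ]; ring
  · have hval : ((dQ ℓ)⁻¹ : GL (Fin 2) ℚ).val = !![(ℓ : ℚ)⁻¹, 0; 0, (ℓ : ℚ)] := by
      rw [Matrix.coe_units_inv]
      refine Matrix.inv_eq_right_inv ?_
      ext i j
      fin_cases i <;> fin_cases j <;> simp [dQ, Matrix.mul_apply, Fin.sum_univ_two, hℓ]
    nth_rewrite 2 [← inv_inv (dQ ℓ)]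
    rw [← conj_scQ_mul ℓ hℓ]
    refine IsScale.conj_mem ⟨fun i j => ?_, ?_, ?_, pow_ne_zero _ (NeZero.ne ℓ)⟩ hg
    · fin_cases i <;> fin_cases j <;>
        simp [scQ, hval, Matrix.mul_apply, Fin.sum_univ_two, inR_zero, inR_one_one, hℓ, hsq]
    · simp [scQ, hval, Matrix.mul_apply, Fin.sum_univ_two, inR_zero]
    · rw [Units.val_mul, Matrix.det_mul]; simp [scQ, hval, Matrix.det_fin_two_of, hℓ]; ring

/-- Hypotheses on the auxiliary prime. -/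
structure AuxPrime (N q ℓ : ℕ) : Prop where
  q_prime : q.Prime
  prime : ℓ.Prime
  not_dvd_N : ¬ ℓ ∣ N
  q_not_dvd_N : ¬ q ∣ N
  ne : ℓ ≠ q
  not_dvd_pow : ¬ (ℓ : ℤ) ∣ (q : ℤ) ^ (4 * N) - 1

variable [NeZero N] [NeZero ℓ] (hℓ : AuxPrime N q ℓ)
  (hqA : (∀ a : A, q • a = 0 → a = 0) ∨ ∀ a : A, q • a = 0)
include hℓ hqA

/-- Invariance under `[[1, i/ℓ], [0, 1]]`. -/
theorem IsQHom.invariant_u (i : ℤ) {h : GL (Fin 2) ℚ} (hh : h ∈ deepR N q (ℓ ^ 4 * ℓ ^ 2)) :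
    χ (uQ ((i : ℚ) / ℓ) * h * (uQ ((i : ℚ) / ℓ))⁻¹) = χ h := by
  have : Fact ℓ.Prime := ⟨hℓ.prime⟩
  have hq0 : (q : ℚ) ≠ 0 := by exact_mod_cast NeZero.ne q
  have hℓ0 : (ℓ : ℚ) ≠ 0 := by exact_mod_cast NeZero.ne ℓ
  have hNq : Nat.Coprime N q := (hℓ.q_prime.coprime_iff_not_dvd.mpr hℓ.q_not_dvd_N).symm
  obtain ⟨M, hM⟩ : ∃ M : ℕ, M = 2 * N * (ℓ ^ 4) ^ 2 := ⟨_, rfl⟩
  -- choose the numerator
  have hQ : ((q : ZMod ℓ) ^ (2 * M)) = (q : ZMod ℓ) ^ (4 * N) := by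
    rw [show 2 * M = 4 * N * ℓ ^ 8 by rw [hM]; ring, pow_mul, ZMod.pow_card_pow]
  have h1 : (1 : ZMod ℓ) - (q : ZMod ℓ) ^ (2 * M) ≠ 0 := by
    intro h0
    apply hℓ.not_dvd_pow
    rw [← ZMod.intCast_zmod_eq_zero_iff_dvd]
    push_cast
    rw [hQ] at h0
    linear_combination -h0
  obtain ⟨m, hm⟩ : ∃ m : ℤ, (ℓ : ℤ) ∣ m * (1 - (q : ℤ) ^ (2 * M)) - i * (q : ℤ) ^ (2 * M) := by
    refine ⟨(((i : ZMod ℓ) * (q : ZMod ℓ) ^ (2 * M) / (1 - (q : ZMod ℓ) ^ (2 * M))).val : ℤ), ?_⟩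
    rw [← ZMod.intCast_zmod_eq_zero_iff_dvd]
    push_cast
    rw [ZMod.natCast_zmod_val, div_mul_cancel₀ _ h1, sub_self]
  obtain ⟨r, hr⟩ := hm
  obtain ⟨x, hx⟩ : ∃ x, x = (m : ℚ) / ℓ := ⟨_, rfl⟩
  obtain ⟨x', hx'⟩ : ∃ x', x' = x * (q : ℚ) ^ (-(2 * (M : ℤ))) := ⟨_, rfl⟩
  have hR : InR q 1 ((r : ℚ) / (q : ℚ) ^ (2 * M)) := ⟨2 * M, r, by field_simp; simp⟩
  have hxx : x' - x = (r : ℚ) / (q : ℚ) ^ (2 * M) + (i : ℚ) / ℓ := by
    have hr' : (m : ℚ) * (1 - (q : ℚ) ^ (2 * M)) - i * (q : ℚ) ^ (2 * M) = ℓ * r := by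
      exact_mod_cast hr
    rw [hx', hx, show (2 : ℤ) * (M : ℤ) = ((2 * M : ℕ) : ℤ) by push_cast; rfl, zpow_neg, zpow_natCast]
    field_simp
    linear_combination hr'
  have hxi : InR q 1 ((ℓ : ℚ) * x) := by
    rw [hx, mul_div_cancel₀ _ hℓ0]; exact inR_intCast (by simp)
  have hx'i : InR q 1 ((ℓ : ℚ) * x') := by
    rw [hx', ← mul_assoc]; exact hxi.mul_left (inR_zpow _)
  -- the auxiliary homomorphism
  let f : GL (Fin 2) ℚ → A := fun g => χ (uQ x * g * (uQ x)⁻¹)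
  have hdeep : ∀ {y : ℚ}, InR q 1 ((ℓ : ℚ) * y) → ∀ {g}, g ∈ deepR N q (ℓ ^ 4) →
      uQ y * g * (uQ y)⁻¹ ∈ gamR N q := fun {y} hy {g} hg =>
    deepR_le_gamR _ _ (ℓ ^ 2) (uQ_conj_mem hy (by rwa [← pow_add]))
  have hf : KillsUnipotents N q (ℓ ^ 4) f := by
    refine ⟨fun g hg g' hg' => ?_, fun g hg htr => ?_⟩
    · show χ _ = χ _ + χ _
      rw [← hχ.map_mul _ (hdeep hxi hg) _ (hdeep hxi hg')]
      congr 1; group
    · refine hχ.unipotent hNq hqA (hdeep hxi hg) ?_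
      rw [Units.val_mul, Units.val_mul, Matrix.trace_units_conj, htr]
  have hinv : ∀ g ∈ deepR N q (ℓ ^ 4),
      χ (uQ x' * g * (uQ x')⁻¹) = χ (uQ x * g * (uQ x)⁻¹) := by
    intro g hg
    have h2 := hf.tau_invariant hℓ.q_prime hNq (NeZero.ne N)
      (Nat.Coprime.pow_left 4 ((Nat.coprime_primes hℓ.prime hℓ.q_prime).mpr hℓ.ne))
      (by have := hℓ.prime.two_le; nlinarith [pow_le_pow_left' this 4]) hg
    rw [← hM] at h2
    rw [← hχ.map_conj (tauQ_mem_gamR N (M : ℤ)) (hdeep hx'i hg)]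
    rw [show tauQ q (M : ℤ) * (uQ x' * g * (uQ x')⁻¹) * (tauQ q (M : ℤ))⁻¹
      = (tauQ q (M : ℤ) * uQ x') * g * (tauQ q (M : ℤ) * uQ x')⁻¹ by group]
    have hcomm : tauQ q (M : ℤ) * uQ x' = uQ x * tauQ q (M : ℤ) := by
      refine Units.ext ?_
      simp only [Units.val_mul, val_tauQ, val_uQ, hx']
      ext a b
      fin_cases a <;> fin_cases b <;> simp [Matrix.mul_apply, Fin.sum_univ_two]
      rw [two_mul, zpow_add₀ hq0]
      field_simp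
      simp only [zpow_natCast]
      ring
    rw [hcomm]
    refine Eq.trans ?_ h2
    show χ _ = χ _
    congr 1
    simp only [tauConj]; group
  have hh' := uQ_conj_mem (N := N) (q := q) (ℓ := ℓ) (x := -x) (L := ℓ ^ 4)
    (by rw [mul_neg]; exact hxi.neg) hh
  have h3 := hinv _ hh'
  simp only [uQ_inv, neg_neg] at h3
  rw [show uQ x' * (uQ (-x) * h * uQ x) * uQ (-x')
      = (uQ x' * uQ (-x)) * h * (uQ x * uQ (-x')) by group, ← uQ_add, ← uQ_add,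
    show uQ x * (uQ (-x) * h * uQ x) * uQ (-x) = (uQ x * uQ (-x)) * h * (uQ x * uQ (-x)) by group,
    ← uQ_add, add_neg_cancel, uQ_zero, one_mul, mul_one, ← sub_eq_add_neg,
    show x + -x' = -(x' - x) by ring, ← uQ_inv, hxx, uQ_add] at h3
  rw [← h3]
  have hin : uQ ((i : ℚ) / ℓ) * h * (uQ ((i : ℚ) / ℓ))⁻¹ ∈ gamR N q :=
    deepR_le_gamR _ _ _ (uQ_conj_mem (by rw [mul_div_cancel₀ _ hℓ0]; exact inR_intCast (by simp)) hh)
  rw [← hχ.map_conj (deepR_le_gamR _ _ 1 (uQ_mem_deepR hR)) hin]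
  congr 1; group

/-- Invariance under `diag(ℓ, 1/ℓ)`. -/
theorem IsQHom.invariant_d {h : GL (Fin 2) ℚ} (hh : h ∈ deepR N q (ℓ ^ 4 * ℓ ^ 2)) :
    χ (dQ ℓ * h * (dQ ℓ)⁻¹) = χ h := by
  have hℓ0 : (ℓ : ℚ) ≠ 0 := by exact_mod_cast NeZero.ne ℓ
  obtain ⟨u, v, huv⟩ := exists_bezout hℓ.prime hℓ.not_dvd_N
  let γ : Gamma0 N := ⟨slMk (ℓ : ℤ) (-1) (-((N : ℤ) * v)) u (by linear_combination huv),
    mem_gamma0_iff.mpr (by simp)⟩
  let γ₂ : Gamma0 N := ⟨slMk 1 0 ((N : ℤ) * v * ℓ) 1 (by ring),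
    mem_gamma0_iff.mpr (by simp [mul_assoc])⟩
  have hD : dQ ℓ = toQ γ * uQ ((1 : ℤ) / ℓ) * toQ γ₂ := by
    have huv' : (ℓ : ℚ) * u - N * v = 1 := by exact_mod_cast huv
    refine Units.ext ?_
    ext a b
    simp only [Units.val_mul, Matrix.mul_apply, Fin.sum_univ_two, toQ_apply]
    fin_cases a <;> fin_cases b <;> simp [dQ, γ, γ₂] <;> field_simp <;>
      first
        | ring1
        | linear_combination huv'
        | linear_combination -huv'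
        | linear_combination -((N : ℚ) * v) * huv'
  have hin : toQ γ₂ * h * (toQ γ₂)⁻¹ ∈ deepR N q (ℓ ^ 4 * ℓ ^ 2) := by
    refine IsScale.conj_mem (m := 1) ⟨(toQ_mem_gamR γ₂.2).2.1, (toQ_mem_gamR γ₂.2).2.2,
      by simpa using (toQ_mem_gamR (q := q) γ₂.2).1, one_ne_zero⟩ (by rwa [mul_one])
  have hu : uQ ((1 : ℤ) / (ℓ : ℚ)) * (toQ γ₂ * h * (toQ γ₂)⁻¹) * (uQ ((1 : ℤ) / (ℓ : ℚ)))⁻¹ ∈
      gamR N q :=
    deepR_le_gamR _ _ _ (uQ_conj_mem (by rw [mul_div_cancel₀ _ hℓ0]; exact inR_intCast (by simp)) hin)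
  rw [hD, show toQ γ * uQ ((1 : ℤ) / (ℓ : ℚ)) * toQ γ₂ * h *
      (toQ γ * uQ ((1 : ℤ) / (ℓ : ℚ)) * toQ γ₂)⁻¹
    = toQ γ * (uQ ((1 : ℤ) / (ℓ : ℚ)) * (toQ γ₂ * h * (toQ γ₂)⁻¹) * (uQ ((1 : ℤ) / (ℓ : ℚ)))⁻¹) *
        (toQ γ)⁻¹ by group,
    hχ.map_conj (toQ_mem_gamR γ.2) hu, hχ.invariant_u hℓ hqA 1 hin,
    hχ.map_conj (toQ_mem_gamR γ₂.2) (deepR_le_gamR _ _ _ hh)]

omit hqA in
omit hχ [NeZero q] [NeZero N] [NeZero ℓ] in
theorem det_tRepZ_ne_zero (i : Option (ZMod ℓ)) : (tRepZ ℓ i).det ≠ 0 := by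
  rw [det_tRepZ]; exact_mod_cast hℓ.prime.ne_zero

/-- `T ℓ ^ 2 φ = (ℓ + 1) ^ 2 φ` on a deep congruence subgroup. -/
theorem IsQHom.heckeOp_sq_apply {γ : Gamma0 N} (hγ : DeepZ N (ℓ ^ 10) γ) :
    heckeOp N ℓ (heckeOp N ℓ φ) (Additive.ofMul γ) = ((ℓ + 1) ^ 2 : ℕ) • φ (Additive.ofMul γ) := by
  have hℓ0 : (ℓ : ℚ) ≠ 0 := by exact_mod_cast NeZero.ne ℓ
  have : Fact ℓ.Prime := ⟨hℓ.prime⟩
  let β : Option (ZMod ℓ) → GL (Fin 2) ℚ := fun i => ratMat _ (det_tRepZ_ne_zero hℓ i)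
  let b : GL (Fin 2) ℚ := β (some 0)
  have hscale : ∀ i, IsScale N q ℓ (β i) := fun i => by
    refine ⟨fun a c => ?_, ?_, ?_, hℓ.prime.ne_zero⟩
    · simp only [β, val_ratMat, Matrix.map_apply]; exact inR_intCast (by simp)
    · simp only [β, val_ratMat, Matrix.map_apply, tRepZ_apply_one_zero, map_zero]; exact inR_zero _ _
    · simp only [β, val_ratMat]
      rw [← RingHom.mapMatrix_apply, ← RingHom.map_det, det_tRepZ]; simp
  have hb : ∀ j : ZMod ℓ, β (some j) = uQ (((j.val : ℤ) : ℚ) / ℓ) * b := fun j => by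
    refine Units.ext ?_
    simp only [β, b, Units.val_mul, val_ratMat, val_uQ]
    ext a c
    fin_cases a <;> fin_cases c <;>
      simp [tRepZ, Matrix.mul_apply, Fin.sum_univ_two, hℓ0, -ZMod.natCast_val]
  have hbnone : β none = dQ ℓ * b := by
    refine Units.ext ?_
    simp only [β, b, Units.val_mul, val_ratMat]
    ext a c
    fin_cases a <;> fin_cases c <;> simp [tRepZ, dQ, Matrix.mul_apply, Fin.sum_univ_two, hℓ0]
  have hbj : ∀ j : ZMod ℓ, b * β (some j)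
      = scQ ℓ hℓ0 * ((dQ ℓ)⁻¹ * uQ ((j.val : ℤ) : ℚ)) := fun j => by
    rw [← mul_assoc, scQ_comm, mul_assoc, eq_inv_mul_iff_mul_eq]
    refine Units.ext ?_
    simp only [β, b, Units.val_mul, val_ratMat, val_uQ]
    ext a c
    fin_cases a <;> fin_cases c <;>
      simp [tRepZ, dQ, scQ, Matrix.mul_apply, Fin.sum_univ_two, hℓ0, -ZMod.natCast_val]
  have hbn : b * β none = scQ ℓ hℓ0 := by
    refine Units.ext ?_
    simp only [β, b, Units.val_mul, val_ratMat]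
    ext a c
    fin_cases a <;> fin_cases c <;> simp [tRepZ, scQ, Matrix.mul_apply, Fin.sum_univ_two]
  -- first application
  have hT : ∀ {k : ℕ}, 7 ≤ k → ∀ {δ : Gamma0 N}, DeepZ N (ℓ ^ (k + 1)) δ →
      heckeOp N ℓ φ (Additive.ofMul δ) = (ℓ + 1) • χ (b * toQ δ * b⁻¹) := by
    intro k hk δ hδ
    choose ε hε hεeq using fun i => DeepZ.exists_conj (L := ℓ ^ k) (m := ℓ) hℓ.prime.ne_zero
      (by rwa [← pow_succ]) (det_tRepZ ℓ i) (tRepZ_apply_one_zero ℓ i)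
    rw [heckeOp_apply hℓ.prime hℓ.not_dvd_N φ δ (σ := id)
      (δ := fun i => ⟨ε i, (hε i).mem_gamma0⟩) hεeq]
    have hbmem : b * toQ δ * b⁻¹ ∈ deepR N q (ℓ ^ 4 * ℓ ^ 2) := by
      refine deepR_mono ?_ ((hscale (some 0)).conj_mem (L := ℓ ^ k) (by rw [← pow_succ]; exact hδ.toQ_mem))
      rw [← pow_add]; exact pow_dvd_pow _ (by omega)
    have key : ∀ i, φ (Additive.ofMul (⟨ε i, (hε i).mem_gamma0⟩ : Gamma0 N))
        = χ (b * toQ δ * b⁻¹) := by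
      intro i
      rw [← hχ.val, toQ_eq_conj (det_tRepZ_ne_zero hℓ i) (hεeq i)]
      show χ (β i * toQ δ * (β i)⁻¹) = _
      rcases i with _ | j
      · rw [hbnone, ← hχ.invariant_d hℓ hqA hbmem]; congr 1; group
      · rw [hb j, ← hχ.invariant_u hℓ hqA (j.val : ℤ) hbmem]; congr 1; group
    simp only [key, Finset.sum_const, Finset.card_univ, Fintype.card_option, ZMod.card]
  choose ε hε hεeq using fun i => DeepZ.exists_conj (L := ℓ ^ 9) (m := ℓ) hℓ.prime.ne_zero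
    (by rwa [← pow_succ]) (det_tRepZ ℓ i) (tRepZ_apply_one_zero ℓ i)
  rw [heckeOp_apply hℓ.prime hℓ.not_dvd_N _ γ (σ := id)
    (δ := fun i => ⟨ε i, (hε i).mem_gamma0⟩) hεeq]
  have key : ∀ i, heckeOp N ℓ φ (Additive.ofMul (⟨ε i, (hε i).mem_gamma0⟩ : Gamma0 N))
      = (ℓ + 1) • φ (Additive.ofMul γ) := by
    intro i
    rw [hT (k := 8) (by norm_num) (hε i), toQ_eq_conj (det_tRepZ_ne_zero hℓ i) (hεeq i), ← hχ.val]
    congr 1
    show χ (b * (β i * toQ γ * (β i)⁻¹) * b⁻¹) = _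
    rw [show b * (β i * toQ γ * (β i)⁻¹) * b⁻¹ = (b * β i) * toQ γ * (b * β i)⁻¹ by group]
    have hγq : toQ γ ∈ deepR N q (ℓ ^ 10) := hγ.toQ_mem
    rcases i with _ | j
    · rw [hbn, scQ_comm]
      congr 1; group
    · rw [hbj, conj_scQ_mul]
      have hu : uQ ((j.val : ℤ) : ℚ) ∈ gamR N q :=
        deepR_le_gamR _ _ 1 (uQ_mem_deepR (inR_intCast (by simp)))
      have hu' : uQ ((j.val : ℤ) : ℚ) * toQ γ * (uQ ((j.val : ℤ) : ℚ))⁻¹ ∈
          deepR N q (ℓ ^ 4 * ℓ ^ 2 * ℓ ^ 2) :=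
        uQ_conj_mem (inR_intCast (q := q) (m := 1) (z := (ℓ : ℤ) * (j.val : ℤ)) (by simp) |> fun h => by
          simpa [-ZMod.natCast_val] using h)
          (deepR_mono (by rw [← pow_add, ← pow_add, ← pow_add]) hγq)
      obtain ⟨-, hDinv⟩ := dQ_conj_mem hu'
      rw [show (dQ ℓ)⁻¹ * uQ ((j.val : ℤ) : ℚ) * toQ γ * ((dQ ℓ)⁻¹ * uQ ((j.val : ℤ) : ℚ))⁻¹
        = (dQ ℓ)⁻¹ * (uQ ((j.val : ℤ) : ℚ) * toQ γ * (uQ ((j.val : ℤ) : ℚ))⁻¹) * dQ ℓ by group,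
        ← hχ.invariant_d hℓ hqA hDinv, ← hχ.map_conj hu (deepR_le_gamR _ _ _ hγq)]
      congr 1; group
  simp only [key, Finset.sum_const, Finset.card_univ, Fintype.card_option, ZMod.card]
  rw [sq, mul_nsmul']

omit hχ [NeZero q] [NeZero ℓ] hℓ hqA [NeZero N] in
/-- A parabolic homomorphism vanishing on a congruence subgroup of level prime to `N` is zero. -/
theorem eq_zero_of_vanish_deep {L : ℕ} (hℓp : ℓ.Prime) (hℓN : ¬ ℓ ∣ N)
    {φ : Additive (Gamma0 N) →+ A} (hφ : φ ∈ parHom (Gamma0 N) A)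
    (h : ∀ γ : Gamma0 N, DeepZ N (ℓ ^ L) γ → φ (Additive.ofMul γ) = 0) : φ = 0 := by
  have : Fact ℓ.Prime := ⟨hℓp⟩
  have hcopN : IsCoprime (N : ℤ) ((ℓ ^ L : ℕ) : ℤ) :=
    Nat.isCoprime_iff_coprime.mpr ((hℓp.coprime_iff_not_dvd.mpr hℓN).symm.pow_right L)
  let u : ℤ → Gamma0 N := fun x => ⟨slMk 1 x 0 1 (by ring), mem_gamma0_iff.mpr (by simp)⟩
  let v : ℤ → Gamma0 N := fun y => ⟨slMk 1 0 ((N : ℤ) * y) 1 (by ring), mem_gamma0_iff.mpr (by simp)⟩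
  have hu : ∀ x, φ (Additive.ofMul (u x)) = 0 := fun x => hφ _ (by simp [trSL, u, Matrix.trace_fin_two])
  have hv : ∀ y, φ (Additive.ofMul (v y)) = 0 := fun y => hφ _ (by simp [trSL, v, Matrix.trace_fin_two])
  refine AddMonoidHom.ext fun g => ?_
  obtain ⟨g₁, rfl⟩ := Additive.ofMul.surjective g
  rw [AddMonoidHom.zero_apply]
  obtain ⟨g₂, hg₂, hb⟩ : ∃ g₂ : Gamma0 N, φ (Additive.ofMul g₂) = φ (Additive.ofMul g₁) ∧
      ¬ (ℓ : ℤ) ∣ matSL (g₂ : SL(2, ℤ)) 0 1 := by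
    by_cases hb : (ℓ : ℤ) ∣ matSL (g₁ : SL(2, ℤ)) 0 1
    · refine ⟨g₁ * u 1, by rw [ofMul_mul, map_add, hu, add_zero], fun hd => ?_⟩
      simp [u, matSL, Matrix.mul_apply, Fin.sum_univ_two] at hd
      have ha : (ℓ : ℤ) ∣ matSL (g₁ : SL(2, ℤ)) 0 0 := (dvd_add_left hb).mp hd
      have h1 := det_matSL (g₁ : SL(2, ℤ))
      have := (dvd_sub (dvd_mul_of_dvd_left ha (matSL (g₁ : SL(2, ℤ)) 1 1))
        (dvd_mul_of_dvd_left hb (matSL (g₁ : SL(2, ℤ)) 1 0)))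
      rw [h1] at this
      exact (Nat.prime_iff_prime_int.mp hℓp).not_isUnit (isUnit_of_dvd_one this)
    · exact ⟨g₁, rfl, hb⟩
  have hcb : IsCoprime (matSL (g₂ : SL(2, ℤ)) 0 1 * (N : ℤ)) ((ℓ ^ L : ℕ) : ℤ) := by
    refine IsCoprime.mul_left ?_ hcopN
    push_cast
    exact (((Nat.prime_iff_prime_int.mp hℓp).coprime_iff_not_dvd.mpr hb).symm).pow_right
  obtain ⟨y, w, hyw⟩ := hcb
  obtain ⟨g₃, hg₃def⟩ : ∃ g₃, g₃ = g₂ * v (y * (1 - matSL (g₂ : SL(2, ℤ)) 0 0)) := ⟨_, rfl⟩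
  have ha3 : ((ℓ ^ L : ℕ) : ℤ) ∣ matSL (g₃ : SL(2, ℤ)) 0 0 - 1 := by
    refine ⟨w * (matSL (g₂ : SL(2, ℤ)) 0 0 - 1), ?_⟩
    simp [hg₃def, v, matSL, Matrix.mul_apply, Fin.sum_univ_two] at hyw ⊢
    linear_combination (1 - matSL (g₂ : SL(2, ℤ)) 0 0) * hyw
  obtain ⟨g₄, hg₄def⟩ : ∃ g₄, g₄ = g₃ * u (-(matSL (g₃ : SL(2, ℤ)) 0 1)) := ⟨_, rfl⟩
  have ha4 : matSL (g₄ : SL(2, ℤ)) 0 0 = matSL (g₃ : SL(2, ℤ)) 0 0 := by
    simp [hg₄def, u, matSL, Matrix.mul_apply, Fin.sum_univ_two]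
  have hb4 : ((ℓ ^ L : ℕ) : ℤ) ∣ matSL (g₄ : SL(2, ℤ)) 0 1 := by
    obtain ⟨s, hs⟩ := ha3
    refine ⟨-(matSL (g₃ : SL(2, ℤ)) 0 1) * s, ?_⟩
    simp [hg₄def, u, matSL, Matrix.mul_apply, Fin.sum_univ_two] at hs ⊢
    linear_combination -(matSL (g₃ : SL(2, ℤ)) 0 1) * hs
  obtain ⟨c₀, hc₀⟩ := mem_gamma0_iff.mp g₄.2
  obtain ⟨g₅, hg₅def⟩ : ∃ g₅, g₅ = v (-c₀) * g₄ := ⟨_, rfl⟩
  have e00 : matSL (g₅ : SL(2, ℤ)) 0 0 = matSL (g₄ : SL(2, ℤ)) 0 0 := by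
    simp [hg₅def, v, matSL, Matrix.mul_apply, Fin.sum_univ_two]
  have e01 : matSL (g₅ : SL(2, ℤ)) 0 1 = matSL (g₄ : SL(2, ℤ)) 0 1 := by
    simp [hg₅def, v, matSL, Matrix.mul_apply, Fin.sum_univ_two]
  have e10 : matSL (g₅ : SL(2, ℤ)) 1 0 = (N : ℤ) * (c₀ * (1 - matSL (g₄ : SL(2, ℤ)) 0 0)) := by
    simp [hg₅def, v, matSL, Matrix.mul_apply, Fin.sum_univ_two] at hc₀ ⊢
    linear_combination hc₀
  have hval : φ (Additive.ofMul g₅) = φ (Additive.ofMul g₁) := by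
    rw [hg₅def, hg₄def, hg₃def, ofMul_mul, ofMul_mul, ofMul_mul, map_add, map_add, map_add, hv, hu,
      hv, hg₂]
    simp
  rw [← hval]
  refine h g₅ ?_
  obtain ⟨a1, ha1⟩ : ((ℓ ^ L : ℕ) : ℤ) ∣ matSL (g₅ : SL(2, ℤ)) 0 0 - 1 := by rw [e00, ha4]; exact ha3
  obtain ⟨b1, hb1⟩ : ((ℓ ^ L : ℕ) : ℤ) ∣ matSL (g₅ : SL(2, ℤ)) 0 1 := by rw [e01]; exact hb4
  have hc1 : matSL (g₅ : SL(2, ℤ)) 1 0 = ((ℓ ^ L : ℕ) : ℤ) * ((N : ℤ) * (-c₀ * a1)) := by
    rw [e10, ← e00]; linear_combination -((N : ℤ) * c₀) * ha1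
  have hd1 := det_matSL (g₅ : SL(2, ℤ))
  obtain ⟨d1, hd1'⟩ : ((ℓ ^ L : ℕ) : ℤ) ∣ matSL (g₅ : SL(2, ℤ)) 1 1 - 1 := by
    refine ⟨b1 * matSL (g₅ : SL(2, ℤ)) 1 0 - a1 * matSL (g₅ : SL(2, ℤ)) 1 1, ?_⟩
    linear_combination hd1 - matSL (g₅ : SL(2, ℤ)) 1 1 * ha1 + matSL (g₅ : SL(2, ℤ)) 1 0 * hb1
  refine ⟨!![a1, b1; (N : ℤ) * (-c₀ * a1), d1], by simp, ?_⟩
  ext a b
  fin_cases a <;> fin_cases b <;> simp
  · push_cast at ha1 ⊢; linear_combination ha1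
  · exact_mod_cast hb1
  · push_cast at hc1 ⊢; linear_combination hc1
  · push_cast at hd1' ⊢; linear_combination hd1'

omit hχ hqA hℓ in
/-- **Ihara's lemma**: an eigen-pair killed by the degeneracy map is Eisenstein. -/
theorem eigen_eq_of_deg_eq_zero {k : Type*} [Field k] (D : WData N q)
    (hℓ : AuxPrime N q ℓ) {x y : Additive (Gamma0 N) →+ k} (hx : x ∈ parHom (Gamma0 N) k)
    (hdeg : D.deg x y = 0) (hx0 : x ≠ 0) (e : k)
    (he : heckeOp N ℓ x = (AddMonoidHom.mulLeft e).comp x) : e ^ 2 = ((ℓ : k) + 1) ^ 2 := by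
  have hqA : (∀ a : k, q • a = 0 → a = 0) ∨ ∀ a : k, q • a = 0 := by
    by_cases hqk : (q : k) = 0
    · exact Or.inr fun a => by rw [nsmul_eq_mul, hqk, zero_mul]
    · exact Or.inl fun a ha => by rwa [nsmul_eq_mul, mul_eq_zero, or_iff_right hqk] at ha
  obtain ⟨χ, hχ1, hχ2⟩ := exists_qHom D x y hdeg
  have hχ : IsQHom N q x χ := ⟨hχ1, hχ2, hx⟩
  by_contra hne
  refine hx0 (eq_zero_of_vanish_deep (L := 10) hℓ.prime hℓ.not_dvd_N hx fun γ hγ => ?_)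
  have h := hχ.heckeOp_sq_apply hℓ hqA hγ
  rw [he, map_heckeOp, he, AddMonoidHom.comp_apply, AddMonoidHom.comp_apply, nsmul_eq_mul] at h
  simp only [AddMonoidHom.coe_mulLeft] at h
  push_cast at h
  have h' : (e ^ 2 - ((ℓ : k) + 1) ^ 2) * x (Additive.ofMul γ) = 0 := by linear_combination h
  exact (mul_eq_zero.mp h').resolve_left (sub_ne_zero.mpr hne)

end FLTAgent.LevelRaise
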