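import Fermat.Agent.LevelRaise.Nondegenerate
import Mathlib.RingTheory.Ideal.Maps
import Mathlib.RingTheory.Noetherian.Basic

/-!
# Lifting parabolic homomorphisms from residue rings; finiteness
-/

set_option autoImplicit false

noncomputable section

namespace FLTAgent.LevelRaise

open scoped MatrixGroups
open ModularGroup

variable {Γ : Subgroup SL(2, ℤ)} [Γ.FiniteIndex]

variable (Γ) in
/-- The values at the two generators. -/
def genValues (A : Type*) [AddCommGroup A] :
    (Additive Γ →+ A) →+ (Cos Γ → A) × (Cos Γ → A) :=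
  AddMonoidHom.mk' (fun φ => (homCocycle φ S, homCocycle φ (S * T))) fun φ ψ => by
    ext x <;> simp [homCocycle]

omit [Γ.FiniteIndex] in
theorem genValues_injective (A : Type*) [AddCommGroup A] :
    Function.Injective (genValues Γ A) := by
  rw [injective_iff_map_eq_zero]
  intro φ hφ
  have h := (isCocycle_homCocycle φ).eq_zero (fun x => congrFun (congrArg Prod.fst hφ) x)
    (fun x => congrFun (congrArg Prod.snd hφ) x)
  rw [← baseHom_homCocycle φ]
  exact AddMonoidHom.ext fun γ => h _ _

theorem finite_hom (A : Type*) [AddCommGroup A] [Finite A] : Finite (Additive Γ →+ A) :=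
  Finite.of_injective _ (genValues_injective A)

theorem hom_int_moduleFinite : Module.Finite ℤ (Additive Γ →+ ℤ) :=
  Module.Finite.of_injective (genValues Γ ℤ).toIntLinearMap (genValues_injective ℤ)

variable {R k : Type*} [CommRing R] [Field k]

/-- A parabolic homomorphism over a residue field lifts. -/
theorem exists_parHom_lift (hneg : (-1 : SL(2, ℤ)) ∈ Γ) (h2 : (2 : k) ≠ 0)
    (hR2 : ∀ r : R, 2 * r = 0 → r = 0) (f : R →+* k) (hf : Function.Surjective f)
    {φ : Additive Γ →+ k} (hφ : φ ∈ parHom Γ k) :
    ∃ ψ ∈ parHom Γ R, f.toAddMonoidHom.comp ψ = φ := by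
  classical
  have hnegX := neg_one_smul_cos hneg
  have hSS : ∀ x : Cos Γ, S • S • x = x := fun x => by rw [← mul_smul, ← pow_two, S_sq_eq, hnegX]
  obtain ⟨v, hv⟩ := (isCocycle_homCocycle φ).exists_gauge (S * T)
    fun n x hx => (isParCocycle_homCocycle hφ).toEll.2 _ x hx (isElliptic_pow isElliptic_ST n)
  obtain ⟨a, ha_def⟩ : ∃ a, a = homCocycle φ + cobound v := ⟨_, rfl⟩
  have ha : IsParCocycle a := ha_def ▸ (isParCocycle_homCocycle hφ).add (isParCocycle_cobound v)
  have haφ : baseHom a ha.1 = φ := AddMonoidHom.ext fun γ => by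
    subst ha_def
    show homCocycle φ ((Additive.toMul γ : Γ) : SL(2, ℤ)) _ + cobound v _ _ = _
    rw [homCocycle_base, cobound, smul_base_of_mem (Additive.toMul γ).2, sub_self, add_zero]
    rfl
  have haU : ∀ x, a (S * T) x = 0 := fun x => by rw [ha_def]; exact hv x
  have haT : ∀ x, a T x = -a S (T • x) := fun x => by
    have h1 := haU x
    rw [ha.1.ST_apply] at h1
    exact eq_neg_of_add_eq_zero_right h1
  have hanti : ∀ x, a S (S • x) + a S x = 0 := fun x => by
    rw [← ha.1, ← pow_two, S_sq_eq]
    exact ha.2 _ x (hnegX x) isElliptic_neg_one.trace_sq_le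
  have hface : ∀ o : PowOrbits (T : SL(2, ℤ)) (Cos Γ),
      ∑ x ∈ Finset.univ.filter (fun x : Cos Γ =>
        (Quotient.mk'' x : PowOrbits (T : SL(2, ℤ)) (Cos Γ)) = o), a S x = 0 := by
    intro o
    rw [Finset.sum_filter, sum_eq_sum_orbits (T : SL(2, ℤ))]
    refine (Finset.sum_eq_single o ?_ (fun h => absurd (Finset.mem_univ o) h)).trans ?_
    · intro o' _ ho'
      refine Finset.sum_eq_zero fun i _ => if_neg fun h => ho' ?_
      rwa [mk_pow_smul, Quotient.out_eq'] at h
    · simp only [mk_pow_smul, Quotient.out_eq', if_true]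
      have hfix : (T : SL(2, ℤ)) ^ MulAction.period T o.out • (T⁻¹ • o.out) = T⁻¹ • o.out := by
        rw [← mul_smul, Commute.eq ((Commute.refl (T : SL(2, ℤ))).inv_right.pow_left _), mul_smul,
          MulAction.pow_period_smul]
      have h := ha.2 _ _ hfix (by rw [trSL_T_pow]; norm_num)
      rw [ha.1.map_pow] at h
      simp only [haT, Finset.sum_neg_distrib, neg_eq_zero] at h
      rw [← h]
      refine Finset.sum_congr rfl fun i _ => ?_
      rw [← mul_smul, ← mul_smul, ← pow_succ', pow_succ, mul_inv_cancel_right]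
  obtain ⟨lift, hlift⟩ := hf.hasRightInverse
  let ε := Fintype.equivFin (Cos Γ)
  let e₀ : Cos Γ → R := fun x =>
    if ε x < ε (S • x) then lift (a S x) else if ε (S • x) < ε x then -lift (a S (S • x)) else 0
  have he₀anti : ∀ x, e₀ (S • x) + e₀ x = 0 := by
    intro x
    simp only [e₀, hSS]
    rcases lt_trichotomy (ε x) (ε (S • x)) with h | h | h
    · rw [if_neg h.asymm, if_pos h, if_pos h, neg_add_cancel]
    · simp [h]
    · rw [if_pos h, if_neg h.asymm, if_pos h, add_neg_cancel]
  have he₀ : ∀ x, f (e₀ x) = a S x := by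
    intro x
    simp only [e₀]
    rcases lt_trichotomy (ε x) (ε (S • x)) with h | h | h
    · rw [if_pos h, hlift]
    · rw [if_neg h.not_lt, if_neg h.symm.not_lt, map_zero]
      have h' : x = S • x := ε.injective h
      have h1 := hanti x
      rw [← h', ← two_mul] at h1
      exact ((mul_eq_zero.mp h1).resolve_left h2).symm
    · rw [if_neg h.asymm, if_pos h, map_neg, hlift]
      linear_combination -hanti x
  let face : (Cos Γ → R) → PowOrbits (T : SL(2, ℤ)) (Cos Γ) → R := fun e o =>
    ∑ x ∈ Finset.univ.filter (fun x : Cos Γ =>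
      (Quotient.mk'' x : PowOrbits (T : SL(2, ℤ)) (Cos Γ)) = o), e x
  -- face vectors of antisymmetric functions with values in the kernel
  let L : AddSubgroup (PowOrbits (T : SL(2, ℤ)) (Cos Γ) → R) :=
    { carrier := {r | ∃ e : Cos Γ → R, (∀ x, e (S • x) + e x = 0) ∧ (∀ x, f (e x) = 0) ∧ face e = r}
      zero_mem' := ⟨0, by simp, by simp, by funext o; simp [face]⟩
      add_mem' := by
        rintro r r' ⟨e, h1, h1', rfl⟩ ⟨e', h3, h3', rfl⟩
        exact ⟨e + e', fun x => by simp only [Pi.add_apply]; linear_combination h1 x + h3 x,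
          fun x => by simp [h1', h3'], by funext o; simp [face, Finset.sum_add_distrib]⟩
      neg_mem' := by
        rintro r ⟨e, h1, h1', rfl⟩
        exact ⟨-e, fun x => by simp only [Pi.neg_apply]; linear_combination -h1 x,
          fun x => by simp [h1'], by funext o; simp [face, Finset.sum_neg_distrib]⟩ }
  let D : Cos Γ → R → PowOrbits (T : SL(2, ℤ)) (Cos Γ) → R :=
    fun x c => Pi.single (Quotient.mk'' x) c
  have hface1 : ∀ y c, face (Pi.single y c) = D y c := by
    intro y c
    funext o
    simp only [face, D, Finset.sum_filter]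
    rw [Finset.sum_eq_single y]
    · simp [Pi.single_apply, eq_comm]
    · intro b _ hb; simp [hb]
    · simp
  have hstep : ∀ (g : SL(2, ℤ)) (x : Cos Γ) (c : R), f c = 0 → D (g • x) c - D x c ∈ L := by
    intro g
    have hg : g ∈ Subgroup.closure ({S, T} : Set SL(2, ℤ)) := by
      rw [SpecialLinearGroup.SL2Z_generators]; trivial
    induction hg using Subgroup.closure_induction with
    | mem y hy =>
      intro x c hc
      rcases hy with rfl | rfl
      · refine ⟨Pi.single (S • x) c - Pi.single x c, fun z => ?_, fun z => ?_, ?_⟩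
        · have e1 : S • z = S • x ↔ z = x := (MulAction.injective (S : SL(2, ℤ))).eq_iff
          have e2 : S • z = x ↔ z = S • x := ⟨fun h => by rw [← h, hSS], fun h => by rw [h, hSS]⟩
          simp only [Pi.sub_apply, Pi.single_apply, e1, e2]
          ring
        · simp only [Pi.sub_apply, Pi.single_apply]
          split_ifs <;> simp [hc]
        · rw [← hface1, ← hface1]
          funext o; simp [face, Finset.sum_sub_distrib]
      · simp only [D, mk_smul_self, sub_self]; exact L.zero_mem
    | one => intro x c _; rw [one_smul, sub_self]; exact L.zero_mem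
    | mul p q _ _ hp hq =>
      intro x c hc
      have := L.add_mem (hp (q • x) c hc) (hq x c hc)
      rwa [sub_add_sub_cancel, ← mul_smul] at this
    | inv p _ hp =>
      intro x c hc
      have := L.neg_mem (hp (p⁻¹ • x) c hc)
      rwa [smul_inv_smul, neg_sub] at this
  have hs_mem : face e₀ ∈ L := by
    have htot : ∑ o, face e₀ o = 0 := by
      simp only [face]
      rw [Finset.sum_fiberwise Finset.univ
        (fun x : Cos Γ => (Quotient.mk'' x : PowOrbits (T : SL(2, ℤ)) (Cos Γ))) e₀]
      refine hR2 _ ?_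
      rw [two_mul]
      nth_rewrite 1 [← Equiv.sum_comp (MulAction.toPerm (S : SL(2, ℤ))) e₀]
      rw [← Finset.sum_add_distrib]
      exact Finset.sum_eq_zero fun x _ => he₀anti x
    have hker : ∀ o, f (face e₀ o) = 0 := fun o => by
      simp only [face, map_sum, he₀]; exact hface o
    have hsum : face e₀ = ∑ o, (D o.out (face e₀ o) - D (cosBase Γ) (face e₀ o)) := by
      rw [Finset.sum_sub_distrib]
      have h0 : ∑ o, D (cosBase Γ) (face e₀ o) = 0 := by
        show ∑ o, AddMonoidHom.single (fun _ : PowOrbits (T : SL(2, ℤ)) (Cos Γ) => R)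
          (Quotient.mk'' (cosBase Γ)) (face e₀ o) = 0
        rw [← map_sum, htot, map_zero]
      rw [h0, sub_zero]
      simp only [D, Quotient.out_eq']
      exact (Finset.univ_sum_single (face e₀)).symm
    rw [hsum]
    refine sum_mem fun o _ => ?_
    have := hstep o.out.out (cosBase Γ) _ (hker o)
    rwa [out_smul_base] at this
  obtain ⟨e₁, he₁anti, he₁f, he₁face⟩ := hs_mem
  obtain ⟨aR, b, F, hA, -, -, hAS, -, -, hAU, -, -⟩ :=
    exists_quad_of_values hnegX (e₀ - e₁) 0 0
      (fun x => by simp only [Pi.sub_apply]; linear_combination he₀anti x - he₁anti x)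
      (fun x => by simp) (fun x => by simp)
      (fun x hx => by
        have h1 := he₀anti x
        have h3 := he₁anti x
        rw [hx, ← two_mul] at h1 h3
        simp [hR2 _ h1, hR2 _ h3])
  have hzero : ∀ o, face (e₀ - e₁) o = 0 := fun o => by
    simp only [face, Pi.sub_apply, Finset.sum_sub_distrib]
    exact sub_eq_zero.mpr (congrFun he₁face o).symm
  have hpar : IsParCocycle aR := hA.isParCocycle hnegX fun n x hx => by
    have hRT : ∀ y, aR T y = -(e₀ - e₁) (T • y) := fun y => by
      have h1 := hAU y
      rw [hA.1.ST_apply, hAS] at h1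
      exact eq_neg_of_add_eq_zero_right h1
    rw [hA.1.map_pow]
    simp only [hRT, Finset.sum_neg_distrib, neg_eq_zero]
    have h1 := sum_range_eq_zero_of_orbit_sums (e₀ - e₁) hzero n (T • x)
      (by rw [← mul_smul, ← pow_succ, pow_succ', mul_smul, hx])
    rw [← h1]
    refine Finset.sum_congr rfl fun i _ => ?_
    rw [← mul_smul, ← mul_smul, ← pow_succ, pow_succ']
  refine ⟨baseHom aR hpar.1, baseHom_mem_parHom hpar, ?_⟩
  have heq : IsCocycle (fun g x => f (aR g x) - a g x) := fun g h x => by
    simp only [hpar.1 g h x, ha.1 g h x, map_add]; ring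
  have hz := heq.eq_zero (fun x => by simp [hAS, he₀, he₁f]) (fun x => by simp [hAU, haU])
  rw [← haφ]
  exact AddMonoidHom.ext fun γ => sub_eq_zero.mp (hz _ _)

end FLTAgent.LevelRaise
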