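import Fermat.Agent.LevelRaise.HeckeComm
import Fermat.Agent.Periods.HeckeLattice
import Fermat.Agent.Periods.Main

/-!
# Integral parabolic homomorphisms as cusp forms
-/

set_option autoImplicit false

noncomputable section

namespace FLTAgent.LevelRaise

open scoped MatrixGroups
open CongruenceSubgroup FLTAgent.Periods

variable {M : ℕ} [NeZero M]

/-- The homomorphism on `ParQuot M` of a parabolic homomorphism. -/
def toParQuot (z : parHom (Gamma0 M) ℤ) : ParQuot M →+ ℤ :=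
  parLift z.1 fun γ hγ => z.2 γ hγ

/-- The cusp form with given integral real periods. -/
def latForm : parHom (Gamma0 M) ℤ →+ CuspForm (Gamma0 M) 2 where
  toFun z := latticeForm (hdim M) (toParQuot z)
  map_zero' := by
    rw [show toParQuot (0 : parHom (Gamma0 M) ℤ) = 0 from
      parQuot_hom_ext (AddMonoidHom.ext fun _ => rfl), map_zero]
  map_add' z w := by
    rw [← map_add]
    exact congrArg _ (parQuot_hom_ext (AddMonoidHom.ext fun _ => rfl))

theorem latForm_re_period (z : parHom (Gamma0 M) ℤ) (γ : Gamma0 M) :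
    (parPeriod M (latForm z) (parProj M (Additive.ofMul γ))).re = (z.1 (Additive.ofMul γ) : ℝ) :=
  DFunLike.congr_fun (rePeriod_latticeForm (hdim M) (toParQuot z)) (parProj M (Additive.ofMul γ))

theorem eq_of_re_periods {f g : CuspForm (Gamma0 M) 2}
    (h : ∀ γ : Gamma0 M, (parPeriod M f (parProj M (Additive.ofMul γ))).re
      = (parPeriod M g (parProj M (Additive.ofMul γ))).re) : f = g :=
  (rePeriod_bijective_of_dim (hdim M)).1 <|
    parQuot_hom_ext (AddMonoidHom.ext fun x => h (Additive.toMul x))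

theorem latForm_injective : Function.Injective (latForm (M := M)) := fun z w h => by
  refine Subtype.ext (AddMonoidHom.ext fun γ => ?_)
  obtain ⟨γ, rfl⟩ := Additive.ofMul.surjective γ
  have h1 := latForm_re_period z γ
  rw [h, latForm_re_period] at h1
  exact_mod_cast h1.symm

theorem mapGL_eq_of_map {X : GL (Fin 2) ℝ} {Y : Matrix (Fin 2) (Fin 2) ℤ} {γ δ : SL(2, ℤ)}
    {X' : GL (Fin 2) ℝ} {Y' : Matrix (Fin 2) (Fin 2) ℤ}
    (hX : X.val = Y.map (Int.castRingHom ℝ)) (hX' : X'.val = Y'.map (Int.castRingHom ℝ))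
    (h : Y * matSL γ = matSL δ * Y') :
    X * (γ : GL (Fin 2) ℝ) = (δ : GL (Fin 2) ℝ) * X' := by
  refine Units.ext ?_
  rw [Units.val_mul, Units.val_mul, hX, hX',
    show ((γ : GL (Fin 2) ℝ)).val = (matSL γ).map (Int.castRingHom ℝ) from rfl,
    show ((δ : GL (Fin 2) ℝ)).val = (matSL δ).map (Int.castRingHom ℝ) from rfl,
    ← Matrix.map_mul, ← Matrix.map_mul, h]

theorem val_tRep {ℓ : ℕ} (hℓ : ℓ ≠ 0) (i : Option (ZMod ℓ)) :
    (tRep ℓ i).val = (tRepZ ℓ i).map (Int.castRingHom ℝ) := by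
  rcases i with _ | j
  · show (ModularForm.heckeDiagMatrix ℓ).val = _
    rw [ModularForm.val_heckeDiagMatrix hℓ]
    ext a b; fin_cases a <;> fin_cases b <;> simp [tRepZ]
  · show (ModularForm.heckeMatrix ℓ j.val).val = _
    rw [ModularForm.val_heckeMatrix hℓ]
    ext a b; fin_cases a <;> fin_cases b <;> simp [tRepZ, -ZMod.natCast_val]

omit [NeZero M] in
theorem isTransfer_of_transferZ {ℓ : ℕ} [NeZero ℓ] {γ : Gamma0 M}
    {σ : Option (ZMod ℓ) → Option (ZMod ℓ)} {δ : Option (ZMod ℓ) → Gamma0 M}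
    (h : IsTransferZ (tRepZ ℓ) (γ : SL(2, ℤ)) σ δ) : IsTransfer (tRep ℓ) γ σ δ := fun i =>
  mapGL_eq_of_map (val_tRep (NeZero.ne ℓ) i) (val_tRep (NeZero.ne ℓ) (σ i)) (h i)

/-- The periods of `T ℓ f`, for any choice of cofactors. -/
theorem parPeriod_heckeTLin_Z {ℓ : ℕ} [NeZero ℓ] (hℓ : ℓ.Prime) (hℓM : ¬ ℓ ∣ M)
    (f : CuspForm (Gamma0 M) 2) (γ : Gamma0 M)
    {σ : Option (ZMod ℓ) → Option (ZMod ℓ)} {δ : Option (ZMod ℓ) → Gamma0 M}
    (h : IsTransferZ (tRepZ ℓ) (γ : SL(2, ℤ)) σ δ) :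
    parPeriod M (CuspForm.heckeTLin 2 hℓ hℓM f) (parProj M (Additive.ofMul γ))
      = ∑ i, parPeriod M f (parProj M (Additive.ofMul (δ i))) :=
  parPeriod_heckeTLin f hℓ hℓM γ
    (Equiv.ofBijective σ
      (Finite.injective_iff_bijective.mp ((distinctFam_tRepZ ℓ hℓ.one_lt).injective h)))
    δ (isTransfer_of_transferZ h)

/-- `latForm` intertwines the two operators `T ℓ`. -/
theorem latForm_heckeOp {ℓ : ℕ} [NeZero ℓ] (hℓ : ℓ.Prime) (hℓM : ¬ ℓ ∣ M)
    (z : parHom (Gamma0 M) ℤ) :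
    latForm ⟨heckeOp M ℓ z.1, heckeOp_mem_parHom z.2⟩
      = CuspForm.heckeTLin 2 hℓ hℓM (latForm z) := by
  refine eq_of_re_periods fun γ => ?_
  obtain ⟨σ, δ, h⟩ := exists_transfer_tRepZ hℓ hℓM γ
  rw [latForm_re_period, parPeriod_heckeTLin_Z hℓ hℓM _ γ h, Complex.re_sum]
  simp only [latForm_re_period, heckeOp_apply hℓ hℓM _ γ h, Int.cast_sum]

variable {N q : ℕ} [NeZero N] [NeZero q]

/-- On the kernel of the adjoint degeneracy map, `U q` is minus the involution. -/
theorem latForm_wOp (D : WData N q) (hqM : q ∣ N * q) (z : parHom (Gamma0 (N * q)) ℤ)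
    (hz : cores (gamma0_mul_le N q) (D.wOp z.1) = 0) :
    latForm ⟨-(D.wOp z.1), neg_mem (D.wOp_mem_parHom z.2)⟩
      = CuspForm.heckeULin 2 hqM (latForm z) := by
  refine eq_of_re_periods fun γ => ?_
  obtain ⟨σ, δ, h⟩ := D.exists_transfer_U γ
  have hd : DistinctFam fun j : ZMod q => tRepZ q (some j) := fun i j d e =>
    Option.some_injective _ (distinctFam_tRepZ q D.prime.one_lt (some i) (some j) d e)
  rw [latForm_re_period, parPeriod_heckeULin _ hqM γ
      (Equiv.ofBijective σ (Finite.injective_iff_bijective.mp (hd.injective h))) δ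
      (fun i => mapGL_eq_of_map (val_tRep (NeZero.ne q) (some i))
        (val_tRep (NeZero.ne q) (some (σ i))) (h i)), Complex.re_sum]
  simp only [latForm_re_period, AddMonoidHom.neg_apply]
  have h1 := D.cores_wOp_apply z.1 γ h
  rw [hz, AddMonoidHom.zero_apply] at h1
  rw [← Int.cast_sum, Int.cast_inj]
  linarith

end FLTAgent.LevelRaise
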