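import Fermat.Agent.LevelRaise.Degeneracy
import Mathlib.Data.Nat.Prime.Infinite

/-!
# `T ℓ` commutes with the transfer
-/

set_option autoImplicit false

noncomputable section

namespace FLTAgent.LevelRaise

open scoped MatrixGroups
open CongruenceSubgroup

theorem map_cores {A B : Type*} [AddCommGroup A] [AddCommGroup B] {Γ Γ' : Subgroup SL(2, ℤ)}
    [Γ'.FiniteIndex] (h : Γ' ≤ Γ) (f : A →+ B) (φ : Additive Γ' →+ A) :
    cores h (f.comp φ) = f.comp (cores h φ) := by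
  classical
  refine AddMonoidHom.ext fun γ => ?_
  obtain ⟨γ, rfl⟩ := Additive.ofMul.surjective γ
  let := Fintype.ofFinite (Cos Γ')
  simp only [cores_apply, AddMonoidHom.comp_apply, map_sum]

theorem map_mem_parHom {A B : Type*} [AddCommGroup A] [AddCommGroup B] {Γ : Subgroup SL(2, ℤ)}
    (f : A →+ B) {φ : Additive Γ →+ A} (hφ : φ ∈ parHom Γ A) : f.comp φ ∈ parHom Γ B :=
  fun γ hγ => by rw [AddMonoidHom.comp_apply, hφ γ hγ, map_zero]

theorem eq_of_pairing_eq {k : Type*} [Field k] {Γ : Subgroup SL(2, ℤ)} [Γ.FiniteIndex]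
    (hneg : (-1 : SL(2, ℤ)) ∈ Γ) (h2 : (2 : k) ≠ 0) {a b : Additive Γ →+ k}
    (ha : a ∈ parHom Γ k) (hb : b ∈ parHom Γ k)
    (h : ∀ ψ ∈ parHom Γ k, pairing a ψ = pairing b ψ) : a = b := by
  refine sub_eq_zero.mp (eq_zero_of_pairing_eq_zero hneg h2 (sub_mem ha hb) fun ψ hψ => ?_)
  have h1 := pairing_add_left hneg h2 (sub_mem ha hb) hb hψ
  rw [sub_add_cancel, h ψ hψ] at h1
  exact left_eq_add.mp (by rw [add_comm] at h1; exact h1)

variable {N q ℓ : ℕ} [NeZero N] [NeZero q] [NeZero ℓ]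

theorem heckeOp_cores_field {k : Type*} [Field k] (h2 : (2 : k) ≠ 0) (hℓ : ℓ.Prime)
    (hℓN : ¬ ℓ ∣ N * q) {z : Additive (Gamma0 (N * q)) →+ k}
    (hz : z ∈ parHom (Gamma0 (N * q)) k) :
    cores (gamma0_mul_le N q) (heckeOp (N * q) ℓ z)
      = heckeOp N ℓ (cores (gamma0_mul_le N q) z) := by
  have hℓN' : ¬ ℓ ∣ N := fun hd => hℓN (hd.trans (dvd_mul_right N q))
  have hn := neg_one_mem_gamma0
  refine eq_of_pairing_eq (hn N) h2 (cores_mem_parHom _ (heckeOp_mem_parHom hz))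
    (heckeOp_mem_parHom (cores_mem_parHom _ hz)) fun φ hφ => ?_
  rw [← pairing_res_right (hn N) h2 _ (hn _) hφ (heckeOp_mem_parHom hz),
    pairing_heckeOp h2 hℓ hℓN hz (resHom_mem_parHom _ hφ), WData.heckeOp_resHom hℓ hℓN,
    pairing_res_right (hn N) h2 _ (hn _) (heckeOp_mem_parHom hφ) hz,
    pairing_heckeOp h2 hℓ hℓN' (cores_mem_parHom _ hz) hφ]

theorem heckeOp_cores_int (hℓ : ℓ.Prime)
    (hℓN : ¬ ℓ ∣ N * q) {z : Additive (Gamma0 (N * q)) →+ ℤ}
    (hz : z ∈ parHom (Gamma0 (N * q)) ℤ) :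
    cores (gamma0_mul_le N q) (heckeOp (N * q) ℓ z)
      = heckeOp N ℓ (cores (gamma0_mul_le N q) z) := by
  refine AddMonoidHom.ext fun γ => sub_eq_zero.mp ?_
  generalize hv : cores (gamma0_mul_le N q) (heckeOp (N * q) ℓ z) γ
    - heckeOp N ℓ (cores (gamma0_mul_le N q) z) γ = v
  obtain ⟨p, hpv, hp⟩ := Nat.exists_infinite_primes (v.natAbs + 3)
  have : Fact p.Prime := ⟨hp⟩
  have h2 : (2 : ZMod p) ≠ 0 := by
    intro h
    have h' : ((2 : ℕ) : ZMod p) = 0 := by exact_mod_cast h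
    have := Nat.le_of_dvd (by norm_num) ((ZMod.natCast_eq_zero_iff _ _).mp h')
    omega
  have h := DFunLike.congr_fun (heckeOp_cores_field h2 hℓ hℓN
    (map_mem_parHom (Int.castAddHom (ZMod p)) hz)) γ
  simp only [map_heckeOp, map_cores, AddMonoidHom.comp_apply] at h
  rw [← sub_eq_zero, ← map_sub, hv] at h
  refine Int.eq_zero_of_dvd_of_natAbs_lt_natAbs ((ZMod.intCast_zmod_eq_zero_iff_dvd v p).mp h) ?_
  simp only [Int.natAbs_natCast]
  omega

end FLTAgent.LevelRaise
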