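import Fermat.Agent.LevelRaise.AlgLemmas
import Fermat.Agent.LevelRaise.FormsBridge
import Fermat.Agent.LevelRaise.HeckeComm
import Fermat.Agent.LevelRaise.IntegralLift

/-!
# The operators as linear maps
-/

set_option autoImplicit false

noncomputable section

namespace FLTAgent.LevelRaise

open scoped MatrixGroups
open CongruenceSubgroup

section Additivity

variable {A : Type*} [AddCommGroup A]

theorem cores_add {Γ Γ' : Subgroup SL(2, ℤ)} [Γ'.FiniteIndex] (h : Γ' ≤ Γ)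
    (φ ψ : Additive Γ' →+ A) : cores h (φ + ψ) = cores h φ + cores h ψ := by
  classical
  refine AddMonoidHom.ext fun γ => ?_
  obtain ⟨γ, rfl⟩ := Additive.ofMul.surjective γ
  let := Fintype.ofFinite (Cos Γ')
  simp only [cores_apply, AddMonoidHom.add_apply, Finset.sum_add_distrib]

variable (N q : ℕ) [NeZero N] [NeZero q]

/-- The transfer to level `N`, as a homomorphism of parabolic classes. -/
def coresPar : parHom (Gamma0 (N * q)) A →+ parHom (Gamma0 N) A :=
  AddMonoidHom.mk' (fun z => ⟨cores (gamma0_mul_le N q) z.1, cores_mem_parHom _ z.2⟩)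
    fun z w => Subtype.ext (cores_add _ z.1 w.1)

theorem coe_coresPar (z : parHom (Gamma0 (N * q)) A) :
    (coresPar N q z).1 = cores (gamma0_mul_le N q) z.1 := rfl

variable {N q}

/-- The involution on parabolic classes. -/
def WData.wPar (D : WData N q) : parHom (Gamma0 (N * q)) A →+ parHom (Gamma0 (N * q)) A :=
  AddMonoidHom.mk' (fun z => ⟨D.wOp z.1, D.wOp_mem_parHom z.2⟩)
    fun _ _ => Subtype.ext (AddMonoidHom.ext fun _ => rfl)

theorem WData.coe_wPar (D : WData N q) (z : parHom (Gamma0 (N * q)) A) :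
    (D.wPar z).1 = D.wOp z.1 := rfl

theorem WData.map_wOp {B : Type*} [AddCommGroup B] (D : WData N q) (f : A →+ B)
    (z : Additive (Gamma0 (N * q)) →+ A) : D.wOp (f.comp z) = f.comp (D.wOp z) := rfl

/-- The degeneracy map on parabolic classes. -/
def WData.degPar (D : WData N q) :
    parHom (Gamma0 N) A × parHom (Gamma0 N) A →+ parHom (Gamma0 (N * q)) A :=
  AddMonoidHom.mk' (fun x => ⟨D.deg x.1.1 x.2.1, D.deg_mem_parHom x.1.2 x.2.2⟩)
    fun x y => Subtype.ext (by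
      have h : ∀ u v : Additive (Gamma0 (N * q)) →+ A, D.wOp (u + v) = D.wOp u + D.wOp v :=
        fun _ _ => AddMonoidHom.ext fun _ => rfl
      simp only [WData.deg, Prod.fst_add, Prod.snd_add, AddSubgroup.coe_add, resHom,
        AddMonoidHom.add_comp, h]
      abel)

theorem WData.coe_degPar (D : WData N q) (x : parHom (Gamma0 N) A × parHom (Gamma0 N) A) :
    (D.degPar x).1 = D.deg x.1.1 x.2.1 := rfl

/-- The adjoint of the degeneracy map. -/
def WData.adjPar (D : WData N q) :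
    parHom (Gamma0 (N * q)) A →+ parHom (Gamma0 N) A × parHom (Gamma0 N) A :=
  (coresPar N q).prod ((coresPar N q).comp D.wPar)

variable (M ℓ : ℕ) [NeZero M] [NeZero ℓ] (A)

/-- The operator `T ℓ` on parabolic classes. -/
def heckeEnd : Module.End ℤ (parHom (Gamma0 M) A) :=
  (AddMonoidHom.mk' (fun z : parHom (Gamma0 M) A =>
      (⟨heckeOp M ℓ z.1, heckeOp_mem_parHom z.2⟩ : parHom (Gamma0 M) A))
    fun z w => Subtype.ext (by
      simp only [heckeOp, conjPull, AddSubgroup.coe_add, AddMonoidHom.add_comp]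
      exact cores_add _ _ _)).toIntLinearMap

theorem coe_heckeEnd (z : parHom (Gamma0 M) A) :
    (heckeEnd A M ℓ z).1 = heckeOp M ℓ z.1 := rfl

end Additivity

variable {M : ℕ} [NeZero M] {p : ℕ} [Fact p.Prime]

/-- Reduction modulo `p`. -/
def redPar (M p : ℕ) : parHom (Gamma0 M) ℤ →+ parHom (Gamma0 M) (ZMod p) :=
  AddMonoidHom.mk' (fun z => ⟨(Int.castAddHom (ZMod p)).comp z.1, map_mem_parHom _ z.2⟩)
    fun z w => Subtype.ext (AddMonoidHom.comp_add _ _ _)

theorem coe_redPar (M p : ℕ) (z : parHom (Gamma0 M) ℤ) :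
    (redPar M p z).1 = (Int.castAddHom (ZMod p)).comp z.1 := rfl

theorem two_ne_zero_zmod (hp2 : p ≠ 2) : (2 : ZMod p) ≠ 0 := by
  intro h
  have h2 : ((2 : ℕ) : ZMod p) = 0 := by exact_mod_cast h
  rw [ZMod.natCast_eq_zero_iff] at h2
  exact hp2 ((Nat.prime_dvd_prime_iff_eq Fact.out Nat.prime_two).mp h2)

theorem redPar_surjective (hp2 : p ≠ 2) : Function.Surjective (redPar M p) := fun φ => by
  obtain ⟨ψ, hψ, h⟩ := exists_parHom_lift (neg_one_mem_gamma0 M) (two_ne_zero_zmod hp2)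
    (R := ℤ) (fun r hr => by omega) (Int.castRingHom (ZMod p)) ZMod.intCast_surjective φ.2
  exact ⟨⟨ψ, hψ⟩, Subtype.ext h⟩

omit [NeZero M] in
theorem exists_eq_smul_of_redPar {z : parHom (Gamma0 M) ℤ} (hz : redPar M p z = 0) :
    ∃ w, z = (p : ℤ) • w := by
  have hp : (p : ℤ) ≠ 0 := Int.natCast_ne_zero.mpr (NeZero.ne p)
  have hd : ∀ γ, (p : ℤ) ∣ z.1 γ := fun γ =>
    (ZMod.intCast_zmod_eq_zero_iff_dvd _ p).mp (DFunLike.congr_fun (congrArg Subtype.val hz) γ)
  choose w hw using hd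
  let w' : Additive (Gamma0 M) →+ ℤ := AddMonoidHom.mk' w fun a b => by
    apply mul_left_cancel₀ hp
    rw [mul_add, ← hw, ← hw, ← hw, map_add]
  refine ⟨⟨w', fun γ hγ => mul_left_cancel₀ hp ?_⟩, Subtype.ext (AddMonoidHom.ext fun γ => hw γ)⟩
  show (p : ℤ) * w _ = _
  rw [← hw, mul_zero]
  exact z.2 γ hγ

theorem smul_parHom_zmod (z : parHom (Gamma0 M) (ZMod p)) : (p : ℤ) • z = 0 :=
  Subtype.ext (AddMonoidHom.ext fun γ => by
    simp only [AddSubgroup.coe_zsmul, AddMonoidHom.smul_apply, zsmul_eq_mul, Int.cast_natCast,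
      ZMod.natCast_self, zero_mul, ZeroMemClass.coe_zero, AddMonoidHom.zero_apply])

theorem redPar_heckeEnd (ℓ : ℕ) [NeZero ℓ] (z : parHom (Gamma0 M) ℤ) :
    redPar M p (heckeEnd ℤ M ℓ z) = heckeEnd (ZMod p) M ℓ (redPar M p z) :=
  Subtype.ext (map_heckeOp (Int.castAddHom (ZMod p)) z.1).symm

theorem latForm_heckeEnd (ℓ : ℕ) [NeZero ℓ] (hℓ : ℓ.Prime) (hℓM : ¬ ℓ ∣ M)
    (z : parHom (Gamma0 M) ℤ) :
    latForm (heckeEnd ℤ M ℓ z) = CuspForm.heckeTLin 2 hℓ hℓM (latForm z) :=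
  latForm_heckeOp hℓ hℓM z

theorem commute_heckeEnd_int {ℓ r : ℕ} [NeZero ℓ] [NeZero r] (hℓ : ℓ.Prime) (hr : r.Prime)
    (hℓM : ¬ ℓ ∣ M) (hrM : ¬ r ∣ M) : Commute (heckeEnd ℤ M ℓ) (heckeEnd ℤ M r) :=
  LinearMap.ext fun z => latForm_injective <| by
    rw [Module.End.mul_apply, Module.End.mul_apply, latForm_heckeEnd ℓ hℓ hℓM,
      latForm_heckeEnd r hr hrM, latForm_heckeEnd r hr hrM, latForm_heckeEnd ℓ hℓ hℓM]
    exact LinearMap.congr_fun (CuspForm.heckeTLin_comm 2 hℓ hℓM hr hrM) (latForm z)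

theorem commute_heckeEnd_zmod (hp2 : p ≠ 2) {ℓ r : ℕ} [NeZero ℓ] [NeZero r] (hℓ : ℓ.Prime)
    (hr : r.Prime) (hℓM : ¬ ℓ ∣ M) (hrM : ¬ r ∣ M) :
    Commute (heckeEnd (ZMod p) M ℓ) (heckeEnd (ZMod p) M r) :=
  commute_of_surjective (redPar M p) (redPar_surjective hp2) (redPar_heckeEnd ℓ) (redPar_heckeEnd r)
    (commute_heckeEnd_int hℓ hr hℓM hrM)

theorem parHom_int_moduleFinite : Module.Finite ℤ (parHom (Gamma0 M) ℤ) :=
  haveI := hom_int_moduleFinite (Γ := Gamma0 M)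
  Module.Finite.of_injective ((parHom (Gamma0 M) ℤ).subtype.toIntLinearMap) Subtype.val_injective

theorem parHom_zmod_finite : Finite (parHom (Gamma0 M) (ZMod p)) :=
  haveI := finite_hom (Γ := Gamma0 M) (ZMod p)
  Subtype.finite

end FLTAgent.LevelRaise
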