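import Mathlib

/-!
# Algebra for lifting eigenclasses
-/

set_option autoImplicit false

noncomputable section

namespace FLTAgent.LevelRaise

section PolyAct

variable {ι : Type*} {A : Type*} [Ring A]

/-- The action of the polynomial ring through a commuting family. -/
def polyAct (T : ι → A) (h : ∀ i j, Commute (T i) (T j)) : MvPolynomial ι ℤ →+* A :=
  letI : CommRing (Subring.closure (Set.range T)) :=
    { (Subring.closure (Set.range T)).toRing with
      mul_comm := fun x y => by
        have := Subring.isMulCommutative_closure (s := Set.range T) fun a ha b hb => by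
          obtain ⟨i, rfl⟩ := ha
          obtain ⟨j, rfl⟩ := hb
          exact h i j
        exact Subtype.ext (setLike_mul_comm x.2 y.2) }
  (Subring.closure (Set.range T)).subtype.comp
    (MvPolynomial.eval₂Hom (Int.castRingHom (Subring.closure (Set.range T)))
      fun i => ⟨T i, Subring.subset_closure ⟨i, rfl⟩⟩)

@[simp] theorem polyAct_X (T : ι → A) (h : ∀ i j, Commute (T i) (T j)) (i : ι) :
    polyAct T h (MvPolynomial.X i) = T i := by
  simp [polyAct]

variable {R R' : Type*} [Semiring R] [Semiring R'] {V V' : Type*} [AddCommGroup V] [Module R V]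
  [AddCommGroup V'] [Module R' V']

/-- Maps commuting with the variables commute with all polynomials. -/
theorem intertwine (f : MvPolynomial ι ℤ →+* Module.End R V)
    (g : MvPolynomial ι ℤ →+* Module.End R' V') (F : V →+ V')
    (h : ∀ i v, F (f (MvPolynomial.X i) v) = g (MvPolynomial.X i) (F v)) (r : MvPolynomial ι ℤ) :
    ∀ v, F (f r v) = g r (F v) := by
  induction r using MvPolynomial.induction_on with
  | C a =>
    intro v
    simp [show (MvPolynomial.C a : MvPolynomial ι ℤ) = (a : MvPolynomial ι ℤ) from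
      eq_intCast MvPolynomial.C a, Module.End.intCast_apply]
  | add r s hr hs => intro v; simp [hr, hs]
  | mul_X r i hr => intro v; simp [hr, h]

/-- An eigenvector of the variables is one of every polynomial. -/
theorem apply_of_eigen (f : MvPolynomial ι ℤ →+* Module.End R V) (v : V) (c : ι → ℤ)
    (h : ∀ i, f (MvPolynomial.X i) v = c i • v) (r : MvPolynomial ι ℤ) :
    f r v = MvPolynomial.eval c r • v := by
  induction r using MvPolynomial.induction_on with
  | C a =>
    simp [show (MvPolynomial.C a : MvPolynomial ι ℤ) = (a : MvPolynomial ι ℤ) from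
      eq_intCast MvPolynomial.C a, Module.End.intCast_apply]
  | add r s hr hs => simp [hr, hs, add_smul]
  | mul_X r i hr => simp [h, map_zsmul, hr, smul_smul, mul_comm]

theorem commute_of_surjective {V W : Type*} [AddCommGroup V] [AddCommGroup W] (F : V →+ W)
    (hF : Function.Surjective F) {a b : Module.End ℤ V} {a' b' : Module.End ℤ W}
    (ha : ∀ v, F (a v) = a' (F v)) (hb : ∀ v, F (b v) = b' (F v)) (h : Commute a b) :
    Commute a' b' := by
  refine LinearMap.ext fun w => ?_
  obtain ⟨v, rfl⟩ := hF w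
  rw [Module.End.mul_apply, Module.End.mul_apply, ← hb, ← ha, ← ha, ← hb]
  exact congrArg F (LinearMap.congr_fun h v)

end PolyAct

/-- Either a finite module has a vector killed by a prime ideal, or an element outside the prime
kills it. -/
theorem exists_smul_eq_zero_of_no_eigen {R K : Type*} [CommRing R] [AddCommGroup K] [Module R K]
    [Finite K] (I : Ideal R) [hI : I.IsPrime] :
    (∃ w : K, w ≠ 0 ∧ ∀ a ∈ I, a • w = 0) ∨ ∃ s ∉ I, ∀ v : K, s • v = 0 := by
  classical
  let ann : K → Set R := fun w => {r | r • w = 0}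
  by_cases hbad : ∃ w, ann w ⊆ I
  · left
    obtain ⟨w, hw, hmax⟩ := Set.Finite.exists_maximalFor ann {w | ann w ⊆ I} (Set.toFinite _) hbad
    refine ⟨w, fun h => hI.ne_top ((Ideal.eq_top_iff_one _).mpr (hw (by simp [ann, h]))),
      fun a ha => ?_⟩
    by_contra haw
    by_cases hsub : ann (a • w) ⊆ I
    · have hle : ann w ⊆ ann (a • w) := fun r (hr : r • w = 0) => by
        show r • a • w = 0
        rw [smul_comm, hr, smul_zero]
      have heq : ann (a • w) ⊆ ann w := hmax hsub hle
      let Φ : Submodule.span R {w} → Submodule.span R {w} := fun x => a • x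
      have hΦ : Function.Injective Φ := by
        intro x y hxy
        obtain ⟨r, hr⟩ := Submodule.mem_span_singleton.mp (x - y).2
        have h0 : r • a • w = 0 := by
          rw [smul_comm, hr]
          have := congrArg Subtype.val hxy
          simp only [Φ, Submodule.coe_smul] at this
          rw [Submodule.coe_sub, smul_sub, this, sub_self]
        have h1 : r • w = 0 := heq h0
        rw [hr] at h1
        exact sub_eq_zero.mp (Subtype.ext h1)
      obtain ⟨⟨x, hx⟩, hx'⟩ :=
        (Finite.injective_iff_surjective.mp hΦ) ⟨w, Submodule.mem_span_singleton_self w⟩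
      obtain ⟨r, rfl⟩ := Submodule.mem_span_singleton.mp hx
      have h1 : (1 - a * r) • w = 0 := by
        rw [sub_smul, one_smul, mul_smul, sub_eq_zero]
        exact (congrArg Subtype.val hx').symm
      have h2 := hw h1
      have h3 : (1 : R) ∈ I := by
        have := I.add_mem h2 (I.mul_mem_right r ha)
        rwa [sub_add_cancel] at this
      exact hI.ne_top ((Ideal.eq_top_iff_one _).mpr h3)
    · obtain ⟨s, hs, hsI⟩ := Set.not_subset.mp hsub
      have hs' : ann (s • w) ⊆ I := fun r (hr : r • s • w = 0) =>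
        (hI.mem_or_mem (hw (show (r * s) • w = 0 by rw [mul_smul, hr]))).resolve_right hsI
      have hle : ann w ⊆ ann (s • w) := fun r (hr : r • w = 0) => by
        show r • s • w = 0
        rw [smul_comm, hr, smul_zero]
      exact haw (hmax hs' hle (show a • s • w = 0 by rw [smul_comm]; exact hs))
  · right
    push Not at hbad
    have : ∀ w : K, ∃ s : R, s • w = 0 ∧ s ∉ I := fun w => by
      obtain ⟨s, hs, hsI⟩ := Set.not_subset.mp (hbad w)
      exact ⟨s, hs, hsI⟩
    choose s hs hsI using this
    let _ := Fintype.ofFinite K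
    refine ⟨∏ w, s w, fun h => ?_, fun v => ?_⟩
    · obtain ⟨w, -, hw⟩ := hI.prod_mem_iff.mp h
      exact hsI w hw
    · rw [← Finset.mul_prod_erase Finset.univ s (Finset.mem_univ v), mul_comm, mul_smul, hs,
        smul_zero]

/-- The same for an invariant subgroup of a ring action. -/
theorem exists_killer_or_eigen {R V : Type*} [CommRing R] [AddCommGroup V] [Finite V]
    (f : R →+* Module.End ℤ V) (K : AddSubgroup V) (hK : ∀ r, ∀ v ∈ K, f r v ∈ K) (I : Ideal R)
    [I.IsPrime] :
    (∃ w ∈ K, w ≠ 0 ∧ ∀ a ∈ I, f a w = 0) ∨ ∃ s ∉ I, ∀ v ∈ K, f s v = 0 := by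
  let : Module R V := Module.compHom V f
  let K' : Submodule R V :=
    { K with smul_mem' := fun r v hv => hK r v hv }
  rcases exists_smul_eq_zero_of_no_eigen (K := K') I with ⟨w, hw0, hw⟩ | ⟨s, hs, hsK⟩
  · exact Or.inl ⟨w.1, w.2, fun h => hw0 (Subtype.ext h), fun a ha => congrArg Subtype.val (hw a ha)⟩
  · exact Or.inr ⟨s, hs, fun v hv => congrArg Subtype.val (hsK ⟨v, hv⟩)⟩

/-- An orthogonality criterion for lying in the range. -/
theorem mem_range_of_orthogonal {p : ℕ} [Fact p.Prime] {V Z : Type*} [AddCommGroup V]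
    [Module (ZMod p) V] [Finite V] [AddCommGroup Z] (B : V →+ V →+ ZMod p)
    (hB : ∀ x, B x = 0 → x = 0) (δ : Z →+ V) (u : V)
    (h : ∀ x, (∀ z, B x (δ z) = 0) → B x u = 0) : u ∈ δ.range := by
  by_contra hu
  have hu' : u ∉ AddSubgroup.toZModSubmodule p δ.range := hu
  obtain ⟨φ, hφu, hφ⟩ := Submodule.exists_le_ker_of_notMem hu'
  let Φ : V →ₗ[ZMod p] Module.Dual (ZMod p) V := AddMonoidHom.toZModLinearMap p
    { toFun := fun x => AddMonoidHom.toZModLinearMap p (B x)
      map_zero' := LinearMap.ext fun _ => by simp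
      map_add' := fun x y => LinearMap.ext fun _ => by simp }
  have hΦ : Function.Injective Φ := (injective_iff_map_eq_zero _).mpr fun x hx =>
    hB x (AddMonoidHom.ext fun y => LinearMap.congr_fun hx y)
  obtain ⟨x, hx⟩ := (LinearMap.injective_iff_surjective_of_finrank_eq_finrank
    Subspace.dual_finrank_eq.symm).mp hΦ φ
  refine hφu ?_
  rw [← hx]
  refine h x fun z => ?_
  have := LinearMap.congr_fun hx (δ z)
  exact this.trans (LinearMap.mem_ker.mp (hφ ⟨z, rfl⟩))

/-- Lifting an eigenclass into the kernel, given a multiplier of the cokernel. -/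
theorem exists_lift_in_kernel {A B A' B' : Type*} [AddCommGroup A] [AddCommGroup B]
    [Module.Finite ℤ B] [AddCommGroup A'] [AddCommGroup B'] {p : ℤ} (δ : A →ₗ[ℤ] B)
    (δ' : A' →ₗ[ℤ] B') (rA : A →ₗ[ℤ] A') (rB : B →ₗ[ℤ] B') (hrA : Function.Surjective rA)
    (hrB : ∀ b, rB b = 0 → ∃ b', b = p • b') (hA' : ∀ a : A', p • a = 0)
    (hδ : ∀ a, δ' (rA a) = rB (δ a)) (fA : Module.End ℤ A) (fB : Module.End ℤ B)
    (gA : Module.End ℤ A') (gB : Module.End ℤ B') (hfδ : ∀ a, δ (fA a) = fB (δ a))
    (hfA : ∀ a, rA (fA a) = gA (rA a)) (hfB : ∀ b, rB (fB b) = gB (rB b))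
    (hs : ∀ b, gB b ∈ LinearMap.range δ') {y : A'} (hy : δ' y = 0) {c : ℤ}
    (hc : gA y = c • y) : ∃ (n : ℕ) (Y : A), δ Y = 0 ∧ rA Y = c ^ n • y := by
  have hfQ : LinearMap.range δ ≤ (LinearMap.range δ).comap fB := by
    rintro _ ⟨a, rfl⟩
    exact ⟨fA a, hfδ a⟩
  let fQ : Module.End ℤ (B ⧸ LinearMap.range δ) := Submodule.mapQ _ _ fB hfQ
  have hfQ' : LinearMap.range fQ ≤ Ideal.span {p} • (⊤ : Submodule ℤ (B ⧸ LinearMap.range δ)) := by
    rintro _ ⟨b, rfl⟩
    obtain ⟨b, rfl⟩ := Submodule.Quotient.mk_surjective _ b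
    obtain ⟨w, hw⟩ := hs (rB b)
    obtain ⟨a, rfl⟩ := hrA w
    obtain ⟨b', hb'⟩ := hrB (fB b - δ a) (by rw [map_sub, hfB, ← hδ, hw, sub_self])
    have : fQ (Submodule.Quotient.mk b) = p • Submodule.Quotient.mk b' := by
      show Submodule.Quotient.mk (fB b) = _
      rw [← Submodule.Quotient.mk_smul, Submodule.Quotient.eq, ← hb', sub_sub_cancel]
      exact ⟨a, rfl⟩
    rw [this]
    exact Submodule.smul_mem_smul (Ideal.mem_span_singleton_self _) Submodule.mem_top
  obtain ⟨g, hg, -, hcoeff, hg0⟩ :=
    LinearMap.exists_monic_and_natDegree_eq_and_coeff_mem_pow_and_aeval_eq_zero ℤ fQ _ hfQ'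
  have hQ : ∀ (h : Polynomial ℤ) (b : B), Polynomial.aeval fQ h (Submodule.Quotient.mk b)
      = Submodule.Quotient.mk (Polynomial.aeval fB h b) := by
    intro h
    induction h using Polynomial.induction_on with
    | C a => intro b; simp [Module.End.intCast_apply]
    | add h h' e e' => intro b; simp [e, e']
    | monomial n a e =>
      intro b
      simp only [pow_succ, ← mul_assoc, map_mul, Polynomial.aeval_X, Module.End.mul_apply]
      rw [show fQ (Submodule.Quotient.mk b) = Submodule.Quotient.mk (fB b) from rfl]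
      simpa only [map_mul, Module.End.mul_apply] using e (fB b)
  have hδg : ∀ (h : Polynomial ℤ) (a : A),
      δ (Polynomial.aeval fA h a) = Polynomial.aeval fB h (δ a) := by
    intro h
    induction h using Polynomial.induction_on with
    | C a => intro b; simp [Module.End.intCast_apply]
    | add h h' e e' => intro b; simp [e, e']
    | monomial n a e =>
      intro b
      simp only [pow_succ, ← mul_assoc, map_mul, Polynomial.aeval_X, Module.End.mul_apply, ← hfδ]
      simpa only [map_mul, Module.End.mul_apply] using e (fA b)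
  obtain ⟨Y, rfl⟩ := hrA y
  have hgY : ∀ (h : Polynomial ℤ), rA (Polynomial.aeval fA h Y) = h.eval c • rA Y := by
    intro h
    induction h using Polynomial.induction_on with
    | C a => simp [Module.End.intCast_apply]
    | add h h' e e' => simp [e, e', add_smul]
    | monomial n a e =>
      rw [pow_succ', mul_left_comm, map_mul, Polynomial.aeval_X, Module.End.mul_apply, hfA, e,
        map_zsmul, hc, smul_smul, Polynomial.eval_mul (p := Polynomial.X), Polynomial.eval_X, mul_comm c]
  obtain ⟨V, hV⟩ := hrB (δ Y) (by rw [← hδ, hy])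
  obtain ⟨Z, hZ⟩ : Polynomial.aeval fB g V ∈ LinearMap.range δ := by
    rw [← Submodule.Quotient.mk_eq_zero, ← hQ, hg0, LinearMap.zero_apply]
  refine ⟨g.natDegree, Polynomial.aeval fA g Y - p • Z, ?_, ?_⟩
  · rw [map_sub, hδg, hV, map_zsmul, map_zsmul, hZ, sub_self]
  · rw [map_sub, map_zsmul, hA', sub_zero, hgY, Polynomial.eval_eq_sum_range,
      Finset.sum_range_succ, hg.coeff_natDegree, one_mul, add_smul, Finset.sum_smul,
      Finset.sum_eq_zero, zero_add]
    intro i hi
    obtain ⟨d, hd⟩ := Ideal.mem_span_singleton.mp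
      (Ideal.pow_le_self (Nat.sub_ne_zero_of_lt (Finset.mem_range.mp hi)) (hcoeff i))
    rw [hd, mul_assoc, mul_smul, hA']

end FLTAgent.LevelRaise
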