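import Fermat.Agent.LevelRaise.EllipticClass
import Mathlib.GroupTheory.GroupAction.Period
import Mathlib.GroupTheory.GroupAction.Quotient
import Mathlib.Algebra.BigOperators.Group.Finset.Basic
import Mathlib.Tactic.LinearCombination
import Mathlib.Tactic.Abel

/-!
# Cocycles of `SL(2, ℤ)` with values in the functions on a finite set

A cocycle is a family `a g x` with `a (g * h) x = a g (h • x) + a h x`. A quadratic cochain for
two cocycles `a, b` satisfies the same relation up to the product `a g (h • x) * b h x`.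
-/

set_option autoImplicit false

namespace FLTAgent.LevelRaise

open scoped MatrixGroups
open ModularGroup

variable {X : Type*} [MulAction SL(2, ℤ) X]

section Additive

variable {A : Type*} [AddCommGroup A]

/-- The cocycle relation. -/
def IsCocycle (a : SL(2, ℤ) → X → A) : Prop :=
  ∀ g h x, a (g * h) x = a g (h • x) + a h x

/-- A cocycle vanishing at fixed points of elliptic elements. -/
def IsEllCocycle (a : SL(2, ℤ) → X → A) : Prop :=
  IsCocycle a ∧ ∀ g x, g • x = x → IsElliptic g → a g x = 0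

/-- A cocycle vanishing at fixed points of elliptic and parabolic elements. -/
def IsParCocycle (a : SL(2, ℤ) → X → A) : Prop :=
  IsCocycle a ∧ ∀ g x, g • x = x → trSL g ^ 2 ≤ 4 → a g x = 0

theorem IsParCocycle.toEll {a : SL(2, ℤ) → X → A} (ha : IsParCocycle a) : IsEllCocycle a :=
  ⟨ha.1, fun g x hx hg => ha.2 g x hx hg.trace_sq_le⟩

theorem IsCocycle.map_one {a : SL(2, ℤ) → X → A} (ha : IsCocycle a) (x : X) : a 1 x = 0 := by
  have h := ha 1 1 x
  rw [one_mul, one_smul] at h
  exact left_eq_add.mp h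

theorem IsCocycle.map_inv {a : SL(2, ℤ) → X → A} (ha : IsCocycle a) (g : SL(2, ℤ)) (x : X) :
    a g⁻¹ x = -a g (g⁻¹ • x) := by
  have h := ha g g⁻¹ x
  rw [mul_inv_cancel, ha.map_one] at h
  exact eq_neg_of_add_eq_zero_right h.symm

theorem IsCocycle.map_pow {a : SL(2, ℤ) → X → A} (ha : IsCocycle a) (g : SL(2, ℤ)) (n : ℕ)
    (x : X) : a (g ^ n) x = ∑ i ∈ Finset.range n, a g (g ^ i • x) := by
  induction n with
  | zero => simp [ha.map_one]
  | succ n ih => rw [pow_succ', ha, Finset.sum_range_succ, ih, add_comm]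

/-- A cocycle is determined by its values at `S` and `S * T`. -/
theorem IsCocycle.eq_zero {a : SL(2, ℤ) → X → A} (ha : IsCocycle a)
    (hS : ∀ x, a S x = 0) (hU : ∀ x, a (S * T) x = 0) : ∀ g x, a g x = 0 := by
  have hT : ∀ x, a T x = 0 := fun x => by
    have h := hU x
    rwa [ha, hS, zero_add] at h
  intro g
  have hg : g ∈ Subgroup.closure ({S, T} : Set SL(2, ℤ)) := by
    rw [SpecialLinearGroup.SL2Z_generators]; trivial
  induction hg using Subgroup.closure_induction with
  | mem y hy =>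
    rcases hy with rfl | rfl
    exacts [hS, hT]
  | one => exact ha.map_one
  | mul p q _ _ hp hq => intro x; rw [ha, hp, hq, add_zero]
  | inv p _ hp => intro x; rw [ha.map_inv, hp, neg_zero]

/-- The coboundary of a function. -/
def cobound (u : X → A) (g : SL(2, ℤ)) (x : X) : A := u (g • x) - u x

theorem isParCocycle_cobound (u : X → A) : IsParCocycle (cobound u) :=
  ⟨fun g h x => by simp only [cobound, mul_smul]; abel,
    fun g x hx _ => by simp [cobound, hx]⟩

theorem IsCocycle.add {a b : SL(2, ℤ) → X → A} (ha : IsCocycle a) (hb : IsCocycle b) :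
    IsCocycle (a + b) := fun g h x => by
  simp only [Pi.add_apply, ha g h x, hb g h x]; abel

theorem IsEllCocycle.add {a b : SL(2, ℤ) → X → A} (ha : IsEllCocycle a) (hb : IsEllCocycle b) :
    IsEllCocycle (a + b) :=
  ⟨ha.1.add hb.1, fun g x hx hg => by simp [ha.2 g x hx hg, hb.2 g x hx hg]⟩

theorem IsParCocycle.add {a b : SL(2, ℤ) → X → A} (ha : IsParCocycle a) (hb : IsParCocycle b) :
    IsParCocycle (a + b) :=
  ⟨ha.1.add hb.1, fun g x hx hg => by simp [ha.2 g x hx hg, hb.2 g x hx hg]⟩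

end Additive

section Orbits

variable [Fintype X]

theorem period_pos_of_finite (g : SL(2, ℤ)) (x : X) : 0 < MulAction.period g x := by
  obtain ⟨i, j, hij, h⟩ := Finite.exists_ne_map_eq_of_infinite (fun n : ℕ => g ^ n • x)
  wlog hlt : i < j generalizing i j
  · exact this j i hij.symm h.symm (lt_of_le_of_ne (not_lt.mp hlt) hij.symm)
  refine MulAction.period_pos_of_fixed (n := j - i) (by omega) ?_
  apply MulAction.injective (g ^ i)
  show g ^ i • g ^ (j - i) • x = g ^ i • x
  rw [← mul_smul, ← pow_add, show i + (j - i) = j by omega]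
  exact h.symm

/-- The orbits of the powers of `g`. -/
abbrev PowOrbits (g : SL(2, ℤ)) (X : Type*) [MulAction SL(2, ℤ) X] : Type _ :=
  MulAction.orbitRel.Quotient (Subgroup.zpowers g) X

theorem exists_pow_smul_out (g : SL(2, ℤ)) (x : X) :
    ∃ n : ℕ, n < MulAction.period g (Quotient.mk'' x : PowOrbits g X).out ∧
      g ^ n • (Quotient.mk'' x : PowOrbits g X).out = x := by
  obtain ⟨r, hr⟩ : ∃ r, r = (Quotient.mk'' x : PowOrbits g X).out := ⟨_, rfl⟩
  rw [← hr]
  obtain ⟨⟨t, ht⟩, hx⟩ := Quotient.exact' (show (Quotient.mk'' x : PowOrbits g X) = Quotient.mk'' r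
    by rw [hr]; exact (Quotient.out_eq' _).symm)
  obtain ⟨n, rfl⟩ := Subgroup.mem_zpowers_iff.mp ht
  have hw := period_pos_of_finite g r
  refine ⟨(n % (MulAction.period g r : ℤ)).toNat, ?_, ?_⟩
  · have := Int.emod_lt_of_pos n (show (0 : ℤ) < MulAction.period g r by omega)
    omega
  · rw [← zpow_natCast, Int.toNat_of_nonneg (Int.emod_nonneg _ (by omega)),
      MulAction.zpow_mod_period_smul]
    exact hx

theorem mk_pow_smul (g : SL(2, ℤ)) (n : ℕ) (x : X) :
    (Quotient.mk'' (g ^ n • x) : PowOrbits g X) = Quotient.mk'' x :=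
  Quotient.sound' ⟨⟨g ^ n, pow_mem (Subgroup.mem_zpowers g) n⟩, rfl⟩

theorem mk_smul_self (g : SL(2, ℤ)) (x : X) :
    (Quotient.mk'' (g • x) : PowOrbits g X) = Quotient.mk'' x := by
  simpa using mk_pow_smul g 1 x

/-- A sum over a finite set, taken orbit by orbit. -/
theorem sum_eq_sum_orbits {M : Type*} [AddCommMonoid M] (g : SL(2, ℤ)) [Fintype (PowOrbits g X)]
    (f : X → M) :
    ∑ x, f x = ∑ o : PowOrbits g X, ∑ i ∈ Finset.range (MulAction.period g o.out),
      f (g ^ i • o.out) := by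
  classical
  rw [← Finset.sum_fiberwise Finset.univ (fun x : X => (Quotient.mk'' x : PowOrbits g X))]
  refine Finset.sum_congr rfl fun o _ => ?_
  refine (Finset.sum_bij (fun i _ => g ^ i • o.out) ?_ ?_ ?_ (fun _ _ => rfl)).symm
  · intro i _
    simp only [Finset.mem_filter, Finset.mem_univ, true_and]
    rw [mk_pow_smul, Quotient.out_eq']
  · intro i hi j hj hij
    rw [Finset.mem_range] at hi hj
    by_contra hne
    wlog hlt : i < j generalizing i j
    · exact this j hj i hi hij.symm (Ne.symm hne) (lt_of_le_of_ne (not_lt.mp hlt) (Ne.symm hne))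
    refine MulAction.pow_smul_ne_of_lt_period (m := g) (a := o.out) (n := j - i) (by omega) (by omega) ?_
    apply MulAction.injective (g ^ i)
    show g ^ i • g ^ (j - i) • o.out = g ^ i • o.out
    rw [← mul_smul, ← pow_add, show i + (j - i) = j by omega, hij]
  · intro x hx
    simp only [Finset.mem_filter, Finset.mem_univ, true_and] at hx
    subst hx
    obtain ⟨n, hn, hx⟩ := exists_pow_smul_out g x
    exact ⟨n, Finset.mem_range.mpr hn, hx⟩

variable {A : Type*} [AddCommGroup A]

theorem IsCocycle.sum_eq_sum_orbits {a : SL(2, ℤ) → X → A} (ha : IsCocycle a) (g : SL(2, ℤ))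
    [Fintype (PowOrbits g X)] :
    ∑ x, a g x = ∑ o : PowOrbits g X, a (g ^ MulAction.period g o.out) o.out := by
  rw [LevelRaise.sum_eq_sum_orbits g (a g)]
  exact Finset.sum_congr rfl fun o _ => (ha.map_pow g _ _).symm

/-- A cocycle whose sums over the orbits of `g` vanish can be gauged to vanish at `g`. -/
theorem IsCocycle.exists_gauge {a : SL(2, ℤ) → X → A} (ha : IsCocycle a) (g : SL(2, ℤ))
    (h : ∀ (n : ℕ) (x : X), g ^ n • x = x → a (g ^ n) x = 0) :
    ∃ u : X → A, ∀ x, a g x + cobound u g x = 0 := by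
  classical
  choose j _ hj using fun x : X => exists_pow_smul_out g x
  have hind : ∀ (i l : ℕ) (r : X), g ^ i • r = g ^ l • r → a (g ^ i) r = a (g ^ l) r := by
    intro i l r hil
    wlog hle : i ≤ l generalizing i l
    · exact (this l i hil.symm (le_of_not_ge hle)).symm
    obtain ⟨d, rfl⟩ := Nat.exists_eq_add_of_le hle
    have hfix : g ^ d • r = r := by
      apply MulAction.injective (g ^ i)
      show g ^ i • g ^ d • r = g ^ i • r
      rw [← mul_smul, ← pow_add, hil]
    rw [pow_add, ha, hfix, h d r hfix, add_zero]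
  refine ⟨fun x => -a (g ^ j x) (Quotient.mk'' x : PowOrbits g X).out, fun x => ?_⟩
  simp only [cobound]
  have h1 := hj (g • x)
  rw [mk_smul_self] at h1 ⊢
  have h2 : a (g ^ j (g • x)) (Quotient.mk'' x : PowOrbits g X).out
      = a (g ^ (j x + 1)) (Quotient.mk'' x : PowOrbits g X).out :=
    hind _ _ _ (by rw [h1, pow_succ', mul_smul, hj x])
  rw [h2, pow_succ', ha, hj x]
  abel

end Orbits

section Quadratic

variable {k : Type*} [CommRing k]

/-- A quadratic cochain for the pair `a, b`. -/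
def IsQuad (a b : SL(2, ℤ) → X → k) (F : SL(2, ℤ) → X → k) : Prop :=
  (∀ g h x, F (g * h) x = F g (h • x) + F h x + a g (h • x) * b h x) ∧
    ∀ g x, g • x = x → IsElliptic g → F g x = 0

theorem IsQuad.map_one {a b F : SL(2, ℤ) → X → k} (hF : IsQuad a b F) (x : X) : F 1 x = 0 :=
  hF.2 1 x (one_smul _ x) (Or.inr (Or.inl rfl))

/-- Cocycles and a quadratic cochain with prescribed values at `S`, zero at `S * T`. -/
theorem exists_quad_of_values (hneg : ∀ x : X, (-1 : SL(2, ℤ)) • x = x) (e e' f : X → k)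
    (he : ∀ x, e (S • x) + e x = 0) (he' : ∀ x, e' (S • x) + e' x = 0)
    (hf : ∀ x, f (S • x) + f x + e (S • x) * e' x = 0)
    (hfix : ∀ x, S • x = x → e x = 0 ∧ e' x = 0 ∧ f x = 0) :
    ∃ a b F : SL(2, ℤ) → X → k, IsEllCocycle a ∧ IsEllCocycle b ∧ IsQuad a b F ∧
      a S = e ∧ b S = e' ∧ F S = f ∧
      (∀ x, a (S * T) x = 0) ∧ (∀ x, b (S * T) x = 0) ∧ ∀ x, F (S * T) x = 0 := by
  classical
  have hS2 : ∀ x : X, S • S • x = x := fun x => by rw [← mul_smul, ← pow_two, S_sq_eq, hneg]
  have hU3 : ∀ x : X, (S * T) • (S * T) • (S * T) • x = x := fun x => by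
    rw [← mul_smul, ← mul_smul, mul_assoc (S * T), ← pow_two, ← pow_succ', ST_cube_eq, hneg]
  let sFun : X × (k × k × k) → X × (k × k × k) := fun z =>
    (S • z.1, (e z.1 + z.2.1, e' z.1 + z.2.2.1, f z.1 + z.2.2.2 + e z.1 * z.2.2.1))
  have hs : Function.Involutive sFun := by
    rintro ⟨x, p, q, r⟩
    simp only [sFun, hS2, Prod.mk.injEq, true_and]
    refine ⟨?_, ?_, ?_⟩
    · linear_combination he x
    · linear_combination he' x
    · linear_combination hf x + q * he x
  let sPerm : Equiv.Perm (X × (k × k × k)) := hs.toPerm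
  let uPerm : Equiv.Perm (X × (k × k × k)) :=
    (MulAction.toPerm (S * T : SL(2, ℤ))).prodCongr (Equiv.refl _)
  obtain ⟨Φ, hΦS, hΦU, hΦneg⟩ := exists_hom_of_relations sPerm uPerm
    (by ext1 z; exact hs z)
    (by
      ext1 z
      obtain ⟨x, t⟩ := z
      show ((S * T : SL(2, ℤ)) • (S * T : SL(2, ℤ)) • (S * T : SL(2, ℤ)) • x, t) = (x, t)
      rw [hU3])
  let good : SL(2, ℤ) → Prop := fun g => ∀ x, ∃ p q r, ∀ t : k × k × k,
    Φ g (x, t) = (g • x, (p + t.1, q + t.2.1, r + t.2.2 + p * t.2.1))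
  have hmul : ∀ g h, good g → good h → good (g * h) := by
    intro g h hg hh x
    obtain ⟨p, q, r, hx⟩ := hh x
    obtain ⟨p', q', r', hgx⟩ := hg (h • x)
    refine ⟨p' + p, q' + q, r' + r + p' * q, fun t => ?_⟩
    rw [map_mul, Equiv.Perm.mul_apply, hx, hgx, mul_smul]
    simp only [Prod.mk.injEq, true_and]
    refine ⟨?_, ?_, ?_⟩ <;> ring
  have hgoodS : good S := fun x => ⟨e x, e' x, f x, fun t => by rw [hΦS]; rfl⟩
  have hgoodU : good (S * T) := fun x => ⟨0, 0, 0, fun t => by
    rw [hΦU]; simp [uPerm]⟩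
  have hinv : ∀ g, good g → good g⁻¹ := by
    intro g hg x
    obtain ⟨p, q, r, hx⟩ := hg (g⁻¹ • x)
    refine ⟨-p, -q, -r + p * q, fun ⟨t1, t2, t3⟩ => ?_⟩
    rw [_root_.map_inv, Equiv.Perm.inv_eq_iff_eq, hx, smul_inv_smul]
    simp only [Prod.mk.injEq, true_and]
    refine ⟨?_, ?_, ?_⟩ <;> ring
  have hgood : ∀ g, good g := by
    intro g
    have hg : g ∈ Subgroup.closure ({S, T} : Set SL(2, ℤ)) := by
      rw [SpecialLinearGroup.SL2Z_generators]; trivial
    induction hg using Subgroup.closure_induction with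
    | mem y hy =>
      rcases hy with rfl | rfl
      · exact hgoodS
      · have h := hmul _ _ (hinv _ hgoodS) hgoodU
        rwa [inv_mul_cancel_left] at h
    | one => exact fun x => ⟨0, 0, 0, fun t => by simp⟩
    | mul a b _ _ ha hb => exact hmul _ _ ha hb
    | inv a _ ha => exact hinv _ ha
  let a : SL(2, ℤ) → X → k := fun g x => (Φ g (x, 0)).2.1
  let b : SL(2, ℤ) → X → k := fun g x => (Φ g (x, 0)).2.2.1
  let F : SL(2, ℤ) → X → k := fun g x => (Φ g (x, 0)).2.2.2
  have hspec : ∀ g x t, Φ g (x, t) = (g • x, (a g x + t.1, b g x + t.2.1, F g x + t.2.2 + a g x * t.2.1)) := by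
    intro g x t
    obtain ⟨p, q, r, h⟩ := hgood g x
    simp only [a, b, F, h]
    simp
  have key : ∀ g h x, a (g * h) x = a g (h • x) + a h x ∧ b (g * h) x = b g (h • x) + b h x ∧
      F (g * h) x = F g (h • x) + F h x + a g (h • x) * b h x := by
    intro g h x
    have h1 := hspec (g * h) x 0
    rw [map_mul, Equiv.Perm.mul_apply, hspec h x 0, hspec g] at h1
    simp only [Prod.mk.injEq, Prod.fst_zero, Prod.snd_zero, add_zero, mul_zero] at h1
    obtain ⟨-, e1, e2, e3⟩ := h1
    exact ⟨e1.symm, e2.symm, e3.symm⟩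
  have haS : a S = e := by funext x; simp [a, hΦS, sPerm, sFun]
  have hbS : b S = e' := by funext x; simp [b, hΦS, sPerm, sFun]
  have hFS : F S = f := by funext x; simp [F, hΦS, sPerm, sFun]
  have hU0 : ∀ x, a (S * T) x = 0 ∧ b (S * T) x = 0 ∧ F (S * T) x = 0 := fun x => by
    simp [a, b, F, hΦU, uPerm]
  have hneg0 : ∀ g x, a (-g) x = a g x ∧ b (-g) x = b g x ∧ F (-g) x = F g x := by
    intro g x
    have h : Φ (-g) = Φ g := by rw [← neg_one_mul, map_mul, hΦneg, one_mul]
    simp [a, b, F, h]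
  have hone : ∀ x, a 1 x = 0 ∧ b 1 x = 0 ∧ F 1 x = 0 := fun x => by simp [a, b, F]
  -- values at fixed points of elliptic elements
  have hell : ∀ g x, g • x = x → IsElliptic g → a g x = 0 ∧ b g x = 0 ∧ F g x = 0 := by
    intro g x hx hg
    rcases hg with hg | rfl | rfl
    · obtain ⟨h, w, hw, hgw⟩ := exists_conj_of_trace_sq_lt hg
      have hgw' : ∃ g', g' = h * w * h⁻¹ ∧ g' • x = x ∧ a g x = a g' x ∧ b g x = b g' x ∧
          F g x = F g' x := by
        rcases hgw with rfl | rfl
        · exact ⟨_, rfl, hx, rfl, rfl, rfl⟩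
        · refine ⟨_, rfl, ?_, (hneg0 _ x).1, (hneg0 _ x).2.1, (hneg0 _ x).2.2⟩
          rwa [← neg_one_mul, mul_smul, hneg] at hx
      obtain ⟨g', rfl, hx', e1, e2, e3⟩ := hgw'
      rw [e1, e2, e3]
      obtain ⟨y, rfl⟩ : ∃ y, x = h • y := ⟨h⁻¹ • x, (smul_inv_smul h x).symm⟩
      rw [mul_smul, inv_smul_smul, mul_smul] at hx'
      have hy : w • y = y := MulAction.injective h hx'
      have hw0 : a w y = 0 ∧ b w y = 0 ∧ F w y = 0 := by
        rcases hw with rfl | rfl | rfl
        · rw [haS, hbS, hFS]; exact hfix y hy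
        · exact hU0 y
        · obtain ⟨k1, k2, k3⟩ := key (S * T) (S * T) y
          rw [k1, k2, k3]; simp [hU0]
      obtain ⟨p1, p2, p3⟩ := key (h * w) h⁻¹ (h • y)
      obtain ⟨q1, q2, q3⟩ := key h w y
      obtain ⟨r1, r2, r3⟩ := key h h⁻¹ (h • y)
      rw [inv_smul_smul] at p1 p2 p3 r1 r2 r3
      rw [mul_inv_cancel, (hone _).1] at r1
      rw [mul_inv_cancel, (hone _).2.1] at r2
      rw [mul_inv_cancel, (hone _).2.2] at r3
      rw [hy] at q1 q2 q3
      rw [p1, p2, p3, q1, q2, q3, hw0.1, hw0.2.1, hw0.2.2]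
      simp only [add_zero, mul_zero]
      exact ⟨r1.symm, r2.symm, r3.symm⟩
    · exact hone x
    · exact ⟨(hneg0 1 x).1.trans (hone x).1, (hneg0 1 x).2.1.trans (hone x).2.1,
        (hneg0 1 x).2.2.trans (hone x).2.2⟩
  exact ⟨a, b, F, ⟨fun g h x => (key g h x).1, fun g x hx hg => (hell g x hx hg).1⟩,
    ⟨fun g h x => (key g h x).2.1, fun g x hx hg => (hell g x hx hg).2.1⟩,
    ⟨fun g h x => (key g h x).2.2, fun g x hx hg => (hell g x hx hg).2.2⟩,
    haS, hbS, hFS, fun x => (hU0 x).1, fun x => (hU0 x).2.1, fun x => (hU0 x).2.2⟩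

/-- The correction of a quadratic cochain under a change of gauge. -/
def quadShift (a b : SL(2, ℤ) → X → k) (u v : X → k) (g : SL(2, ℤ)) (x : X) : k :=
  -(a g x * v x) + u (g • x) * b g x - u (g • x) * v x + u x * v x

theorem IsQuad.shift {a b F : SL(2, ℤ) → X → k} (hF : IsQuad a b F) (ha : IsEllCocycle a)
    (hb : IsEllCocycle b) (u v : X → k) :
    IsQuad (a + cobound u) (b + cobound v) (F + quadShift a b u v) := by
  refine ⟨fun g h x => ?_, fun g x hx hg => ?_⟩
  · simp only [Pi.add_apply, quadShift, cobound, mul_smul, hF.1 g h x, ha.1 g h x, hb.1 g h x]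
    ring
  · simp only [Pi.add_apply, quadShift, hF.2 g x hx hg, ha.2 g x hx hg, hb.2 g x hx hg, hx]
    ring

theorem isElliptic_S : IsElliptic S :=
  Or.inl (by simp [trSL, coe_S, Matrix.trace_fin_two])

theorem isElliptic_ST : IsElliptic (S * T) :=
  Or.inl (by simp [trSL, coe_S, coe_T, Matrix.trace_fin_two])

/-- Quadratic cochains exist as soon as `2` is invertible. -/
theorem exists_isQuad [Fintype X] (hneg : ∀ x : X, (-1 : SL(2, ℤ)) • x = x) (h2 : IsUnit (2 : k))
    {a b : SL(2, ℤ) → X → k} (ha : IsEllCocycle a) (hb : IsEllCocycle b) :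
    ∃ F, IsQuad a b F := by
  obtain ⟨u, hu⟩ := ha.1.exists_gauge (S * T)
    fun n x hx => ha.2 _ x hx (isElliptic_pow isElliptic_ST n)
  obtain ⟨v, hv⟩ := hb.1.exists_gauge (S * T)
    fun n x hx => hb.2 _ x hx (isElliptic_pow isElliptic_ST n)
  have ha' : IsEllCocycle (a + cobound u) := ha.add (isParCocycle_cobound u).toEll
  have hb' : IsEllCocycle (b + cobound v) := hb.add (isParCocycle_cobound v).toEll
  obtain ⟨e, he⟩ : ∃ e, e = (a + cobound u) S := ⟨_, rfl⟩
  obtain ⟨e', he'⟩ : ∃ e', e' = (b + cobound v) S := ⟨_, rfl⟩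
  obtain ⟨i2, hi2⟩ := h2.exists_left_inv
  have hanti : ∀ {c : SL(2, ℤ) → X → k}, IsEllCocycle c → ∀ x, c S (S • x) + c S x = 0 := by
    intro c hc x
    rw [← hc.1, ← pow_two, S_sq_eq]
    exact hc.2 _ x (hneg x) (Or.inr (Or.inr rfl))
  have hes : ∀ x, e (S • x) + e x = 0 := he ▸ hanti ha'
  have hes' : ∀ x, e' (S • x) + e' x = 0 := he' ▸ hanti hb'
  obtain ⟨a', b', F', hA, hB, hF', hAS, hBS, -, hAU, hBU, -⟩ :=
    exists_quad_of_values hneg e e' (fun x => i2 * (e x * e' x)) hes hes'
      (fun x => by linear_combination (e x * e' x) * hi2 +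
        (i2 * e' (S • x) + e' x) * hes x + (-(i2 * e x)) * hes' x)
      (fun x hx => by
        have h1 : e x = 0 := by rw [he]; exact ha'.2 S x hx isElliptic_S
        have h3 : e' x = 0 := by rw [he']; exact hb'.2 S x hx isElliptic_S
        exact ⟨h1, h3, by simp [h1]⟩)
  have heq : ∀ {c d : SL(2, ℤ) → X → k}, IsEllCocycle c → IsEllCocycle d →
      c S = d S → (∀ x, c (S * T) x = d (S * T) x) → c = d := by
    intro c d hc hd hS hU
    have hcd : IsCocycle (c - d) := fun g h x => by
      simp only [Pi.sub_apply, hc.1 g h x, hd.1 g h x]; abel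
    funext g x
    exact sub_eq_zero.mp
      (hcd.eq_zero (fun y => by simp [hS]) (fun y => by simp [hU]) g x)
  obtain rfl : a' = a + cobound u := heq hA ha' (hAS.trans he)
    fun x => by rw [hAU]; exact (hu x).symm
  obtain rfl : b' = b + cobound v := heq hB hb' (hBS.trans he')
    fun x => by rw [hBU]; exact (hv x).symm
  have hback := hF'.shift hA hB (-u) (-v)
  have hu' : a + cobound u + cobound (-u) = a := by
    funext g x; simp only [Pi.add_apply, cobound, Pi.neg_apply]; ring
  have hv' : b + cobound v + cobound (-v) = b := by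
    funext g x; simp only [Pi.add_apply, cobound, Pi.neg_apply]; ring
  rw [hu', hv'] at hback
  exact ⟨_, hback⟩

end Quadratic

end FLTAgent.LevelRaise
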