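import Fermat.Agent.LevelRaise.QGroup

/-!
# Congruence subgroups of `Γ₀(N)` over `ℤ[1/q]`
-/

set_option autoImplicit false

noncomputable section

namespace FLTAgent.LevelRaise

open scoped MatrixGroups
open CongruenceSubgroup

theorem inR_one_one (q : ℕ) : InR q 1 1 := ⟨0, 1, by simp⟩

theorem InR.div {q K m : ℕ} (hm : m ≠ 0) {x : ℚ} : InR q (K * m) x → InR q K (x / m)
  | ⟨n, a, ha⟩ => by
    refine ⟨n, a, ?_⟩
    have : (m : ℚ) ≠ 0 := by exact_mod_cast hm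
    push_cast at ha
    field_simp
    linear_combination ha

/-- The principal congruence subgroup of level `L` in `Γ₀(N)` over `ℤ[1/q]`. -/
def deepR (N q L : ℕ) : Subgroup (GL (Fin 2) ℚ) where
  carrier := {g | (g : Matrix (Fin 2) (Fin 2) ℚ).det = 1 ∧ InR q L (g.val 0 0 - 1) ∧
    InR q L (g.val 0 1) ∧ InR q (N * L) (g.val 1 0) ∧ InR q L (g.val 1 1 - 1)}
  one_mem' := by simp [inR_zero]
  mul_mem' {g h} hg hh := by
    obtain ⟨d, a, b, c, e⟩ := hg
    obtain ⟨d', a', b', c', e'⟩ := hh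
    have hR : ∀ {m : ℕ} {x : ℚ}, InR q m x → InR q 1 x := fun h => h.of_dvd (one_dvd _)
    have hone : ∀ {x : ℚ}, InR q L (x - 1) → InR q 1 x := fun {x} h => by
      simpa using (hR h).add (inR_one_one q)
    have hcL : ∀ {x : ℚ}, InR q (N * L) x → InR q L x := fun h => h.of_dvd (dvd_mul_left L N)
    refine ⟨by simp [d, d'], ?_, ?_, ?_, ?_⟩ <;>
      simp only [Units.val_mul, Matrix.mul_apply, Fin.sum_univ_two]
    · rw [show g.val 0 0 * h.val 0 0 + g.val 0 1 * h.val 1 0 - 1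
        = g.val 0 0 * (h.val 0 0 - 1) + (g.val 0 0 - 1) + g.val 0 1 * h.val 1 0 by ring]
      exact (((hone a).mul_left a').add a).add (b.mul_right (hR c'))
    · exact ((hone a).mul_left b').add (b.mul_right (hone e'))
    · exact (c.mul_right (hone a')).add ((hone e).mul_left c')
    · rw [show g.val 1 0 * h.val 0 1 + g.val 1 1 * h.val 1 1 - 1
        = g.val 1 0 * h.val 0 1 + (g.val 1 1 * (h.val 1 1 - 1) + (g.val 1 1 - 1)) by ring]
      exact ((hcL c).mul_right (hR b')).add (((hone e).mul_left e').add e)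
  inv_mem' {g} hg := by
    obtain ⟨d, a, b, c, e⟩ := hg
    have h := val_inv_of_det_one d
    refine ⟨?_, ?_, ?_, ?_, ?_⟩ <;> rw [h]
    · rw [Matrix.det_adjugate, d, one_pow]
    all_goals rw [Matrix.adjugate_fin_two]
    · simpa using e
    · simpa using b.neg
    · simpa using c.neg
    · simpa using a

theorem mem_deepR {N q L : ℕ} {g : GL (Fin 2) ℚ} : g ∈ deepR N q L ↔
    (g : Matrix (Fin 2) (Fin 2) ℚ).det = 1 ∧ InR q L (g.val 0 0 - 1) ∧
    InR q L (g.val 0 1) ∧ InR q (N * L) (g.val 1 0) ∧ InR q L (g.val 1 1 - 1) := Iff.rfl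

theorem deepR_mono {N q L L' : ℕ} (h : L ∣ L') : deepR N q L' ≤ deepR N q L := fun _ hg =>
  ⟨hg.1, hg.2.1.of_dvd h, hg.2.2.1.of_dvd h, hg.2.2.2.1.of_dvd (mul_dvd_mul_left N h),
    hg.2.2.2.2.of_dvd h⟩

theorem deepR_le_gamR (N q L : ℕ) : deepR N q L ≤ gamR N q := by
  intro g hg
  obtain ⟨d, a, b, c, e⟩ := hg
  refine ⟨d, fun i j => ?_, c.of_dvd (dvd_mul_right N L)⟩
  fin_cases i <;> fin_cases j
  · simpa using (a.of_dvd (one_dvd _)).add (inR_one_one q)
  · exact b.of_dvd (one_dvd _)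
  · exact c.of_dvd (one_dvd _)
  · simpa using (e.of_dvd (one_dvd _)).add (inR_one_one q)

/-- An invertible matrix with entries in `ℤ[1/q]`, upper triangular mod `N`, of determinant `m`. -/
structure IsScale (N q m : ℕ) (X : GL (Fin 2) ℚ) : Prop where
  entries : ∀ i j, InR q 1 (X.val i j)
  lower : InR q N (X.val 1 0)
  det : (X : Matrix (Fin 2) (Fin 2) ℚ).det = m
  ne_zero : m ≠ 0

theorem IsScale.conj_mem {N q m L : ℕ} {X : GL (Fin 2) ℚ} (hX : IsScale N q m X)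
    {g : GL (Fin 2) ℚ} (hg : g ∈ deepR N q (L * m)) : X * g * X⁻¹ ∈ deepR N q L := by
  obtain ⟨d, a, b, c, e⟩ := hg
  have hm : (m : ℚ) ≠ 0 := by exact_mod_cast hX.ne_zero
  have hinv : ((X⁻¹ : GL (Fin 2) ℚ) : Matrix (Fin 2) (Fin 2) ℚ) = (m : ℚ)⁻¹ • X.val.adjugate := by
    rw [Matrix.coe_units_inv, Matrix.inv_def, hX.det, Ring.inverse_eq_inv']
  have hv : ∀ i j, (X * g * X⁻¹).val i j = (m : ℚ)⁻¹ * (X.val * g.val * X.val.adjugate) i j := by
    intro i j
    rw [Units.val_mul, Units.val_mul, hinv, Matrix.mul_smul, Matrix.smul_apply, smul_eq_mul]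
  have hdet : X.val 0 0 * X.val 1 1 - X.val 0 1 * X.val 1 0 = m := by
    rw [← Matrix.det_fin_two]; exact hX.det
  have hc : InR q (L * m) (g.val 1 0) := c.of_dvd (dvd_mul_left _ N)
  have hE := hX.entries
  refine ⟨?_, ?_, ?_, ?_, ?_⟩
  · rw [Units.val_mul, Units.val_mul, Matrix.det_mul, Matrix.det_mul, d, mul_one, ← Matrix.det_mul,
      ← Units.val_mul, mul_inv_cancel, Units.val_one, Matrix.det_one]
  all_goals rw [hv]
  all_goals simp only [Matrix.mul_apply, Fin.sum_univ_two, Matrix.adjugate_fin_two, Matrix.of_apply,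
    Matrix.cons_val', Matrix.cons_val_zero, Matrix.cons_val_one, Matrix.empty_val',
    Matrix.cons_val_fin_one]
  · convert InR.div hX.ne_zero
      (((hE 0 0).mul_left ((a.mul_right (hE 1 1)).sub (b.mul_right (hE 1 0)))).add
        ((hE 0 1).mul_left ((hc.mul_right (hE 1 1)).sub (e.mul_right (hE 1 0))))) using 1
    field_simp
    linear_combination hdet
  · convert InR.div hX.ne_zero
      (((hE 0 0).mul_left ((b.mul_right (hE 0 0)).sub (a.mul_right (hE 0 1)))).add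
        ((hE 0 1).mul_left ((e.mul_right (hE 0 0)).sub (hc.mul_right (hE 0 1))))) using 1
    field_simp
    ring
  · have h1 : InR q (N * L * m) (g.val 1 0) := by rwa [mul_assoc]
    have h2 : ∀ {x y : ℚ}, InR q N x → InR q (L * m) y → InR q (N * L * m) (x * y) := fun hx hy => by
      rw [mul_assoc]; exact hx.mul hy
    convert InR.div hX.ne_zero
      (((h2 hX.lower ((a.mul_right (hE 1 1)).sub (b.mul_right (hE 1 0))))).add
        (((hE 1 1).mul_left (h1.mul_right (hE 1 1))).sub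
          (h2 hX.lower (e.mul_right (hE 1 1))))) using 1
    field_simp
    ring
  · convert InR.div hX.ne_zero
      (((hE 1 0).mul_left ((b.mul_right (hE 0 0)).sub (a.mul_right (hE 0 1)))).add
        ((hE 1 1).mul_left ((e.mul_right (hE 0 0)).sub (hc.mul_right (hE 0 1))))) using 1
    field_simp
    linear_combination hdet

/-- `[[1, x], [0, 1]]`. -/
def uQ (x : ℚ) : GL (Fin 2) ℚ :=
  Matrix.GeneralLinearGroup.mkOfDetNeZero !![1, x; 0, 1] (by simp [Matrix.det_fin_two_of])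

/-- `[[1, 0], [y, 1]]`. -/
def vQ (y : ℚ) : GL (Fin 2) ℚ :=
  Matrix.GeneralLinearGroup.mkOfDetNeZero !![1, 0; y, 1] (by simp [Matrix.det_fin_two_of])

@[simp] theorem val_uQ (x : ℚ) : (uQ x).val = !![1, x; 0, 1] := rfl

@[simp] theorem val_vQ (y : ℚ) : (vQ y).val = !![1, 0; y, 1] := rfl

theorem uQ_add (x y : ℚ) : uQ (x + y) = uQ x * uQ y := by
  refine Units.ext ?_
  simp [add_comm]

theorem uQ_zero : uQ 0 = 1 := Units.ext (by simp [Matrix.one_fin_two])

theorem uQ_inv (x : ℚ) : (uQ x)⁻¹ = uQ (-x) :=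
  inv_eq_of_mul_eq_one_right (by rw [← uQ_add, add_neg_cancel, uQ_zero])

theorem uQ_mem_deepR {N q L : ℕ} {x : ℚ} (hx : InR q L x) : uQ x ∈ deepR N q L := by
  refine mem_deepR.mpr ⟨by simp [Matrix.det_fin_two_of], ?_, ?_, ?_, ?_⟩ <;> simp [inR_zero, hx]

theorem vQ_mem_deepR {N q L : ℕ} {y : ℚ} (hy : InR q (N * L) y) : vQ y ∈ deepR N q L := by
  refine mem_deepR.mpr ⟨by simp [Matrix.det_fin_two_of], ?_, ?_, ?_, ?_⟩ <;> simp [inR_zero, hy]

/-- `diag(q ^ n, q ^ -n)`. -/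
def tauQ (q : ℕ) [NeZero q] (n : ℤ) : GL (Fin 2) ℚ :=
  Matrix.GeneralLinearGroup.mkOfDetNeZero !![(q : ℚ) ^ n, 0; 0, (q : ℚ) ^ (-n)]
    (by
      have : (q : ℚ) ≠ 0 := by exact_mod_cast NeZero.ne q
      rw [Matrix.det_fin_two_of, mul_zero, sub_zero, ← zpow_add₀ this]; simp)

variable {q : ℕ} [NeZero q]

@[simp] theorem val_tauQ (n : ℤ) :
    (tauQ q n).val = !![(q : ℚ) ^ n, 0; 0, (q : ℚ) ^ (-n)] := rfl

theorem tauQ_add (m n : ℤ) : tauQ q (m + n) = tauQ q m * tauQ q n := by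
  have : (q : ℚ) ≠ 0 := by exact_mod_cast NeZero.ne q
  refine Units.ext ?_
  simp [zpow_add₀ this, mul_comm]

theorem tauQ_zero : tauQ q 0 = 1 := Units.ext (by simp [Matrix.one_fin_two])

theorem tauQ_inv (n : ℤ) : (tauQ q n)⁻¹ = tauQ q (-n) :=
  inv_eq_of_mul_eq_one_right (by rw [← tauQ_add, add_neg_cancel, tauQ_zero])

theorem inR_zpow (n : ℤ) : InR q 1 ((q : ℚ) ^ n) := by
  have : (q : ℚ) ≠ 0 := by exact_mod_cast NeZero.ne q
  obtain ⟨k, rfl | rfl⟩ := Int.eq_nat_or_neg n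
  · exact ⟨0, (q : ℤ) ^ k, by simp⟩
  · exact ⟨k, 1, by simp [inv_mul_cancel₀ (pow_ne_zero k this)]⟩

theorem isScale_tauQ (N : ℕ) (n : ℤ) : IsScale N q 1 (tauQ q n) := by
  have : (q : ℚ) ≠ 0 := by exact_mod_cast NeZero.ne q
  refine ⟨fun i j => ?_, ?_, ?_, one_ne_zero⟩
  · fin_cases i <;> fin_cases j <;> simp [inR_zero, inR_zpow]
    simpa using inR_zpow (q := q) (-n)
  · simp [inR_zero]
  · rw [val_tauQ, Matrix.det_fin_two_of, mul_zero, sub_zero, ← zpow_add₀ this]; simp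

theorem tauQ_mem_gamR (N : ℕ) (n : ℤ) : tauQ q n ∈ gamR N q :=
  ⟨by simpa using (isScale_tauQ (q := q) N n).det, (isScale_tauQ N n).entries, by simp [inR_zero]⟩

theorem tauQ_conj_val (n : ℤ) (g : GL (Fin 2) ℚ) :
    (tauQ q n * g * (tauQ q n)⁻¹).val 0 0 = g.val 0 0 ∧
      (tauQ q n * g * (tauQ q n)⁻¹).val 0 1 = (q : ℚ) ^ (2 * n) * g.val 0 1 := by
  have : (q : ℚ) ≠ 0 := by exact_mod_cast NeZero.ne q
  rw [tauQ_inv]
  simp only [Units.val_mul, Matrix.mul_apply, Fin.sum_univ_two]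
  simp [two_mul, zpow_add₀ this]
  constructor
  · field_simp
  · ring

end FLTAgent.LevelRaise
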