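import Fermat.Agent.LevelRaise.Pairing
import Mathlib.LinearAlgebra.Dual.Lemmas
import Mathlib.LinearAlgebra.Finsupp.LinearCombination

/-!
# The pairing on parabolic homomorphisms is nondegenerate
-/

set_option autoImplicit false

noncomputable section

namespace FLTAgent.LevelRaise

open scoped MatrixGroups
open ModularGroup

theorem isElliptic_neg_one : IsElliptic (-1 : SL(2, ℤ)) := Or.inr (Or.inr rfl)

/-- An elliptic-vanishing cocycle vanishing on the stabilised powers of `T` is parabolic. -/
theorem IsEllCocycle.isParCocycle {X : Type*} [MulAction SL(2, ℤ) X] {A : Type*} [AddCommGroup A]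
    (hneg : ∀ x : X, (-1 : SL(2, ℤ)) • x = x) {a : SL(2, ℤ) → X → A} (ha : IsEllCocycle a)
    (hT : ∀ (n : ℕ) (x : X), (T : SL(2, ℤ)) ^ n • x = x → a (T ^ n) x = 0) : IsParCocycle a := by
  refine ⟨ha.1, fun g x hx hg => ?_⟩
  rcases hg.eq_or_lt with h | h
  swap
  · exact ha.2 g x hx (Or.inl h)
  have hTz : ∀ (m : ℤ) (y : X), (T : SL(2, ℤ)) ^ m • y = y → a (T ^ m) y = 0 := by
    intro m y hy
    obtain ⟨n, rfl | rfl⟩ := Int.eq_nat_or_neg m
    · rw [zpow_natCast] at hy ⊢; exact hT n y hy
    · rw [zpow_neg, zpow_natCast] at hy ⊢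
      rw [ha.1.map_inv, hy, hT n y (by rwa [inv_smul_eq_iff, eq_comm] at hy), neg_zero]
  have hnegg : ∀ g' : SL(2, ℤ), a (-g') x = a g' x ∧ (-g') • x = g' • x := fun g' => by
    constructor
    · rw [← neg_one_mul, ha.1, ha.2 _ _ (hneg _) isElliptic_neg_one, zero_add]
    · rw [← neg_one_mul, mul_smul, hneg]
  obtain ⟨δ, m, hm⟩ := FLTAgent.Periods.exists_mul_eq_mul_T_zpow h
  obtain ⟨g', hg', hx', he⟩ : ∃ g', g' = δ * T ^ m * δ⁻¹ ∧ g' • x = x ∧ a g x = a g' x := by
    rcases hm with hm | hm
    · exact ⟨g, eq_mul_inv_of_mul_eq hm, hx, rfl⟩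
    · have hgg : g = -(δ * T ^ m * δ⁻¹) := by rw [eq_mul_inv_of_mul_eq hm, neg_mul]
      refine ⟨_, rfl, ?_, ?_⟩
      · rw [← (hnegg _).2, ← hgg, hx]
      · rw [hgg, (hnegg _).1]
  rw [he, hg']
  rw [hg'] at hx'
  obtain ⟨y, rfl⟩ : ∃ y, x = δ • y := ⟨δ⁻¹ • x, (smul_inv_smul δ x).symm⟩
  rw [mul_smul, inv_smul_smul, mul_smul] at hx'
  have hy : (T : SL(2, ℤ)) ^ m • y = y := MulAction.injective δ hx'
  rw [ha.1, inv_smul_smul, ha.1, hy, hTz m y hy, add_zero, ha.1.map_inv, inv_smul_smul,
    add_neg_cancel]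

open Classical in
/-- Vanishing orbit sums give vanishing sums along all fixed powers. -/
theorem sum_range_eq_zero_of_orbit_sums {X : Type*} [MulAction SL(2, ℤ) X] [Fintype X]
    {A : Type*} [AddCommGroup A] (e' : X → A)
    (hzero : ∀ o : PowOrbits (T : SL(2, ℤ)) X, ∑ x ∈ Finset.univ.filter
      (fun x : X => (Quotient.mk'' x : PowOrbits (T : SL(2, ℤ)) X) = o), e' x = 0) :
    ∀ (n : ℕ) (x : X), (T : SL(2, ℤ)) ^ n • x = x → ∑ i ∈ Finset.range n, e' (T ^ i • x) = 0 := by
  intro n x hx
  obtain ⟨j, rfl⟩ := MulAction.pow_smul_eq_iff_period_dvd.mp hx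
  have hper : ∀ i, (T : SL(2, ℤ)) ^ (i + MulAction.period T x) • x = T ^ i • x := fun i => by
    rw [pow_add, mul_smul, MulAction.pow_period_smul]
  have hone : ∑ i ∈ Finset.range (MulAction.period T x), e' (T ^ i • x) = 0 := by
    rw [← hzero (Quotient.mk'' x)]
    refine Finset.sum_bij (fun i _ => (T : SL(2, ℤ)) ^ i • x) ?_ ?_ ?_ (fun _ _ => rfl)
    · intro i _
      simp only [Finset.mem_filter, Finset.mem_univ, true_and]
      exact mk_pow_smul T i x
    · intro i hi l hl hil
      rw [Finset.mem_range] at hi hl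
      by_contra hne
      wlog hlt : i < l generalizing i l
      · exact this l hl i hi hil.symm (Ne.symm hne) (lt_of_le_of_ne (not_lt.mp hlt) (Ne.symm hne))
      refine MulAction.pow_smul_ne_of_lt_period (m := (T : SL(2, ℤ))) (a := x) (n := l - i)
        (by omega) (by omega) ?_
      apply MulAction.injective ((T : SL(2, ℤ)) ^ i)
      show (T : SL(2, ℤ)) ^ i • T ^ (l - i) • x = T ^ i • x
      rw [← mul_smul, ← pow_add, show i + (l - i) = l by omega, hil]
    · intro z hz
      simp only [Finset.mem_filter, Finset.mem_univ, true_and] at hz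
      obtain ⟨⟨t, ht⟩, hz'⟩ := Quotient.exact' hz
      obtain ⟨l, rfl⟩ := Subgroup.mem_zpowers_iff.mp ht
      have hw := period_pos_of_finite (T : SL(2, ℤ)) x
      refine ⟨(l % (MulAction.period (T : SL(2, ℤ)) x : ℤ)).toNat, ?_, ?_⟩
      · have := Int.emod_lt_of_pos l (show (0 : ℤ) < MulAction.period (T : SL(2, ℤ)) x by omega)
        rw [Finset.mem_range]; omega
      · rw [← zpow_natCast, Int.toNat_of_nonneg (Int.emod_nonneg _ (by omega)),
          MulAction.zpow_mod_period_smul]
        exact hz'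
  induction j with
  | zero => simp
  | succ j ih =>
    rw [Nat.mul_succ, Finset.sum_range_add, ih (MulAction.pow_smul_eq_iff_period_dvd.mpr
      (dvd_mul_right _ _)), zero_add]
    rw [← hone]
    refine Finset.sum_congr rfl fun i _ => ?_
    rw [add_comm, pow_add, mul_smul, MulAction.pow_smul_eq_iff_period_dvd.mpr (dvd_mul_right _ _)]

variable {k : Type*} [Field k] {Γ : Subgroup SL(2, ℤ)} [Γ.FiniteIndex]

/-- The pairing is nondegenerate. -/
theorem eq_zero_of_pairing_eq_zero (hneg : (-1 : SL(2, ℤ)) ∈ Γ) (h2 : (2 : k) ≠ 0)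
    {φ : Additive Γ →+ k} (hφ : φ ∈ parHom Γ k)
    (h : ∀ ψ ∈ parHom Γ k, pairing φ ψ = 0) : φ = 0 := by
  classical
  have hnegX := neg_one_smul_cos hneg
  have hST3 : ∀ x : Cos Γ, S • S • x = x := fun x => by rw [← mul_smul, ← pow_two, S_sq_eq, hnegX]
  obtain ⟨v, hv⟩ := (isCocycle_homCocycle φ).exists_gauge (S * T)
    fun n x hx => (isParCocycle_homCocycle hφ).toEll.2 _ x hx (isElliptic_pow isElliptic_ST n)
  obtain ⟨a, ha_def⟩ : ∃ a, a = homCocycle φ + cobound v := ⟨_, rfl⟩
  have ha : IsParCocycle a := ha_def ▸ (isParCocycle_homCocycle hφ).add (isParCocycle_cobound v)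
  have haφ : baseHom a ha.1 = φ := AddMonoidHom.ext fun γ => by
    subst ha_def
    show homCocycle φ ((Additive.toMul γ : Γ) : SL(2, ℤ)) _ + cobound v _ _ = _
    rw [homCocycle_base, cobound, smul_base_of_mem (Additive.toMul γ).2, sub_self, add_zero]
    rfl
  have haU : ∀ x, a (S * T) x = 0 := fun x => by rw [ha_def]; exact hv x
  obtain ⟨e, he⟩ : ∃ e, e = a S := ⟨_, rfl⟩
  have haT : ∀ x, a T x = -e (T • x) := fun x => by
    have h1 := haU x
    rw [ha.1.ST_apply] at h1
    rw [he]; exact eq_neg_of_add_eq_zero_right h1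
  have hanti : ∀ x, e (S • x) + e x = 0 := fun x => by
    rw [he, ← ha.1, ← pow_two, S_sq_eq]
    exact ha.2 _ x (hnegX x) isElliptic_neg_one.trace_sq_le
  obtain ⟨u, hu⟩ := ha.exists_gauge_T
  have hu' : ∀ x, u (T • x) - u x = e (T • x) := fun x => by
    have h1 := hu x
    simp only [Pi.add_apply, cobound, haT] at h1
    linear_combination h1
  obtain ⟨i2, hi2⟩ : ∃ i : k, i * 2 = 1 := ⟨2⁻¹, inv_mul_cancel₀ h2⟩
  obtain ⟨g, hg⟩ : ∃ g : Cos Γ → k, g = fun y => i2 * e y - u y := ⟨_, rfl⟩
  -- the functionals cutting out the admissible values of `ψ` at `S`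
  let fn : Cos Γ ⊕ PowOrbits T (Cos Γ) → (Cos Γ → k) →ₗ[k] k := fun i =>
    match i with
    | Sum.inl x => (LinearMap.proj x : (Cos Γ → k) →ₗ[k] k) + LinearMap.proj (S • x)
    | Sum.inr o => ∑ x ∈ Finset.univ.filter
        (fun x : Cos Γ => (Quotient.mk'' x : PowOrbits T (Cos Γ)) = o),
          (LinearMap.proj x : (Cos Γ → k) →ₗ[k] k)
  let target : (Cos Γ → k) →ₗ[k] k := ∑ y, g y • (LinearMap.proj y : (Cos Γ → k) →ₗ[k] k)
  have hker : ⨅ i, LinearMap.ker (fn i) ≤ LinearMap.ker target := by
    intro e' he'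
    simp only [Submodule.mem_iInf, LinearMap.mem_ker] at he'
    have hanti' : ∀ x, e' (S • x) + e' x = 0 := fun x => by
      have h1 := he' (Sum.inl x)
      simp only [fn, LinearMap.add_apply, LinearMap.proj_apply] at h1
      linear_combination h1
    have hface := sum_range_eq_zero_of_orbit_sums e' fun o => by
      have h1 := he' (Sum.inr o)
      simp only [fn, LinearMap.coe_sum, Finset.sum_apply, LinearMap.proj_apply] at h1
      convert h1
    obtain ⟨a', b, F, hA, hB, hF, hAS, hBS, hFS, hAU, hBU, hFU⟩ :=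
      exists_quad_of_values hnegX e e' (fun x => i2 * (e x * e' x)) hanti hanti'
        (fun x => by linear_combination (e x * e' x) * hi2 + (i2 * e' (S • x) + e' x) * hanti x +
          (-(i2 * e x)) * hanti' x)
        (fun x hx => by
          have h1 := hanti x
          have h3 := hanti' x
          rw [hx, ← two_mul] at h1 h3
          exact ⟨(mul_eq_zero.mp h1).resolve_left h2, (mul_eq_zero.mp h3).resolve_left h2,
            by simp [(mul_eq_zero.mp h1).resolve_left h2]⟩)
    obtain rfl : a' = a := by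
      have hd : IsCocycle (a' - a) := fun p q x => by
        simp only [Pi.sub_apply, hA.1 p q x, ha.1 p q x]; abel
      funext p x
      exact sub_eq_zero.mp (hd.eq_zero (fun y => by simp [hAS, he])
        (fun y => by simp [hAU, haU]) p x)
    have hbT : ∀ x, b T x = -e' (T • x) := fun x => by
      have h1 := hBU x
      rw [hB.1.ST_apply, hBS] at h1
      exact eq_neg_of_add_eq_zero_right h1
    have hb : IsParCocycle b := hB.isParCocycle hnegX fun n x hx => by
      rw [hB.1.map_pow]
      simp only [hbT, Finset.sum_neg_distrib, neg_eq_zero]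
      have h1 := hface n (T • x) (by rw [← mul_smul, ← pow_succ, pow_succ', mul_smul, hx])
      rw [← h1]
      refine Finset.sum_congr rfl fun i _ => ?_
      rw [← mul_smul, ← mul_smul, ← pow_succ, pow_succ']
    have hshift := hF.shift hA hB u 0
    have hcb : cobound (0 : Cos Γ → k) = 0 := by funext p x; simp [cobound]
    rw [hcb, add_zero] at hshift
    have hau := ha.add (isParCocycle_cobound u)
    have hpair := pairing_eq hneg h2 hφ (baseHom_mem_parHom hb) hau hb ?_ rfl hshift
    swap
    · refine AddMonoidHom.ext fun γ => ?_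
      have h4 := DFunLike.congr_fun haφ γ
      show a' ((Additive.toMul γ : Γ) : SL(2, ℤ)) _ + cobound u _ _ = _
      rw [cobound, smul_base_of_mem (Additive.toMul γ).2, sub_self, add_zero]
      exact h4
    rw [h _ (baseHom_mem_parHom hb), hshift.orbitPair_eq_sum hau.1 hb.1 (Or.inl hu)] at hpair
    have hterm : ∀ x, (F + quadShift a' b u 0) T x = g (T • x) * e' (T • x) := by
      intro x
      have h1 := hFU x
      rw [hF.1, hFS, hbT] at h1
      simp only [← he] at h1
      simp only [Pi.add_apply, quadShift, Pi.zero_apply, mul_zero, neg_zero, zero_add, sub_zero,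
        add_zero, hbT, hg]
      linear_combination h1 - (e (T • x) * e' (T • x)) * hi2
    simp only [hterm] at hpair
    rw [show ∑ x, g (T • x) * e' (T • x) = ∑ y, g y * e' y from
      Equiv.sum_comp (MulAction.toPerm (T : SL(2, ℤ))) (fun y => g y * e' y)] at hpair
    simpa [target] using hpair.symm
  obtain ⟨c, hc⟩ := (Submodule.mem_span_range_iff_exists_fun k).mp
    (mem_span_of_iInf_ker_le_ker hker)
  obtain ⟨hfun, hhfun⟩ : ∃ w : Cos Γ → k,
      w = fun x => -u x - c (Sum.inr (Quotient.mk'' x)) := ⟨_, rfl⟩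
  have hsplit : ∀ y, g y = (c (Sum.inl y) + c (Sum.inl (S • y))) + c (Sum.inr (Quotient.mk'' y)) := by
    intro y
    have h1 := LinearMap.congr_fun hc (Pi.single y 1)
    simp only [target, fn, LinearMap.coe_sum, LinearMap.smul_apply, Finset.sum_apply,
      LinearMap.proj_apply, Fintype.sum_sum_type, LinearMap.add_apply, smul_eq_mul,
      Pi.single_apply, mul_ite, mul_one, mul_zero, mul_add, Finset.sum_add_distrib,
      Finset.sum_ite_eq', Finset.mem_univ, if_true] at h1
    rw [← h1]
    congr 1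
    · congr 1
      rw [Finset.sum_eq_single (S • y)]
      · simp [hST3]
      · intro b _ hb
        rw [if_neg]
        intro hh
        exact hb (by rw [← hh, hST3])
      · simp
    · rw [Finset.sum_eq_single (Quotient.mk'' y)]
      · simp
      · intro o _ ho
        simp [Ne.symm ho]
      · simp
  have hTrec : ∀ x, hfun x - hfun (T • x) = e (T • x) := fun x => by
    rw [hhfun]
    simp only [mk_smul_self]
    linear_combination hu' x
  have hSval : ∀ y, hfun (T⁻¹ • y) = hfun (S • y) := by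
    intro y
    have h1 := hTrec (T⁻¹ • y)
    rw [smul_inv_smul] at h1
    have h3 := hsplit y
    have h4 := hsplit (S • y)
    rw [hST3, hg] at h4
    rw [hg] at h3
    simp only [hhfun] at h1 ⊢
    linear_combination h1 + h3 - h4 + (-e y) * hi2 + i2 * hanti y
  have hUinv : ∀ z, hfun ((S * T) • z) = hfun z := fun z => by
    have h1 := hSval (T • z)
    rw [inv_smul_smul] at h1
    rw [mul_smul, h1]
  have hzero : a = cobound hfun := by
    have hd : IsCocycle (a - cobound hfun) := fun p q x => by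
      simp only [Pi.sub_apply, ha.1 p q x, (isParCocycle_cobound hfun).1 p q x]; abel
    funext p x
    refine sub_eq_zero.mp (hd.eq_zero (fun y => ?_) (fun y => ?_) p x)
    · have h1 := hTrec (T⁻¹ • y)
      rw [smul_inv_smul, hSval] at h1
      simp only [Pi.sub_apply, cobound, ← he]
      linear_combination -h1
    · simp [cobound, haU, hUinv]
  rw [← haφ]
  refine AddMonoidHom.ext fun γ => ?_
  show a ((Additive.toMul γ : Γ) : SL(2, ℤ)) (cosBase Γ) = 0
  rw [hzero, cobound, smul_base_of_mem (Additive.toMul γ).2, sub_self]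

end FLTAgent.LevelRaise
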