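import Fermat.Agent.LevelRaise.HeckeOp
import Fermat.Agent.LevelRaise.Nondegenerate

/-!
# The two degeneracy maps between the levels `N` and `N q`
-/

set_option autoImplicit false

noncomputable section

namespace FLTAgent.LevelRaise

open scoped MatrixGroups
open CongruenceSubgroup

/-- Data for the involution at `q` of level `N q`. -/
structure WData (N q : ℕ) where
  t : ℤ
  y : ℤ
  prime : q.Prime
  not_dvd : ¬ q ∣ N
  rel : (q : ℤ) * t - (N : ℤ) * y = 1

theorem exists_wData {N q : ℕ} (hq : q.Prime) (hqN : ¬ q ∣ N) : Nonempty (WData N q) := by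
  obtain ⟨u, v, h⟩ := exists_bezout hq hqN
  exact ⟨⟨u, v, hq, hqN, h⟩⟩

variable {N q : ℕ} (D : WData N q)

namespace WData

/-- The matrix of the involution. -/
def mat : Matrix (Fin 2) (Fin 2) ℤ := !![(q : ℤ), D.y; (N : ℤ) * q, (q : ℤ) * D.t]

/-- Conjugation by the matrix of the involution. -/
def conjMat (a b c d : ℤ) : Matrix (Fin 2) (Fin 2) ℤ :=
  !![((q : ℤ) * a + D.y * (N * q * c)) * D.t - ((q : ℤ) * b + D.y * d) * N,
    -(D.y * a) - D.y * D.y * (N * c) + (q : ℤ) * b + D.y * d;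
    (N : ℤ) * q * (a * D.t + q * c * D.t * D.t - N * b - D.t * d),
    -(D.y * (N * a + D.t * (N * q * c))) + N * q * b + q * D.t * d]

theorem mat_mul_eq_conjMat (a b c d : ℤ) :
    D.mat * !![a, b; (N : ℤ) * q * c, d] = D.conjMat a b c d * D.mat := by
  ext r s
  fin_cases r <;> fin_cases s <;> simp [mat, conjMat, Matrix.mul_apply, Fin.sum_univ_two]
  · linear_combination -((q : ℤ) * a + D.y * (N * q * c)) * D.rel
  · linear_combination -((q : ℤ) * b + D.y * d) * D.rel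
  · linear_combination -((N : ℤ) * q * a + q * D.t * (N * q * c)) * D.rel
  · linear_combination -((N : ℤ) * q * b + q * D.t * d) * D.rel

theorem det_conjMat (a b c d : ℤ) : (D.conjMat a b c d).det = a * d - b * (N * q * c) := by
  simp [conjMat, Matrix.det_fin_two_of]
  linear_combination (a * d - b * (N * q * c)) * ((q : ℤ) * D.t - N * D.y + 1) * D.rel

theorem det_pos : 0 < D.mat.det := by
  have h : D.mat.det = q := by
    simp [mat, Matrix.det_fin_two_of]; linear_combination (q : ℤ) * D.rel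
  rw [h]; exact_mod_cast D.prime.pos

theorem conjMat_one_zero (a b c d : ℤ) : ((N * q : ℕ) : ℤ) ∣ D.conjMat a b c d 1 0 :=
  ⟨a * D.t + q * c * D.t * D.t - N * b - D.t * d, by simp [conjMat]⟩

theorem conjLE : ConjLE D.mat (Gamma0 (N * q)) (Gamma0 (N * q)) := by
  refine ⟨D.det_pos, fun γ hγ => ?_⟩
  obtain ⟨c, hc⟩ := mem_gamma0_iff.mp hγ
  push_cast at hc
  have hγe : matSL γ = !![matSL γ 0 0, matSL γ 0 1; (N : ℤ) * q * c, matSL γ 1 1] := by
    ext r s; fin_cases r <;> fin_cases s <;> simp [hc]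
  refine ⟨⟨D.conjMat (matSL γ 0 0) (matSL γ 0 1) c (matSL γ 1 1), ?_⟩,
    mem_gamma0_iff.mpr (D.conjMat_one_zero _ _ _ _), ?_⟩
  · have h := det_matSL γ
    rw [det_conjMat]; rw [hc] at h; linear_combination h
  · conv_lhs => rw [hγe, D.mat_mul_eq_conjMat]

theorem conjLE' : ConjLE D.mat (Gamma0 (N * q)) (Gamma0 N) :=
  ⟨D.det_pos, fun γ hγ => by
    obtain ⟨δ, hδ, e⟩ := D.conjLE.exists_eq γ hγ
    exact ⟨δ, gamma0_mul_le N q hδ, e⟩⟩

/-- The square of the involution, up to a scalar. -/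
def sq : Gamma0 (N * q) :=
  ⟨slMk (q + N * D.y) (D.y * (1 + D.t)) (N * q * (1 + D.t)) (N * D.y + q * D.t ^ 2)
      (by linear_combination ((q : ℤ) * D.t - N * D.y + 1) * D.rel),
    mem_gamma0_iff.mpr ⟨1 + D.t, by simp⟩⟩

theorem mat_mul_mat : D.mat * D.mat = (q : ℤ) • matSL (D.sq : SL(2, ℤ)) := by
  ext r s
  fin_cases r <;> fin_cases s <;> simp [mat, sq, Matrix.mul_apply, Fin.sum_univ_two] <;> ring

theorem hom_hom (γ : Gamma0 (N * q)) :
    D.conjLE.hom (D.conjLE.hom γ) = D.sq * γ * D.sq⁻¹ := by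
  refine D.conjLE.hom_eq (mul_right_cancel_of_det_pos D.det_pos ?_)
  rw [Matrix.mul_assoc, ← D.conjLE.spec, ← Matrix.mul_assoc, mat_mul_mat, Matrix.mul_assoc,
    mat_mul_mat, smul_mul_assoc, Matrix.mul_smul, ← matSL_mul, ← matSL_mul]
  congr 2
  simp

theorem hom_surjective : Function.Surjective D.conjLE.hom := fun γ =>
  ⟨D.conjLE.hom (D.sq⁻¹ * γ * D.sq), by rw [hom_hom]; group⟩

/-- The auxiliary element of `Γ₀(N)` relating the involution to `diag(q, 1)`. -/
def eps : Gamma0 N :=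
  ⟨slMk 1 D.y N ((q : ℤ) * D.t) (by linear_combination D.rel), mem_gamma0_iff.mpr (by simp)⟩

theorem mat_eq_eps_mul : D.mat = matSL (D.eps : SL(2, ℤ)) * tRepZ q none := by
  ext r s
  fin_cases r <;> fin_cases s <;> simp [mat, eps, tRepZ, Matrix.mul_apply, Fin.sum_univ_two, mul_comm]

/-- Representatives of `Γ₀(N q)` in `Γ₀(N)`. -/
def rep : Option (ZMod q) → Gamma0 N
  | none => 1
  | some j => ⟨slMk D.t (D.t * j.val - D.y) (-(N : ℤ)) ((q : ℤ) - N * j.val)
      (by linear_combination D.rel), mem_gamma0_iff.mpr (by simp)⟩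

/-- The representatives of `U q` completed by the involution. -/
def etaU : Option (ZMod q) → Matrix (Fin 2) (Fin 2) ℤ
  | none => D.mat
  | some j => tRepZ q (some j)

theorem mat_mul_rep (i : Option (ZMod q)) : D.mat * matSL (D.rep i : SL(2, ℤ)) = D.etaU i := by
  rcases i with _ | j
  · simp [rep, etaU, matSL]
  · ext r s
    fin_cases r <;> fin_cases s <;>
      simp [rep, etaU, mat, tRepZ, Matrix.mul_apply, Fin.sum_univ_two, -ZMod.natCast_val]
    · linear_combination D.rel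
    · linear_combination (j.val : ℤ) * D.rel
    · ring
    · linear_combination (q : ℤ) * D.rel

theorem exists_etaU_eq (i : Option (ZMod q)) :
    ∃ ε : Gamma0 N, D.etaU i = matSL (ε : SL(2, ℤ)) * tRepZ q i := by
  rcases i with _ | j
  · exact ⟨D.eps, D.mat_eq_eps_mul⟩
  · exact ⟨1, by simp [etaU, matSL]⟩

theorem distinctFam_etaU : DistinctFam D.etaU := by
  have : NeZero q := ⟨D.prime.ne_zero⟩
  intro i j δ h
  obtain ⟨a, ha⟩ := D.exists_etaU_eq i
  obtain ⟨b, hb⟩ := D.exists_etaU_eq j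
  refine distinctFam_tRepZ q D.prime.one_lt i j ((a : SL(2, ℤ))⁻¹ * (δ * b)) ?_
  rw [← matSL_inv_mul_cancel (a : SL(2, ℤ)) (tRepZ q i), ← ha, h, hb, matSL_mul, matSL_mul]
  simp only [Matrix.mul_assoc]

theorem rep_surjective (γ : Gamma0 N) :
    ∃ i, ((γ : SL(2, ℤ)) * (D.rep i : SL(2, ℤ))⁻¹) ∈ Gamma0 (N * q) := by
  have : Fact q.Prime := ⟨D.prime⟩
  have hN := mem_gamma0_iff.mp γ.2
  have hcop : IsCoprime (N : ℤ) (q : ℤ) :=
    (Nat.isCoprime_iff_coprime).mpr ((D.prime.coprime_iff_not_dvd).mpr D.not_dvd).symm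
  by_cases hc : ((matSL (γ : SL(2, ℤ)) 1 0 : ℤ) : ZMod q) = 0
  · refine ⟨none, mem_gamma0_iff.mpr ?_⟩
    rw [show (D.rep none : SL(2, ℤ)) = 1 from rfl, inv_one, mul_one]
    push_cast
    exact hcop.mul_dvd hN ((ZMod.intCast_zmod_eq_zero_iff_dvd _ _).mp hc)
  · obtain ⟨j, hj⟩ : ∃ j : ZMod q, j = ((matSL (γ : SL(2, ℤ)) 1 1 : ℤ) : ZMod q)
        / ((matSL (γ : SL(2, ℤ)) 1 0 : ℤ) : ZMod q) := ⟨_, rfl⟩
    refine ⟨some j, mem_gamma0_iff.mpr ?_⟩
    push_cast
    refine hcop.mul_dvd ?_ ?_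
    · exact mem_gamma0_iff.mp ((Gamma0 N).mul_mem γ.2 ((Gamma0 N).inv_mem (D.rep (some j)).2))
    · rw [← ZMod.intCast_zmod_eq_zero_iff_dvd]
      have hinv : matSL ((D.rep (some j) : SL(2, ℤ))⁻¹)
          = !![(q : ℤ) - N * j.val, -(D.t * j.val - D.y); (N : ℤ), D.t] := by
        show (matSL (D.rep (some j) : SL(2, ℤ))).adjugate = _
        simp [rep, Matrix.adjugate_fin_two_of]
      rw [matSL_mul, hinv, Matrix.mul_apply, Fin.sum_univ_two]
      simp only [Matrix.of_apply, Matrix.cons_val', Matrix.cons_val_zero, Matrix.cons_val_one,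
        Matrix.empty_val', Matrix.cons_val_fin_one]
      push_cast
      rw [ZMod.natCast_zmod_val, ZMod.natCast_self, hj]
      field_simp
      ring

theorem rep_injective (i j : Option (ZMod q))
    (h : ((D.rep i : SL(2, ℤ)) * (D.rep j : SL(2, ℤ))⁻¹) ∈ Gamma0 (N * q)) : i = j := by
  refine D.distinctFam_etaU i j (D.conjLE.hom ⟨_, h⟩ : SL(2, ℤ)) ?_
  rw [← mat_mul_rep, ← mat_mul_rep, ← Matrix.mul_assoc, ← D.conjLE.spec, Matrix.mul_assoc,
    ← matSL_mul]
  simp

variable {A : Type*} [AddCommGroup A]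

/-- The involution on homomorphisms. -/
def wOp (φ : Additive (Gamma0 (N * q)) →+ A) : Additive (Gamma0 (N * q)) →+ A :=
  conjPull D.conjLE φ

theorem wOp_mem_parHom {φ : Additive (Gamma0 (N * q)) →+ A} (hφ : φ ∈ parHom (Gamma0 (N * q)) A) :
    D.wOp φ ∈ parHom (Gamma0 (N * q)) A :=
  conjPull_mem_parHom _ hφ

theorem wOp_wOp (φ : Additive (Gamma0 (N * q)) →+ A) : D.wOp (D.wOp φ) = φ := by
  refine AddMonoidHom.ext fun γ => ?_
  obtain ⟨γ, rfl⟩ := Additive.ofMul.surjective γ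
  simp only [wOp, conjPull_apply, hom_hom, ofMul_mul, ofMul_inv, map_add, map_neg]
  abel

theorem wOp_resHom (φ : Additive (Gamma0 N) →+ A) :
    D.wOp (resHom (gamma0_mul_le N q) φ) = conjPull D.conjLE' φ := by
  refine AddMonoidHom.ext fun γ => ?_
  obtain ⟨γ, rfl⟩ := Additive.ofMul.surjective γ
  simp only [wOp, conjPull_apply, resHom_apply]
  congr 2
  exact (D.conjLE'.hom_eq (D.conjLE.spec γ)).symm

variable [NeZero N] [NeZero q]

include D in
theorem cores_resHom (φ : Additive (Gamma0 N) →+ A) :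
    cores (gamma0_mul_le N q) (resHom (gamma0_mul_le N q) φ) = (q + 1) • φ := by
  rw [cores_resHom_eq (gamma0_mul_le N q) D.rep D.rep_injective D.rep_surjective, Fintype.card_option,
    ZMod.card]

theorem cores_wOp_resHom (φ : Additive (Gamma0 N) →+ A) :
    cores (gamma0_mul_le N q) (D.wOp (resHom (gamma0_mul_le N q) φ)) = heckeOp N q φ := by
  refine AddMonoidHom.ext fun γ => ?_
  obtain ⟨γ, rfl⟩ := Additive.ofMul.surjective γ
  obtain ⟨σ, δ, h⟩ := exists_transfer_tRepZ D.prime D.not_dvd γ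
  choose ε hε using D.exists_etaU_eq
  rw [heckeOp_apply D.prime D.not_dvd φ γ h, wOp_resHom]
  exact cores_conjPull_eq_sum _ _ (distinctFam_tRepZ q D.prime.one_lt) D.rep ε
    (fun i => by rw [mat_mul_rep, hε]) D.rep_surjective φ γ σ δ h

/-- The transfer of `W z`, on `Γ₀(N q)`, in terms of `W` and the representatives of `U q`. -/
theorem cores_wOp_apply (z : Additive (Gamma0 (N * q)) →+ A) (γ : Gamma0 (N * q))
    {σ : ZMod q → ZMod q} {δ : ZMod q → Gamma0 (N * q)}
    (h : IsTransferZ (fun j => tRepZ q (some j)) (γ : SL(2, ℤ)) σ δ) :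
    cores (gamma0_mul_le N q) (D.wOp z) (Additive.ofMul ⟨γ, gamma0_mul_le N q γ.2⟩)
      = D.wOp z (Additive.ofMul γ) + ∑ j, z (Additive.ofMul (δ j)) := by
  let σ' : Option (ZMod q) → Option (ZMod q) := Option.map σ
  let δ' : Option (ZMod q) → Gamma0 (N * q) := fun i => i.elim (D.conjLE.hom γ) δ
  have h' : IsTransferZ D.etaU (γ : SL(2, ℤ)) σ' δ' := by
    intro i
    rcases i with _ | j
    · exact D.conjLE.spec γ
    · exact h j
  rw [wOp, cores_conjPull_eq_sum _ _ D.distinctFam_etaU D.rep (fun _ => 1)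
    (fun i => by rw [mat_mul_rep]; simp [matSL]) D.rep_surjective z ⟨γ, gamma0_mul_le N q γ.2⟩ σ' δ' h',
    Fintype.sum_option]
  rfl

omit [NeZero N] in
/-- Right multiplication by `Γ₀(N q)` permutes the representatives of `U q`. -/
theorem exists_transfer_U (D : WData N q) (γ : Gamma0 (N * q)) :
    ∃ (σ : ZMod q → ZMod q) (δ : ZMod q → Gamma0 (N * q)),
      IsTransferZ (fun j => tRepZ q (some j)) (γ : SL(2, ℤ)) σ δ := by
  have : Fact q.Prime := ⟨D.prime⟩
  have hall : ∀ j : ZMod q, ∃ (i : ZMod q) (δ : Gamma0 (N * q)),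
      tRepZ q (some j) * matSL (γ : SL(2, ℤ)) = matSL (δ : SL(2, ℤ)) * tRepZ q (some i) := by
    intro j
    obtain ⟨c, hc⟩ := mem_gamma0_iff.mp γ.2
    push_cast at hc
    obtain ⟨i, δ, hi⟩ := exists_eq_mul_tRepZ D.prime D.not_dvd (tRepZ q (some j) * matSL (γ : SL(2, ℤ)))
      (by rw [Matrix.det_mul, det_tRepZ, (γ : SL(2, ℤ)).det_coe, mul_one])
      (by simp [tRepZ, Matrix.mul_apply, Fin.sum_univ_two, hc]; exact ⟨q * q * c, by ring⟩)
    have h00 := congrArg (fun M => M 0 0) hi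
    have h10 := congrArg (fun M => M 1 0) hi
    rcases i with _ | i
    · exfalso
      simp [tRepZ, Matrix.mul_apply, Fin.sum_univ_two, hc, -ZMod.natCast_val] at h00
      have hd := det_matSL (γ : SL(2, ℤ))
      have h0 : ((matSL (γ : SL(2, ℤ)) 0 0 : ℤ) : ZMod q) = 0 := by
        have := congrArg (fun z : ℤ => (z : ZMod q)) h00
        push_cast at this
        simpa using this
      have := congrArg (fun z : ℤ => (z : ZMod q)) hd
      rw [hc] at this
      push_cast at this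
      simp [h0] at this
    · refine ⟨i, ⟨δ, mem_gamma0_iff.mpr ?_⟩, hi⟩
      simp [tRepZ, Matrix.mul_apply, Fin.sum_univ_two, hc] at h10
      rw [← h10]
      push_cast
      exact dvd_mul_of_dvd_right (dvd_mul_right _ _) _
  choose σ δ h using hall
  exact ⟨σ, δ, h⟩

/-- `T ℓ` commutes with the involution. -/
theorem heckeOp_wOp {ℓ : ℕ} [NeZero ℓ] (hℓ : ℓ.Prime) (hℓN : ¬ ℓ ∣ N * q)
    (z : Additive (Gamma0 (N * q)) →+ A) :
    heckeOp (N * q) ℓ (D.wOp z) = D.wOp (heckeOp (N * q) ℓ z) := by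
  refine AddMonoidHom.ext fun γ => ?_
  obtain ⟨γ, rfl⟩ := Additive.ofMul.surjective γ
  obtain ⟨σ, δ, h⟩ := exists_transfer_tRepZ hℓ hℓN γ
  have hY : ∀ i : Option (ZMod ℓ), ∃ (e : Option (ZMod ℓ)) (ε : Gamma0 (N * q)),
      D.mat * tRepZ ℓ i = matSL (ε : SL(2, ℤ)) * tRepZ ℓ e * D.mat := by
    intro i
    have hform : tRepZ ℓ i = !![tRepZ ℓ i 0 0, tRepZ ℓ i 0 1; (N : ℤ) * q * 0, tRepZ ℓ i 1 1] := by
      ext r s; fin_cases r <;> fin_cases s <;> simp [tRepZ_apply_one_zero]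
    obtain ⟨e, ε, he⟩ := exists_eq_mul_tRepZ hℓ hℓN
      (D.conjMat (tRepZ ℓ i 0 0) (tRepZ ℓ i 0 1) 0 (tRepZ ℓ i 1 1))
      (by
        rw [det_conjMat, mul_zero, mul_zero, sub_zero]
        have := det_tRepZ ℓ i
        rw [Matrix.det_fin_two, tRepZ_apply_one_zero, mul_zero, sub_zero] at this
        exact this)
      (D.conjMat_one_zero _ _ _ _)
    refine ⟨e, ε, ?_⟩
    conv_lhs => rw [hform, D.mat_mul_eq_conjMat, he]
  choose e ε he using hY
  have hinj : Function.Injective e := by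
    intro i j hij
    obtain ⟨d, hd⟩ := D.hom_surjective (ε i * (ε j)⁻¹)
    refine distinctFam_tRepZ ℓ hℓ.one_lt i j (d : SL(2, ℤ)) ?_
    have hadj := congrArg (D.mat.adjugate * ·) (show D.mat * tRepZ ℓ i
        = D.mat * (matSL (d : SL(2, ℤ)) * tRepZ ℓ j) by
      rw [← Matrix.mul_assoc, D.conjLE.spec, hd, Matrix.mul_assoc, he, he, hij, Subgroup.coe_mul,
        Subgroup.coe_inv, matSL_mul]
      simp only [Matrix.mul_assoc, matSL_inv_mul_cancel])
    simp only [← Matrix.mul_assoc, Matrix.adjugate_mul, Matrix.smul_mul, Matrix.one_mul] at hadj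
    exact smul_right_injective _ D.det_pos.ne' hadj
  let e' : Equiv.Perm (Option (ZMod ℓ)) :=
    Equiv.ofBijective e (Finite.injective_iff_bijective.mp hinj)
  let δ' : Option (ZMod ℓ) → Gamma0 (N * q) := fun i =>
    (ε i)⁻¹ * D.conjLE.hom (δ i) * ε (σ i)
  have h' : IsTransferZ (tRepZ ℓ) (D.conjLE.hom γ : SL(2, ℤ)) (fun i => e (σ (e'.symm i)))
      (fun i => δ' (e'.symm i)) := by
    intro x
    obtain ⟨i, rfl⟩ : ∃ i, e' i = x := ⟨e'.symm x, e'.apply_symm_apply x⟩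
    simp only [Equiv.symm_apply_apply]
    refine mul_right_cancel_of_det_pos D.det_pos ?_
    show tRepZ ℓ (e i) * _ * _ = _
    have key : tRepZ ℓ (e i) * D.mat = matSL (ε i : SL(2, ℤ))⁻¹ * (D.mat * tRepZ ℓ i) := by
      rw [he, Matrix.mul_assoc (matSL _), matSL_inv_mul_cancel]
    rw [Matrix.mul_assoc, ← D.conjLE.spec, ← Matrix.mul_assoc, key, Matrix.mul_assoc,
      Matrix.mul_assoc D.mat, h i, ← Matrix.mul_assoc D.mat, D.conjLE.spec,
      Matrix.mul_assoc (matSL _) D.mat, he]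
    simp only [δ', Subgroup.coe_mul, Subgroup.coe_inv, matSL_mul, Matrix.mul_assoc]
  rw [heckeOp_apply hℓ hℓN _ γ h]
  simp only [wOp, conjPull_apply]
  rw [heckeOp_apply hℓ hℓN z _ h']
  rw [← Equiv.sum_comp e' (fun i => z (Additive.ofMul (δ' (e'.symm i))))]
  simp only [Equiv.symm_apply_apply, δ', ofMul_mul, ofMul_inv, map_add, map_neg,
    Finset.sum_add_distrib, Finset.sum_neg_distrib]
  let σ' : Equiv.Perm (Option (ZMod ℓ)) := Equiv.ofBijective σ
    (Finite.injective_iff_bijective.mp ((distinctFam_tRepZ ℓ hℓ.one_lt).injective h))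
  rw [show ∑ i, z (Additive.ofMul (ε (σ i))) = ∑ i, z (Additive.ofMul (ε i)) from
    Equiv.sum_comp σ' (fun i => z (Additive.ofMul (ε i)))]
  abel

/-- `T ℓ` commutes with restriction. -/
theorem heckeOp_resHom {ℓ : ℕ} [NeZero ℓ] (hℓ : ℓ.Prime) (hℓN : ¬ ℓ ∣ N * q)
    (φ : Additive (Gamma0 N) →+ A) :
    heckeOp (N * q) ℓ (resHom (gamma0_mul_le N q) φ) = resHom (gamma0_mul_le N q) (heckeOp N ℓ φ) := by
  refine AddMonoidHom.ext fun γ => ?_
  obtain ⟨γ, rfl⟩ := Additive.ofMul.surjective γ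
  obtain ⟨σ, δ, h⟩ := exists_transfer_tRepZ hℓ hℓN γ
  rw [heckeOp_apply hℓ hℓN _ γ h, resHom_apply,
    heckeOp_apply hℓ (fun hd => hℓN (hd.trans (dvd_mul_right N q))) φ _
      (δ := fun i => ⟨δ i, gamma0_mul_le N q (δ i).2⟩) (σ := σ) (by exact h)]
  rfl

/-- The degeneracy map from two copies of level `N` to level `N q`. -/
def deg (x y : Additive (Gamma0 N) →+ A) : Additive (Gamma0 (N * q)) →+ A :=
  resHom (gamma0_mul_le N q) x + D.wOp (resHom (gamma0_mul_le N q) y)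

omit [NeZero N] [NeZero q] in
theorem deg_mem_parHom {x y : Additive (Gamma0 N) →+ A} (hx : x ∈ parHom (Gamma0 N) A)
    (hy : y ∈ parHom (Gamma0 N) A) : D.deg x y ∈ parHom (Gamma0 (N * q)) A :=
  add_mem (resHom_mem_parHom _ hx) (D.wOp_mem_parHom (resHom_mem_parHom _ hy))

/-- The adjoint of `deg`. -/
theorem pairing_deg {k : Type*} [Field k] (h2 : (2 : k) ≠ 0)
    {x y : Additive (Gamma0 N) →+ k} (hx : x ∈ parHom (Gamma0 N) k) (hy : y ∈ parHom (Gamma0 N) k)
    {z : Additive (Gamma0 (N * q)) →+ k} (hz : z ∈ parHom (Gamma0 (N * q)) k) :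
    pairing (D.deg x y) z = pairing x (cores (gamma0_mul_le N q) z)
      + pairing y (cores (gamma0_mul_le N q) (D.wOp z)) := by
  have hn := neg_one_mem_gamma0
  rw [deg, pairing_add_left (hn _) h2 (resHom_mem_parHom _ hx)
      (D.wOp_mem_parHom (resHom_mem_parHom _ hy)) hz,
    pairing_res_left (hn _) h2 _ (hn _) hx hz]
  congr 1
  conv_lhs => rw [← D.wOp_wOp z]
  simp only [wOp]
  rw [pairing_conjPull D.conjLE D.hom_surjective (hn _) (hn _) h2 (resHom_mem_parHom _ hy)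
    (conjPull_mem_parHom _ hz), pairing_res_left (hn _) h2 _ (hn _) hy (conjPull_mem_parHom _ hz)]

end WData

end FLTAgent.LevelRaise
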