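import Fermat.Agent.LevelRaise.FormsBridge
import Fermat.Agent.Periods.Injective
import Fermat.Agent.Quick.HeckeEigenform
import Fermat.Prelude.Def_FLTPrelim_ModularRep
import Mathlib.RingTheory.Nakayama
import Mathlib.LinearAlgebra.Dual.Lemmas
import Mathlib.Algebra.Module.ZMod
import Mathlib.LinearAlgebra.Basis.VectorSpace
import Mathlib.RingTheory.Finiteness.Projective

/-!
# The residual parabolic class of an eigenform
-/

set_option autoImplicit false

noncomputable section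

namespace FLTAgent.LevelRaise

open scoped MatrixGroups
open CongruenceSubgroup FLTAgent.Periods

variable {N : ℕ} [NeZero N]

theorem exists_addHom_ne_zero (p : ℕ) [Fact p.Prime] (V : Type*) [AddCommGroup V]
    [Module (ZMod p) V] {w : V} (hw : w ≠ 0) : ∃ l : V →+ ZMod p, l w ≠ 0 := by
  obtain ⟨d, hd⟩ : ∃ d : Module.Dual (ZMod p) V, d w ≠ 0 := by
    by_contra h
    push Not at h
    exact hw ((Module.forall_dual_apply_eq_zero_iff (ZMod p) w).mp h)
  exact ⟨d.toAddMonoidHom, hd⟩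

/-- A functional modulo `p` separating a subgroup containing all multiples of `p` from a point. -/
theorem exists_addHom_zmod {p : ℕ} [Fact p.Prime] {G : Type*} [AddCommGroup G] (H : AddSubgroup G)
    (hp : ∀ g, p • g ∈ H) {w : G} (hw : w ∉ H) :
    ∃ l : G →+ ZMod p, (∀ h ∈ H, l h = 0) ∧ l w ≠ 0 := by
  obtain ⟨l, hl⟩ := @exists_addHom_ne_zero p _ (G ⧸ H) _
    (AddCommGroup.zmodModule fun x => by
      obtain ⟨g, rfl⟩ := QuotientAddGroup.mk'_surjective H x
      rw [← map_nsmul]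
      exact (QuotientAddGroup.eq_zero_iff _).mpr (hp g))
    (QuotientAddGroup.mk' H w) (fun h => hw ((QuotientAddGroup.eq_zero_iff _).mp h))
  exact ⟨l.comp (QuotientAddGroup.mk' H), fun h hh => by
    rw [AddMonoidHom.comp_apply, show QuotientAddGroup.mk' H h = 0 from
      (QuotientAddGroup.eq_zero_iff h).mpr hh, map_zero], hl⟩

/-- A normalised eigenform has a residual parabolic class with the same eigenvalues. -/
theorem exists_residual_class {p : ℕ} [Fact p.Prime] {f : CuspForm (Gamma0 N) 2}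
    (hf : f.IsNormalizedEigenform) (𝔪 : Ideal (integralClosure ℤ ℂ)) (hmax : 𝔪.IsMaximal)
    (hpm : (p : integralClosure ℤ ℂ) ∈ 𝔪) :
    ∃ z : Additive (Gamma0 N) →+ ZMod p, z ∈ parHom (Gamma0 N) (ZMod p) ∧ z ≠ 0 ∧
      ∀ (ℓ : ℕ) [NeZero ℓ] (e : ℤ), ℓ.Prime → ¬ ℓ ∣ N →
        (∃ a : integralClosure ℤ ℂ, (a : ℂ) = ModularFormClass.qCoeff f ℓ ∧
          a - (e : integralClosure ℤ ℂ) ∈ 𝔪) →
        heckeOp N ℓ z = (AddMonoidHom.mulLeft (e : ZMod p)).comp z := by
  classical
  let O := integralClosure ℤ ℂ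
  let v : ParQuot N →+ ℂ := parPeriod N f
  let P : Submodule O ℂ := Submodule.span O (Set.range v)
  have hv : ∀ x, v x ∈ P := fun x => Submodule.subset_span ⟨x, rfl⟩
  have hfg : P.FG := by
    obtain ⟨S, hS⟩ := (parQuot_moduleFinite N).fg_top
    refine ⟨S.image v, le_antisymm ?_ ?_⟩
    · exact Submodule.span_mono (by simp)
    · rw [Submodule.span_le]
      rintro _ ⟨x, rfl⟩
      have hx : x ∈ Submodule.span ℤ (S : Set (ParQuot N)) := hS ▸ Submodule.mem_top
      induction hx using Submodule.span_induction with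
      | mem y hy => exact Submodule.subset_span (by rw [Finset.coe_image]; exact ⟨y, hy, rfl⟩)
      | zero => rw [map_zero]; exact Submodule.zero_mem _
      | add y y' _ _ hy hy' => rw [map_add]; exact Submodule.add_mem _ hy hy'
      | smul c y _ hy => rw [map_zsmul]; exact zsmul_mem hy c
  obtain ⟨x₀, hx₀⟩ : ∃ x₀, v x₀ ∉ 𝔪 • P := by
    by_contra hcon
    push Not at hcon
    obtain ⟨r, hr1, hr0⟩ := Submodule.exists_sub_one_mem_and_smul_eq_zero_of_fg_of_le_smul 𝔪 P hfg
      (Submodule.span_le.mpr (by rintro _ ⟨x, rfl⟩; exact hcon x))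
    have hfv : ∃ x, v x ≠ 0 := by
      by_contra h0
      push Not at h0
      have hf0 : f = 0 := eq_zero_of_re_periodMap fun γ => by
        rw [← parPeriod_parProj]
        show (v (parProj N (Additive.ofMul γ))).re = 0
        rw [h0]; rfl
      have h1 := hf.qCoeff_one
      rw [hf0, show (0 : CuspForm (Gamma0 N) 2) = (0 : ℂ) • (0 : CuspForm (Gamma0 N) 2) by simp,
        FLTAgent.Quick.qCoeff_smul'] at h1
      simp at h1
    obtain ⟨x, hx⟩ := hfv
    have h2 : (r : ℂ) * v x = 0 := hr0 _ (hv x)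
    have hr : r = 0 := Subtype.ext ((mul_eq_zero.mp h2).resolve_right hx)
    rw [hr, zero_sub, neg_mem_iff] at hr1
    exact hmax.ne_top ((Ideal.eq_top_iff_one _).mpr hr1)
  obtain ⟨lam, hlam, hlam0⟩ := exists_addHom_zmod (p := p)
    ((𝔪 • P).toAddSubgroup.comap P.toAddSubgroup.subtype)
    (fun y => by
      show p • (y : ℂ) ∈ 𝔪 • P
      rw [← Nat.cast_smul_eq_nsmul O]
      exact Submodule.smul_mem_smul hpm y.2)
    (w := ⟨v x₀, hv x₀⟩) hx₀
  let vP : ParQuot N →+ P.toAddSubgroup := v.codRestrict P.toAddSubgroup hv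
  let z : Additive (Gamma0 N) →+ ZMod p := (lam.comp vP).comp (parProj N)
  refine ⟨z, fun γ hγ => ?_, ?_, ?_⟩
  · show lam (vP (parProj N (Additive.ofMul γ))) = 0
    rw [parProj_eq_zero (γ := γ) hγ, map_zero, map_zero]
  · intro h
    obtain ⟨y, rfl⟩ := parProj_surjective N x₀
    exact hlam0 (DFunLike.congr_fun h y)
  intro ℓ _ e hℓ hℓN ⟨a, ha, hae⟩
  refine AddMonoidHom.ext fun γ => ?_
  obtain ⟨γ, rfl⟩ := Additive.ofMul.surjective γ
  obtain ⟨σ, δ, h⟩ := exists_transfer_tRepZ hℓ hℓN γ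
  rw [heckeOp_apply hℓ hℓN _ γ h]
  show ∑ i, lam (vP (parProj N (Additive.ofMul (δ i))))
    = (e : ZMod p) * lam (vP (parProj N (Additive.ofMul γ)))
  obtain ⟨y, hy⟩ : ∃ y, y = vP (parProj N (Additive.ofMul γ)) := ⟨_, rfl⟩
  have hval : ((∑ i, vP (parProj N (Additive.ofMul (δ i)))) : P.toAddSubgroup).1 = a • y.1 := by
    rw [AddSubmonoidClass.coe_finsetSum, hy]
    show ∑ i, parPeriod N f (parProj N (Additive.ofMul (δ i)))
      = (a : ℂ) * parPeriod N f (parProj N (Additive.ofMul γ))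
    rw [← parPeriod_heckeTLin_Z hℓ hℓN f γ h, FLTAgent.Quick.heckeTLin_eigenform hf hℓ hℓN, map_smul,
      AddMonoidHom.smul_apply, smul_eq_mul, ha]
  rw [← map_sum, ← hy, ← zsmul_eq_mul, ← map_zsmul, ← sub_eq_zero, ← map_sub]
  refine hlam _ ?_
  show (∑ i, vP (parProj N (Additive.ofMul (δ i))) - e • y : P.toAddSubgroup).1 ∈ 𝔪 • P
  rw [AddSubgroup.coe_sub, AddSubgroup.coe_zsmul, hval, ← Int.cast_smul_eq_zsmul O e y.1, ← sub_smul]
  exact Submodule.smul_mem_smul hae y.2

end FLTAgent.LevelRaise
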