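import Fermat.Agent.LevelRaise.Presentation
import Fermat.Agent.Periods.Conj
import Mathlib.LinearAlgebra.Matrix.Charpoly.Coeff
import Mathlib.Tactic.IntervalCases

/-!
# Elliptic elements of `SL(2, ℤ)`
-/

set_option autoImplicit false

namespace FLTAgent.LevelRaise

open scoped MatrixGroups
open ModularGroup

/-- The trace of an element of `SL(2, ℤ)`. -/
abbrev trSL (g : SL(2, ℤ)) : ℤ := (g : Matrix (Fin 2) (Fin 2) ℤ).trace

/-- Elements of finite order. -/
def IsElliptic (g : SL(2, ℤ)) : Prop := trSL g ^ 2 < 4 ∨ g = 1 ∨ g = -1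

theorem trSL_conj (h g : SL(2, ℤ)) : trSL (h * g * h⁻¹) = trSL g := by
  unfold trSL
  rw [Matrix.SpecialLinearGroup.coe_mul, Matrix.trace_mul_comm,
    ← Matrix.SpecialLinearGroup.coe_mul, ← mul_assoc, inv_mul_cancel, one_mul]

theorem trSL_neg (g : SL(2, ℤ)) : trSL (-g) = -trSL g := by
  unfold trSL
  rw [Matrix.SpecialLinearGroup.coe_neg, Matrix.trace_neg]

theorem conj_neg (h g : SL(2, ℤ)) : h * -g * h⁻¹ = -(h * g * h⁻¹) := by
  rw [mul_neg, neg_mul]

theorem neg_one_central (g : SL(2, ℤ)) : (-1 : SL(2, ℤ)) * g = g * -1 := by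
  rw [neg_one_mul, mul_neg_one]

theorem IsElliptic.conj {g : SL(2, ℤ)} (hg : IsElliptic g) (h : SL(2, ℤ)) :
    IsElliptic (h * g * h⁻¹) := by
  rcases hg with hg | rfl | rfl
  · exact Or.inl (by rwa [trSL_conj])
  · exact Or.inr (Or.inl (by rw [mul_one, mul_inv_cancel]))
  · exact Or.inr (Or.inr (by rw [conj_neg, mul_one, mul_inv_cancel]))

theorem IsElliptic.neg {g : SL(2, ℤ)} (hg : IsElliptic g) : IsElliptic (-g) := by
  rcases hg with hg | rfl | rfl
  · exact Or.inl (by rw [trSL_neg, neg_sq]; exact hg)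
  · exact Or.inr (Or.inr rfl)
  · exact Or.inr (Or.inl (neg_neg _))

theorem IsElliptic.trace_sq_le {g : SL(2, ℤ)} (hg : IsElliptic g) : trSL g ^ 2 ≤ 4 := by
  rcases hg with hg | rfl | rfl
  · exact hg.le
  · simp [trSL]
  · simp [trSL]

private theorem reduce_step (k : ℤ) (g : SL(2, ℤ)) :
    ((T ^ k * g * (T ^ k)⁻¹ : SL(2, ℤ)) 0 0 = g 0 0 + k * g 1 0) ∧
    ((T ^ k * g * (T ^ k)⁻¹ : SL(2, ℤ)) 1 0 = g 1 0) ∧
    ((S * g * S⁻¹ : SL(2, ℤ)) 1 0 = -g 0 1) := by
  simp [coe_T_zpow, coe_S, Matrix.SpecialLinearGroup.coe_inv, Matrix.adjugate_fin_two,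
    Matrix.mul_apply, Matrix.vecMul, dotProduct, Fin.sum_univ_two]

/-- An element of trace in `{-1, 0, 1}` is, up to sign, conjugate to `S`, `S * T` or its square. -/
theorem exists_conj_of_trace_sq_lt {g : SL(2, ℤ)} (hg : trSL g ^ 2 < 4) :
    ∃ h w : SL(2, ℤ), (w = S ∨ w = S * T ∨ w = S * T * (S * T)) ∧
      (g = h * w * h⁻¹ ∨ g = -(h * w * h⁻¹)) := by
  suffices key : ∀ (n : ℕ) (g : SL(2, ℤ)), (g 1 0).natAbs = n → trSL g ^ 2 < 4 →
      ∃ h w : SL(2, ℤ), (w = S ∨ w = S * T ∨ w = S * T * (S * T)) ∧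
        (g = h * w * h⁻¹ ∨ g = -(h * w * h⁻¹)) from key _ g rfl hg
  clear hg g
  -- conjugating preserves the conclusion
  have hconj : ∀ (g x : SL(2, ℤ)),
      (∃ h w : SL(2, ℤ), (w = S ∨ w = S * T ∨ w = S * T * (S * T)) ∧
        (x * g * x⁻¹ = h * w * h⁻¹ ∨ x * g * x⁻¹ = -(h * w * h⁻¹))) →
      ∃ h w : SL(2, ℤ), (w = S ∨ w = S * T ∨ w = S * T * (S * T)) ∧
        (g = h * w * h⁻¹ ∨ g = -(h * w * h⁻¹)) := by
    rintro g x ⟨h, w, hw, hx⟩
    refine ⟨x⁻¹ * h, w, hw, ?_⟩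
    have e : g = x⁻¹ * (x * g * x⁻¹) * x⁻¹⁻¹ := by group
    rcases hx with hx | hx <;> rw [e, hx]
    · exact Or.inl (by group)
    · exact Or.inr (by rw [conj_neg]; group)
  intro n
  induction n using Nat.strong_induction_on with
  | _ n ih =>
    intro g hn hg
    have htr : trSL g = g 0 0 + g 1 1 := Matrix.trace_fin_two _
    have hdet : g 0 0 * g 1 1 - g 0 1 * g 1 0 = 1 := by
      rw [← Matrix.det_fin_two, g.det_coe]
    have hc : g 1 0 ≠ 0 := by
      intro hc
      rw [hc, mul_zero, sub_zero] at hdet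
      rcases Int.eq_one_or_neg_one_of_mul_eq_one' hdet with ⟨h1, h2⟩ | ⟨h1, h2⟩ <;>
        rw [htr, h1, h2] at hg <;> norm_num at hg
    by_cases h1 : (g 1 0).natAbs = 1
    · -- base: conjugate the upper left entry to zero
      obtain ⟨k, hk⟩ : ∃ k : ℤ, g 0 0 + k * g 1 0 = 0 := by
        rcases Int.natAbs_eq (g 1 0) with h | h <;> rw [h1] at h
        · exact ⟨-g 0 0, by rw [h]; simp⟩
        · exact ⟨g 0 0, by rw [h]; simp⟩
      refine hconj g (T ^ k) ?_
      obtain ⟨g', hg'⟩ : ∃ g', g' = T ^ k * g * (T ^ k)⁻¹ := ⟨_, rfl⟩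
      rw [← hg']
      have ha : g' 0 0 = 0 := by rw [hg', (reduce_step k g).1, hk]
      have hc' : g' 1 0 = g 1 0 := by rw [hg', (reduce_step k g).2.1]
      have hg4 : trSL g' ^ 2 < 4 := by rw [hg', trSL_conj]; exact hg
      have hdet' : g' 0 0 * g' 1 1 - g' 0 1 * g' 1 0 = 1 := by
        rw [← Matrix.det_fin_two, g'.det_coe]
      have htr' : trSL g' = g' 1 1 := by
        show Matrix.trace _ = _
        rw [Matrix.trace_fin_two, ha, zero_add]
      rw [htr'] at hg4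
      have hd1 : -1 ≤ g' 1 1 := by nlinarith
      have hd2 : g' 1 1 ≤ 1 := by nlinarith
      have hcases : g' 1 0 = 1 ∨ g' 1 0 = -1 := by
        rw [hc']; rcases Int.natAbs_eq (g 1 0) with h | h <;> rw [h1] at h <;> simp [h]
      have hb : g' 0 1 = -g' 1 0 := by
        rw [ha, zero_mul, zero_sub] at hdet'
        rcases hcases with h | h <;> rw [h] at hdet' ⊢ <;> linarith
      have hcand : ∀ m : SL(2, ℤ), m 0 0 = g' 0 0 → m 0 1 = g' 0 1 → m 1 0 = g' 1 0 →
          m 1 1 = g' 1 1 → g' = m := by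
        intro m e1 e2 e3 e4
        ext i j
        fin_cases i <;> fin_cases j <;> [exact e1.symm; exact e2.symm; exact e3.symm; exact e4.symm]
      rcases hcases with h | h <;> interval_cases hd : g' 1 1
      · refine ⟨T, _, Or.inr (Or.inr rfl), Or.inl (hcand _ ?_ ?_ ?_ ?_)⟩ <;>
          simp [coe_S, coe_T, Matrix.adjugate_fin_two, ha, hb, h, hd]
      · refine ⟨1, _, Or.inl rfl, Or.inl (hcand _ ?_ ?_ ?_ ?_)⟩ <;>
          simp [coe_S, ha, hb, h, hd]
      · refine ⟨1, _, Or.inr (Or.inl rfl), Or.inl (hcand _ ?_ ?_ ?_ ?_)⟩ <;>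
          simp [coe_S, coe_T, ha, hb, h, hd]
      · refine ⟨1, _, Or.inr (Or.inl rfl), Or.inr (hcand _ ?_ ?_ ?_ ?_)⟩ <;>
          simp [coe_S, coe_T, ha, hb, h, hd]
      · refine ⟨1, _, Or.inl rfl, Or.inr (hcand _ ?_ ?_ ?_ ?_)⟩ <;>
          simp [coe_S, ha, hb, h, hd]
      · refine ⟨T, _, Or.inr (Or.inr rfl), Or.inr (hcand _ ?_ ?_ ?_ ?_)⟩ <;>
          simp [coe_S, coe_T, Matrix.adjugate_fin_two, ha, hb, h, hd]
    · -- reduce the lower left entry
      have hn2 : 2 ≤ |g 1 0| := by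
        have : (g 1 0).natAbs ≠ 0 := Int.natAbs_ne_zero.mpr hc
        rw [Int.abs_eq_natAbs]
        omega
      obtain ⟨k, hk⟩ : ∃ k : ℤ, |trSL g - 2 * (g 0 0 + k * g 1 0)| ≤ |g 1 0| := by
        obtain ⟨q, r, hqr, hr0, hr1⟩ : ∃ q r : ℤ, trSL g - 2 * g 0 0 + |g 1 0| =
            q * (2 * |g 1 0|) + r ∧ 0 ≤ r ∧ r < 2 * |g 1 0| :=
          ⟨_, _, (Int.ediv_mul_add_emod _ (2 * |g 1 0|)).symm, Int.emod_nonneg _ (by omega),
            Int.emod_lt_of_pos _ (by omega)⟩
        rcases abs_choice (g 1 0) with h | h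
        · exact ⟨q, by rw [h] at hqr hr1 ⊢; rw [abs_le]; constructor <;> nlinarith⟩
        · exact ⟨-q, by rw [h] at hqr hr1 ⊢; rw [abs_le]; constructor <;> nlinarith⟩
      refine hconj g (T ^ k) ?_
      obtain ⟨g', hg'⟩ : ∃ g', g' = T ^ k * g * (T ^ k)⁻¹ := ⟨_, rfl⟩
      rw [← hg']
      have ha : g' 0 0 = g 0 0 + k * g 1 0 := by rw [hg', (reduce_step k g).1]
      have hc' : g' 1 0 = g 1 0 := by rw [hg', (reduce_step k g).2.1]
      have hg4 : trSL g' ^ 2 < 4 := by rw [hg', trSL_conj]; exact hg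
      have htr' : trSL g' = g' 0 0 + g' 1 1 := Matrix.trace_fin_two _
      have htt : trSL g' = trSL g := by rw [hg', trSL_conj]
      have hdet' : g' 0 0 * g' 1 1 - g' 0 1 * g' 1 0 = 1 := by
        rw [← Matrix.det_fin_two, g'.det_coe]
      refine hconj g' S (ih _ ?_ _ rfl (by rw [trSL_conj]; exact hg4))
      rw [(reduce_step 0 g').2.2, Int.natAbs_neg]
      have hkey : 4 * (|g' 0 1| * |g 1 0|) ≤ 4 + |g 1 0| ^ 2 := by
        rw [← hc', ← abs_mul]
        have h2 : |trSL g' - 2 * g' 0 0| ≤ |g' 1 0| := by rw [hc', htt, ha]; exact hk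
        have h3 := pow_le_pow_left₀ (abs_nonneg _) h2 2
        rw [sq_abs] at h3
        have e : 4 * (g' 0 1 * g' 1 0) = trSL g' ^ 2 - (trSL g' - 2 * g' 0 0) ^ 2 - 4 := by
          rw [htr']; linear_combination -4 * hdet'
        have h0 := sq_nonneg (trSL g')
        have h5 := sq_nonneg (|g' 1 0|)
        have h6 := sq_nonneg (trSL g' - 2 * g' 0 0)
        rcases abs_choice (g' 0 1 * g' 1 0) with h | h <;> rw [h] <;> linarith
      have : |g' 0 1| < |g 1 0| := by
        by_contra hle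
        nlinarith [mul_le_mul_of_nonneg_right (not_lt.mp hle) (abs_nonneg (g 1 0))]
      rw [Int.abs_eq_natAbs, Int.abs_eq_natAbs] at this
      omega

theorem isElliptic_pow {g : SL(2, ℤ)} (hg : IsElliptic g) (n : ℕ) : IsElliptic (g ^ n) := by
  have h1 : IsElliptic (1 : SL(2, ℤ)) := Or.inr (Or.inl rfl)
  rcases hg with hg | rfl | rfl
  · obtain ⟨h, w, hw, hgw⟩ := exists_conj_of_trace_sq_lt hg
    have hpow : IsElliptic (w ^ n) := by
      obtain ⟨v, hv⟩ : ∃ v : SL(2, ℤ), v = S * T := ⟨_, rfl⟩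
      have hv3 : v * v * v = -1 := by
        rw [hv, ← ST_cube_eq, pow_succ, pow_two]
      have hS : IsElliptic S := Or.inl (by simp [trSL, coe_S, Matrix.trace_fin_two])
      have hv1 : IsElliptic v := Or.inl (by simp [hv, trSL, coe_S, coe_T, Matrix.trace_fin_two])
      have hv2 : IsElliptic (v * v) := Or.inl (by simp [hv, trSL, coe_S, coe_T, Matrix.trace_fin_two])
      have hSn : ∀ m : ℕ, S ^ m ∈ ({1, -1, S, -S} : Set SL(2, ℤ)) := by
        intro m
        induction m with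
        | zero => simp
        | succ m ih =>
          have hSS : S * S = (-1 : SL(2, ℤ)) := by rw [← S_sq_eq, pow_two]
          simp only [Set.mem_insert_iff, Set.mem_singleton_iff] at ih ⊢
          rcases ih with h | h | h | h <;> simp [pow_succ, h, hSS]
      have hvn : ∀ m : ℕ, v ^ m ∈ ({1, -1, v, -v, v * v, -(v * v)} : Set SL(2, ℤ)) := by
        intro m
        induction m with
        | zero => simp
        | succ m ih =>
          simp only [Set.mem_insert_iff, Set.mem_singleton_iff] at ih ⊢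
          rcases ih with h | h | h | h | h | h <;> simp [pow_succ, h, hv3]
      have hSn' : ∀ m : ℕ, IsElliptic (S ^ m) := fun m => by
        rcases hSn m with h | h | h | h <;> rw [h]
        exacts [h1, h1.neg, hS, hS.neg]
      have hvn' : ∀ m : ℕ, IsElliptic (v ^ m) := fun m => by
        rcases hvn m with h | h | h | h | h | h <;> rw [h]
        exacts [h1, h1.neg, hv1, hv1.neg, hv2, hv2.neg]
      rcases hw with rfl | rfl | rfl
      · exact hSn' n
      · rw [← hv]; exact hvn' n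
      · rw [← hv, ← pow_two, ← pow_mul]; exact hvn' _
    rcases hgw with rfl | rfl
    · rw [conj_pow]; exact hpow.conj h
    · rw [neg_pow, conj_pow]
      rcases neg_one_pow_eq_or SL(2, ℤ) n with e | e <;> rw [e]
      · rw [one_mul]; exact hpow.conj h
      · rw [neg_one_mul]; exact (hpow.conj h).neg
  · rw [one_pow]; exact h1
  · rcases neg_one_pow_eq_or SL(2, ℤ) n with e | e <;> rw [e]
    exacts [h1, h1.neg]

/-- Powers of elliptic or parabolic elements are elliptic or parabolic. -/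
theorem trace_sq_le_pow {g : SL(2, ℤ)} (hg : trSL g ^ 2 ≤ 4) (n : ℕ) : trSL (g ^ n) ^ 2 ≤ 4 := by
  rcases hg.eq_or_lt with h | h
  · obtain ⟨δ, m, hm⟩ := FLTAgent.Periods.exists_mul_eq_mul_T_zpow h
    have hT : ∀ j : ℤ, trSL (T ^ j) = 2 := fun j => by
      simp [trSL, coe_T_zpow, Matrix.trace_fin_two]
    rcases hm with hm | hm
    · have : g = δ * T ^ m * δ⁻¹ := eq_mul_inv_of_mul_eq hm
      rw [this, conj_pow, trSL_conj, ← zpow_natCast, ← zpow_mul, hT]
      norm_num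
    · have : g = -(δ * T ^ m * δ⁻¹) := by rw [eq_mul_inv_of_mul_eq hm, neg_mul]
      rw [this, neg_pow, conj_pow]
      rcases neg_one_pow_eq_or SL(2, ℤ) n with e | e <;> rw [e] <;>
        simp only [one_mul, neg_one_mul, trSL_neg, neg_sq] <;>
        rw [trSL_conj, ← zpow_natCast, ← zpow_mul, hT] <;> norm_num
  · exact (isElliptic_pow (Or.inl h) n).trace_sq_le

end FLTAgent.LevelRaise
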