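import Fermat.Agent.LevelRaise.Operators
import Fermat.Agent.LevelRaise.Degeneracy
import Fermat.Agent.Quick.EigenChar
import Fermat.Agent.Quick.HeckeEigenform

/-!
# Lifting a `q`-new eigenclass modulo `p` to an eigenform

The cokernel of the adjoint degeneracy map is killed, modulo `p`, by an operator which is invertible
on the eigenclass as soon as the degeneracy map has no eigenclass in its kernel. So the eigenclass
lifts to the integral kernel, on which `U q` is minus the involution.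
-/

set_option autoImplicit false
set_option maxHeartbeats 1000000

noncomputable section

namespace FLTAgent.LevelRaise

open scoped MatrixGroups
open CongruenceSubgroup MvPolynomial

section Family

variable {ι : Type} (L : ι → ℕ)

/-- The operator at the prime `L i`. -/
def famOp (A : Type*) [AddCommGroup A] (M : ℕ) [NeZero M] (hL : ∀ i, (L i).Prime) (i : ι) :
    Module.End ℤ (parHom (Gamma0 M) A) :=
  haveI : NeZero (L i) := ⟨(hL i).ne_zero⟩
  heckeEnd A M (L i)

theorem famOp_eq (A : Type*) [AddCommGroup A] (M : ℕ) [NeZero M] (hL : ∀ i, (L i).Prime) (i : ι)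
    [NeZero (L i)] : famOp L A M hL i = heckeEnd A M (L i) := rfl

variable {L} {M : ℕ} [NeZero M] (hL : ∀ i, (L i).Prime) (hLM : ∀ i, ¬ L i ∣ M)
  {p : ℕ} [Fact p.Prime] (hp2 : p ≠ 2)

/-- The action on integral classes. -/
def actInt : MvPolynomial ι ℤ →+* Module.End ℤ (parHom (Gamma0 M) ℤ) :=
  polyAct (famOp L ℤ M hL) fun i j =>
    haveI : NeZero (L i) := ⟨(hL i).ne_zero⟩
    haveI : NeZero (L j) := ⟨(hL j).ne_zero⟩
    commute_heckeEnd_int (hL i) (hL j) (hLM i) (hLM j)

/-- The action on classes modulo `p`. -/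
def actMod : MvPolynomial ι ℤ →+* Module.End ℤ (parHom (Gamma0 M) (ZMod p)) :=
  polyAct (famOp L (ZMod p) M hL) fun i j =>
    haveI : NeZero (L i) := ⟨(hL i).ne_zero⟩
    haveI : NeZero (L j) := ⟨(hL j).ne_zero⟩
    commute_heckeEnd_zmod hp2 (hL i) (hL j) (hLM i) (hLM j)

@[simp] theorem actInt_X (i : ι) : actInt hL hLM (X i) = famOp L ℤ M hL i := polyAct_X _ _ i

@[simp] theorem actMod_X (i : ι) : actMod hL hLM hp2 (X i) = famOp L (ZMod p) M hL i :=
  polyAct_X _ _ i

theorem redPar_act (r : MvPolynomial ι ℤ) (z : parHom (Gamma0 M) ℤ) :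
    redPar M p (actInt hL hLM r z) = actMod hL hLM hp2 r (redPar M p z) :=
  intertwine _ _ (redPar M p) (fun i v => by
    have : NeZero (L i) := ⟨(hL i).ne_zero⟩
    rw [actInt_X, actMod_X]
    exact redPar_heckeEnd _ v) r z

/-- The pairing on parabolic classes. -/
def pairPar (h2 : (2 : ZMod p) ≠ 0) :
    parHom (Gamma0 M) (ZMod p) →+ parHom (Gamma0 M) (ZMod p) →+ ZMod p :=
  AddMonoidHom.mk' (fun x => AddMonoidHom.mk' (fun y => pairing x.1 y.1)
      fun y y' => pairing_add_right (neg_one_mem_gamma0 M) h2 x.2 y.2 y'.2)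
    fun x x' => AddMonoidHom.ext fun y =>
      pairing_add_left (neg_one_mem_gamma0 M) h2 x.2 x'.2 y.2

theorem pairPar_apply (h2 : (2 : ZMod p) ≠ 0) (x y : parHom (Gamma0 M) (ZMod p)) :
    pairPar h2 x y = pairing x.1 y.1 := rfl

theorem pairPar_act (h2 : (2 : ZMod p) ≠ 0) (r : MvPolynomial ι ℤ) :
    ∀ x y, pairPar h2 (actMod hL hLM hp2 r x) y = pairPar h2 x (actMod hL hLM hp2 r y) := by
  induction r using MvPolynomial.induction_on with
  | C a =>
    intro x y
    simp [show (C a : MvPolynomial ι ℤ) = (a : MvPolynomial ι ℤ) from eq_intCast C a,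
      Module.End.intCast_apply]
  | add r s hr hs => intro x y; simp [hr, hs]
  | mul_X r i hr =>
    intro x y
    have : NeZero (L i) := ⟨(hL i).ne_zero⟩
    calc pairPar h2 (actMod hL hLM hp2 (r * X i) x) y
        = pairPar h2 (famOp L (ZMod p) M hL i x) (actMod hL hLM hp2 r y) := by
          rw [map_mul, Module.End.mul_apply, hr, actMod_X]
      _ = pairPar h2 x (famOp L (ZMod p) M hL i (actMod hL hLM hp2 r y)) := by
          simp only [famOp_eq, pairPar_apply, coe_heckeEnd]
          exact pairing_heckeOp h2 (hL i) (hLM i) x.2 (Subtype.coe_prop _)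
      _ = pairPar h2 x (actMod hL hLM hp2 (r * X i) y) := by
          rw [show r * X i = X i * r from mul_comm _ _, map_mul, Module.End.mul_apply, actMod_X]

end Family

/-- The image of a ring in the endomorphisms of a finite group is finite over `ℤ`. -/
theorem moduleFinite_quotient_ker {R V : Type*} [CommRing R] [AddCommGroup V] [Module.Finite ℤ V]
    (f : R →+* Module.End ℤ V) : Module.Finite ℤ (R ⧸ RingHom.ker f) := by
  obtain ⟨n, g, hg⟩ := Module.Finite.exists_fin (R := ℤ) (M := V)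
  let g' : Module.End ℤ V →ₗ[ℤ] (Fin n → V) := LinearMap.pi fun j => LinearMap.applyₗ (g j)
  refine Module.Finite.of_injective (g'.comp (RingHom.kerLift f).toAddMonoidHom.toIntLinearMap) ?_
  exact fun a b h => RingHom.kerLift_injective f
    (LinearMap.ext_on_range hg fun j => congrFun h j)

variable {ι : Type} {L : ι → ℕ} {N q : ℕ} [NeZero N] [NeZero q] (D : WData N q)
  (hL : ∀ i, (L i).Prime) (hLM : ∀ i, ¬ L i ∣ N * q) {p : ℕ} [Fact p.Prime] (hp2 : p ≠ 2)
  (e : ι → ℤ)

omit [Fact p.Prime] in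
/-- The congruence class of a polynomial at `e`. -/
def evalMod (p : ℕ) (e : ι → ℤ) : MvPolynomial ι ℤ →+* ZMod p :=
  (Int.castRingHom (ZMod p)).comp (eval e)

omit [Fact p.Prime] in
theorem evalMod_surjective : Function.Surjective (evalMod p e) := fun x => by
  obtain ⟨n, rfl⟩ := ZMod.intCast_surjective x
  exact ⟨C n, by simp [evalMod]⟩

include hLM in
omit [NeZero N] [NeZero q] in
theorem not_dvd_left (i : ι) : ¬ L i ∣ N := fun hd => hLM i (hd.trans (dvd_mul_right N q))

theorem degPar_famOp {A : Type*} [AddCommGroup A] (hLM : ∀ i, ¬ L i ∣ N * q) (i : ι)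
    (x : parHom (Gamma0 N) A × parHom (Gamma0 N) A) :
    D.degPar (famOp L A N hL i x.1, famOp L A N hL i x.2)
      = famOp L A (N * q) hL i (D.degPar x) := by
  have : NeZero (L i) := ⟨(hL i).ne_zero⟩
  refine Subtype.ext ?_
  have hadd : ∀ u v : parHom (Gamma0 (N * q)) A, heckeOp (N * q) (L i) (u.1 + v.1) =
      heckeOp (N * q) (L i) u.1 + heckeOp (N * q) (L i) v.1 := fun u v =>
    congrArg Subtype.val (map_add (heckeEnd A (N * q) (L i)) u v)
  rw [famOp_eq, famOp_eq, coe_heckeEnd, WData.coe_degPar, WData.coe_degPar,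
    coe_heckeEnd, coe_heckeEnd, WData.deg, WData.deg,
    hadd ⟨_, resHom_mem_parHom _ x.1.2⟩ ⟨_, D.wOp_mem_parHom (resHom_mem_parHom _ x.2.2)⟩,
    WData.heckeOp_resHom (hL i) (hLM i), D.heckeOp_wOp (hL i) (hLM i),
    WData.heckeOp_resHom (hL i) (hLM i)]

/-- The action on pairs. -/
def actPair {V : Type*} [AddCommGroup V] (f : MvPolynomial ι ℤ →+* Module.End ℤ V) :
    MvPolynomial ι ℤ →+* Module.End ℤ (V × V) where
  toFun r := (f r).prodMap (f r)
  map_one' := by ext <;> simp
  map_mul' r s := by ext <;> simp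
  map_zero' := by ext <;> simp
  map_add' r s := by ext <;> simp

theorem actPair_apply {V : Type*} [AddCommGroup V] (f : MvPolynomial ι ℤ →+* Module.End ℤ V)
    (r : MvPolynomial ι ℤ) (v : V × V) : actPair f r v = (f r v.1, f r v.2) := rfl

/-- The pairing on pairs of classes. -/
def pairPair (M : ℕ) [NeZero M] (h2 : (2 : ZMod p) ≠ 0) :
    parHom (Gamma0 M) (ZMod p) × parHom (Gamma0 M) (ZMod p) →+
      parHom (Gamma0 M) (ZMod p) × parHom (Gamma0 M) (ZMod p) →+ ZMod p :=
  (AddMonoidHom.compHom' (AddMonoidHom.fst _ _)).comp ((pairPar h2).comp (AddMonoidHom.fst _ _)) +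
    (AddMonoidHom.compHom' (AddMonoidHom.snd _ _)).comp ((pairPar h2).comp (AddMonoidHom.snd _ _))

theorem pairPair_apply (M : ℕ) [NeZero M] (h2 : (2 : ZMod p) ≠ 0)
    (x y : parHom (Gamma0 M) (ZMod p) × parHom (Gamma0 M) (ZMod p)) :
    pairPair M h2 x y = pairPar h2 x.1 y.1 + pairPar h2 x.2 y.2 := rfl

theorem pairPair_nondegenerate (M : ℕ) [NeZero M] (h2 : (2 : ZMod p) ≠ 0)
    (x : parHom (Gamma0 M) (ZMod p) × parHom (Gamma0 M) (ZMod p)) (hx : pairPair M h2 x = 0) :
    x = 0 := by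
  refine Prod.ext (Subtype.ext ?_) (Subtype.ext ?_)
  · refine eq_zero_of_pairing_eq_zero (neg_one_mem_gamma0 M) h2 x.1.2 fun ψ hψ => ?_
    have h := DFunLike.congr_fun hx (⟨ψ, hψ⟩, 0)
    rw [pairPair_apply, map_zero, add_zero, AddMonoidHom.zero_apply, pairPar_apply] at h
    exact h
  · refine eq_zero_of_pairing_eq_zero (neg_one_mem_gamma0 M) h2 x.2.2 fun ψ hψ => ?_
    have h := DFunLike.congr_fun hx (0, ⟨ψ, hψ⟩)
    rw [pairPair_apply, map_zero, zero_add, AddMonoidHom.zero_apply, pairPar_apply] at h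
    exact h

theorem degPar_act (r : MvPolynomial ι ℤ)
    (v : parHom (Gamma0 N) (ZMod p) × parHom (Gamma0 N) (ZMod p)) :
    D.degPar (actPair (actMod hL (not_dvd_left hLM) hp2) r v)
      = actMod hL hLM hp2 r (D.degPar v) := by
  refine intertwine _ _ D.degPar (fun i v => ?_) r v
  rw [actPair_apply, actMod_X, actMod_X]
  exact degPar_famOp D hL hLM i v

/-- If no eigenclass lies in the kernel of the degeneracy map, a polynomial which does not vanish
at `e` maps everything into the range of the adjoint map. -/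
theorem exists_multiplier
    (hno : ∀ x : parHom (Gamma0 N) (ZMod p) × parHom (Gamma0 N) (ZMod p), D.degPar x = 0 →
      (∀ i, famOp L (ZMod p) N hL i x.1 = e i • x.1 ∧ famOp L (ZMod p) N hL i x.2 = e i • x.2) →
      x = 0) :
    ∃ s : MvPolynomial ι ℤ, evalMod p e s ≠ 0 ∧
      ∀ v : parHom (Gamma0 N) (ZMod p) × parHom (Gamma0 N) (ZMod p),
        actPair (actMod hL (not_dvd_left hLM) hp2) s v ∈ (D.adjPar (A := ZMod p)).range := by
  have h2 := two_ne_zero_zmod hp2
  have := parHom_zmod_finite (M := N) (p := p)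
  have : (RingHom.ker (evalMod p e)).IsPrime := RingHom.ker_isPrime _
  rcases exists_killer_or_eigen (actPair (actMod hL (not_dvd_left hLM) hp2)) (D.degPar).ker
      (fun r v hv => by
        rw [AddMonoidHom.mem_ker] at hv ⊢
        rw [degPar_act D hL hLM hp2, hv, map_zero])
      (RingHom.ker (evalMod p e)) with ⟨w, hwK, hw0, hw⟩ | ⟨s, hs, hsK⟩
  · refine absurd (hno w hwK fun i => ?_) hw0
    have h1 := hw (X i - C (e i)) (by simp [RingHom.mem_ker, evalMod])
    rw [show (C (e i) : MvPolynomial ι ℤ) = (e i : MvPolynomial ι ℤ) from eq_intCast C _, map_sub,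
      map_intCast, LinearMap.sub_apply, sub_eq_zero, Module.End.intCast_apply, actPair_apply,
      actMod_X] at h1
    exact ⟨congrArg Prod.fst h1, congrArg Prod.snd h1⟩
  refine ⟨s, fun h => hs (RingHom.mem_ker.mpr h), fun v => ?_⟩
  let : Module (ZMod p) (parHom (Gamma0 N) (ZMod p) × parHom (Gamma0 N) (ZMod p)) :=
    AddCommGroup.zmodModule fun x => by
      rw [← natCast_zsmul]
      exact Prod.ext (smul_parHom_zmod x.1) (smul_parHom_zmod x.2)
  refine mem_range_of_orthogonal (pairPair N h2) (pairPair_nondegenerate N h2) D.adjPar _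
    fun x hx => ?_
  have hxK : D.degPar x = 0 := Subtype.ext <|
    eq_zero_of_pairing_eq_zero (neg_one_mem_gamma0 _) h2 (D.degPar x).2 fun ψ hψ => by
      rw [WData.coe_degPar, D.pairing_deg h2 x.1.2 x.2.2 hψ]
      exact hx ⟨ψ, hψ⟩
  have h0 := hsK x hxK
  rw [actPair_apply] at h0
  rw [pairPair_apply, actPair_apply, ← pairPar_act, ← pairPar_act, (Prod.mk_eq_zero.mp h0).1,
    (Prod.mk_eq_zero.mp h0).2]
  simp only [map_zero, AddMonoidHom.zero_apply, add_zero]

theorem adjPar_famOp_int (hLM : ∀ i, ¬ L i ∣ N * q) (i : ι) (z : parHom (Gamma0 (N * q)) ℤ) :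
    D.adjPar (famOp L ℤ (N * q) hL i z)
      = (famOp L ℤ N hL i (D.adjPar z).1, famOp L ℤ N hL i (D.adjPar z).2) := by
  have : NeZero (L i) := ⟨(hL i).ne_zero⟩
  refine Prod.ext (Subtype.ext ?_) (Subtype.ext ?_)
  · exact heckeOp_cores_int (hL i) (hLM i) z.2
  · show cores (gamma0_mul_le N q) (D.wOp (heckeOp (N * q) (L i) z.1)) = _
    rw [← D.heckeOp_wOp (hL i) (hLM i)]
    exact heckeOp_cores_int (hL i) (hLM i) (D.wOp_mem_parHom z.2)

theorem redPar_adjPar (z : parHom (Gamma0 (N * q)) ℤ) :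
    D.adjPar (redPar (N * q) p z) = (redPar N p (D.adjPar z).1, redPar N p (D.adjPar z).2) :=
  Prod.ext (Subtype.ext (map_cores _ _ _))
    (Subtype.ext ((map_cores (gamma0_mul_le N q) (Int.castAddHom (ZMod p)) (D.wOp z.1) :)))

include hp2 in
/-- An eigenclass killed by the adjoint map gives a point of the integral kernel. -/
theorem exists_kernel_point
    (hno : ∀ x : parHom (Gamma0 N) (ZMod p) × parHom (Gamma0 N) (ZMod p), D.degPar x = 0 →
      (∀ i, famOp L (ZMod p) N hL i x.1 = e i • x.1 ∧ famOp L (ZMod p) N hL i x.2 = e i • x.2) →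
      x = 0)
    (y : parHom (Gamma0 (N * q)) (ZMod p)) (hy : D.adjPar y = 0) (hy0 : y ≠ 0)
    (hye : ∀ i, famOp L (ZMod p) (N * q) hL i y = e i • y) :
    ∃ Y : parHom (Gamma0 (N * q)) ℤ, D.adjPar Y = 0 ∧
      ∀ r, actInt hL hLM r Y = 0 → evalMod p e r = 0 := by
  obtain ⟨s, hs, hsv⟩ := exists_multiplier D hL hLM hp2 e hno
  have := parHom_int_moduleFinite (M := N)
  let fN := actInt hL (not_dvd_left hLM) s
  let gN := actMod hL (not_dvd_left hLM) hp2 s
  have hcomm : ∀ z, D.adjPar (actInt hL hLM s z) = fN.prodMap fN (D.adjPar z) := by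
    refine intertwine _ (actPair (actInt hL (not_dvd_left hLM))) D.adjPar (fun i v => ?_) s
    rw [actInt_X, actPair_apply, actInt_X]
    exact adjPar_famOp_int D hL hLM i v
  have hpY : ∀ Z : parHom (Gamma0 (N * q)) (ZMod p), (p : ℤ) • Z = 0 := smul_parHom_zmod
  have hey : ∀ r, actMod hL hLM hp2 r y = eval e r • y :=
    apply_of_eigen _ y e fun i => by rw [actMod_X]; exact hye i
  obtain ⟨n, Y, hY0, hY⟩ := exists_lift_in_kernel (p := (p : ℤ)) (c := eval e s)
    (D.adjPar (A := ℤ)).toIntLinearMap (D.adjPar (A := ZMod p)).toIntLinearMap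
    (redPar (N * q) p).toIntLinearMap
    ((redPar N p).toIntLinearMap.prodMap (redPar N p).toIntLinearMap)
    (redPar_surjective hp2)
    (fun b hb => by
      obtain ⟨w₁, h₁⟩ := exists_eq_smul_of_redPar (p := p) (congrArg Prod.fst hb)
      obtain ⟨w₂, h₂⟩ := exists_eq_smul_of_redPar (p := p) (congrArg Prod.snd hb)
      exact ⟨(w₁, w₂), Prod.ext h₁ h₂⟩)
    hpY (redPar_adjPar D) (actInt hL hLM s) (fN.prodMap fN) (actMod hL hLM hp2 s)
    (gN.prodMap gN) hcomm (redPar_act hL hLM hp2 s)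
    (fun b => Prod.ext (redPar_act hL _ hp2 s b.1) (redPar_act hL _ hp2 s b.2))
    (fun b => hsv b) hy (hey s)
  have hkey : ∀ m : ℤ, m • y = 0 → (m : ZMod p) = 0 := fun m hm => by
    by_contra hm0
    refine hy0 (Subtype.ext (AddMonoidHom.ext fun γ => ?_))
    have h := DFunLike.congr_fun (congrArg Subtype.val hm) γ
    simp only [AddSubgroup.coe_zsmul, AddMonoidHom.smul_apply, zsmul_eq_mul,
      ZeroMemClass.coe_zero, AddMonoidHom.zero_apply] at h
    exact (mul_eq_zero.mp h).resolve_left hm0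
  refine ⟨Y, hY0, fun r hr => ?_⟩
  have h1 := congrArg (redPar (N * q) p) hr
  rw [redPar_act hL hLM hp2, map_zero, show redPar (N * q) p Y = eval e s ^ n • y from hY,
    map_zsmul, hey, smul_smul] at h1
  have h2 := hkey _ h1
  rw [Int.cast_mul, Int.cast_pow] at h2
  exact (mul_eq_zero.mp h2).resolve_left (pow_ne_zero _ hs)

/-- A point of the integral kernel gives an eigenform with `U q ^ 2 = 1`. -/
theorem exists_eigen_new (hqM : q ∣ N * q) (Y : parHom (Gamma0 (N * q)) ℤ)
    (hY : D.adjPar Y = 0) (hYe : ∀ r, actInt hL hLM r Y = 0 → evalMod p e r = 0) :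
    ∃ v : CuspForm (Gamma0 (N * q)) 2, v ≠ 0 ∧
      CuspForm.heckeULin 2 hqM (CuspForm.heckeULin 2 hqM v) = v ∧
      ∃ 𝔪' : Ideal (integralClosure ℤ ℂ), 𝔪'.IsMaximal ∧ (p : integralClosure ℤ ℂ) ∈ 𝔪' ∧
        ∀ i, ∃ a : integralClosure ℤ ℂ,
          CuspForm.heckeTLin 2 (hL i) (hLM i) v = (a : ℂ) • v ∧
            a - ((e i : ℤ) : integralClosure ℤ ℂ) ∈ 𝔪' := by
  have := parHom_int_moduleFinite (M := N * q)
  let K : Submodule ℤ (parHom (Gamma0 (N * q)) ℤ) := LinearMap.ker D.adjPar.toIntLinearMap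
  have hinv : ∀ i, ∀ z ∈ K, famOp L ℤ (N * q) hL i z ∈ K := fun i z hz => by
    show D.adjPar _ = 0
    rw [adjPar_famOp_int D hL hLM i, show D.adjPar z = 0 from hz, Prod.fst_zero, Prod.snd_zero,
      map_zero, Prod.mk_zero_zero]
  have hcommK : ∀ i j, Commute ((famOp L ℤ (N * q) hL i).restrict (hinv i))
      ((famOp L ℤ (N * q) hL j).restrict (hinv j)) := fun i j => by
    have : NeZero (L i) := ⟨(hL i).ne_zero⟩
    have : NeZero (L j) := ⟨(hL j).ne_zero⟩
    exact LinearMap.ext fun z => Subtype.ext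
      (LinearMap.congr_fun (commute_heckeEnd_int (hL i) (hL j) (hLM i) (hLM j)) z.1)
  let fK := polyAct _ hcommK
  have hsub : ∀ r z, (fK r z : parHom (Gamma0 (N * q)) ℤ) = actInt hL hLM r z.1 :=
    intertwine fK _ K.subtype.toAddMonoidHom fun i z => by
      rw [actInt_X, show fK (X i) = _ from polyAct_X _ _ i]; rfl
  let I := RingHom.ker fK
  let T := MvPolynomial ι ℤ ⧸ I
  have hTfin : Module.Finite ℤ T := moduleFinite_quotient_ker fK
  -- the complex span
  let F : K →+ CuspForm (Gamma0 (N * q)) 2 := latForm.comp K.subtype.toAddMonoidHom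
  let V' : Submodule ℂ (CuspForm (Gamma0 (N * q)) 2) := Submodule.span ℂ (Set.range F)
  have hinvV : ∀ i, ∀ v ∈ V', CuspForm.heckeTLin 2 (hL i) (hLM i) v ∈ V' := fun i => by
    have : NeZero (L i) := ⟨(hL i).ne_zero⟩
    show V' ≤ V'.comap (CuspForm.heckeTLin 2 (hL i) (hLM i))
    refine Submodule.span_le.mpr ?_
    rintro _ ⟨z, rfl⟩
    exact Submodule.subset_span ⟨⟨_, hinv i z.1 z.2⟩, latForm_heckeEnd (L i) (hL i) (hLM i) z.1⟩
  have hcommV : ∀ i j, Commute ((CuspForm.heckeTLin 2 (hL i) (hLM i)).restrict (hinvV i))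
      ((CuspForm.heckeTLin 2 (hL j) (hLM j)).restrict (hinvV j)) := fun i j =>
    LinearMap.ext fun z => Subtype.ext
      (LinearMap.congr_fun (CuspForm.heckeTLin_comm 2 (hL i) (hLM i) (hL j) (hLM j)) z.1)
  let fV := polyAct _ hcommV
  let F' : K →+ V' := AddMonoidHom.mk' (fun z => ⟨F z, Submodule.subset_span ⟨z, rfl⟩⟩)
    fun a b => Subtype.ext (map_add F a b)
  have hF : ∀ r z, F' (fK r z) = fV r (F' z) := intertwine fK fV F' fun i z => by
    have : NeZero (L i) := ⟨(hL i).ne_zero⟩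
    rw [show fK (X i) = _ from polyAct_X _ _ i, show fV (X i) = _ from polyAct_X _ _ i]
    exact Subtype.ext (latForm_heckeEnd (L i) (hL i) (hLM i) z.1)
  have hspan : Submodule.span ℂ (Set.range F') = ⊤ := by
    refine Submodule.map_injective_of_injective V'.subtype_injective ?_
    rw [Submodule.map_span, Submodule.map_top, Submodule.range_subtype, ← Set.range_comp]
    rfl
  have hker : ∀ r ∈ I, fV r = 0 := fun r hr => LinearMap.ext_on_range hspan fun z => by
    rw [← hF, RingHom.mem_ker.mp hr, LinearMap.zero_apply, map_zero, LinearMap.zero_apply]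
  let actV : T →+* Module.End ℂ V' := Ideal.Quotient.lift I fV hker
  have hinj : Function.Injective actV := (injective_iff_map_eq_zero _).mpr fun t ht => by
    obtain ⟨r, rfl⟩ := Ideal.Quotient.mk_surjective t
    rw [Ideal.Quotient.eq_zero_iff_mem, RingHom.mem_ker]
    refine LinearMap.ext fun z => Subtype.ext (latForm_injective ?_)
    have h := hF r z
    rw [show fV r = 0 from ht, LinearMap.zero_apply] at h
    exact (congrArg Subtype.val h).trans (map_zero _).symm
  have hθ : ∀ r ∈ I, evalMod p e r = 0 := fun r hr => hYe r (by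
    rw [← hsub r ⟨Y, hY⟩, RingHom.mem_ker.mp hr, LinearMap.zero_apply, ZeroMemClass.coe_zero])
  let θ : T →+* ZMod p := Ideal.Quotient.lift I (evalMod p e) hθ
  have hθs : Function.Surjective θ :=
    Ideal.Quotient.lift_surjective_of_surjective _ _ (evalMod_surjective e)
  have hP : (RingHom.ker θ).IsMaximal := RingHom.ker_isMaximal_of_surjective θ hθs
  have : FiniteDimensional ℂ V' :=
    haveI := FLTAgent.Quick.finiteDimensional_cuspForm (N := N * q)
    FiniteDimensional.finiteDimensional_submodule V'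
  obtain ⟨χ, hχ, v, hv0, hv⟩ :=
    FLTAgent.Quick.exists_isCommonEigen_le_prime actV hinj (RingHom.ker θ)
  obtain ⟨𝔪', hmax, hcomap⟩ := FLTAgent.Quick.exists_maximal_comap_eq χ (RingHom.ker θ) hχ
  have hmem : ∀ t, θ t = 0 → FLTAgent.Quick.toIntegralClosure χ t ∈ 𝔪' := fun t ht => by
    have : t ∈ RingHom.ker θ := ht
    rwa [← hcomap] at this
  refine ⟨v.1, fun h => hv0 (Subtype.ext h), ?_, 𝔪', hmax, ?_, fun i => ?_⟩
  · have hVU : V' ≤ LinearMap.eqLocus
        ((CuspForm.heckeULin 2 hqM).comp (CuspForm.heckeULin 2 hqM)) LinearMap.id := by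
      refine Submodule.span_le.mpr ?_
      rintro _ ⟨⟨z, hz⟩, rfl⟩
      have hz' : D.adjPar z = 0 := hz
      have h1 : cores (gamma0_mul_le N q) z.1 = 0 :=
        congrArg Subtype.val (congrArg Prod.fst hz')
      have h2 : cores (gamma0_mul_le N q) (D.wOp z.1) = 0 :=
        congrArg Subtype.val (congrArg Prod.snd hz')
      have h3 : cores (gamma0_mul_le N q) (D.wOp (-(D.wOp z.1))) = 0 := by
        rw [show D.wOp (-(D.wOp z.1)) = -(D.wOp (D.wOp z.1)) from rfl, D.wOp_wOp]
        have h := cores_add (gamma0_mul_le N q) (-z.1) z.1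
        rw [neg_add_cancel, h1, add_zero] at h
        rw [← h]
        exact congrArg Subtype.val ((coresPar N q (A := ℤ)).map_zero)
      show CuspForm.heckeULin 2 hqM (CuspForm.heckeULin 2 hqM (latForm z)) = latForm z
      rw [← latForm_wOp D hqM z h2, ← latForm_wOp D hqM ⟨_, neg_mem (D.wOp_mem_parHom z.2)⟩ h3]
      refine congrArg latForm (Subtype.ext ?_)
      show -(D.wOp (-(D.wOp z.1))) = z.1
      rw [show D.wOp (-(D.wOp z.1)) = -(D.wOp (D.wOp z.1)) from rfl, D.wOp_wOp, neg_neg]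
    exact hVU v.2
  · have h := hmem (p : T) (by rw [map_natCast, ZMod.natCast_self])
    rwa [map_natCast] at h
  · refine ⟨FLTAgent.Quick.toIntegralClosure χ (Ideal.Quotient.mk I (X i)), ?_, ?_⟩
    · have h := congrArg Subtype.val (hv (Ideal.Quotient.mk I (X i)))
      rw [show actV (Ideal.Quotient.mk I (X i)) = _ from
        (Ideal.Quotient.lift_mk I fV hker).trans (polyAct_X _ _ i)] at h
      exact h
    · have h := hmem (Ideal.Quotient.mk I (X i) - (e i : T)) (by
        rw [map_sub, map_intCast, Ideal.Quotient.lift_mk]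
        simp [evalMod])
      rwa [map_sub, map_intCast] at h

/-- A partial eigenvector with `U q ^ 2 = 1` gives such an eigenform. -/
theorem exists_newform_of_partial (hqM : q ∣ N * q) (hq : q.Prime)
    {v : CuspForm (Gamma0 (N * q)) 2} (hv : v ≠ 0)
    (hU : CuspForm.heckeULin 2 hqM (CuspForm.heckeULin 2 hqM v) = v) (a : ι → ℂ)
    (hT : ∀ i, CuspForm.heckeTLin 2 (hL i) (hLM i) v = a i • v) :
    ∃ g : CuspForm (Gamma0 (N * q)) 2, g.IsNormalizedEigenform ∧
      ModularFormClass.qCoeff g q ^ 2 = 1 ∧ ∀ i, ModularFormClass.qCoeff g (L i) = a i := by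
  classical
  have := FLTAgent.Quick.finiteDimensional_cuspForm (N := N * q)
  let op : {r : ℕ // r.Prime} → Module.End ℂ (CuspForm (Gamma0 (N * q)) 2) := fun r =>
    if h : (r : ℕ) ∣ N * q then CuspForm.heckeULin 2 h else CuspForm.heckeTLin 2 r.2 h
  have hopc : ∀ r r', Commute (op r) (op r') := fun r r' => by
    by_cases h : (r : ℕ) ∣ N * q <;> by_cases h' : (r' : ℕ) ∣ N * q <;>
      simp only [op, h, h', dite_true, dite_false]
    · exact CuspForm.heckeULin_comm 2 h h'
    · exact (CuspForm.heckeTLin_heckeULin_comm 2 r'.2 h' h).symm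
    · exact CuspForm.heckeTLin_heckeULin_comm 2 r.2 h h'
    · exact CuspForm.heckeTLin_comm 2 r.2 h r'.2 h'
  have hopU : op ⟨q, hq⟩ = CuspForm.heckeULin 2 hqM := dif_pos hqM
  have hopT : ∀ i, op ⟨L i, hL i⟩ = CuspForm.heckeTLin 2 (hL i) (hLM i) := fun i =>
    dif_neg (hLM i)
  let W : Submodule ℂ (CuspForm (Gamma0 (N * q)) 2) :=
    LinearMap.eqLocus (op ⟨q, hq⟩ * op ⟨q, hq⟩) 1 ⊓
      ⨅ i, LinearMap.eqLocus (op ⟨L i, hL i⟩) (a i • 1)
  have hvW : v ∈ W := by
    refine ⟨?_, Submodule.mem_iInf _ |>.mpr fun i => ?_⟩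
    · show (op ⟨q, hq⟩ * op ⟨q, hq⟩) v = v
      rw [hopU]; exact hU
    · show op ⟨L i, hL i⟩ v = (a i • (1 : Module.End ℂ _)) v
      rw [hopT]; exact hT i
  have hloc : ∀ (A B C : Module.End ℂ (CuspForm (Gamma0 (N * q)) 2)), Commute A C → Commute B C →
      ∀ x ∈ LinearMap.eqLocus A B, C x ∈ LinearMap.eqLocus A B := fun A B C hA hB x hx => by
    show A (C x) = B (C x)
    rw [← Module.End.mul_apply, hA.eq, Module.End.mul_apply, show A x = B x from hx,
      ← Module.End.mul_apply, ← hB.eq, Module.End.mul_apply]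
  obtain ⟨w, hwW, hw0, hw⟩ := FLTAgent.Quick.exists_common_eigenvector op hopc W
    (fun h => hv ((Submodule.eq_bot_iff _).mp h v hvW)) fun r x hx =>
      ⟨hloc _ _ _ ((hopc _ r).mul_left (hopc _ r)) (Commute.one_left _) x hx.1,
        Submodule.mem_iInf _ |>.mpr fun i => hloc _ _ _ (hopc _ r)
          ((Commute.one_left _).smul_left _) x (Submodule.mem_iInf _ |>.mp hx.2 i)⟩
  choose c hc using hw
  let lam : ℕ → ℂ := fun r => if h : r.Prime then c ⟨r, h⟩ else 0
  have hlam : ∀ r : ℕ, ∀ h : r.Prime, lam r = c ⟨r, h⟩ := fun r h => dif_pos h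
  obtain ⟨g, hg, -, hgc⟩ := FLTAgent.Quick.exists_normalized_of_eigenvector w hw0 lam
    (fun r hr hrN => by
      rw [hlam r hr, ← hc ⟨r, hr⟩]
      simp only [op, hrN, dite_false])
    (fun r hr hrN => by
      rw [hlam r hr, ← hc ⟨r, hr⟩]
      simp only [op, hrN, dite_true])
  refine ⟨g, hg, ?_, fun i => ?_⟩
  · rw [hgc q hq, hlam q hq]
    have h : (op ⟨q, hq⟩ * op ⟨q, hq⟩) w = w := hwW.1
    rw [Module.End.mul_apply, hc, map_smul, hc, smul_smul] at h
    rw [sq]
    exact smul_left_injective ℂ hw0 (h.trans (one_smul ℂ w).symm)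
  · rw [hgc _ (hL i), hlam _ (hL i)]
    have h : op ⟨L i, hL i⟩ w = a i • w := (Submodule.mem_iInf _ |>.mp hwW.2 i)
    rw [hc] at h
    exact smul_left_injective ℂ hw0 h

end FLTAgent.LevelRaise
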