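import Fermat.Agent.LevelRaise.Lifting
import Fermat.Agent.LevelRaise.Galois
import Fermat.Agent.LevelRaise.EigenClass
import Fermat.Agent.LevelRaise.Ihara
import Fermat.Prelude.Def_FreyPackage_LevelRaising

/-!
# Level raising

A congruent eigenform of level `N` with `a_q ^ 2 ≡ (q + 1) ^ 2` gives one of level `N q` with
`a_q ^ 2 = 1`.
-/

set_option autoImplicit false

noncomputable section

namespace FLTAgent.LevelRaise

open scoped MatrixGroups
open CongruenceSubgroup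

theorem famOp_eq_smul {ι : Type} {L : ι → ℕ} {A : Type*} [CommRing A] {M : ℕ} [NeZero M]
    (hL : ∀ i, (L i).Prime) (i : ι) [NeZero (L i)] (z : parHom (Gamma0 M) A) (m : ℤ)
    (h : heckeOp M (L i) z.1 = (AddMonoidHom.mulLeft (m : A)).comp z.1) :
    famOp L A M hL i z = m • z :=
  Subtype.ext <| h.trans <| AddMonoidHom.ext fun γ => by simp [zsmul_eq_mul]

theorem heckeOp_eq_of_famOp {ι : Type} {L : ι → ℕ} {A : Type*} [CommRing A] {M : ℕ} [NeZero M]
    (hL : ∀ i, (L i).Prime) (i : ι) [NeZero (L i)] (z : parHom (Gamma0 M) A) (m : ℤ)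
    (h : famOp L A M hL i z = m • z) :
    heckeOp M (L i) z.1 = (AddMonoidHom.mulLeft (m : A)).comp z.1 :=
  (congrArg Subtype.val h).trans <| AddMonoidHom.ext fun γ => by simp [zsmul_eq_mul]

/-- Level raising by one prime. -/
theorem exists_newAt_congruent {W : WeierstrassCurve ℤ} (hΔ : W.Δ ≠ 0) {p N q : ℕ} [Fact p.Prime]
    [NeZero N] [NeZero q] (hp2 : p ≠ 2) (hq : q.Prime) (hqN : ¬ q ∣ N) (hqp : q ≠ p)
    (hirr : W.ModRepIsIrreducible p) {f : CuspForm (Gamma0 N) 2} (hf : f.IsNormalizedEigenform)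
    {𝔪 : Ideal (integralClosure ℤ ℂ)} (hmax : 𝔪.IsMaximal) (hpm : (p : integralClosure ℤ ℂ) ∈ 𝔪)
    (hcong : ∀ ℓ : ℕ, ℓ.Prime → W.IsGoodPrimeFor ℓ → ¬ ℓ ∣ N → ℓ ≠ p →
      ∃ a : integralClosure ℤ ℂ, (a : ℂ) = ModularFormClass.qCoeff f ℓ ∧
        a - ((W.apOfModel ℓ : ℤ) : integralClosure ℤ ℂ) ∈ 𝔪)
    (hLR : ∃ a : integralClosure ℤ ℂ, (a : ℂ) = ModularFormClass.qCoeff f q ∧
      a ^ 2 - ((q : integralClosure ℤ ℂ) + 1) ^ 2 ∈ 𝔪) :
    ∃ (g : CuspForm (Gamma0 (N * q)) 2) (𝔪' : Ideal (integralClosure ℤ ℂ)),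
      g.IsNormalizedEigenform ∧ 𝔪'.IsMaximal ∧ (p : integralClosure ℤ ℂ) ∈ 𝔪' ∧
      (∀ ℓ : ℕ, ℓ.Prime → W.IsGoodPrimeFor ℓ → ¬ ℓ ∣ N * q → ℓ ≠ p →
        ∃ a : integralClosure ℤ ℂ, (a : ℂ) = ModularFormClass.qCoeff g ℓ ∧
          a - ((W.apOfModel ℓ : ℤ) : integralClosure ℤ ℂ) ∈ 𝔪') ∧
      g.IsNewAt q := by
  classical
  obtain ⟨D⟩ := exists_wData hq hqN
  let L : {ℓ : ℕ // ℓ.Prime ∧ W.IsGoodPrimeFor ℓ ∧ ¬ ℓ ∣ N * q ∧ ℓ ≠ p} → ℕ := Subtype.val
  have hL : ∀ i, (L i).Prime := fun i => i.2.1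
  have hLM : ∀ i, ¬ L i ∣ N * q := fun i => i.2.2.2.1
  let e := fun i => W.apOfModel (L i)
  obtain ⟨z, hz, hz0, hzT⟩ := exists_residual_class hf 𝔪 hmax hpm
  -- no eigenclass in the kernel of the degeneracy map
  have hno : ∀ x : parHom (Gamma0 N) (ZMod p) × parHom (Gamma0 N) (ZMod p), D.degPar x = 0 →
      (∀ i, famOp L (ZMod p) N hL i x.1 = e i • x.1 ∧ famOp L (ZMod p) N hL i x.2 = e i • x.2) →
      x = 0 := by
    intro x hx he
    obtain ⟨ℓ, hℓ, hℓS, hgood, hℓp, hne⟩ := exists_prime_sq_ne hΔ p hp2 hirr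
      ((N * q).primeFactors ∪ ((q : ℤ) ^ (4 * N) - 1).natAbs.primeFactors)
    simp only [Finset.mem_union, not_or] at hℓS
    have hℓM : ¬ ℓ ∣ N * q := fun h => hℓS.1
      (Nat.mem_primeFactors.mpr ⟨hℓ, h, mul_ne_zero (NeZero.ne N) (NeZero.ne q)⟩)
    have hpow : ((q : ℤ) ^ (4 * N) - 1).natAbs ≠ 0 := by
      rw [Int.natAbs_ne_zero, sub_ne_zero]
      have hN0 : 0 < N := Nat.pos_of_ne_zero (NeZero.ne N)
      exact (one_lt_pow₀ (by exact_mod_cast hq.one_lt) (by omega)).ne'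
    have : NeZero ℓ := ⟨hℓ.ne_zero⟩
    have haux : AuxPrime N q ℓ :=
      { q_prime := hq
        prime := hℓ
        not_dvd_N := fun h => hℓM (h.trans (dvd_mul_right N q))
        q_not_dvd_N := hqN
        ne := fun h => hℓM (h ▸ dvd_mul_left q N)
        not_dvd_pow := fun h => hℓS.2
          (Nat.mem_primeFactors.mpr ⟨hℓ, Int.natCast_dvd.mp h, hpow⟩) }
    have hvanish : ∀ u v : parHom (Gamma0 N) (ZMod p), D.deg u.1 v.1 = 0 →
        famOp L (ZMod p) N hL ⟨ℓ, hℓ, hgood, hℓM, hℓp⟩ u = (W.apOfModel ℓ) • u → u.1 = 0 := by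
      intro u v huv hu
      by_contra hu0
      have hT : heckeOp N ℓ u.1 =
          (AddMonoidHom.mulLeft ((W.apOfModel ℓ : ℤ) : ZMod p)).comp u.1 := by
        have h := congrArg Subtype.val hu
        refine h.trans (AddMonoidHom.ext fun γ => ?_)
        simp [zsmul_eq_mul]
      exact hne (eigen_eq_of_deg_eq_zero (x := u.1) (y := v.1) (ℓ := ℓ) D haux u.2 huv hu0
        ((W.apOfModel ℓ : ℤ) : ZMod p) hT)
    have hd : D.deg x.1.1 x.2.1 = 0 := congrArg Subtype.val hx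
    have h1 := hvanish x.1 x.2 hd (he _).1
    have hres : resHom (gamma0_mul_le N q) x.2.1 = 0 := by
      rw [WData.deg, h1] at hd
      rw [← D.wOp_wOp (resHom (gamma0_mul_le N q) x.2.1),
        show D.wOp (resHom (gamma0_mul_le N q) x.2.1) = 0 from by
          rw [← hd, show resHom (gamma0_mul_le N q) (0 : Additive (Gamma0 N) →+ ZMod p) = 0 from
            AddMonoidHom.ext fun _ => rfl, zero_add]]
      exact AddMonoidHom.ext fun _ => rfl
    have h2 := hvanish x.2 0 (by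
      rw [WData.deg, hres, zero_add]
      exact AddMonoidHom.ext fun _ => rfl) (he _).2
    exact Prod.ext (Subtype.ext h1) (Subtype.ext h2)
  -- the class killed by the adjoint map
  obtain ⟨a, ha, hLR⟩ := hLR
  obtain ⟨ε, hε2, hε⟩ : ∃ ε : ℤ, ε * ε = 1 ∧
      a - ((ε * (q + 1) : ℤ) : integralClosure ℤ ℂ) ∈ 𝔪 := by
    have h : (a - ((q : integralClosure ℤ ℂ) + 1)) * (a + ((q : integralClosure ℤ ℂ) + 1)) ∈ 𝔪 := by
      convert hLR using 1
      ring
    rcases hmax.isPrime.mem_or_mem h with h | h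
    · exact ⟨1, one_mul 1, by simpa using h⟩
    · exact ⟨-1, by norm_num, by convert h using 1; push_cast; ring⟩
  have hzq : heckeOp N q z = (AddMonoidHom.mulLeft ((ε * (q + 1) : ℤ) : ZMod p)).comp z :=
    hzT q _ hq hqN ⟨a, ha, hε⟩
  let z' : parHom (Gamma0 N) (ZMod p) := ⟨z, hz⟩
  have hze : ∀ i, famOp L (ZMod p) N hL i z' = e i • z' := fun i => by
    have : NeZero (L i) := ⟨(hL i).ne_zero⟩
    exact famOp_eq_smul hL i z' _ (hzT (L i) _ (hL i) (not_dvd_left hLM i)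
      (hcong (L i) (hL i) i.2.2.1 (not_dvd_left hLM i) i.2.2.2.2))
  let x : parHom (Gamma0 N) (ZMod p) × parHom (Gamma0 N) (ZMod p) := (z', (-ε) • z')
  have hxe : ∀ i, famOp L (ZMod p) N hL i x.1 = e i • x.1 ∧
      famOp L (ZMod p) N hL i x.2 = e i • x.2 := fun i =>
    ⟨hze i, by show famOp L (ZMod p) N hL i ((-ε) • z') = _; rw [map_zsmul, hze, smul_comm]⟩
  let y := D.degPar x
  have hy0 : y ≠ 0 := fun h => hz0 (congrArg Subtype.val (congrArg Prod.fst (hno x h hxe)))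
  have hye : ∀ i, famOp L (ZMod p) (N * q) hL i y = e i • y := fun i => by
    rw [← degPar_famOp D hL hLM i x, (hxe i).1, (hxe i).2, ← map_zsmul]
    rfl
  have hy : D.adjPar y = 0 := by
    have hres : ∀ (m : ℤ) (u : Additive (Gamma0 N) →+ ZMod p),
        resHom (gamma0_mul_le N q) (m • u) = m • resHom (gamma0_mul_le N q) u := fun m u =>
      AddMonoidHom.ext fun _ => rfl
    have hy1 : y.1 = resHom (gamma0_mul_le N q) z + D.wOp (resHom (gamma0_mul_le N q) ((-ε) • z)) :=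
      rfl
    have hy2 : D.wOp y.1 = resHom (gamma0_mul_le N q) ((-ε) • z)
        + D.wOp (resHom (gamma0_mul_le N q) z) := by
      rw [hy1, show ∀ u v : Additive (Gamma0 (N * q)) →+ ZMod p, D.wOp (u + v) = D.wOp u + D.wOp v
        from fun _ _ => AddMonoidHom.ext fun _ => rfl, D.wOp_wOp, add_comm]
    have hT : heckeOp N q ((-ε) • z) = (-ε) • heckeOp N q z :=
      congrArg Subtype.val (map_zsmul (heckeEnd (ZMod p) N q) (-ε) z')
    have hε2' : (ε : ZMod p) * ε = 1 := by exact_mod_cast congrArg (Int.cast (R := ZMod p)) hε2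
    refine Prod.ext (Subtype.ext ?_) (Subtype.ext ?_)
    · show cores (gamma0_mul_le N q) y.1 = 0
      rw [hy1, cores_add, D.cores_resHom, D.cores_wOp_resHom, hT, hzq]
      refine AddMonoidHom.ext fun γ => ?_
      simp only [AddMonoidHom.add_apply, AddMonoidHom.smul_apply, AddMonoidHom.comp_apply,
        AddMonoidHom.coe_mulLeft, AddMonoidHom.zero_apply, nsmul_eq_mul, zsmul_eq_mul]
      push_cast
      linear_combination (-((q : ZMod p) + 1) * z γ) * hε2'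
    · show cores (gamma0_mul_le N q) (D.wOp y.1) = 0
      rw [hy2, cores_add, D.cores_resHom, D.cores_wOp_resHom, hzq]
      refine AddMonoidHom.ext fun γ => ?_
      simp only [AddMonoidHom.add_apply, AddMonoidHom.smul_apply, AddMonoidHom.comp_apply,
        AddMonoidHom.coe_mulLeft, AddMonoidHom.zero_apply, nsmul_eq_mul, zsmul_eq_mul]
      push_cast
      ring
  have hqM : q ∣ N * q := dvd_mul_left q N
  obtain ⟨Y, hY0, hY⟩ := exists_kernel_point D hL hLM hp2 e hno y hy hy0 hye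
  obtain ⟨v, hv0, hvU, 𝔪', hmax', hpm', hv⟩ := exists_eigen_new D hL hLM e hqM Y hY0 hY
  choose a' ha' ham using hv
  obtain ⟨g, hg, hgq, hgc⟩ :=
    exists_newform_of_partial hL hLM hqM hq hv0 hvU (fun i => (a' i : ℂ)) ha'
  exact ⟨g, 𝔪', hg, hmax', hpm',
    fun ℓ hℓ hgood hℓM hℓp =>
      ⟨a' ⟨ℓ, hℓ, hgood, hℓM, hℓp⟩, (hgc ⟨ℓ, hℓ, hgood, hℓM, hℓp⟩).symm,
        ham ⟨ℓ, hℓ, hgood, hℓM, hℓp⟩⟩, hgq⟩

end FLTAgent.LevelRaise
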