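import Fermat.Agent.LevelRaise.Cocycle
import Mathlib.GroupTheory.Index

/-!
# Homomorphisms on a finite index subgroup as cocycles on its cosets
-/

set_option autoImplicit false

noncomputable section

namespace FLTAgent.LevelRaise

open scoped MatrixGroups

variable (Γ : Subgroup SL(2, ℤ)) (A : Type*) [AddCommGroup A]

/-- The cosets of `Γ`. -/
abbrev Cos : Type := SL(2, ℤ) ⧸ Γ

/-- The trivial coset. -/
abbrev cosBase : Cos Γ := ((1 : SL(2, ℤ)) : Cos Γ)

/-- Homomorphisms killing elliptic elements and `±1`. -/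
def ellHom : AddSubgroup (Additive Γ →+ A) where
  carrier := {φ | ∀ γ : Γ, IsElliptic (γ : SL(2, ℤ)) → φ (Additive.ofMul γ) = 0}
  zero_mem' := fun _ _ => rfl
  add_mem' hφ hψ γ hγ := by rw [AddMonoidHom.add_apply, hφ γ hγ, hψ γ hγ, add_zero]
  neg_mem' hφ γ hγ := by rw [AddMonoidHom.neg_apply, hφ γ hγ, neg_zero]

/-- Homomorphisms killing elliptic and parabolic elements. -/
def parHom : AddSubgroup (Additive Γ →+ A) where
  carrier := {φ | ∀ γ : Γ, trSL (γ : SL(2, ℤ)) ^ 2 ≤ 4 → φ (Additive.ofMul γ) = 0}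
  zero_mem' := fun _ _ => rfl
  add_mem' hφ hψ γ hγ := by rw [AddMonoidHom.add_apply, hφ γ hγ, hψ γ hγ, add_zero]
  neg_mem' hφ γ hγ := by rw [AddMonoidHom.neg_apply, hφ γ hγ, neg_zero]

variable {Γ A}

theorem parHom_le_ellHom : parHom Γ A ≤ ellHom Γ A := fun _ hφ γ hγ => hφ γ hγ.trace_sq_le

theorem mem_parHom_iff {φ : Additive Γ →+ A} :
    φ ∈ parHom Γ A ↔ ∀ γ : Γ, trSL (γ : SL(2, ℤ)) ^ 2 ≤ 4 → φ (Additive.ofMul γ) = 0 := Iff.rfl

theorem smul_base_of_mem {g : SL(2, ℤ)} (hg : g ∈ Γ) : g • cosBase Γ = cosBase Γ := by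
  rw [MulAction.Quotient.smul_mk, QuotientGroup.eq]
  simpa using hg

theorem out_smul_base (x : Cos Γ) : x.out • cosBase Γ = x := by
  rw [MulAction.Quotient.smul_mk, smul_eq_mul, mul_one, QuotientGroup.out_eq']

theorem neg_one_smul_cos (hneg : (-1 : SL(2, ℤ)) ∈ Γ) (x : Cos Γ) : (-1 : SL(2, ℤ)) • x = x := by
  rw [← out_smul_base x, ← mul_smul, neg_one_central, mul_smul, smul_base_of_mem hneg]

/-- The element of `Γ` attached to a group element and a coset. -/
def cellG (g : SL(2, ℤ)) (x : Cos Γ) : Γ :=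
  ⟨(g • x).out⁻¹ * (g * x.out), by
    rw [← QuotientGroup.eq, QuotientGroup.out_eq']
    exact congrArg (g • ·) (QuotientGroup.out_eq' x).symm⟩

theorem cellG_mul (g h : SL(2, ℤ)) (x : Cos Γ) :
    cellG (g * h) x = cellG g (h • x) * cellG h x := by
  apply Subtype.ext
  simp only [cellG, Subgroup.coe_mul, mul_smul]
  group

theorem cellG_of_fixed {g : SL(2, ℤ)} {x : Cos Γ} (hx : g • x = x) :
    (cellG g x : SL(2, ℤ)) = x.out⁻¹ * g * x.out⁻¹⁻¹ := by
  simp only [cellG, hx]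
  group

theorem trSL_cellG_of_fixed {g : SL(2, ℤ)} {x : Cos Γ} (hx : g • x = x) :
    trSL (cellG g x : SL(2, ℤ)) = trSL g := by rw [cellG_of_fixed hx, trSL_conj]

/-- The cocycle of a homomorphism. -/
def homCocycle (φ : Additive Γ →+ A) (g : SL(2, ℤ)) (x : Cos Γ) : A :=
  φ (Additive.ofMul (cellG g x))

theorem isCocycle_homCocycle (φ : Additive Γ →+ A) : IsCocycle (homCocycle φ) := fun g h x => by
  simp only [homCocycle, cellG_mul, ofMul_mul, map_add]

theorem isEllCocycle_homCocycle {φ : Additive Γ →+ A} (hφ : φ ∈ ellHom Γ A) :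
    IsEllCocycle (homCocycle φ) :=
  ⟨isCocycle_homCocycle φ, fun g x hx hg => hφ _ (by rw [cellG_of_fixed hx]; exact hg.conj _)⟩

theorem isParCocycle_homCocycle {φ : Additive Γ →+ A} (hφ : φ ∈ parHom Γ A) :
    IsParCocycle (homCocycle φ) :=
  ⟨isCocycle_homCocycle φ, fun g x hx hg => hφ _ (by rwa [trSL_cellG_of_fixed hx])⟩

/-- The restriction of a cocycle to the stabiliser of the trivial coset. -/
def baseHom (a : SL(2, ℤ) → Cos Γ → A) (ha : IsCocycle a) : Additive Γ →+ A where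
  toFun γ := a (Additive.toMul γ : Γ) (cosBase Γ)
  map_zero' := ha.map_one _
  map_add' γ δ := by
    show a ((Additive.toMul γ * Additive.toMul δ : Γ) : SL(2, ℤ)) _ = _
    rw [Subgroup.coe_mul, ha, smul_base_of_mem (Additive.toMul δ).2]

theorem baseHom_apply (a : SL(2, ℤ) → Cos Γ → A) (ha : IsCocycle a) (γ : Γ) :
    baseHom a ha (Additive.ofMul γ) = a γ (cosBase Γ) := rfl

theorem baseHom_mem_ellHom {a : SL(2, ℤ) → Cos Γ → A} (ha : IsEllCocycle a) :
    baseHom a ha.1 ∈ ellHom Γ A := fun γ hγ => ha.2 _ _ (smul_base_of_mem γ.2) hγ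

theorem baseHom_mem_parHom {a : SL(2, ℤ) → Cos Γ → A} (ha : IsParCocycle a) :
    baseHom a ha.1 ∈ parHom Γ A := fun γ hγ => ha.2 _ _ (smul_base_of_mem γ.2) hγ

theorem homCocycle_base (φ : Additive Γ →+ A) (γ : Γ) :
    homCocycle φ γ (cosBase Γ) = φ (Additive.ofMul γ) := by
  obtain ⟨h, hh⟩ := QuotientGroup.mk_out_eq_mul Γ (1 : SL(2, ℤ))
  have hcell : cellG (γ : SL(2, ℤ)) (cosBase Γ) = h⁻¹ * γ * h := by
    apply Subtype.ext
    rw [cellG_of_fixed (smul_base_of_mem γ.2)]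
    simp only [cosBase, hh, one_mul, Subgroup.coe_mul, Subgroup.coe_inv, inv_inv]
  simp only [homCocycle, hcell, ofMul_mul, map_add, ofMul_inv, map_neg]
  abel

theorem baseHom_homCocycle (φ : Additive Γ →+ A) :
    baseHom (homCocycle φ) (isCocycle_homCocycle φ) = φ :=
  AddMonoidHom.ext fun γ => homCocycle_base φ (Additive.toMul γ)

/-- A cocycle trivial on the stabiliser of the trivial coset is a coboundary. -/
theorem exists_cobound_of_base {a : SL(2, ℤ) → Cos Γ → A} (ha : IsCocycle a)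
    (h : ∀ γ : Γ, a γ (cosBase Γ) = 0) : ∃ u : Cos Γ → A, a = cobound u := by
  refine ⟨fun x => a x.out (cosBase Γ), ?_⟩
  funext g x
  have h1 := ha g x.out (cosBase Γ)
  have h2 : g * x.out = (g • x).out * (cellG g x : SL(2, ℤ)) := by simp [cellG]
  rw [out_smul_base, h2, ha, smul_base_of_mem (cellG g x).2, h, add_zero] at h1
  exact eq_sub_of_add_eq h1.symm

theorem exists_cobound_of_baseHom_eq {a b : SL(2, ℤ) → Cos Γ → A} (ha : IsCocycle a)
    (hb : IsCocycle b) (h : baseHom a ha = baseHom b hb) : ∃ u, a = b + cobound u := by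
  obtain ⟨u, hu⟩ := exists_cobound_of_base
    (a := a - b) (fun g g' x => by simp only [Pi.sub_apply, ha g g' x, hb g g' x]; abel)
    (fun γ => by
      simp only [Pi.sub_apply]
      exact sub_eq_zero.mpr (DFunLike.congr_fun h (Additive.ofMul γ)))
  exact ⟨u, by rw [← hu]; abel⟩

section Push

variable {X Y : Type*} [MulAction SL(2, ℤ) X] [MulAction SL(2, ℤ) Y] [Fintype X] [DecidableEq Y]

/-- Summing over the fibres. -/
def push {M : Type*} [AddCommMonoid M] (π : X → Y) (f : SL(2, ℤ) → X → M) (g : SL(2, ℤ)) (y : Y) :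
    M :=
  ∑ x ∈ Finset.univ.filter (fun x => π x = y), f g x

theorem sum_fibre_smul {M : Type*} [AddCommMonoid M] {π : X → Y}
    (hπ : ∀ (g : SL(2, ℤ)) x, π (g • x) = g • π x) (f : X → M) (g : SL(2, ℤ)) (y : Y) :
    ∑ x ∈ Finset.univ.filter (fun x => π x = y), f (g • x)
      = ∑ x ∈ Finset.univ.filter (fun x => π x = g • y), f x := by
  refine Finset.sum_bij (fun x _ => g • x) ?_ (fun _ _ _ _ h => MulAction.injective g h) ?_
    (fun _ _ => rfl)
  · intro x hx
    simp only [Finset.mem_filter, Finset.mem_univ, true_and] at hx ⊢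
    rw [hπ, hx]
  · intro x hx
    simp only [Finset.mem_filter, Finset.mem_univ, true_and] at hx
    refine ⟨g⁻¹ • x, ?_, smul_inv_smul g x⟩
    simp only [Finset.mem_filter, Finset.mem_univ, true_and, hπ, hx, inv_smul_smul]

theorem IsCocycle.push {π : X → Y} (hπ : ∀ (g : SL(2, ℤ)) x, π (g • x) = g • π x)
    {b : SL(2, ℤ) → X → A} (hb : IsCocycle b) : IsCocycle (LevelRaise.push π b) := fun g h y => by
  simp only [LevelRaise.push, ← sum_fibre_smul hπ (b g) h y, ← Finset.sum_add_distrib]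
  exact Finset.sum_congr rfl fun x _ => hb g h x

/-- Fibre sums over fixed points of an element all of whose powers act additively. -/
theorem push_eq_zero_of_fixed {π : X → Y} (hπ : ∀ (g : SL(2, ℤ)) x, π (g • x) = g • π x)
    {f : SL(2, ℤ) → X → A} {g : SL(2, ℤ)} {y : Y} (hy : g • y = y)
    (hadd : ∀ (n : ℕ) (x : X), π x = y → f (g ^ n) x = ∑ i ∈ Finset.range n, f g (g ^ i • x))
    (hfix : ∀ (n : ℕ) (x : X), π x = y → g ^ n • x = x → f (g ^ n) x = 0) :
    LevelRaise.push π f g y = 0 := by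
  classical
  have := Fintype.ofFinite (PowOrbits g X)
  rw [LevelRaise.push, Finset.sum_filter, LevelRaise.sum_eq_sum_orbits g]
  refine Finset.sum_eq_zero fun o _ => ?_
  have hconst : ∀ i : ℕ, π (g ^ i • o.out) = π o.out ∨ π o.out ≠ y := by
    intro i
    by_cases h : π o.out = y
    · left
      rw [hπ, h]
      induction i with
      | zero => simp
      | succ i ih => rw [pow_succ', mul_smul, ih, hy]
    · exact Or.inr h
  by_cases h : π o.out = y
  · have hall : ∀ i : ℕ, π (g ^ i • o.out) = y := fun i =>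
      ((hconst i).resolve_right (not_not.mpr h)).trans h
    simp only [hall, if_true]
    rw [← hadd _ _ h]
    exact hfix _ _ h (MulAction.pow_period_smul g o.out)
  · refine Finset.sum_eq_zero fun i _ => if_neg fun hi => h ?_
    have h1 : ∀ j : ℕ, g ^ j • y = y := by
      intro j
      induction j with
      | zero => simp
      | succ j ih => rw [pow_succ', mul_smul, ih, hy]
    apply MulAction.injective (g ^ i)
    show g ^ i • π o.out = g ^ i • y
    rw [← hπ, hi, h1]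

theorem IsEllCocycle.push {π : X → Y} (hπ : ∀ (g : SL(2, ℤ)) x, π (g • x) = g • π x)
    {b : SL(2, ℤ) → X → A} (hb : IsEllCocycle b) : IsEllCocycle (LevelRaise.push π b) :=
  ⟨hb.1.push hπ, fun g _ hy hg => push_eq_zero_of_fixed hπ hy (fun n x _ => hb.1.map_pow g n x)
    fun n x _ hx => hb.2 _ x hx (isElliptic_pow hg n)⟩

theorem IsParCocycle.push {π : X → Y} (hπ : ∀ (g : SL(2, ℤ)) x, π (g • x) = g • π x)
    {b : SL(2, ℤ) → X → A} (hb : IsParCocycle b) : IsParCocycle (LevelRaise.push π b) :=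
  ⟨hb.1.push hπ, fun g _ hy hg => push_eq_zero_of_fixed hπ hy (fun n x _ => hb.1.map_pow g n x)
    fun n x _ hx => hb.2 _ x hx (trace_sq_le_pow hg n)⟩

theorem push_cobound {π : X → Y} (hπ : ∀ (g : SL(2, ℤ)) x, π (g • x) = g • π x) (u : X → A) :
    LevelRaise.push π (cobound u)
      = cobound fun y => ∑ x ∈ Finset.univ.filter (fun x => π x = y), u x := by
  funext g y
  simp only [LevelRaise.push, cobound, Finset.sum_sub_distrib, sum_fibre_smul hπ u g y]

end Push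

section Cores

variable {Γ' : Subgroup SL(2, ℤ)}

/-- The projection of cosets. -/
def cosMap (h : Γ' ≤ Γ) : Cos Γ' → Cos Γ := Subgroup.quotientMapOfLE h

theorem cosMap_smul (h : Γ' ≤ Γ) (g : SL(2, ℤ)) (x : Cos Γ') :
    cosMap h (g • x) = g • cosMap h x := by
  induction x using QuotientGroup.induction_on with
  | H a => rfl

theorem cosMap_base (h : Γ' ≤ Γ) : cosMap h (cosBase Γ') = cosBase Γ := rfl

open Classical in
/-- The transfer (corestriction) of a homomorphism. -/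
def cores (h : Γ' ≤ Γ) [Γ'.FiniteIndex] (φ : Additive Γ' →+ A) : Additive Γ →+ A :=
  letI := Fintype.ofFinite (Cos Γ')
  baseHom (push (cosMap h) (homCocycle φ)) ((isCocycle_homCocycle φ).push (cosMap_smul h))

open Classical in
theorem cores_apply (h : Γ' ≤ Γ) [Γ'.FiniteIndex] [Fintype (Cos Γ')] (φ : Additive Γ' →+ A)
    (γ : Γ) : cores h φ (Additive.ofMul γ) = ∑ x ∈ Finset.univ.filter
      (fun x : Cos Γ' => cosMap h x = cosBase Γ), φ (Additive.ofMul (cellG (γ : SL(2, ℤ)) x)) := by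
  obtain rfl : ‹Fintype (Cos Γ')› = Fintype.ofFinite (Cos Γ') := Subsingleton.elim _ _
  rfl

theorem cores_mem_parHom (h : Γ' ≤ Γ) [Γ'.FiniteIndex] {φ : Additive Γ' →+ A}
    (hφ : φ ∈ parHom Γ' A) : cores h φ ∈ parHom Γ A := by
  classical
  let := Fintype.ofFinite (Cos Γ')
  exact baseHom_mem_parHom ((isParCocycle_homCocycle hφ).push (cosMap_smul h))

/-- Restriction. -/
def resHom (h : Γ' ≤ Γ) (φ : Additive Γ →+ A) : Additive Γ' →+ A :=
  φ.comp (MonoidHom.toAdditive (Subgroup.inclusion h))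

@[simp] theorem resHom_apply (h : Γ' ≤ Γ) (φ : Additive Γ →+ A) (γ : Γ') :
    resHom h φ (Additive.ofMul γ) = φ (Additive.ofMul ⟨γ, h γ.2⟩) := rfl

theorem resHom_mem_parHom (h : Γ' ≤ Γ) {φ : Additive Γ →+ A} (hφ : φ ∈ parHom Γ A) :
    resHom h φ ∈ parHom Γ' A := fun γ hγ => hφ ⟨γ, h γ.2⟩ hγ

end Cores

section Conj

variable {Γ₁ Γ₂ : Subgroup SL(2, ℤ)}

/-- The integer matrix of an element of `SL(2, ℤ)`. -/
abbrev matSL (γ : SL(2, ℤ)) : Matrix (Fin 2) (Fin 2) ℤ := γ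

/-- `g Γ₁ g⁻¹ ⊆ Γ₂` for an integer matrix `g` of positive determinant. -/
structure ConjLE (g : Matrix (Fin 2) (Fin 2) ℤ) (Γ₁ Γ₂ : Subgroup SL(2, ℤ)) : Prop where
  det_pos : 0 < g.det
  exists_eq : ∀ γ ∈ Γ₁, ∃ δ ∈ Γ₂, g * matSL γ = matSL δ * g

theorem mul_right_cancel_of_det_pos {g : Matrix (Fin 2) (Fin 2) ℤ} (hg : 0 < g.det)
    {M M' : Matrix (Fin 2) (Fin 2) ℤ} (h : M * g = M' * g) : M = M' := by
  have h' := congrArg (· * g.adjugate) h
  simp only [Matrix.mul_assoc, Matrix.mul_adjugate, Matrix.mul_smul, Matrix.mul_one] at h'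
  exact smul_right_injective _ hg.ne' h'

theorem eq_of_mul_conj {g : Matrix (Fin 2) (Fin 2) ℤ} (hg : 0 < g.det) {δ δ' : SL(2, ℤ)}
    {M : Matrix (Fin 2) (Fin 2) ℤ} (h : M = matSL δ * g) (h' : M = matSL δ' * g) : δ = δ' :=
  Subtype.ext (mul_right_cancel_of_det_pos hg (h.symm.trans h'))

variable {g : Matrix (Fin 2) (Fin 2) ℤ}

/-- `γ ↦ g γ g⁻¹`. -/
def ConjLE.hom (hg : ConjLE g Γ₁ Γ₂) : Γ₁ →* Γ₂ :=
  MonoidHom.mk' (fun γ => ⟨(hg.exists_eq γ γ.2).choose, (hg.exists_eq γ γ.2).choose_spec.1⟩)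
    fun γ δ => Subtype.ext <| eq_of_mul_conj hg.det_pos
      (hg.exists_eq (γ * δ) (γ * δ).2).choose_spec.2 <| by
      have key : ∀ {a b c d : Matrix (Fin 2) (Fin 2) ℤ}, g * a = c * g → g * b = d * g →
          g * (a * b) = c * d * g := fun {a b c d} h1 h2 => by
        rw [← Matrix.mul_assoc, h1, Matrix.mul_assoc, h2, Matrix.mul_assoc]
      exact key (hg.exists_eq γ γ.2).choose_spec.2 (hg.exists_eq δ δ.2).choose_spec.2

theorem ConjLE.spec (hg : ConjLE g Γ₁ Γ₂) (γ : Γ₁) :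
    g * matSL (γ : SL(2, ℤ)) = matSL (hg.hom γ : SL(2, ℤ)) * g :=
  (hg.exists_eq γ γ.2).choose_spec.2

theorem ConjLE.hom_eq (hg : ConjLE g Γ₁ Γ₂) {γ : Γ₁} {δ : Γ₂}
    (h : g * matSL (γ : SL(2, ℤ)) = matSL (δ : SL(2, ℤ)) * g) : hg.hom γ = δ :=
  Subtype.ext (eq_of_mul_conj hg.det_pos (hg.spec γ) h)

theorem ConjLE.trSL_hom (hg : ConjLE g Γ₁ Γ₂) (γ : Γ₁) :
    trSL (hg.hom γ : SL(2, ℤ)) = trSL (γ : SL(2, ℤ)) := by
  have h := congrArg (fun M => (g.adjugate * M).trace) (hg.spec γ)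
  simp only [← Matrix.mul_assoc, Matrix.adjugate_mul] at h
  rw [Matrix.trace_mul_cycle, Matrix.mul_adjugate] at h
  simp only [Matrix.smul_mul, Matrix.one_mul, Matrix.trace_smul] at h
  exact (smul_right_injective ℤ hg.det_pos.ne' h).symm

theorem ConjLE.isElliptic_hom (hg : ConjLE g Γ₁ Γ₂) {γ : Γ₁}
    (h : IsElliptic (γ : SL(2, ℤ))) : IsElliptic (hg.hom γ : SL(2, ℤ)) := by
  rcases h with h | h | h
  · exact Or.inl (by rwa [hg.trSL_hom])
  · exact Or.inr (Or.inl (eq_of_mul_conj hg.det_pos (hg.spec γ) (by simp [h])))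
  · exact Or.inr (Or.inr (eq_of_mul_conj hg.det_pos (hg.spec γ) (by simp [h])))

/-- Pulling back along conjugation. -/
def conjPull (hg : ConjLE g Γ₁ Γ₂) (φ : Additive Γ₂ →+ A) : Additive Γ₁ →+ A :=
  φ.comp (MonoidHom.toAdditive hg.hom)

@[simp] theorem conjPull_apply (hg : ConjLE g Γ₁ Γ₂) (φ : Additive Γ₂ →+ A) (γ : Γ₁) :
    conjPull hg φ (Additive.ofMul γ) = φ (Additive.ofMul (hg.hom γ)) := rfl

theorem conjPull_mem_parHom (hg : ConjLE g Γ₁ Γ₂) {φ : Additive Γ₂ →+ A}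
    (hφ : φ ∈ parHom Γ₂ A) : conjPull hg φ ∈ parHom Γ₁ A :=
  fun γ hγ => hφ _ (by rwa [hg.trSL_hom])

end Conj

end FLTAgent.LevelRaise
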