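import Fermat.Agent.LevelRaise.Model
import Mathlib.Algebra.Field.Basic

/-!
# A pairing on parabolic homomorphisms

For `φ, ψ` choose a quadratic cochain and sum its values at the cusps. Restriction is adjoint to
transfer for this pairing.
-/

set_option autoImplicit false

noncomputable section

namespace FLTAgent.LevelRaise

open scoped MatrixGroups
open ModularGroup

variable {X : Type*} [MulAction SL(2, ℤ) X] [Fintype X] {k : Type*} [Field k]

theorem trSL_T_pow (n : ℕ) : trSL ((T : SL(2, ℤ)) ^ n) = 2 := by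
  rw [← zpow_natCast, trSL, coe_T_zpow]; simp [Matrix.trace_fin_two]

theorem sum_cobound (u : X → k) (g : SL(2, ℤ)) : ∑ x, cobound u g x = 0 := by
  simp only [cobound, Finset.sum_sub_distrib]
  rw [sub_eq_zero]
  exact Equiv.sum_comp (MulAction.toPerm g) u

theorem IsCocycle.ST_apply {A : Type*} [AddCommGroup A] {Z : Type*} [MulAction SL(2, ℤ) Z]
    {a : SL(2, ℤ) → Z → A} (ha : IsCocycle a) (x : Z) :
    a (S * T) x = a S (T • x) + a T x := ha S T x

/-- For a cocycle killing elliptic elements the values at `T` sum to zero. -/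
theorem IsEllCocycle.sum_T (hneg : ∀ x : X, (-1 : SL(2, ℤ)) • x = x) (h2 : (2 : k) ≠ 0)
    {a : SL(2, ℤ) → X → k} (ha : IsEllCocycle a) : ∑ x, a T x = 0 := by
  obtain ⟨u, hu⟩ := ha.1.exists_gauge (S * T)
    fun n x hx => ha.2 _ x hx (isElliptic_pow isElliptic_ST n)
  have hU : ∑ x, a (S * T) x = 0 := by
    have h := Finset.sum_congr (rfl : Finset.univ = (Finset.univ : Finset X)) fun x _ => hu x
    rwa [Finset.sum_add_distrib, sum_cobound, add_zero, Finset.sum_const_zero] at h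
  have hS : ∑ x, a S x = 0 := by
    have h : ∑ x, a S (S • x) + ∑ x, a S x = 0 := by
      rw [← Finset.sum_add_distrib]
      refine Finset.sum_eq_zero fun x _ => ?_
      rw [← ha.1, ← pow_two, S_sq_eq]
      exact ha.2 _ x (hneg x) (Or.inr (Or.inr rfl))
    rw [show ∑ x, a S (S • x) = ∑ x, a S x from
      Equiv.sum_comp (MulAction.toPerm (S : SL(2, ℤ))) (a S), ← two_mul] at h
    exact (mul_eq_zero.mp h).resolve_left h2
  simp only [ha.1.ST_apply, Finset.sum_add_distrib] at hU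
  rwa [show ∑ x, a S (T • x) = ∑ x, a S x from Equiv.sum_comp (MulAction.toPerm (T : SL(2, ℤ))) (a S),
    hS, zero_add] at hU

variable {Γ : Subgroup SL(2, ℤ)} [Γ.FiniteIndex]

open Classical in
instance fintypeCos : Fintype (Cos Γ) := Fintype.ofFinite _

open Classical in
instance fintypeCusps : Fintype (PowOrbits T (Cos Γ)) := Fintype.ofFinite _

variable (Γ) in
/-- The stabiliser generator attached to a cusp. -/
def cuspElt (o : PowOrbits T (Cos Γ)) : Γ :=
  cellG (T ^ MulAction.period T o.out) o.out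

/-- The sum of a cochain over the cusps. -/
def orbitPair (F : SL(2, ℤ) → Cos Γ → k) : k :=
  ∑ o : PowOrbits T (Cos Γ), F (T ^ MulAction.period T o.out) o.out

/-- A quadratic function on `Γ` for `φ, ψ`. -/
def IsQuadHom (φ ψ : Additive Γ →+ k) (F : Γ → k) : Prop :=
  (∀ γ δ : Γ, F (γ * δ) = F γ + F δ + φ (Additive.ofMul γ) * ψ (Additive.ofMul δ)) ∧
    ∀ γ : Γ, IsElliptic (γ : SL(2, ℤ)) → F γ = 0

omit [Γ.FiniteIndex] in
theorem trSL_cuspElt (o : PowOrbits T (Cos Γ)) : trSL (cuspElt Γ o : SL(2, ℤ)) = 2 := by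
  rw [cuspElt, trSL_cellG_of_fixed (MulAction.pow_period_smul T o.out), trSL_T_pow]

omit [Γ.FiniteIndex] in
theorem IsQuad.isQuadHom {a b F : SL(2, ℤ) → Cos Γ → k} (hF : IsQuad a b F)
    (ha : IsCocycle a) (hb : IsCocycle b) :
    IsQuadHom (baseHom a ha) (baseHom b hb) fun γ => F γ (cosBase Γ) :=
  ⟨fun γ δ => by
    simp only [Subgroup.coe_mul, baseHom_apply]
    rw [hF.1, smul_base_of_mem δ.2],
  fun γ hγ => hF.2 _ _ (smul_base_of_mem γ.2) hγ⟩

theorem orbitPair_eq_sum_cuspElt {a b F : SL(2, ℤ) → Cos Γ → k} (hF : IsQuad a b F)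
    (ha : IsParCocycle a) (hb : IsParCocycle b) :
    orbitPair F = ∑ o, F (cuspElt Γ o) (cosBase Γ) := by
  refine Finset.sum_congr rfl fun o _ => ?_
  obtain ⟨w, hw⟩ : ∃ w, w = MulAction.period (T : SL(2, ℤ)) o.out := ⟨_, rfl⟩
  rw [cuspElt, ← hw]
  have hfix : (T : SL(2, ℤ)) ^ w • o.out = o.out := hw ▸ MulAction.pow_period_smul T o.out
  obtain ⟨γ, hγ⟩ : ∃ γ, γ = cellG ((T : SL(2, ℤ)) ^ w) o.out := ⟨_, rfl⟩
  rw [← hγ]
  have hmul : (T : SL(2, ℤ)) ^ w * o.out.out = o.out.out * (γ : SL(2, ℤ)) := by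
    rw [hγ, cellG_of_fixed hfix]; group
  have h1 := hF.1 ((T : SL(2, ℤ)) ^ w) o.out.out (cosBase Γ)
  rw [out_smul_base, ha.2 _ _ hfix (by rw [trSL_T_pow]; norm_num), zero_mul, add_zero, hmul,
    hF.1, smul_base_of_mem γ.2] at h1
  have hb0 : b γ (cosBase Γ) = 0 := hb.2 _ _ (smul_base_of_mem γ.2) (by
    rw [hγ, trSL_cellG_of_fixed hfix, trSL_T_pow]; norm_num)
  rw [hb0, mul_zero, add_zero] at h1
  linear_combination -h1

theorem sum_cuspElt_eq_of_isQuadHom (hneg : (-1 : SL(2, ℤ)) ∈ Γ) (h2 : (2 : k) ≠ 0)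
    {φ ψ : Additive Γ →+ k} {F F' : Γ → k} (hF : IsQuadHom φ ψ F) (hF' : IsQuadHom φ ψ F') :
    ∑ o, F (cuspElt Γ o) = ∑ o, F' (cuspElt Γ o) := by
  let d : Additive Γ →+ k :=
    AddMonoidHom.mk' (fun γ => F (Additive.toMul γ) - F' (Additive.toMul γ)) fun γ δ => by
      simp only [toMul_add, hF.1, hF'.1]; ring
  have hd : d ∈ ellHom Γ k := fun γ hγ => by
    show F γ - F' γ = 0
    rw [hF.2 γ hγ, hF'.2 γ hγ, sub_zero]
  have h := (isEllCocycle_homCocycle hd).sum_T (neg_one_smul_cos hneg) h2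
  rw [(isCocycle_homCocycle d).sum_eq_sum_orbits T] at h
  have h' : ∑ o, (F (cuspElt Γ o) - F' (cuspElt Γ o)) = 0 := h
  rwa [Finset.sum_sub_distrib, sub_eq_zero] at h'

open Classical in
/-- The pairing. -/
def pairing (φ ψ : Additive Γ →+ k) : k :=
  if h : ∃ F, IsQuad (homCocycle φ) (homCocycle ψ) F then orbitPair h.choose else 0

variable (hneg : (-1 : SL(2, ℤ)) ∈ Γ) (h2 : (2 : k) ≠ 0)

include hneg h2 in
/-- The pairing computed from any model. -/
theorem pairing_eq {φ ψ : Additive Γ →+ k} (hφ : φ ∈ parHom Γ k) (hψ : ψ ∈ parHom Γ k)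
    {a b F : SL(2, ℤ) → Cos Γ → k} (ha : IsParCocycle a) (hb : IsParCocycle b)
    (haφ : baseHom a ha.1 = φ) (hbψ : baseHom b hb.1 = ψ) (hF : IsQuad a b F) :
    pairing φ ψ = orbitPair F := by
  classical
  have hex : ∃ G, IsQuad (homCocycle φ) (homCocycle ψ) G :=
    exists_isQuad (neg_one_smul_cos hneg) h2.isUnit (isEllCocycle_homCocycle (parHom_le_ellHom hφ))
      (isEllCocycle_homCocycle (parHom_le_ellHom hψ))
  rw [pairing, dif_pos hex, orbitPair_eq_sum_cuspElt hex.choose_spec (isParCocycle_homCocycle hφ)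
    (isParCocycle_homCocycle hψ), orbitPair_eq_sum_cuspElt hF ha hb]
  have h1 := hex.choose_spec.isQuadHom (isCocycle_homCocycle φ) (isCocycle_homCocycle ψ)
  have h3 := hF.isQuadHom ha.1 hb.1
  rw [baseHom_homCocycle, baseHom_homCocycle] at h1
  rw [haφ, hbψ] at h3
  exact sum_cuspElt_eq_of_isQuadHom hneg h2 h1 h3

include hneg h2 in
/-- The pairing computed from any quadratic function on `Γ`. -/
theorem pairing_eq_sum_cuspElt {φ ψ : Additive Γ →+ k} (hφ : φ ∈ parHom Γ k)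
    (hψ : ψ ∈ parHom Γ k) {F : Γ → k} (hF : IsQuadHom φ ψ F) :
    pairing φ ψ = ∑ o, F (cuspElt Γ o) := by
  obtain ⟨G, hG⟩ := exists_isQuad (neg_one_smul_cos hneg) h2.isUnit
    (isEllCocycle_homCocycle (parHom_le_ellHom hφ)) (isEllCocycle_homCocycle (parHom_le_ellHom hψ))
  rw [pairing_eq hneg h2 hφ hψ (isParCocycle_homCocycle hφ) (isParCocycle_homCocycle hψ)
    (baseHom_homCocycle φ) (baseHom_homCocycle ψ) hG,
    orbitPair_eq_sum_cuspElt hG (isParCocycle_homCocycle hφ) (isParCocycle_homCocycle hψ)]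
  have h1 := hG.isQuadHom (isCocycle_homCocycle φ) (isCocycle_homCocycle ψ)
  rw [baseHom_homCocycle, baseHom_homCocycle] at h1
  exact sum_cuspElt_eq_of_isQuadHom hneg h2 h1 hF

include hneg h2 in
theorem exists_isQuadHom {φ ψ : Additive Γ →+ k} (hφ : φ ∈ ellHom Γ k) (hψ : ψ ∈ ellHom Γ k) :
    ∃ F, IsQuadHom φ ψ F := by
  obtain ⟨G, hG⟩ := exists_isQuad (neg_one_smul_cos hneg) h2.isUnit
    (isEllCocycle_homCocycle hφ) (isEllCocycle_homCocycle hψ)
  have h1 := hG.isQuadHom (isCocycle_homCocycle φ) (isCocycle_homCocycle ψ)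
  rw [baseHom_homCocycle, baseHom_homCocycle] at h1
  exact ⟨_, h1⟩

include hneg h2 in
theorem pairing_add_left {φ φ' ψ : Additive Γ →+ k} (hφ : φ ∈ parHom Γ k)
    (hφ' : φ' ∈ parHom Γ k) (hψ : ψ ∈ parHom Γ k) :
    pairing (φ + φ') ψ = pairing φ ψ + pairing φ' ψ := by
  obtain ⟨F, hF⟩ := exists_isQuadHom hneg h2 (parHom_le_ellHom hφ) (parHom_le_ellHom hψ)
  obtain ⟨F', hF'⟩ := exists_isQuadHom hneg h2 (parHom_le_ellHom hφ') (parHom_le_ellHom hψ)
  have h : IsQuadHom (φ + φ') ψ (F + F') := ⟨fun γ δ => by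
    simp only [Pi.add_apply, AddMonoidHom.add_apply, hF.1, hF'.1]; ring,
    fun γ hγ => by simp [hF.2 γ hγ, hF'.2 γ hγ]⟩
  rw [pairing_eq_sum_cuspElt hneg h2 hφ hψ hF, pairing_eq_sum_cuspElt hneg h2 hφ' hψ hF',
    pairing_eq_sum_cuspElt hneg h2 (add_mem hφ hφ') hψ h, ← Finset.sum_add_distrib]
  rfl

include hneg h2 in
theorem pairing_add_right {φ ψ ψ' : Additive Γ →+ k} (hφ : φ ∈ parHom Γ k)
    (hψ : ψ ∈ parHom Γ k) (hψ' : ψ' ∈ parHom Γ k) :
    pairing φ (ψ + ψ') = pairing φ ψ + pairing φ ψ' := by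
  obtain ⟨F, hF⟩ := exists_isQuadHom hneg h2 (parHom_le_ellHom hφ) (parHom_le_ellHom hψ)
  obtain ⟨F', hF'⟩ := exists_isQuadHom hneg h2 (parHom_le_ellHom hφ) (parHom_le_ellHom hψ')
  have h : IsQuadHom φ (ψ + ψ') (F + F') := ⟨fun γ δ => by
    simp only [Pi.add_apply, AddMonoidHom.add_apply, hF.1, hF'.1]; ring,
    fun γ hγ => by simp [hF.2 γ hγ, hF'.2 γ hγ]⟩
  rw [pairing_eq_sum_cuspElt hneg h2 hφ hψ hF, pairing_eq_sum_cuspElt hneg h2 hφ hψ' hF',
    pairing_eq_sum_cuspElt hneg h2 hφ (add_mem hψ hψ') h, ← Finset.sum_add_distrib]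
  rfl

theorem IsQuad.orbitPair_eq_sum {a b F : SL(2, ℤ) → Cos Γ → k} (hF : IsQuad a b F)
    (ha : IsCocycle a) (hb : IsCocycle b) (h0 : (∀ x, a T x = 0) ∨ ∀ x, b T x = 0) :
    orbitPair F = ∑ x, F T x := by
  rw [sum_eq_sum_orbits T (F T)]
  refine Finset.sum_congr rfl fun o _ => ?_
  induction MulAction.period T o.out with
  | zero => rw [pow_zero, hF.map_one, Finset.sum_range_zero]
  | succ n ih =>
    rw [pow_succ', hF.1, ih, Finset.sum_range_succ]
    rcases h0 with h0 | h0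
    · rw [h0, zero_mul]; ring
    · rw [hb.map_pow T n, Finset.sum_eq_zero (fun i _ => h0 _), mul_zero]; ring

theorem IsParCocycle.exists_gauge_T {X : Type*} [MulAction SL(2, ℤ) X] [Fintype X] {A : Type*}
    [AddCommGroup A] {a : SL(2, ℤ) → X → A} (ha : IsParCocycle a) :
    ∃ u : X → A, ∀ x, (a + cobound u : SL(2, ℤ) → X → A) T x = 0 :=
  ha.1.exists_gauge T fun n x hx => ha.2 _ x hx (by rw [trSL_T_pow]; norm_num)

variable {Γ' : Subgroup SL(2, ℤ)} [Γ'.FiniteIndex]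

omit [Γ.FiniteIndex] [Γ'.FiniteIndex] in
theorem IsParCocycle.pullback {A : Type*} [AddCommGroup A] {a : SL(2, ℤ) → Cos Γ → A}
    (ha : IsParCocycle a) (hle : Γ' ≤ Γ) : IsParCocycle fun g x => a g (cosMap hle x) :=
  ⟨fun g h x => by simp only [cosMap_smul]; exact ha.1 g h _,
    fun g x hx hg => ha.2 g _ (by rw [← cosMap_smul, hx]) hg⟩

omit [Γ.FiniteIndex] [Γ'.FiniteIndex] in
theorem baseHom_pullback {A : Type*} [AddCommGroup A] {a : SL(2, ℤ) → Cos Γ → A}
    (ha : IsParCocycle a) (hle : Γ' ≤ Γ) :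
    baseHom _ (ha.pullback hle).1 = resHom hle (baseHom a ha.1) := rfl

omit [Γ.FiniteIndex] in
open Classical in
/-- The fibre sum of a quadratic cochain with one argument pulled back. -/
theorem isQuad_push (hle : Γ' ≤ Γ) {a b F : SL(2, ℤ) → Cos Γ' → k} (hF : IsQuad a b F)
    {a₀ b₀ : SL(2, ℤ) → Cos Γ → k} (ha : IsEllCocycle a) (hb : IsEllCocycle b)
    (h : (a = (fun g x => a₀ g (cosMap hle x)) ∧ b₀ = push (cosMap hle) b ∧ IsEllCocycle a₀) ∨
      (b = (fun g x => b₀ g (cosMap hle x)) ∧ a₀ = push (cosMap hle) a ∧ IsEllCocycle b₀)) :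
    IsQuad a₀ b₀ (push (cosMap hle) F) := by
  refine ⟨fun g g' y => ?_, fun g y hy hg => ?_⟩
  · simp only [push, ← sum_fibre_smul (cosMap_smul hle) (F g) g' y]
    rw [show a₀ g (g' • y) * b₀ g' y = ∑ x ∈ Finset.univ.filter (fun x => cosMap hle x = y),
        a g (g' • x) * b g' x from ?_, ← Finset.sum_add_distrib, ← Finset.sum_add_distrib]
    · exact Finset.sum_congr rfl fun x _ => hF.1 g g' x
    rcases h with ⟨rfl, rfl, -⟩ | ⟨rfl, rfl, -⟩
    · simp only [push, Finset.mul_sum]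
      refine Finset.sum_congr rfl fun x hx => ?_
      rw [cosMap_smul, (Finset.mem_filter.mp hx).2]
    · simp only [push, ← sum_fibre_smul (cosMap_smul hle) (a g) g' y, Finset.sum_mul]
      refine Finset.sum_congr rfl fun x hx => ?_
      rw [(Finset.mem_filter.mp hx).2]
  · have hzero : ∀ (n : ℕ) (x : Cos Γ'), cosMap hle x = y →
        a g (g ^ n • x) * b (g ^ n) x = 0 := by
      intro n x hx
      have hfixn : ∀ m : ℕ, g ^ m • y = y := fun m => by
        induction m with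
        | zero => simp
        | succ m ih => rw [pow_succ', mul_smul, ih, hy]
      rcases h with ⟨rfl, -, ha₀⟩ | ⟨rfl, -, hb₀⟩
      · simp only [cosMap_smul, hx, hfixn, ha₀.2 g y hy hg, zero_mul]
      · simp only [hx, hb₀.2 _ y (hfixn n) (isElliptic_pow hg n), mul_zero]
    refine push_eq_zero_of_fixed (cosMap_smul hle) hy (fun n x hx => ?_)
      (fun n x _ hfx => hF.2 _ x hfx (isElliptic_pow hg n))
    induction n with
    | zero => rw [pow_zero, hF.map_one, Finset.sum_range_zero]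
    | succ n ih => rw [pow_succ', hF.1, ih, Finset.sum_range_succ, hzero n x hx]; ring

include hneg h2 in
open Classical in
/-- Restriction is left adjoint to transfer. -/
theorem pairing_res_left (hle : Γ' ≤ Γ) (hneg' : (-1 : SL(2, ℤ)) ∈ Γ') {φ : Additive Γ →+ k}
    (hφ : φ ∈ parHom Γ k) {ψ : Additive Γ' →+ k} (hψ : ψ ∈ parHom Γ' k) :
    pairing (resHom hle φ) ψ = pairing φ (cores hle ψ) := by
  obtain ⟨u, hu⟩ := (isParCocycle_homCocycle hφ).exists_gauge_T
  have ha := (isParCocycle_homCocycle hφ).add (isParCocycle_cobound u)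
  have haφ : baseHom _ ha.1 = φ := AddMonoidHom.ext fun γ => by
    show homCocycle φ ((Additive.toMul γ : Γ) : SL(2, ℤ)) _ + cobound u _ _ = _
    rw [homCocycle_base, cobound, smul_base_of_mem (Additive.toMul γ).2, sub_self, add_zero]
    rfl
  have hb := isParCocycle_homCocycle hψ
  obtain ⟨F, hF⟩ := exists_isQuad (neg_one_smul_cos hneg') h2.isUnit (ha.pullback hle).toEll hb.toEll
  have hq := isQuad_push hle hF (ha.pullback hle).toEll hb.toEll (Or.inl ⟨rfl, rfl, ha.toEll⟩)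
  have hb' := hb.push (π := cosMap hle) (cosMap_smul hle)
  rw [pairing_eq hneg' h2 (resHom_mem_parHom hle hφ) hψ (ha.pullback hle) hb
      (by rw [baseHom_pullback ha hle, haφ]) (baseHom_homCocycle ψ) hF,
    pairing_eq hneg h2 hφ (cores_mem_parHom hle hψ) ha hb' haφ rfl hq,
    hF.orbitPair_eq_sum (ha.pullback hle).1 hb.1 (Or.inl fun x => hu _),
    hq.orbitPair_eq_sum ha.1 hb'.1 (Or.inl hu)]
  exact (Finset.sum_fiberwise Finset.univ (cosMap hle) (F T)).symm

include hneg h2 in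
open Classical in
/-- Restriction is right adjoint to transfer. -/
theorem pairing_res_right (hle : Γ' ≤ Γ) (hneg' : (-1 : SL(2, ℤ)) ∈ Γ') {φ : Additive Γ →+ k}
    (hφ : φ ∈ parHom Γ k) {ψ : Additive Γ' →+ k} (hψ : ψ ∈ parHom Γ' k) :
    pairing ψ (resHom hle φ) = pairing (cores hle ψ) φ := by
  obtain ⟨u, hu⟩ := (isParCocycle_homCocycle hφ).exists_gauge_T
  have hb := (isParCocycle_homCocycle hφ).add (isParCocycle_cobound u)
  have hbφ : baseHom _ hb.1 = φ := AddMonoidHom.ext fun γ => by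
    show homCocycle φ ((Additive.toMul γ : Γ) : SL(2, ℤ)) _ + cobound u _ _ = _
    rw [homCocycle_base, cobound, smul_base_of_mem (Additive.toMul γ).2, sub_self, add_zero]
    rfl
  have ha := isParCocycle_homCocycle hψ
  obtain ⟨F, hF⟩ := exists_isQuad (neg_one_smul_cos hneg') h2.isUnit ha.toEll (hb.pullback hle).toEll
  have hq := isQuad_push hle hF ha.toEll (hb.pullback hle).toEll (Or.inr ⟨rfl, rfl, hb.toEll⟩)
  have ha' := ha.push (π := cosMap hle) (cosMap_smul hle)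
  rw [pairing_eq hneg' h2 hψ (resHom_mem_parHom hle hφ) ha (hb.pullback hle)
      (baseHom_homCocycle ψ) (by rw [baseHom_pullback hb hle, hbφ]) hF,
    pairing_eq hneg h2 (cores_mem_parHom hle hψ) hφ ha' hb rfl hbφ hq,
    hF.orbitPair_eq_sum ha.1 (hb.pullback hle).1 (Or.inr fun x => hu _),
    hq.orbitPair_eq_sum ha'.1 hb.1 (Or.inr hu)]
  exact (Finset.sum_fiberwise Finset.univ (cosMap hle) (F T)).symm

end FLTAgent.LevelRaise
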