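import Mathlib.GroupTheory.CoprodI
import Mathlib.Data.ZMod.Basic
import Mathlib.Topology.Compactification.OnePoint.ProjectiveLine
import Mathlib.LinearAlgebra.Matrix.FixedDetMatrices
import Mathlib.NumberTheory.Modular
import Mathlib.GroupTheory.QuotientGroup.Basic
import Mathlib.Tactic.FieldSimp
import Mathlib.Tactic.Linarith

/-!
# Homomorphisms out of `PSL(2, ℤ) = C₂ * C₃`

For elements `s, u` of a group with `s² = u³ = 1` there is a homomorphism on `SL(2, ℤ)` with
`S ↦ s` and `S * T ↦ u`. The proof is a ping-pong on the projective line over `ℚ`.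
-/

set_option autoImplicit false

namespace FLTAgent.LevelRaise

open scoped MatrixGroups
open Monoid ModularGroup Matrix.SpecialLinearGroup
open scoped OnePoint Pointwise

/-- The order of the `i`th free factor. -/
abbrev factorOrder : Bool → ℕ
  | false => 2
  | true => 3

/-- The free factors `C₂` and `C₃`. -/
abbrev Factor (b : Bool) : Type := Multiplicative (ZMod (factorOrder b))

/-- The homomorphism on `C_n` sending the generator to `u`. -/
def cyclicHom {P : Type*} [Group P] (n : ℕ) (u : P) (hu : u ^ n = 1) :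
    Multiplicative (ZMod n) →* P :=
  AddMonoidHom.toMultiplicativeLeft (ZMod.lift n
    ⟨zmultiplesHom (Additive P) (Additive.ofMul u), by
      rw [zmultiplesHom_apply, natCast_zsmul, ← ofMul_pow, hu, ofMul_one]⟩)

theorem cyclicHom_apply {P : Type*} [Group P] (n : ℕ) (u : P) (hu : u ^ n = 1) (k : ℤ) :
    cyclicHom n u hu (Multiplicative.ofAdd (k : ZMod n)) = u ^ k := by
  show Additive.toMul (ZMod.lift n _ (k : ZMod n)) = _
  rw [ZMod.lift_coe, zmultiplesHom_apply, ← ofMul_zpow, toMul_ofMul]

/-- The action of `SL(2, ℤ)` on the rational projective line. -/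
noncomputable def projPerm : SL(2, ℤ) →* Equiv.Perm (OnePoint ℚ) :=
  (MulAction.toPermHom (GL (Fin 2) ℚ) (OnePoint ℚ)).comp (mapGL ℚ)

theorem projPerm_apply (g : SL(2, ℤ)) (x : ℚ)
    (h : (g 1 0 : ℚ) * x + g 1 1 ≠ 0) :
    projPerm g (x : OnePoint ℚ)
      = (((g 0 0 : ℚ) * x + g 0 1) / ((g 1 0 : ℚ) * x + g 1 1) : ℚ) := by
  show mapGL ℚ g • (x : OnePoint ℚ) = _
  rw [OnePoint.smul_some_eq_ite]
  simp only [mapGL_coe_matrix, map_apply_coe, RingHom.mapMatrix_apply, Matrix.map_apply,
    algebraMap_int_eq, eq_intCast]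
  rw [if_neg h]

theorem projPerm_neg_one : projPerm (-1) = 1 := by
  ext x
  show mapGL ℚ (-1 : SL(2, ℤ)) • x = x
  cases x with
  | infty => rw [OnePoint.smul_infty_eq_self_iff]; simp
  | coe a => rw [OnePoint.smul_some_eq_ite]; simp

theorem S_sq_eq : (S : SL(2, ℤ)) ^ 2 = -1 := by
  apply Subtype.ext
  simp only [pow_two, coe_mul, coe_S, coe_neg]
  decide

theorem ST_cube_eq : ((S * T : SL(2, ℤ))) ^ 3 = -1 := by
  apply Subtype.ext
  simp only [pow_succ, pow_zero, one_mul, coe_mul, coe_S, coe_T, coe_neg]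
  decide

/-- The generators acting on the projective line. -/
noncomputable def factorHom : ∀ b, Factor b →* Equiv.Perm (OnePoint ℚ)
  | false => cyclicHom 2 (projPerm S) (by rw [← map_pow, S_sq_eq, projPerm_neg_one])
  | true => cyclicHom 3 (projPerm (S * T)) (by rw [← map_pow, ST_cube_eq, projPerm_neg_one])

theorem factorHom_gen (b : Bool) : factorHom b (Multiplicative.ofAdd 1)
    = projPerm (if b then S * T else S) := by
  cases b
  · show cyclicHom 2 (projPerm S) (by rw [← map_pow, S_sq_eq, projPerm_neg_one])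
      (Multiplicative.ofAdd (1 : ZMod 2)) = _
    rw [show (1 : ZMod 2) = ((1 : ℤ) : ZMod 2) from Int.cast_one.symm, cyclicHom_apply, zpow_one]
    simp
  · show cyclicHom 3 (projPerm (S * T)) (by rw [← map_pow, ST_cube_eq, projPerm_neg_one])
      (Multiplicative.ofAdd (1 : ZMod 3)) = _
    rw [show (1 : ZMod 3) = ((1 : ℤ) : ZMod 3) from Int.cast_one.symm, cyclicHom_apply, zpow_one]
    simp

/-- The ping-pong sets: positive and negative rationals. -/
def pingSet : Bool → Set (OnePoint ℚ)
  | false => (↑) '' {x : ℚ | 0 < x}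
  | true => (↑) '' {x : ℚ | x < 0}

theorem factorHom_ping : Pairwise fun i j => ∀ h : Factor i, h ≠ 1 →
    factorHom i h • pingSet j ⊆ pingSet i := by
  intro i j hij h hh
  rintro _ ⟨_, hx, rfl⟩
  show factorHom i h _ ∈ pingSet i
  obtain ⟨a, rfl⟩ := Multiplicative.ofAdd.surjective h
  cases i <;> cases j <;> try exact absurd rfl hij
  · obtain ⟨x, hx', rfl⟩ := hx
    have hx0 : x < 0 := hx'
    have key : ∀ a : ZMod 2, Multiplicative.ofAdd a ≠ 1 → a = 1 := by decide
    obtain rfl : a = 1 := key a hh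
    rw [factorHom_gen, if_neg (by simp), projPerm_apply _ _ (by simp [coe_S, hx0.ne])]
    refine ⟨_, ?_, rfl⟩
    simp [coe_S]
    exact div_pos_of_neg_of_neg (by norm_num) hx0
  · obtain ⟨x, hx', rfl⟩ := hx
    have hx0 : 0 < x := hx'
    have key : ∀ a : ZMod 3, Multiplicative.ofAdd a ≠ 1 → a = 1 ∨ a = 1 + 1 := by decide
    obtain ha | ha : a = 1 ∨ a = 1 + 1 := key a hh
    · subst ha
      rw [factorHom_gen, if_pos rfl,
        projPerm_apply _ _ (by simp [coe_S, coe_T]; linarith)]
      refine ⟨_, ?_, rfl⟩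
      simp [coe_S, coe_T]
      exact div_neg_of_neg_of_pos (by norm_num) (by linarith)
    · subst ha
      rw [ofAdd_add, map_mul, factorHom_gen, if_pos rfl, ← map_mul,
        projPerm_apply _ _ (by simp [coe_S, coe_T, hx0.ne'])]
      refine ⟨_, ?_, rfl⟩
      simp [coe_S, coe_T]
      exact div_neg_of_neg_of_pos (by linarith) (by linarith)

/-- `PSL(2, ℤ) = C₂ * C₃` acts faithfully. -/
theorem lift_factorHom_injective : Function.Injective (CoprodI.lift factorHom) := by
  refine CoprodI.lift_injective_of_ping_pong factorHom (Or.inr ⟨true, ?_⟩) pingSet ?_ ?_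
    factorHom_ping
  · show (3 : Cardinal) ≤ Cardinal.mk (Multiplicative (ZMod 3))
    rw [Cardinal.mk_fintype]
    norm_num
  · intro b
    cases b
    · exact ⟨_, ⟨1, (one_pos : (0 : ℚ) < 1), rfl⟩⟩
    · exact ⟨_, ⟨-1, by norm_num, rfl⟩⟩
  · intro i j hij
    cases i <;> cases j <;> try exact absurd rfl hij
    all_goals
      rw [Function.onFun, Set.disjoint_left]
      rintro _ ⟨x, hx, rfl⟩ ⟨y, hy, hxy⟩
      obtain rfl := OnePoint.coe_injective hxy
      exact lt_asymm (a := (0 : ℚ)) (b := y) (by first | exact hx | exact hy) (by first | exact hy | exact hx)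

theorem projPerm_mem_range (g : SL(2, ℤ)) :
    projPerm g ∈ (CoprodI.lift factorHom).range := by
  have hg : g ∈ Subgroup.closure ({S, T} : Set SL(2, ℤ)) := by
    rw [SpecialLinearGroup.SL2Z_generators]; trivial
  have hmem : ∀ b : Bool, projPerm (if b then S * T else S) ∈ (CoprodI.lift factorHom).range := fun b =>
    ⟨CoprodI.of (Multiplicative.ofAdd 1), by rw [CoprodI.lift_of, factorHom_gen]⟩
  induction hg using Subgroup.closure_induction with
  | mem y hy =>
    rcases hy with rfl | rfl
    · exact hmem false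
    · have h := mul_mem (inv_mem (hmem false)) (hmem true)
      simpa [← map_inv, ← map_mul] using h
  | one => rw [map_one]; exact one_mem _
  | mul a b _ _ ha hb => rw [map_mul]; exact mul_mem ha hb
  | inv a _ ha => rw [map_inv]; exact inv_mem ha

/-- The projection `SL(2, ℤ) → C₂ * C₃`. -/
noncomputable def toFreeProduct : SL(2, ℤ) →* CoprodI Factor :=
  (MonoidHom.ofInjective lift_factorHom_injective).symm.toMonoidHom.comp
    (projPerm.codRestrict _ projPerm_mem_range)

theorem lift_toFreeProduct (g : SL(2, ℤ)) :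
    CoprodI.lift factorHom (toFreeProduct g) = projPerm g := by
  exact congrArg Subtype.val
    ((MonoidHom.ofInjective lift_factorHom_injective).apply_symm_apply
      ⟨projPerm g, projPerm_mem_range g⟩)

theorem toFreeProduct_gen (b : Bool) :
    toFreeProduct (if b then S * T else S) = CoprodI.of (i := b) (Multiplicative.ofAdd 1) :=
  lift_factorHom_injective (by rw [lift_toFreeProduct, CoprodI.lift_of, factorHom_gen])

/-- Elements `s, u` with `s² = u³ = 1` define a homomorphism on `SL(2, ℤ)`. -/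
theorem exists_hom_of_relations {P : Type*} [Group P] (s u : P) (hs : s ^ 2 = 1) (hu : u ^ 3 = 1) :
    ∃ Φ : SL(2, ℤ) →* P, Φ S = s ∧ Φ (S * T) = u ∧ Φ (-1) = 1 := by
  let f : ∀ b, Factor b →* P := fun b => match b with
    | false => cyclicHom 2 s hs
    | true => cyclicHom 3 u hu
  let Φ : SL(2, ℤ) →* P := (CoprodI.lift f).comp toFreeProduct
  have hgen : ∀ b, Φ (if b then S * T else S) = f b (Multiplicative.ofAdd 1) := fun b => by
    show CoprodI.lift f (toFreeProduct _) = _
    rw [toFreeProduct_gen, CoprodI.lift_of]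
  have hS : Φ S = s := by
    refine (hgen false).trans ?_
    show cyclicHom 2 s hs _ = s
    rw [show (1 : ZMod 2) = ((1 : ℤ) : ZMod 2) from Int.cast_one.symm]
    exact (cyclicHom_apply 2 s hs 1).trans (zpow_one s)
  refine ⟨Φ, hS, (hgen true).trans ?_, by rw [← S_sq_eq, map_pow, hS, hs]⟩
  show cyclicHom 3 u hu _ = u
  rw [show (1 : ZMod 3) = ((1 : ℤ) : ZMod 3) from Int.cast_one.symm]
  exact (cyclicHom_apply 3 u hu 1).trans (zpow_one u)

end FLTAgent.LevelRaise
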