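import Fermat.Agent.LevelRaise.Tree
import Fermat.Agent.LevelRaise.Degeneracy
import Mathlib.LinearAlgebra.Matrix.GeneralLinearGroup.Defs
import Mathlib.Data.Rat.Lemmas
import Mathlib.Algebra.Field.Rat
import Mathlib.Tactic.FieldSimp

/-!
# The group `Γ₀(N)` over `ℤ[1/q]` and homomorphisms killed by the degeneracy map
-/

set_option autoImplicit false

noncomputable section

namespace FLTAgent.LevelRaise

open scoped MatrixGroups
open CongruenceSubgroup

/-- Rational numbers in `m ℤ[1/q]`. -/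
def InR (q m : ℕ) (x : ℚ) : Prop := ∃ (n : ℕ) (z : ℤ), x * (q : ℚ) ^ n = (m : ℚ) * z

/-- Rational numbers that are integers. -/
def IsIntQ (x : ℚ) : Prop := ∃ z : ℤ, x = z

theorem IsIntQ.add {x y : ℚ} : IsIntQ x → IsIntQ y → IsIntQ (x + y)
  | ⟨a, ha⟩, ⟨b, hb⟩ => ⟨a + b, by push_cast; rw [ha, hb]⟩

theorem IsIntQ.mul {x y : ℚ} : IsIntQ x → IsIntQ y → IsIntQ (x * y)
  | ⟨a, ha⟩, ⟨b, hb⟩ => ⟨a * b, by push_cast; rw [ha, hb]⟩

theorem isIntQ_intCast (z : ℤ) : IsIntQ z := ⟨z, rfl⟩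

theorem IsIntQ.pow_mul {x : ℚ} (q : ℕ) {a b : ℕ} (h : a ≤ b) (hx : IsIntQ ((q : ℚ) ^ a * x)) :
    IsIntQ ((q : ℚ) ^ b * x) := by
  obtain ⟨c, rfl⟩ := Nat.exists_eq_add_of_le h
  obtain ⟨z, hz⟩ := hx
  exact ⟨(q : ℤ) ^ c * z, by push_cast; rw [← hz]; ring⟩

theorem inR_intCast {q m : ℕ} {z : ℤ} (h : (m : ℤ) ∣ z) : InR q m z := by
  obtain ⟨w, rfl⟩ := h
  exact ⟨0, w, by push_cast; ring⟩

theorem inR_zero (q m : ℕ) : InR q m 0 := ⟨0, 0, by simp⟩

theorem InR.add {q m : ℕ} {x y : ℚ} : InR q m x → InR q m y → InR q m (x + y)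
  | ⟨n, a, ha⟩, ⟨n', b, hb⟩ => ⟨n + n', a * (q : ℤ) ^ n' + b * (q : ℤ) ^ n, by
    push_cast; linear_combination (q : ℚ) ^ n' * ha + (q : ℚ) ^ n * hb⟩

theorem InR.neg {q m : ℕ} {x : ℚ} : InR q m x → InR q m (-x)
  | ⟨n, a, ha⟩ => ⟨n, -a, by push_cast; linear_combination -ha⟩

theorem InR.sub {q m : ℕ} {x y : ℚ} (hx : InR q m x) (hy : InR q m y) : InR q m (x - y) := by
  rw [sub_eq_add_neg]; exact hx.add hy.neg

theorem InR.mul {q m m' : ℕ} {x y : ℚ} : InR q m x → InR q m' y → InR q (m * m') (x * y)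
  | ⟨n, a, ha⟩, ⟨n', b, hb⟩ => ⟨n + n', a * b, by
    rw [pow_add]; push_cast; linear_combination (y * (q : ℚ) ^ n') * ha + (m : ℚ) * a * hb⟩

theorem InR.mul_left {q m : ℕ} {x y : ℚ} (hx : InR q 1 x) (hy : InR q m y) : InR q m (x * y) := by
  simpa using hx.mul hy

theorem InR.mul_right {q m : ℕ} {x y : ℚ} (hx : InR q m x) (hy : InR q 1 y) : InR q m (x * y) := by
  simpa using hx.mul hy

theorem InR.of_dvd {q m m' : ℕ} (h : m ∣ m') {x : ℚ} : InR q m' x → InR q m x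
  | ⟨n, a, ha⟩ => by
    obtain ⟨e, rfl⟩ := h
    exact ⟨n, e * a, by push_cast at ha ⊢; linear_combination ha⟩

theorem dvd_of_inR {q m : ℕ} (hmq : Nat.Coprime m q) {z : ℤ} (h : InR q m z) : (m : ℤ) ∣ z := by
  obtain ⟨n, w, hw⟩ := h
  have h' : z * (q : ℤ) ^ n = (m : ℤ) * w := by exact_mod_cast hw
  exact ((Nat.isCoprime_iff_coprime.mpr hmq).pow_right (n := n)).dvd_of_dvd_mul_right ⟨w, h'⟩

/-- Integral matrices as rational ones. -/
def toQ : SL(2, ℤ) →* GL (Fin 2) ℚ := Matrix.SpecialLinearGroup.mapGL ℚ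

@[simp] theorem toQ_apply (γ : SL(2, ℤ)) (i j : Fin 2) :
    (toQ γ : Matrix (Fin 2) (Fin 2) ℚ) i j = ((matSL γ i j : ℤ) : ℚ) := rfl

theorem toQ_injective : Function.Injective toQ := fun γ δ h => by
  refine Matrix.SpecialLinearGroup.ext _ _ fun i j => ?_
  have := congrArg (fun g : GL (Fin 2) ℚ => (g : Matrix (Fin 2) (Fin 2) ℚ) i j) h
  simpa using this

theorem val_inv_of_det_one {g : GL (Fin 2) ℚ} (h : (g : Matrix (Fin 2) (Fin 2) ℚ).det = 1) :
    ((g⁻¹ : GL (Fin 2) ℚ) : Matrix (Fin 2) (Fin 2) ℚ) = (g : Matrix (Fin 2) (Fin 2) ℚ).adjugate := by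
  rw [Matrix.coe_units_inv, Matrix.inv_def, h, Ring.inverse_one, one_smul]

/-- `Γ₀(N)` over `ℤ[1/q]`. -/
def gamR (N q : ℕ) : Subgroup (GL (Fin 2) ℚ) where
  carrier := {g | (g : Matrix (Fin 2) (Fin 2) ℚ).det = 1 ∧
    (∀ i j, InR q 1 ((g : Matrix (Fin 2) (Fin 2) ℚ) i j)) ∧
      InR q N ((g : Matrix (Fin 2) (Fin 2) ℚ) 1 0)}
  one_mem' := ⟨by simp, fun i j => by
    fin_cases i <;> fin_cases j <;>
      first
        | simpa using inR_zero q 1
        | simpa using inR_intCast (q := q) (dvd_refl ((1 : ℕ) : ℤ)),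
    by simpa using inR_zero q N⟩
  mul_mem' {g h} hg hh := ⟨by simp [hg.1, hh.1], fun i j => by
    rw [Units.val_mul, Matrix.mul_apply, Fin.sum_univ_two]
    exact ((hg.2.1 _ _).mul_left (hh.2.1 _ _)).add ((hg.2.1 _ _).mul_left (hh.2.1 _ _)), by
    rw [Units.val_mul, Matrix.mul_apply, Fin.sum_univ_two]
    exact (hg.2.2.mul_right (hh.2.1 _ _)).add ((hg.2.1 _ _).mul_left hh.2.2)⟩
  inv_mem' {g} hg := by
    have e := val_inv_of_det_one hg.1
    refine ⟨?_, fun i j => ?_, ?_⟩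
    · rw [e, Matrix.det_adjugate, hg.1, one_pow]
    · rw [e, Matrix.adjugate_fin_two]
      fin_cases i <;> fin_cases j <;> simp <;> first | exact hg.2.1 _ _ | exact (hg.2.1 _ _).neg
    · rw [e, Matrix.adjugate_fin_two]
      simpa using hg.2.2.neg

theorem toQ_mem_gamR {N q : ℕ} {γ : SL(2, ℤ)} (h : γ ∈ Gamma0 N) : toQ γ ∈ gamR N q := by
  refine ⟨?_, fun i j => ?_, ?_⟩
  · rw [Matrix.det_fin_two]
    simp only [toQ_apply]
    exact_mod_cast det_matSL γ
  · rw [toQ_apply]; exact inR_intCast (by simp)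
  · rw [toQ_apply]; exact inR_intCast (mem_gamma0_iff.mp h)

/-- `diag(1, q)`. -/
def dq (q : ℕ) [NeZero q] : GL (Fin 2) ℚ :=
  Matrix.GeneralLinearGroup.mkOfDetNeZero !![1, 0; 0, (q : ℚ)]
    (by simp [Matrix.det_fin_two_of, NeZero.ne q])

theorem val_dq_pow (q : ℕ) [NeZero q] (r : ℕ) :
    ((dq q ^ r : GL (Fin 2) ℚ) : Matrix (Fin 2) (Fin 2) ℚ) = !![1, 0; 0, (q : ℚ) ^ r] := by
  induction r with
  | zero => simp [Matrix.one_fin_two]
  | succ r ih =>
    rw [pow_succ, Units.val_mul, ih, pow_succ]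
    show _ * !![1, 0; 0, (q : ℚ)] = _
    ext i j
    fin_cases i <;> fin_cases j <;> simp [Matrix.mul_apply, Fin.sum_univ_two]

theorem val_dq_pow_inv (q : ℕ) [NeZero q] (r : ℕ) :
    (((dq q ^ r)⁻¹ : GL (Fin 2) ℚ) : Matrix (Fin 2) (Fin 2) ℚ) = !![1, 0; 0, ((q : ℚ) ^ r)⁻¹] := by
  rw [Matrix.coe_units_inv]
  refine Matrix.inv_eq_right_inv ?_
  rw [val_dq_pow]
  ext i j
  fin_cases i <;> fin_cases j <;> simp [Matrix.mul_apply, Fin.sum_univ_two, NeZero.ne q]

theorem val_conj_dq (q : ℕ) [NeZero q] (r : ℕ) (γ : SL(2, ℤ)) :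
    ((dq q ^ r * toQ γ * (dq q ^ r)⁻¹ : GL (Fin 2) ℚ) : Matrix (Fin 2) (Fin 2) ℚ)
      = !![((matSL γ 0 0 : ℤ) : ℚ), ((matSL γ 0 1 : ℤ) : ℚ) * ((q : ℚ) ^ r)⁻¹;
          (q : ℚ) ^ r * ((matSL γ 1 0 : ℤ) : ℚ), ((matSL γ 1 1 : ℤ) : ℚ)] := by
  rw [Units.val_mul, Units.val_mul, val_dq_pow, val_dq_pow_inv]
  ext i j
  simp only [Matrix.mul_apply, Fin.sum_univ_two, toQ_apply]
  fin_cases i <;> fin_cases j <;> simp [NeZero.ne q, mul_comm]

variable (N q : ℕ) [NeZero q]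

/-- The stabilisers of the two ends of an edge. -/
def vtx (n : ℕ) : Subgroup (gamR N q) :=
  (((Gamma0 N).map toQ).map (MulAut.conj (dq q ^ (n % 2))).toMonoidHom).subgroupOf (gamR N q)

variable {N q}

theorem mem_vtx {n : ℕ} {g : gamR N q} : g ∈ vtx N q n ↔
    ∃ γ : Gamma0 N, (g : GL (Fin 2) ℚ) = dq q ^ (n % 2) * toQ γ * (dq q ^ (n % 2))⁻¹ := by
  simp only [vtx, Subgroup.mem_subgroupOf, Subgroup.mem_map, exists_exists_and_eq_and,
    MulEquiv.coe_toMonoidHom, MulAut.conj_apply]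
  exact ⟨fun ⟨γ, hγ, e⟩ => ⟨⟨γ, hγ⟩, e.symm⟩, fun ⟨γ, e⟩ => ⟨γ, γ.2, e.symm⟩⟩

/-- An element of a vertex stabiliser. -/
theorem exists_vtx_of_gamma0 (n : ℕ) (γ : Gamma0 N) :
    ∃ g ∈ vtx N q n, (g : GL (Fin 2) ℚ) = dq q ^ (n % 2) * toQ γ * (dq q ^ (n % 2))⁻¹ := by
  have hq : (q : ℚ) ≠ 0 := by exact_mod_cast NeZero.ne q
  have hmem : dq q ^ (n % 2) * toQ γ * (dq q ^ (n % 2))⁻¹ ∈ gamR N q := by
    have h := toQ_mem_gamR (q := q) γ.2
    refine ⟨?_, fun i j => ?_, ?_⟩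
    · simp only [Units.val_mul, Matrix.det_mul, h.1, mul_one]
      rw [← Matrix.det_mul, ← Units.val_mul, mul_inv_cancel, Units.val_one, Matrix.det_one]
    · rw [val_conj_dq]
      fin_cases i <;> fin_cases j <;> simp
      · exact inR_intCast (by simp)
      · exact (inR_intCast (by simp)).mul_left
          ⟨n % 2, 1, by rw [inv_mul_cancel₀ (pow_ne_zero _ hq)]; simp⟩
      · exact ((inR_intCast (q := q) (m := 1) (z := (q : ℤ) ^ (n % 2)) (by simp))).mul_left
          (inR_intCast (q := q) (m := 1) (z := matSL (γ : SL(2, ℤ)) 1 0) (by simp)) |> fun h => by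
            simpa using h
      · exact inR_intCast (by simp)
    · rw [val_conj_dq]
      simp
      exact (inR_intCast (q := q) (m := 1) (z := (q : ℤ) ^ (n % 2)) (by simp)).mul_left
        (inR_intCast (mem_gamma0_iff.mp γ.2)) |> fun h => by simpa using h
  exact ⟨⟨_, hmem⟩, mem_vtx.mpr ⟨γ, rfl⟩, rfl⟩

theorem exists_coords {n : ℕ} {g : gamR N q} (h : g ∈ vtx N q n) :
    ∃ a b c d : ℤ, a * d - b * c = 1 ∧ (N : ℤ) ∣ c ∧
      (g : GL (Fin 2) ℚ).val = !![(a : ℚ), (b : ℚ) * ((q : ℚ) ^ (n % 2))⁻¹;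
        (q : ℚ) ^ (n % 2) * (c : ℚ), (d : ℚ)] := by
  obtain ⟨γ, hγ⟩ := mem_vtx.mp h
  exact ⟨_, _, _, _, det_matSL _, mem_gamma0_iff.mp γ.2, by rw [hγ, val_conj_dq]⟩

theorem exists_of_coords (n : ℕ) {a b c d : ℤ} (hd : a * d - b * c = 1) (hc : (N : ℤ) ∣ c) :
    ∃ g ∈ vtx N q n, (g : GL (Fin 2) ℚ).val = !![(a : ℚ), (b : ℚ) * ((q : ℚ) ^ (n % 2))⁻¹;
        (q : ℚ) ^ (n % 2) * (c : ℚ), (d : ℚ)] := by
  obtain ⟨g, hg, e⟩ := exists_vtx_of_gamma0 (q := q) n
    ⟨slMk a b c d hd, mem_gamma0_iff.mpr (by simpa using hc)⟩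
  exact ⟨g, hg, by rw [e, val_conj_dq]; simp⟩

/-- The height function of the tree. -/
def lev (n : ℕ) (g : gamR N q) : Prop :=
  ∀ i, IsIntQ ((q : ℚ) ^ (n / 2) * (g : GL (Fin 2) ℚ).val i 0) ∧
    IsIntQ ((q : ℚ) ^ ((n + 1) / 2) * (g : GL (Fin 2) ℚ).val i 1)

omit [NeZero q] in
theorem val_mul_apply (g a : gamR N q) (i j : Fin 2) :
    ((g * a : gamR N q) : GL (Fin 2) ℚ).val i j = (g : GL (Fin 2) ℚ).val i 0 *
      (a : GL (Fin 2) ℚ).val 0 j + (g : GL (Fin 2) ℚ).val i 1 * (a : GL (Fin 2) ℚ).val 1 j := by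
  rw [Subgroup.coe_mul, Units.val_mul, Matrix.mul_apply, Fin.sum_univ_two]

theorem lev_invariant (n : ℕ) (g : gamR N q) (hg : lev n g) (a : gamR N q) (ha : a ∈ vtx N q n) :
    lev n (g * a) := by
  have hq : (q : ℚ) ≠ 0 := by exact_mod_cast NeZero.ne q
  obtain ⟨a0, b, c, d, -, -, e⟩ := exists_coords ha
  intro i
  have h0 := (hg i).1
  have h1 := (hg i).2
  rw [show (n + 1) / 2 = n / 2 + n % 2 by omega] at h1 ⊢
  simp only [val_mul_apply, e]
  simp
  refine ⟨?_, ?_⟩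
  · rw [mul_add, ← mul_assoc, ← mul_assoc (_ ^ (n / 2)) _ ((_ : ℚ) * _)]
    refine (h0.mul (isIntQ_intCast a0)).add ?_
    have := h1.mul (isIntQ_intCast c)
    rw [pow_add] at this
    convert this using 1
    ring
  · rw [mul_add, ← mul_assoc _ _ (d : ℚ)]
    refine IsIntQ.add ?_ (h1.mul (isIntQ_intCast d))
    have := h0.mul (isIntQ_intCast b)
    convert this using 1
    rw [pow_add]
    field_simp

omit [NeZero q] in
theorem exists_intRows {n : ℕ} {g : gamR N q} (hg : lev (n + 1) g) :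
    ∃ u v : Fin 2 → ℤ, (∀ i, (q : ℚ) ^ ((n + 1) / 2) * (g : GL (Fin 2) ℚ).val i 0 = u i) ∧
      (∀ i, (q : ℚ) ^ (n / 2) * q * (g : GL (Fin 2) ℚ).val i 1 = v i) ∧
      (q : ℤ) ∣ u 0 * v 1 - u 1 * v 0 := by
  choose u hu using fun i => (hg i).1
  choose v hv using fun i => (hg i).2
  rw [show (n + 1 + 1) / 2 = n / 2 + 1 by omega] at hv
  refine ⟨u, v, hu, fun i => by rw [← hv]; ring, ?_⟩
  refine ⟨(q : ℤ) ^ n, ?_⟩
  have hd := g.2.1
  rw [Matrix.det_fin_two] at hd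
  have h : ((u 0 * v 1 - u 1 * v 0 : ℤ) : ℚ) = (((q : ℤ) * (q : ℤ) ^ n : ℤ) : ℚ) := by
    push_cast
    rw [← hu, ← hu, ← hv, ← hv, ← pow_succ', show (q : ℚ) ^ (n + 1)
      = (q : ℚ) ^ ((n + 1) / 2) * (q : ℚ) ^ (n / 2 + 1) by rw [← pow_add]; congr 1; omega]
    linear_combination ((q : ℚ) ^ ((n + 1) / 2) * (q : ℚ) ^ (n / 2 + 1)) * hd
  exact_mod_cast h

/-- A kernel vector modulo a prime of a singular matrix. -/
theorem exists_kernel {p : ℕ} (hp : p.Prime) (u v : Fin 2 → ℤ)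
    (h : (p : ℤ) ∣ u 0 * v 1 - u 1 * v 0) :
    (∀ i, (p : ℤ) ∣ v i) ∨ ∃ s : ℤ, ∀ i, (p : ℤ) ∣ u i + s * v i := by
  have : Fact p.Prime := ⟨hp⟩
  by_cases hv : ∀ i, (p : ℤ) ∣ v i
  · exact Or.inl hv
  refine Or.inr ?_
  push Not at hv
  obtain ⟨r, hr⟩ := hv
  rw [← ZMod.intCast_zmod_eq_zero_iff_dvd] at hr h
  push_cast at h
  refine ⟨((-(u r : ZMod p) / (v r : ZMod p)).val : ℤ), fun i => ?_⟩
  rw [← ZMod.intCast_zmod_eq_zero_iff_dvd]
  push_cast
  rw [ZMod.natCast_zmod_val]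
  field_simp
  fin_cases r <;> fin_cases i <;> simp at hr ⊢ <;> first
    | ring1
    | linear_combination h
    | linear_combination -h

theorem isIntQ_div {p : ℕ} {z : ℤ} (hp : p ≠ 0) (h : (p : ℤ) ∣ z) {x : ℚ} (hx : (p : ℚ) * x = z) :
    IsIntQ x := by
  obtain ⟨w, rfl⟩ := h
  push_cast at hx
  exact ⟨w, mul_left_cancel₀ (by exact_mod_cast hp) hx⟩

theorem lev_lower (D : WData N q) (n : ℕ) (g : gamR N q) (hg : lev (n + 1) g) :
    ∃ a ∈ vtx N q (n + 1), lev n (g * a) := by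
  have hq : (q : ℚ) ≠ 0 := by exact_mod_cast NeZero.ne q
  obtain ⟨u, v, hu, hv, hdet⟩ := exists_intRows hg
  rcases Nat.mod_two_eq_zero_or_one (n + 1) with hr | hr
  · -- the new vertex is one with integral stabiliser
    rw [show (n + 1) / 2 = n / 2 + 1 by omega, pow_succ] at hu
    obtain ⟨a, b, c, d, hd, hc, hdiv⟩ : ∃ a b c d : ℤ, a * d - b * c = 1 ∧ (N : ℤ) ∣ c ∧
        ∀ i, (q : ℤ) ∣ a * u i + c * v i := by
      rcases exists_kernel D.prime u (fun i => (N : ℤ) * v i)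
        (by obtain ⟨e, he⟩ := hdet; exact ⟨(N : ℤ) * e, by linear_combination (N : ℤ) * he⟩) with h | ⟨s, hs⟩
      · refine ⟨q, D.y, N, D.t, by linear_combination D.rel, dvd_rfl, fun i => ?_⟩
        exact dvd_add (dvd_mul_right _ _) (h i)
      · exact ⟨1, 0, (N : ℤ) * s, 1, by ring, dvd_mul_right _ _, fun i => by
          convert hs i using 1; ring⟩
    obtain ⟨x, hx, e⟩ := exists_of_coords (q := q) (n + 1) hd hc
    rw [hr, pow_zero] at e
    refine ⟨x, hx, fun i => ⟨?_, ?_⟩⟩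
    · rw [val_mul_apply, e]
      refine isIntQ_div (NeZero.ne q) (hdiv i) ?_
      simp
      linear_combination (a : ℚ) * hu i + (c : ℚ) * hv i
    · rw [val_mul_apply, e, show (n + 1) / 2 = n / 2 + 1 by omega]
      refine ⟨b * u i + d * v i, ?_⟩
      simp [pow_succ]
      linear_combination (b : ℚ) * hu i + (d : ℚ) * hv i
  · -- the new vertex is one with conjugated stabiliser
    rw [show (n + 1) / 2 = n / 2 by omega] at hu
    obtain ⟨a, b, c, d, hd, hc, hdiv⟩ : ∃ a b c d : ℤ, a * d - b * c = 1 ∧ (N : ℤ) ∣ c ∧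
        ∀ i, (q : ℤ) ∣ b * u i + d * v i := by
      rcases exists_kernel D.prime v u
        (by obtain ⟨e, he⟩ := hdet; exact ⟨-e, by linear_combination -he⟩) with h | ⟨s, hs⟩
      · refine ⟨D.t, D.y, N, q, by linear_combination D.rel, dvd_rfl, fun i => ?_⟩
        exact dvd_add (dvd_mul_of_dvd_right (h i) _) (dvd_mul_right _ _)
      · exact ⟨1, s, 0, 1, by ring, dvd_zero _, fun i => by convert hs i using 1; ring⟩
    obtain ⟨x, hx, e⟩ := exists_of_coords (q := q) (n + 1) hd hc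
    rw [hr, pow_one] at e
    refine ⟨x, hx, fun i => ⟨?_, ?_⟩⟩
    · rw [val_mul_apply, e]
      refine ⟨a * u i + c * v i, ?_⟩
      simp
      linear_combination (a : ℚ) * hu i + (c : ℚ) * hv i
    · rw [val_mul_apply, e, show (n + 1) / 2 = n / 2 by omega]
      refine isIntQ_div (NeZero.ne q) (hdiv i) ?_
      simp
      field_simp
      linear_combination (b : ℚ) * hu i + (d : ℚ) * hv i

theorem lev_unique (hp : q.Prime) (hqN : ¬ q ∣ N) (n : ℕ) (g : gamR N q) (hg : lev (n + 1) g)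
    (x : gamR N q) (hx : x ∈ vtx N q (n + 2)) (hgx : lev (n + 1) (g * x)) :
    x ∈ vtx N q (n + 1) ∨ lev n g := by
  have hq : (q : ℚ) ≠ 0 := by exact_mod_cast NeZero.ne q
  have hqZ : Prime (q : ℤ) := Nat.prime_iff_prime_int.mp hp
  obtain ⟨u, v, hu, hv, -⟩ := exists_intRows hg
  obtain ⟨a, b, c, d, hd, hc, e⟩ := exists_coords hx
  rw [show (n + 2) % 2 = n % 2 by omega] at e
  rcases Nat.mod_two_eq_zero_or_one n with hr | hr
  · rw [hr, pow_zero] at e
    rw [show (n + 1) / 2 = n / 2 by omega] at hu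
    obtain ⟨z, hz⟩ := (hgx 0).1
    obtain ⟨z', hz'⟩ := (hgx 1).1
    by_cases hcq : (q : ℤ) ∣ c
    · left
      obtain ⟨c0, rfl⟩ := hcq
      have hc0 : (N : ℤ) ∣ c0 :=
        (Nat.isCoprime_iff_coprime.mpr ((hp.coprime_iff_not_dvd.mpr hqN).symm)).dvd_of_dvd_mul_left hc
      obtain ⟨y, hy, ey⟩ := exists_of_coords (q := q) (n + 1) (a := a) (b := (q : ℤ) * b) (c := c0)
        (d := d) (by linear_combination hd) hc0
      rw [show (n + 1) % 2 = 1 by omega, pow_one] at ey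
      rwa [show x = y from Subtype.ext (Units.ext (by
        rw [e, ey]; ext i j; fin_cases i <;> fin_cases j <;> simp <;> field_simp))]
    · right
      intro i
      refine ⟨?_, ?_⟩
      · exact ⟨u i, hu i⟩
      · rw [show (n + 1) / 2 = n / 2 by omega]
        obtain ⟨w, hw⟩ := (hgx i).1
        rw [val_mul_apply, e, show (n + 1) / 2 = n / 2 by omega] at hw
        simp at hw
        have h1 : c * v i = (q : ℤ) * (w - a * u i) := by
          have : ((c * v i : ℤ) : ℚ) = (((q : ℤ) * (w - a * u i) : ℤ) : ℚ) := by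
            push_cast
            linear_combination (q : ℚ) * hw - (c : ℚ) * hv i - (q : ℚ) * (a : ℚ) * hu i
          exact_mod_cast this
        refine isIntQ_div (NeZero.ne q) ((hqZ.dvd_or_dvd ⟨_, h1⟩).resolve_left hcq) ?_
        rw [← hv i]; ring
  · rw [hr, pow_one] at e
    rw [show (n + 1) / 2 = n / 2 + 1 by omega, pow_succ] at hu
    by_cases hbq : (q : ℤ) ∣ b
    · left
      obtain ⟨b0, rfl⟩ := hbq
      obtain ⟨y, hy, ey⟩ := exists_of_coords (q := q) (n + 1) (a := a) (b := b0) (c := (q : ℤ) * c)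
        (d := d) (by linear_combination hd) (dvd_mul_of_dvd_right hc _)
      rw [show (n + 1) % 2 = 0 by omega, pow_zero] at ey
      rwa [show x = y from Subtype.ext (Units.ext (by
        rw [e, ey]; ext i j; fin_cases i <;> fin_cases j <;> simp <;> field_simp))]
    · right
      intro i
      refine ⟨?_, ?_⟩
      · obtain ⟨w, hw⟩ := (hgx i).2
        rw [val_mul_apply, e, show (n + 1 + 1) / 2 = n / 2 + 1 by omega, pow_succ] at hw
        simp at hw
        field_simp at hw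
        have h1 : b * u i = (q : ℤ) * (w - d * v i) := by
          have : ((b * u i : ℤ) : ℚ) = (((q : ℤ) * (w - d * v i) : ℤ) : ℚ) := by
            push_cast
            linear_combination (q : ℚ) * hw - (b : ℚ) * hu i - (q : ℚ) * (d : ℚ) * hv i
          exact_mod_cast this
        refine isIntQ_div (NeZero.ne q) ((hqZ.dvd_or_dvd ⟨_, h1⟩).resolve_left hbq) ?_
        rw [← hu i]; ring
      · rw [show (n + 1) / 2 = n / 2 + 1 by omega, pow_succ]
        exact ⟨v i, hv i⟩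

theorem lev_zero_iff (hqN : Nat.Coprime N q) (g : gamR N q) : lev 0 g ↔ g ∈ vtx N q 0 := by
  constructor
  · intro hg
    choose u hu using fun i => (hg i).1
    choose v hv using fun i => (hg i).2
    replace hu : ∀ i, (g : GL (Fin 2) ℚ).val i 0 = u i := fun i => by simpa using hu i
    replace hv : ∀ i, (g : GL (Fin 2) ℚ).val i 1 = v i := fun i => by simpa using hv i
    have hd : u 0 * v 1 - v 0 * u 1 = 1 := by
      have := g.2.1
      rw [Matrix.det_fin_two, hu, hu, hv, hv] at this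
      exact_mod_cast this
    obtain ⟨y, hy, ey⟩ := exists_of_coords (q := q) 0 hd (dvd_of_inR hqN (hu 1 ▸ g.2.2.2))
    rwa [show g = y from Subtype.ext (Units.ext (by
      rw [ey]; ext i j; fin_cases i <;> fin_cases j <;> simp [hu, hv]))]
  · intro h i
    obtain ⟨a, b, c, d, -, -, e⟩ := exists_coords h
    rw [e]
    fin_cases i <;> simp <;> exact ⟨isIntQ_intCast _, isIntQ_intCast _⟩

/-- The tree data of `Γ₀(N)` over `ℤ[1/q]`. -/
def treeData (D : WData N q) : TreeData (gamR N q) where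
  K := vtx N q
  Lev := lev
  periodic n := by simp [vtx, Nat.add_mod_right]
  lev_zero g := lev_zero_iff ((D.prime.coprime_iff_not_dvd.mpr D.not_dvd).symm) g
  mono n g h i := ⟨(h i).1.pow_mul q (by omega), (h i).2.pow_mul q (by omega)⟩
  exhaust g := by
    choose e z hz using g.2.2.1
    refine ⟨2 * (e 0 0 + e 0 1 + e 1 0 + e 1 1), fun i => ?_⟩
    have h : ∀ i j, IsIntQ ((q : ℚ) ^ e i j * (g : GL (Fin 2) ℚ).val i j) := fun i j =>
      ⟨z i j, by rw [mul_comm, hz]; simp⟩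
    refine ⟨(h i 0).pow_mul q ?_, (h i 1).pow_mul q ?_⟩ <;> fin_cases i <;> simp <;> omega
  invariant := lev_invariant
  lower := lev_lower D
  unique := lev_unique D.prime D.not_dvd

variable {A : Type*} [AddCommGroup A]

/-- A pair killed by the degeneracy map gives a homomorphism on `Γ₀(N)` over `ℤ[1/q]`. -/
theorem exists_qHom (D : WData N q) (x y : Additive (Gamma0 N) →+ A) (h : D.deg x y = 0) :
    ∃ χ : GL (Fin 2) ℚ → A,
      (∀ g ∈ gamR N q, ∀ g' ∈ gamR N q, χ (g * g') = χ g + χ g') ∧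
      ∀ γ : Gamma0 N, χ (toQ γ) = x (Additive.ofMul γ) := by
  classical
  let pick : ℕ → gamR N q → Gamma0 N := fun n g =>
    if hg : g ∈ vtx N q n then (mem_vtx.mp hg).choose else 1
  have hpick : ∀ n (g : gamR N q) (γ : Gamma0 N),
      (g : GL (Fin 2) ℚ) = dq q ^ (n % 2) * toQ γ * (dq q ^ (n % 2))⁻¹ → pick n g = γ := by
    intro n g γ e
    have hg : g ∈ vtx N q n := mem_vtx.mpr ⟨γ, e⟩
    simp only [pick, dif_pos hg]
    have := (mem_vtx.mp hg).choose_spec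
    exact Subtype.ext (toQ_injective (mul_left_cancel (mul_right_cancel (this.symm.trans e))))
  let φ : ℕ → gamR N q → A := fun n g =>
    if n % 2 = 0 then x (Additive.ofMul (pick n g)) else -y (Additive.ofMul (pick n g))
  have hmod : ∀ n, (n + 2) % 2 = n % 2 := fun n => by omega
  obtain ⟨χ, hχ, hval⟩ := (treeData D).exists_extension φ
    (fun n => by
      funext g
      have : pick (n + 2) g = pick n g := by
        by_cases hg : g ∈ vtx N q n
        · obtain ⟨γ, hγ⟩ := mem_vtx.mp hg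
          rw [hpick n g γ hγ, hpick (n + 2) g γ (by rwa [hmod])]
        · have hg' : g ∉ vtx N q (n + 2) := by
            intro hh
            obtain ⟨γ, hγ⟩ := mem_vtx.mp hh
            exact hg (mem_vtx.mpr ⟨γ, by rwa [hmod] at hγ⟩)
          simp only [pick, dif_neg hg, dif_neg hg']
      simp only [φ, hmod, this])
    (fun n a ha b hb => by
      obtain ⟨α, hα⟩ := mem_vtx.mp ha
      obtain ⟨β, hβ⟩ := mem_vtx.mp hb
      have hab : pick n (a * b) = pick n a * pick n b := by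
        rw [hpick n a α hα, hpick n b β hβ]
        refine hpick n _ _ ?_
        rw [Subgroup.coe_mul (H := gamR N q), hα, hβ, Subgroup.coe_mul (H := Gamma0 N), map_mul]
        group
      simp only [φ, hab, ofMul_mul, map_add]
      split_ifs <;> abel)
    (fun n g hg hg' => by
      obtain ⟨α, hα⟩ := mem_vtx.mp hg
      obtain ⟨β, hβ⟩ := mem_vtx.mp hg'
      have key : ∀ γ γ' : Gamma0 N, toQ γ = dq q * toQ γ' * (dq q)⁻¹ →
          x (Additive.ofMul γ) = -y (Additive.ofMul γ') := by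
        intro γ γ' e
        have e' := congrArg (fun g : GL (Fin 2) ℚ => (g : Matrix (Fin 2) (Fin 2) ℚ)) e
        rw [← pow_one (dq q), val_conj_dq, pow_one] at e'
        have e00 := congrFun (congrFun e' 0) 0
        have e01 := congrFun (congrFun e' 0) 1
        have e10 := congrFun (congrFun e' 1) 0
        have e11 := congrFun (congrFun e' 1) 1
        simp at e00 e01 e10 e11
        have hq : (q : ℚ) ≠ 0 := by exact_mod_cast NeZero.ne q
        rw [eq_mul_inv_iff_mul_eq₀ hq] at e01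
        norm_cast at e00 e01 e10 e11
        have hγ : (γ : SL(2, ℤ)) ∈ Gamma0 (N * q) := mem_gamma0_iff.mpr (by
          push_cast
          rw [e10, mul_comm (N : ℤ)]
          exact mul_dvd_mul_left _ (mem_gamma0_iff.mp γ'.2))
        have hh := DFunLike.congr_fun h (Additive.ofMul (⟨γ, hγ⟩ : Gamma0 (N * q)))
        rw [WData.deg, AddMonoidHom.add_apply, D.wOp_resHom, conjPull_apply, resHom_apply,
          AddMonoidHom.zero_apply] at hh
        have hconj : D.conjLE'.hom ⟨γ, hγ⟩ = D.eps * γ' * D.eps⁻¹ := by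
          refine D.conjLE'.hom_eq ?_
          show D.mat * matSL (γ : SL(2, ℤ)) = _
          rw [Subgroup.coe_mul, Subgroup.coe_mul, Subgroup.coe_inv, matSL_mul, matSL_mul,
            D.mat_eq_eps_mul, Matrix.mul_assoc, Matrix.mul_assoc, Matrix.mul_assoc,
            matSL_inv_mul_cancel]
          congr 1
          ext i j
          fin_cases i <;> fin_cases j <;>
            simp [tRepZ, Matrix.mul_apply, Fin.sum_univ_two, e00, e10, e11] <;>
            first | ring1 | linear_combination e01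
        rw [hconj, ofMul_mul, ofMul_mul, ofMul_inv, map_add, map_add, map_neg] at hh
        exact eq_neg_of_add_eq_zero_left (by rw [← hh]; abel)
      simp only [φ, hpick n g α hα, hpick (n + 1) g β hβ]
      rcases Nat.mod_two_eq_zero_or_one n with hn | hn
      · rw [if_pos hn, if_neg (by omega)]
        refine key α β ?_
        have e := hα.symm.trans hβ
        rwa [hn, show (n + 1) % 2 = 1 by omega, pow_zero, one_mul, inv_one, mul_one, pow_one] at e
      · rw [if_neg (by omega), if_pos (by omega)]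
        refine (key β α ?_).symm
        have e := hβ.symm.trans hα
        rwa [hn, show (n + 1) % 2 = 0 by omega, pow_zero, one_mul, inv_one, mul_one, pow_one] at e)
  refine ⟨fun g => if hg : g ∈ gamR N q then χ ⟨g, hg⟩ else 0, fun g hg g' hg' => ?_, fun γ => ?_⟩
  · simp only [dif_pos hg, dif_pos hg', dif_pos (mul_mem hg hg')]
    exact hχ ⟨g, hg⟩ ⟨g', hg'⟩
  · simp only [dif_pos (toQ_mem_gamR γ.2)]
    have e : toQ (γ : SL(2, ℤ)) = dq q ^ (0 % 2) * toQ γ * (dq q ^ (0 % 2))⁻¹ := by simp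
    rw [hval 0 ⟨_, toQ_mem_gamR γ.2⟩ (mem_vtx.mpr ⟨γ, e⟩)]
    simp only [φ, hpick 0 ⟨_, toQ_mem_gamR γ.2⟩ γ e, Nat.zero_mod, if_true]

end FLTAgent.LevelRaise
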