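import Fermat.Agent.LevelRaise.DeepQ
import Mathlib.NumberTheory.LSeries.PrimesInAP
import Mathlib.LinearAlgebra.Matrix.Trace
import Mathlib.Data.Nat.Factorization.Basic
import Mathlib.FieldTheory.Finite.Basic

/-!
# Homomorphisms killing unipotents are invariant under a power of the torus
-/

set_option autoImplicit false

noncomputable section

namespace FLTAgent.LevelRaise

open scoped MatrixGroups

/-- If `g₀ ∣ a - 1` for all large primes `a ≡ A [ZMOD n]` then `g₀ ∣ 2 n`. -/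
theorem dvd_two_mul_of_primes {n g₀ B : ℕ} (hn : n ≠ 0) (hg : g₀ ≠ 0) {A : ℤ}
    (hA : IsCoprime A (n : ℤ))
    (h : ∀ a : ℕ, a.Prime → B < a → (a : ℤ) ≡ A [ZMOD n] → (g₀ : ℤ) ∣ (a : ℤ) - 1) :
    g₀ ∣ 2 * n := by
  obtain ⟨a₀, ha₀B, ha₀p, ha₀⟩ :=
    Nat.forall_exists_prime_gt_and_zmodEq (max B g₀) hn hA
  have h₀ := h a₀ ha₀p ((le_max_left _ _).trans_lt ha₀B) ha₀
  have ha₀g : Nat.Coprime a₀ g₀ := (ha₀p.coprime_iff_not_dvd).mpr fun hd =>
    absurd (Nat.le_of_dvd (Nat.pos_of_ne_zero hg) hd) (not_le.mpr ((le_max_right _ _).trans_lt ha₀B))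
  rw [Nat.dvd_iff_prime_pow_dvd_dvd]
  intro r k hr hrk
  by_contra hcon
  have : Fact r.Prime := ⟨hr⟩
  obtain ⟨e, g', hg', hge⟩ := Nat.exists_eq_pow_mul_and_not_dvd hg r hr.ne_one
  have hk : k ≤ e := by
    by_contra hlt
    push Not at hlt
    have h1 : r ^ (e + 1) ∣ r ^ e * g' := hge ▸ (pow_dvd_pow r hlt).trans hrk
    rw [pow_succ] at h1
    exact hg' (Nat.dvd_of_mul_dvd_mul_left (pow_pos hr.pos e) h1)
  have he : ¬ r ^ e ∣ 2 * n := fun hd => hcon ((pow_dvd_pow r hk).trans hd)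
  have hcop : Nat.Coprime (r ^ e) g' := Nat.Coprime.pow_left _ (hr.coprime_iff_not_dvd.mpr hg')
  obtain ⟨t, hc, hnd⟩ : ∃ t : ℕ, ¬ r ∣ 1 + n * g' * t ∧ ¬ r ^ e ∣ n * g' * t := by
    have hn1 : ¬ r ^ e ∣ n * g' * 1 := fun hd => he <| by
      rw [mul_one] at hd
      exact (hcop.dvd_of_dvd_mul_right hd).trans (dvd_mul_left n 2)
    have hn2 : ¬ r ^ e ∣ n * g' * 2 := fun hd => he <| by
      rw [mul_right_comm] at hd
      rw [mul_comm 2]
      exact hcop.dvd_of_dvd_mul_right hd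
    by_cases h1 : r ∣ 1 + n * g' * 1
    · refine ⟨2, fun h2 => ?_, hn2⟩
      have h3 : r ∣ n * g' := by
        have := Nat.dvd_sub h2 h1
        rwa [show 1 + n * g' * 2 - (1 + n * g' * 1) = n * g' by omega] at this
      rw [mul_one, Nat.dvd_add_left h3] at h1
      exact hr.ne_one (Nat.dvd_one.mp h1)
    · exact ⟨1, h1, hn1⟩
  obtain ⟨c, hcdef⟩ : ∃ c, c = 1 + n * g' * t := ⟨_, rfl⟩
  have hcg : Nat.Coprime c g₀ := by
    rw [hge]
    refine Nat.Coprime.mul_right (Nat.Coprime.pow_right _ ?_) ?_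
    · exact (hr.coprime_iff_not_dvd.mpr (hcdef ▸ hc)).symm
    · rw [hcdef, Nat.coprime_iff_gcd_eq_one, show n * g' * t = g' * (n * t) by ring,
        Nat.gcd_add_mul_left_left, Nat.gcd_one_left]
  have hcn : Nat.Coprime c n := by
    rw [hcdef, Nat.coprime_iff_gcd_eq_one, show n * g' * t = n * (g' * t) by ring,
      Nat.gcd_add_mul_left_left, Nat.gcd_one_left]
  have han : IsCoprime (a₀ : ℤ) (n : ℤ) := by
    obtain ⟨w, hw⟩ := ha₀.symm.dvd
    rw [show (a₀ : ℤ) = A + n * w by linarith]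
    exact hA.add_mul_left_left w
  obtain ⟨a, haB, hap, ha⟩ := Nat.forall_exists_prime_gt_and_modEq (max B g₀) (q := n * g₀)
    (a := a₀ * c) (mul_ne_zero hn hg)
    (Nat.Coprime.mul_left (Nat.Coprime.mul_right (Nat.isCoprime_iff_coprime.mp han) ha₀g)
      (Nat.Coprime.mul_right hcn hcg))
  have ha' : (a : ℤ) ≡ (a₀ : ℤ) * (c : ℤ) [ZMOD ((n * g₀ : ℕ) : ℤ)] := by
    have := Int.natCast_modEq_iff.mpr ha
    push_cast at this ⊢
    exact this
  have hd := (ha'.of_dvd (by push_cast; exact dvd_mul_right _ _ : (n : ℤ) ∣ ((n * g₀ : ℕ) : ℤ))).trans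
    (show (a₀ : ℤ) * (c : ℤ) ≡ A [ZMOD (n : ℤ)] by
      refine (Int.ModEq.mul ha₀ (show (c : ℤ) ≡ 1 [ZMOD (n : ℤ)] from ?_)).trans (by rw [mul_one])
      exact (Int.modEq_of_dvd ⟨(g' : ℤ) * t, by rw [hcdef]; push_cast; ring⟩).symm)
  have h1 := h a hap ((le_max_left _ _).trans_lt haB) hd
  have hgd : (g₀ : ℤ) ∣ ((n * g' * t : ℕ) : ℤ) := by
    have h2 : (g₀ : ℤ) ∣ (a₀ : ℤ) * c - a :=
      (Int.natCast_dvd_natCast.mpr (dvd_mul_left g₀ n)).trans ha'.dvd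
    rw [show ((n * g' * t : ℕ) : ℤ) = ((a₀ : ℤ) * c - a) + ((a : ℤ) - 1) - ((a₀ : ℤ) - 1) * c by
      rw [hcdef]; push_cast; ring]
    exact dvd_sub (dvd_add h2 h1) (Dvd.dvd.mul_right h₀ _)
  exact hnd ((dvd_mul_right _ _).trans (hge ▸ Int.natCast_dvd_natCast.mp hgd))

/-- Elements of `ℤ[1/q]` are congruent to integers modulo anything prime to `q`. -/
theorem exists_int_congr {q m : ℕ} (hm : Nat.Coprime m q) {x : ℚ} (hx : InR q 1 x) :
    ∃ Z : ℤ, InR q m (x - Z) := by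
  obtain ⟨n, z, hz⟩ := hx
  obtain ⟨a, b, hab⟩ : IsCoprime ((q : ℤ) ^ n) (m : ℤ) :=
    (Nat.isCoprime_iff_coprime.mpr hm.symm).pow_left
  refine ⟨z * a, n, z * b, ?_⟩
  have h' : ((a : ℚ) * (q : ℚ) ^ n + b * m) = 1 := by exact_mod_cast hab
  push_cast at hz ⊢
  linear_combination hz - (z : ℚ) * h'

variable {N q L : ℕ} [NeZero q] {A : Type*} [AddCommGroup A]

/-- Conjugation by `diag(q ^ n, q ^ -n)`. -/
def tauConj (n : ℤ) (g : GL (Fin 2) ℚ) : GL (Fin 2) ℚ := tauQ q n * g * (tauQ q n)⁻¹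

theorem tauConj_mem (n : ℤ) {g : GL (Fin 2) ℚ} (hg : g ∈ deepR N q L) :
    tauConj (q := q) n g ∈ deepR N q L :=
  (isScale_tauQ N n).conj_mem (by rwa [mul_one])

theorem tauConj_mul (n : ℤ) (g h : GL (Fin 2) ℚ) :
    tauConj (q := q) n (g * h) = tauConj (q := q) n g * tauConj (q := q) n h := by
  simp only [tauConj]; group

theorem trace_tauConj (n : ℤ) (g : GL (Fin 2) ℚ) :
    (tauConj (q := q) n g).val.trace = g.val.trace := by
  rw [tauConj, Units.val_mul, Units.val_mul, Matrix.trace_units_conj]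

/-- A homomorphism on the congruence subgroup killing its unipotent elements. -/
structure KillsUnipotents (N q L : ℕ) (f : GL (Fin 2) ℚ → A) : Prop where
  map_mul : ∀ g ∈ deepR N q L, ∀ h ∈ deepR N q L, f (g * h) = f g + f h
  unipotent : ∀ g ∈ deepR N q L, g.val.trace = 2 → f g = 0

variable {f : GL (Fin 2) ℚ → A} (hf : KillsUnipotents N q L f)
include hf

omit [NeZero q] in
theorem KillsUnipotents.map_one : f 1 = 0 := hf.unipotent 1 (one_mem _) (by simp)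

omit [NeZero q] in
theorem KillsUnipotents.eq_of_row {g h : GL (Fin 2) ℚ} (hg : g ∈ deepR N q L)
    (hh : h ∈ deepR N q L) (e0 : g.val 0 0 = h.val 0 0) (e1 : g.val 0 1 = h.val 0 1) :
    f g = f h := by
  obtain ⟨k, hk⟩ : ∃ k, k = g * h⁻¹ := ⟨_, rfl⟩
  have hkm : k ∈ deepR N q L := hk ▸ mul_mem hg (inv_mem hh)
  have hd := (mem_deepR.mp hh).1
  rw [Matrix.det_fin_two] at hd
  have hkd := (mem_deepR.mp hkm).1
  rw [Matrix.det_fin_two] at hkd
  have hv : k.val = g.val * h.val.adjugate := by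
    rw [hk, Units.val_mul, val_inv_of_det_one (mem_deepR.mp hh).1]
  have k00 : k.val 0 0 = 1 := by
    rw [hv, Matrix.mul_apply, Fin.sum_univ_two, Matrix.adjugate_fin_two]
    simp [e0, e1]; linear_combination hd
  have k01 : k.val 0 1 = 0 := by
    rw [hv, Matrix.mul_apply, Fin.sum_univ_two, Matrix.adjugate_fin_two]
    simp [e0, e1]; ring
  have htr : k.val.trace = 2 := by
    rw [k00, k01] at hkd
    rw [Matrix.trace_fin_two, k00]
    linear_combination hkd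
  have := hf.map_mul k hkm h hh
  rw [hf.unipotent k hkm htr, zero_add] at this
  rw [← this, hk, inv_mul_cancel_right]

/-- The periods of `n ↦ f (τⁿ g τ⁻ⁿ)`. -/
def periodsOf (_hf : KillsUnipotents N q L f) (g : GL (Fin 2) ℚ) : AddSubgroup ℤ where
  carrier := {n | ∀ m, f (tauConj (q := q) (m + n) g) = f (tauConj (q := q) m g)}
  zero_mem' m := by rw [add_zero]
  add_mem' {a b} ha hb m := by rw [← add_assoc, hb, ha]
  neg_mem' {a} ha m := by
    have := ha (m + -a)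
    rwa [add_assoc, neg_add_cancel, add_zero, eq_comm] at this

theorem periodsOf_mul {g k : GL (Fin 2) ℚ} (hg : g ∈ deepR N q L) (hk : k ∈ deepR N q L)
    (htr : k.val.trace = 2) : periodsOf hf (g * k) = periodsOf hf g := by
  have e : ∀ n, f (tauConj (q := q) n (g * k)) = f (tauConj (q := q) n g) := fun n => by
    rw [tauConj_mul, hf.map_mul _ (tauConj_mem n hg) _ (tauConj_mem n hk),
      hf.unipotent _ (tauConj_mem n hk) (by rw [trace_tauConj, htr]), add_zero]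
  ext n
  show (∀ _, _) ↔ ∀ _, _
  simp only [e]

theorem periodsOf_eq_top_of_upper_zero {g : GL (Fin 2) ℚ} (hg : g ∈ deepR N q L)
    (hb : g.val 0 1 = 0) (n : ℤ) : n ∈ periodsOf hf g := fun m =>
  hf.eq_of_row (tauConj_mem _ hg) (tauConj_mem _ hg)
    (by simp only [tauConj, (tauQ_conj_val _ g).1])
    (by simp only [tauConj, (tauQ_conj_val _ g).2, hb, mul_zero])

theorem periodsOf_eq_top_of_one {g : GL (Fin 2) ℚ} (hg : g ∈ deepR N q L) (ha : g.val 0 0 = 1)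
    (n : ℤ) : n ∈ periodsOf hf g := by
  have hu := uQ_mem_deepR (N := N) (q := q) (L := L) (x := -(g.val 0 1)) (mem_deepR.mp hg).2.2.1.neg
  rw [← periodsOf_mul hf hg hu (by simp [Matrix.trace_fin_two]; norm_num)]
  refine periodsOf_eq_top_of_upper_zero hf (mul_mem hg hu) ?_ n
  simp [Matrix.mul_apply, Fin.sum_univ_two, ha]

theorem sub_one_mem_periodsOf (hq : q.Prime) {g : GL (Fin 2) ℚ} (hg : g ∈ deepR N q L) {a : ℕ}
    (ha : a.Prime) (haq : a ≠ q) (h00 : g.val 0 0 = a) :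
    ((a : ℤ) - 1) ∈ periodsOf hf g := by
  intro m
  have hq0 : (q : ℚ) ≠ 0 := by exact_mod_cast NeZero.ne q
  obtain ⟨z, hz⟩ : (a : ℤ) ∣ ((q ^ (2 * (a - 1)) : ℕ) : ℤ) - 1 := by
    have : Fact a.Prime := ⟨ha⟩
    rw [← ZMod.intCast_zmod_eq_zero_iff_dvd]
    have h0 : (q : ZMod a) ≠ 0 := by
      rw [Ne, ZMod.natCast_eq_zero_iff]
      exact fun hd => haq ((Nat.prime_dvd_prime_iff_eq ha hq).mp hd)
    push_cast
    rw [mul_comm, pow_mul, ZMod.pow_card_sub_one_eq_one h0, one_pow, sub_self]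
  obtain ⟨g', hg'⟩ : ∃ g', g' = tauConj (q := q) m g := ⟨_, rfl⟩
  have hg'm : g' ∈ deepR N q L := hg' ▸ tauConj_mem m hg
  obtain ⟨x, hx⟩ : ∃ x, x = g'.val 0 1 * (z : ℚ) := ⟨_, rfl⟩
  have hu := uQ_mem_deepR (N := N) (q := q) (L := L) (x := x)
    (hx ▸ (mem_deepR.mp hg'm).2.2.1.mul_right (inR_intCast (by simp)))
  have h1 : f (g' * uQ x) = f g' := by
    rw [hf.map_mul _ hg'm _ hu, hf.unipotent _ hu (by simp [Matrix.trace_fin_two]; norm_num), add_zero]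
  rw [← hg', ← h1]
  have f00 : ∀ n, (tauConj (q := q) n g).val 0 0 = g.val 0 0 := fun n => (tauQ_conj_val n g).1
  have f01 : ∀ n, (tauConj (q := q) n g).val 0 1 = (q : ℚ) ^ (2 * n) * g.val 0 1 :=
    fun n => (tauQ_conj_val n g).2
  refine hf.eq_of_row (tauConj_mem _ hg) (mul_mem hg'm hu) ?_ ?_
  · simp [Matrix.mul_apply, Fin.sum_univ_two, hg', f00]
  · have hzq : (q : ℚ) ^ (2 * ((a : ℤ) - 1)) = 1 + (a : ℚ) * z := by
      rw [show (2 : ℤ) * ((a : ℤ) - 1) = ((2 * (a - 1) : ℕ) : ℤ) by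
        have := ha.one_le; push_cast [Nat.cast_sub this]; ring, zpow_natCast]
      have h := congrArg (fun w : ℤ => (w : ℚ)) hz
      push_cast at h
      linear_combination h
    simp [Matrix.mul_apply, Fin.sum_univ_two, hx, hg', f00, f01, h00]
    rw [mul_add, zpow_add₀ hq0, hzq]
    ring

/-- `f` is invariant under conjugation by `diag(q ^ M, q ^ -M)` for `M = 2 N L²`. -/
theorem KillsUnipotents.tau_invariant (hq : q.Prime) (hN : Nat.Coprime N q) (hN0 : N ≠ 0)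
    (hLq : Nat.Coprime L q) (hL : 2 ≤ L) {h : GL (Fin 2) ℚ} (hh : h ∈ deepR N q L) :
    f (tauConj (q := q) (((2 * N * L ^ 2 : ℕ) : ℤ)) h) = f h := by
  have hq0 : (q : ℚ) ≠ 0 := by exact_mod_cast NeZero.ne q
  suffices hM : ((2 * N * L ^ 2 : ℕ) : ℤ) ∈ periodsOf hf h by
    have := hM 0
    rw [zero_add] at this
    rw [this]; simp [tauConj, tauQ_zero]
  obtain ⟨hd, ha, hb, hc, he⟩ := mem_deepR.mp hh
  -- make the first entry an integer
  obtain ⟨n, β, hβ⟩ := hb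
  rcases eq_or_ne β 0 with rfl | hβ0
  · refine periodsOf_eq_top_of_upper_zero hf hh ?_ _
    simpa [hq0] using hβ
  obtain ⟨e, β₀, hβ₀, rfl⟩ : ∃ (e : ℕ) (β₀ : ℤ), ¬ (q : ℤ) ∣ β₀ ∧ β = (q : ℤ) ^ e * β₀ := by
    obtain ⟨e, c, hc, hce⟩ := Nat.exists_eq_pow_mul_and_not_dvd
      (Int.natAbs_ne_zero.mpr hβ0) q hq.ne_one
    rcases Int.natAbs_eq β with h | h
    · exact ⟨e, c, by exact_mod_cast hc, by rw [h, hce]; push_cast; ring⟩
    · exact ⟨e, -c, by rw [dvd_neg]; exact_mod_cast hc, by rw [h, hce]; push_cast; ring⟩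
  have hβq : Nat.Coprime β₀.natAbs q :=
    (hq.coprime_iff_not_dvd.mpr fun hd => hβ₀ (Int.natCast_dvd.mpr hd)).symm
  have hb' : h.val 0 1 = (L : ℚ) * β₀ * ((q : ℚ) ^ e / (q : ℚ) ^ n) := by
    field_simp; push_cast at hβ; linear_combination hβ
  have hunit : InR q 1 ((q : ℚ) ^ n / (q : ℚ) ^ e) := ⟨e, (q : ℤ) ^ n, by field_simp; simp⟩
  obtain ⟨Aint, hA⟩ := exists_int_congr (m := β₀.natAbs * (N * L * L))
    (hβq.mul_left ((hN.mul_left hLq).mul_left hLq))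
    (show InR q 1 (h.val 0 0) by simpa using (ha.of_dvd (one_dvd _)).add (inR_one_one q))
  obtain ⟨y, hy, hya⟩ : ∃ y : ℚ, InR q (N * L) y ∧ h.val 0 0 + h.val 0 1 * y = Aint := by
    obtain ⟨nA, r, hr⟩ := hA
    have hβ0' : β₀ ≠ 0 := fun h0 => hβ₀ (h0 ▸ dvd_zero _)
    refine ⟨-((N : ℚ) * L * ((r : ℚ) * β₀.sign) / (q : ℚ) ^ nA * ((q : ℚ) ^ n / (q : ℚ) ^ e)),
      (InR.mul_right ?_ hunit).neg, ?_⟩
    · exact ⟨nA, r * β₀.sign, by field_simp; push_cast; ring⟩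
    · rw [hb']
      have hsign : (β₀ : ℚ) * β₀.sign = β₀.natAbs := by
        rw [← Int.cast_mul, Int.mul_sign_self, Int.cast_natCast]
      push_cast at hr
      field_simp
      linear_combination hr - ((N : ℚ) * L * L * r) * hsign
  have hk := vQ_mem_deepR hy
  rw [← periodsOf_mul hf hh hk (by simp [Matrix.trace_fin_two]; norm_num)]
  obtain ⟨h₁, hh₁def⟩ : ∃ h₁, h₁ = h * vQ y := ⟨_, rfl⟩
  rw [← hh₁def]
  have hh₁ : h₁ ∈ deepR N q L := hh₁def ▸ mul_mem hh hk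
  have h₁00 : h₁.val 0 0 = Aint := by
    rw [hh₁def]; simpa [Matrix.mul_apply, Fin.sum_univ_two] using hya
  clear hh₁def hya hk hy y hA hunit hb' hβq hβ₀ hβ hd ha hc he hh β₀ hβ0
  obtain ⟨hd, ha, hb, hc, he⟩ := mem_deepR.mp hh₁
  rw [h₁00] at ha
  -- arithmetic of the first row
  have hAL : (L : ℤ) ∣ Aint - 1 := dvd_of_inR hLq (by push_cast; exact ha)
  have hA0 : Aint ≠ 0 := by
    rintro rfl
    have := Int.le_of_dvd one_pos (by simpa using hAL : (L : ℤ) ∣ 1)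
    omega
  rw [Matrix.det_fin_two, h₁00] at hd
  obtain ⟨nd, zd, hzd⟩ : InR q 1 (h₁.val 1 1) := by simpa using (he.of_dvd (one_dvd _)).add (inR_one_one q)
  obtain ⟨nc, zc, hzc⟩ := hc
  obtain ⟨nb, zb, hzb⟩ := hb
  have hAN : IsCoprime Aint (N : ℤ) := by
    have h1 : (Aint * zd * (q : ℤ) ^ (nb + nc) - (L : ℤ) * zb * ((N : ℤ) * L * zc) * (q : ℤ) ^ nd
        : ℤ) = (q : ℤ) ^ (nd + nb + nc) := by
      have : ((Aint * zd * (q : ℤ) ^ (nb + nc) - (L : ℤ) * zb * ((N : ℤ) * L * zc) * (q : ℤ) ^ nd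
          : ℤ) : ℚ) = (((q : ℤ) ^ (nd + nb + nc) : ℤ) : ℚ) := by
        push_cast at hzd hzc hzb ⊢
        rw [pow_add, pow_add, pow_add, ← hzb, ← hzc]
        linear_combination ((q : ℚ) ^ nd * (q : ℚ) ^ nb * (q : ℚ) ^ nc) * hd
          - (Aint : ℚ) * (q : ℚ) ^ nb * (q : ℚ) ^ nc * hzd
      exact_mod_cast this
    have hqN : IsCoprime ((q : ℤ) ^ (nd + nb + nc)) (N : ℤ) :=
      (Nat.isCoprime_iff_coprime.mpr hN.symm).pow_left
    rw [← h1] at hqN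
    rw [show Aint * zd * (q : ℤ) ^ (nb + nc) - (L : ℤ) * zb * ((N : ℤ) * L * zc) * (q : ℤ) ^ nd
      = Aint * (zd * (q : ℤ) ^ (nb + nc)) + (N : ℤ) * (-((L : ℤ) * zb * (L * zc) * (q : ℤ) ^ nd)) by ring,
      IsCoprime.add_mul_left_left_iff] at hqN
    exact hqN.of_mul_left_left
  rcases eq_or_ne Aint 1 with rfl | hA1
  · exact periodsOf_eq_top_of_one hf hh₁ (by simpa using h₁00) _
  -- make the second entry `L` times a prime
  obtain ⟨e, A₀, hA₀, hAe⟩ : ∃ (e : ℕ) (A₀ : ℕ), ¬ q ∣ A₀ ∧ Aint.natAbs = q ^ e * A₀ :=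
    Nat.exists_eq_pow_mul_and_not_dvd (Int.natAbs_ne_zero.mpr hA0) q hq.ne_one
  have hA₀q : Nat.Coprime A₀ q := (hq.coprime_iff_not_dvd.mpr hA₀).symm
  obtain ⟨B, hB⟩ := exists_int_congr hA₀q (show InR q 1 ((zb : ℚ) / (q : ℚ) ^ nb) from
    ⟨nb, zb, by field_simp; simp⟩)
  obtain ⟨nB, w, hBw⟩ := hB
  have hqA : ∀ k : ℕ, IsCoprime ((q : ℤ) ^ k) (A₀ : ℤ) :=
    fun _ => (Nat.isCoprime_iff_coprime.mpr hA₀q.symm).pow_left
  have hBA : IsCoprime B (A₀ : ℤ) := by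
    obtain ⟨u, hu⟩ : (A₀ : ℤ) ∣ Aint := by
      rw [Int.natCast_dvd, hAe]; exact dvd_mul_left _ _
    have h1 : B * (-((L : ℤ) * ((N : ℤ) * L * zc) * (q : ℤ) ^ (nd + nb + nB))) + (A₀ : ℤ) *
        (u * zd * (q : ℤ) ^ (nb + nc + nB) - (L : ℤ) * ((N : ℤ) * L * zc) * w * (q : ℤ) ^ (nd + nb))
        = (q : ℤ) ^ (nd + nb + nc + nB) := by
      have : ((B * (-((L : ℤ) * ((N : ℤ) * L * zc) * (q : ℤ) ^ (nd + nb + nB))) + (A₀ : ℤ) *
          (u * zd * (q : ℤ) ^ (nb + nc + nB) - (L : ℤ) * ((N : ℤ) * L * zc) * w * (q : ℤ) ^ (nd + nb))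
          : ℤ) : ℚ) = (((q : ℤ) ^ (nd + nb + nc + nB) : ℤ) : ℚ) := by
        have hu' : (Aint : ℚ) = (A₀ : ℚ) * u := by exact_mod_cast hu
        push_cast at hzd hzc hzb hBw ⊢
        field_simp at hBw
        simp only [pow_add]
        rw [hu'] at hd
        rw [← hzc]
        linear_combination ((q : ℚ) ^ nd * (q : ℚ) ^ nb * (q : ℚ) ^ nc * (q : ℚ) ^ nB) * hd
          - (A₀ : ℚ) * u * (q : ℚ) ^ nb * (q : ℚ) ^ nc * (q : ℚ) ^ nB * hzd
          + (q : ℚ) ^ nd * (L : ℚ) * h₁.val 1 0 * (q : ℚ) ^ nc * hBw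
          + (q : ℚ) ^ nd * (q : ℚ) ^ nc * (q : ℚ) ^ nB * h₁.val 1 0 * hzb
      exact_mod_cast this
    have := hqA (nd + nb + nc + nB)
    rw [← h1, IsCoprime.add_mul_left_left_iff] at this
    exact this.of_mul_left_left
  have hA₀0 : A₀ ≠ 0 := fun h0 => hA₀ (h0 ▸ dvd_zero _)
  obtain ⟨P, hPbig, hP, hPB⟩ := Nat.forall_exists_prime_gt_and_zmodEq
    (Aint.natAbs + N + L + q + 1) hA₀0 hBA
  obtain ⟨x, hx, hxb⟩ : ∃ x : ℚ, InR q L x ∧ h₁.val 0 1 + (Aint : ℚ) * x = (L : ℚ) * P := by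
    obtain ⟨s, hs⟩ := hPB.symm.dvd
    have hAint0 : (Aint : ℚ) ≠ 0 := by exact_mod_cast hA0
    refine ⟨((L : ℚ) * P - h₁.val 0 1) / Aint, ?_, by field_simp; ring⟩
    have h1 : ((L : ℚ) * P - h₁.val 0 1) / Aint
        = (L : ℚ) * (((s : ℚ) * (q : ℚ) ^ nB - w) / (q : ℚ) ^ nB * ((A₀ : ℚ) / Aint)) := by
      have hs' : (P : ℚ) - B = (A₀ : ℚ) * s := by exact_mod_cast hs
      field_simp at hBw
      field_simp
      have hqnb : (q : ℚ) ^ nb ≠ 0 := pow_ne_zero _ hq0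
      refine mul_left_cancel₀ hqnb ?_
      linear_combination (-(q : ℚ) ^ nB) * hzb - (L : ℚ) * hBw
        + (L : ℚ) * (q : ℚ) ^ nB * (q : ℚ) ^ nb * hs'
    rw [h1]
    refine InR.mul_right ⟨0, 1, by simp⟩ ?_
    refine InR.mul_left (m := 1) ⟨nB, s * (q : ℤ) ^ nB - w, by field_simp; push_cast; ring⟩ ?_
    refine ⟨e, Aint.sign, ?_⟩
    have h2 : (Aint : ℚ) * Aint.sign = (q : ℚ) ^ e * A₀ := by
      have : Aint * Aint.sign = ((q ^ e * A₀ : ℕ) : ℤ) := by rw [Int.mul_sign_self, hAe]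
      exact_mod_cast this
    field_simp
    push_cast
    linear_combination -h2
  have hu := uQ_mem_deepR (N := N) hx
  rw [← periodsOf_mul hf hh₁ hu (by simp [Matrix.trace_fin_two]; norm_num)]
  obtain ⟨h₂, hh₂def⟩ : ∃ h₂, h₂ = h₁ * uQ x := ⟨_, rfl⟩
  rw [← hh₂def]
  have hh₂ : h₂ ∈ deepR N q L := hh₂def ▸ mul_mem hh₁ hu
  have h₂00 : h₂.val 0 0 = Aint := by
    rw [hh₂def]; simp [Matrix.mul_apply, Fin.sum_univ_two, h₁00]
  have h₂01 : h₂.val 0 1 = (L : ℚ) * P := by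
    rw [hh₂def, ← hxb]; simp [Matrix.mul_apply, Fin.sum_univ_two, h₁00]; ring
  -- the periods
  obtain ⟨g₀, hg₀⟩ := Int.subgroup_cyclic (periodsOf hf h₂)
  have hper : ∀ m : ℤ, m ∈ periodsOf hf h₂ ↔ g₀ ∣ m := fun m => by
    rw [hg₀, AddSubgroup.mem_closure_singleton]
    exact ⟨fun ⟨k, hk⟩ => ⟨k, by rw [← hk, smul_eq_mul, mul_comm]⟩,
      fun ⟨k, hk⟩ => ⟨k, by rw [hk, smul_eq_mul, mul_comm]⟩⟩
  rw [hper]
  have hn0 : N * L ^ 2 * P ≠ 0 := mul_ne_zero (mul_ne_zero hN0 (pow_ne_zero _ (by omega))) hP.ne_zero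
  have hPA : IsCoprime Aint (P : ℤ) := by
    refine ((Nat.prime_iff_prime_int.mp hP).coprime_iff_not_dvd.mpr fun hd' => ?_).symm
    have := Nat.le_of_dvd (Int.natAbs_pos.mpr hA0) (Int.natCast_dvd.mp hd')
    omega
  have hAn : IsCoprime Aint ((N * L ^ 2 * P : ℕ) : ℤ) := by
    push_cast
    refine IsCoprime.mul_right (IsCoprime.mul_right hAN (IsCoprime.pow_right ?_)) hPA
    obtain ⟨s, hs⟩ := hAL
    exact ⟨1, -s, by linear_combination hs⟩
  have hprimes : ∀ a : ℕ, a.Prime → max q 2 < a → (a : ℤ) ≡ Aint [ZMOD ((N * L ^ 2 * P : ℕ) : ℤ)] →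
      g₀ ∣ (a : ℤ) - 1 := by
    intro a hap haB hamod
    obtain ⟨s, hs⟩ := hamod.symm.dvd
    push_cast at hs
    have hy := vQ_mem_deepR (N := N) (q := q) (L := L) (y := ((N * L : ℕ) : ℚ) * s)
      ((inR_intCast (z := ((N * L : ℕ) : ℤ) * s) (dvd_mul_right _ _)) |> fun h => by simpa using h)
    have hmem := mul_mem hh₂ hy
    rw [← hper, ← periodsOf_mul hf hh₂ hy (by simp [Matrix.trace_fin_two]; norm_num)]
    refine sub_one_mem_periodsOf hf hq hmem hap (by omega) ?_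
    have hs' : (a : ℚ) - Aint = (N : ℚ) * (L : ℚ) ^ 2 * P * s := by exact_mod_cast hs
    simp [Matrix.mul_apply, Fin.sum_univ_two, h₂00, h₂01]
    linear_combination -hs'
  obtain ⟨a, ha_big, hap, hamod⟩ := Nat.forall_exists_prime_gt_and_zmodEq (max q 2) hn0 hAn
  have hdvd := hprimes a hap ha_big hamod
  have hg0 : g₀ ≠ 0 := by
    rintro rfl
    rw [zero_dvd_iff] at hdvd
    omega
  have h2n : g₀.natAbs ∣ 2 * (N * L ^ 2 * P) :=
    dvd_two_mul_of_primes hn0 (Int.natAbs_ne_zero.mpr hg0) hAn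
      fun a h1 h2 h3 => Int.natAbs_dvd.mpr (hprimes a h1 h2 h3)
  have hcop : g₀.natAbs.Coprime P := by
    refine (hP.coprime_iff_not_dvd.mpr fun hd' => ?_).symm
    obtain ⟨s, hs⟩ := hamod.symm.dvd
    push_cast at hs
    have h1 : (P : ℤ) ∣ Aint - 1 := by
      rw [show Aint - 1 = ((a : ℤ) - 1) - ((a : ℤ) - Aint) by ring, hs]
      refine dvd_sub ((Int.natCast_dvd.mpr hd').trans hdvd) ?_
      exact Dvd.dvd.mul_right (dvd_mul_left _ _) _
    have := Nat.le_of_dvd (Int.natAbs_pos.mpr (sub_ne_zero.mpr hA1)) (Int.natCast_dvd.mp h1)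
    omega
  rw [Int.dvd_natCast, mul_assoc]
  exact hcop.dvd_of_dvd_mul_right (by rwa [← mul_assoc] at h2n)

end FLTAgent.LevelRaise
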