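import Fermat.Agent.LevelRaise.Model

/-!
# Transfers after conjugation as sums over representatives
-/

set_option autoImplicit false

noncomputable section

namespace FLTAgent.LevelRaise

open scoped MatrixGroups

variable {ι : Type*}

/-- Right multiplication by `γ` permutes the family `η` with cofactors in `Γ₁`. -/
def IsTransferZ {Γ₁ : Subgroup SL(2, ℤ)} (η : ι → Matrix (Fin 2) (Fin 2) ℤ) (γ : SL(2, ℤ))
    (σ : ι → ι) (δ : ι → Γ₁) : Prop :=
  ∀ i, η i * matSL γ = matSL (δ i : SL(2, ℤ)) * η (σ i)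

/-- The members of a family lie in distinct left classes of `SL(2, ℤ)`. -/
def DistinctFam (η : ι → Matrix (Fin 2) (Fin 2) ℤ) : Prop :=
  ∀ i j (δ : SL(2, ℤ)), η i = matSL δ * η j → i = j

theorem matSL_mul (a b : SL(2, ℤ)) : matSL (a * b) = matSL a * matSL b :=
  Matrix.SpecialLinearGroup.coe_mul a b

theorem matSL_one : matSL 1 = 1 := Matrix.SpecialLinearGroup.coe_one

theorem matSL_inv_mul_cancel (a : SL(2, ℤ)) (M : Matrix (Fin 2) (Fin 2) ℤ) :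
    matSL a⁻¹ * (matSL a * M) = M := by
  rw [← Matrix.mul_assoc, ← matSL_mul, inv_mul_cancel, matSL_one, Matrix.one_mul]

theorem matSL_mul_inv_cancel (a : SL(2, ℤ)) (M : Matrix (Fin 2) (Fin 2) ℤ) :
    M * matSL a * matSL a⁻¹ = M := by
  rw [Matrix.mul_assoc, ← matSL_mul, mul_inv_cancel, matSL_one, Matrix.mul_one]

theorem DistinctFam.injective {η : ι → Matrix (Fin 2) (Fin 2) ℤ} (hη : DistinctFam η)
    {γ : SL(2, ℤ)} {σ : ι → ι} {Γ₁ : Subgroup SL(2, ℤ)} {δ : ι → Γ₁} (h : IsTransferZ η γ σ δ) :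
    Function.Injective σ := by
  intro i j hij
  refine hη i j ((δ i : SL(2, ℤ)) * (δ j : SL(2, ℤ))⁻¹) ?_
  have hj : matSL ((δ j : SL(2, ℤ))⁻¹) * η j * matSL γ = η (σ j) := by
    rw [Matrix.mul_assoc, h j, matSL_inv_mul_cancel]
  have e : η i * matSL γ = matSL ((δ i : SL(2, ℤ)) * (δ j : SL(2, ℤ))⁻¹) * η j * matSL γ := by
    rw [h i, hij, ← hj, matSL_mul]
    simp only [Matrix.mul_assoc]
  rw [← matSL_mul_inv_cancel γ (η i), e, matSL_mul_inv_cancel]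

section Fibre

variable {Γ Γ' : Subgroup SL(2, ℤ)}

/-- The cosets over the trivial one are parametrised by representatives. -/
theorem exists_fibre_param (h : Γ' ≤ Γ) (r : ι → Γ)
    (hinj : ∀ i j, ((r i : SL(2, ℤ)) * (r j : SL(2, ℤ))⁻¹) ∈ Γ' → i = j)
    (hsurj : ∀ γ : Γ, ∃ i, ((γ : SL(2, ℤ)) * (r i : SL(2, ℤ))⁻¹) ∈ Γ') :
    ∃ (x : ι → Cos Γ') (c : ι → Γ'), Function.Injective x ∧
      (∀ y, cosMap h y = cosBase Γ ↔ ∃ i, x i = y) ∧
      ∀ i, ((x i).out : SL(2, ℤ))⁻¹ = c i * r i := by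
  let x : ι → Cos Γ' := fun i => ((r i : SL(2, ℤ))⁻¹ : SL(2, ℤ))
  have hx : ∀ i, (x i).out⁻¹ * (r i : SL(2, ℤ))⁻¹ ∈ Γ' := fun i =>
    QuotientGroup.eq.mp (QuotientGroup.out_eq' (x i))
  refine ⟨x, fun i => ⟨_, hx i⟩, fun i j hij => hinj i j ?_, fun y => ⟨fun hy => ?_, ?_⟩,
    fun i => (inv_mul_cancel_right _ _).symm⟩
  · have := QuotientGroup.eq.mp hij
    rwa [inv_inv] at this
  · have hyΓ : y.out⁻¹ ∈ Γ := by
      rw [← QuotientGroup.out_eq' y] at hy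
      have := QuotientGroup.eq.mp hy
      rwa [mul_one] at this
    obtain ⟨i, hi⟩ := hsurj ⟨y.out⁻¹, hyΓ⟩
    refine ⟨i, ?_⟩
    conv_rhs => rw [← QuotientGroup.out_eq' y]
    exact (QuotientGroup.eq.mpr hi).symm
  · rintro ⟨i, rfl⟩
    show ((((r i : SL(2, ℤ))⁻¹ : SL(2, ℤ))) : Cos Γ) = _
    exact QuotientGroup.eq.mpr (by simp)

variable {A : Type*} [AddCommGroup A] [Fintype ι] [Γ'.FiniteIndex]

theorem cores_apply_param (h : Γ' ≤ Γ) (x : ι → Cos Γ') (hx : Function.Injective x)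
    (hfib : ∀ y, cosMap h y = cosBase Γ ↔ ∃ i, x i = y) (φ : Additive Γ' →+ A) (γ : Γ) :
    cores h φ (Additive.ofMul γ) = ∑ i, φ (Additive.ofMul (cellG (γ : SL(2, ℤ)) (x i))) := by
  classical
  let := Fintype.ofFinite (Cos Γ')
  rw [cores_apply]
  refine (Finset.sum_bij (fun i _ => x i) (fun i _ => ?_) (fun i _ j _ e => hx e) (fun y hy => ?_)
    (fun _ _ => rfl)).symm
  · exact Finset.mem_filter.mpr ⟨Finset.mem_univ _, (hfib _).mpr ⟨i, rfl⟩⟩
  · obtain ⟨i, hi⟩ := (hfib y).mp (Finset.mem_filter.mp hy).2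
    exact ⟨i, Finset.mem_univ _, hi⟩

/-- Transfer of a conjugated homomorphism, computed with any permuted family. -/
theorem cores_conjPull_eq_sum {Γ₁ : Subgroup SL(2, ℤ)} (h : Γ' ≤ Γ)
    {g : Matrix (Fin 2) (Fin 2) ℤ} (hg : ConjLE g Γ' Γ₁) {η : ι → Matrix (Fin 2) (Fin 2) ℤ}
    (hη : DistinctFam η) (r : ι → Γ) (ε : ι → Γ₁)
    (hr : ∀ i, g * matSL (r i : SL(2, ℤ)) = matSL (ε i : SL(2, ℤ)) * η i)
    (hsurj : ∀ γ : Γ, ∃ i, ((γ : SL(2, ℤ)) * (r i : SL(2, ℤ))⁻¹) ∈ Γ')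
    (φ : Additive Γ₁ →+ A) (γ : Γ) (σ : ι → ι) (δ : ι → Γ₁)
    (ht : IsTransferZ η (γ : SL(2, ℤ)) σ δ) :
    cores h (conjPull hg φ) (Additive.ofMul γ) = ∑ i, φ (Additive.ofMul (δ i)) := by
  classical
  have hmove : ∀ (c : Γ') (i : ι), g * matSL ((c : SL(2, ℤ)) * r i)
      = matSL ((hg.hom c * ε i : Γ₁) : SL(2, ℤ)) * η i := fun c i => by
    rw [matSL_mul, ← Matrix.mul_assoc, hg.spec, Matrix.mul_assoc, hr, ← Matrix.mul_assoc,
      ← matSL_mul, Subgroup.coe_mul]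
  have hinj : ∀ i j, ((r i : SL(2, ℤ)) * (r j : SL(2, ℤ))⁻¹) ∈ Γ' → i = j := by
    intro i j hij
    have h1 := hmove ⟨_, hij⟩ j
    rw [inv_mul_cancel_right, hr] at h1
    refine hη i j ((ε i : SL(2, ℤ))⁻¹ * ((hg.hom ⟨_, hij⟩ * ε j : Γ₁) : SL(2, ℤ))) ?_
    rw [matSL_mul, Matrix.mul_assoc, ← h1, matSL_inv_mul_cancel]
  obtain ⟨x, c, hx, hfib, hc⟩ := exists_fibre_param h r hinj hsurj
  rw [cores_apply_param h x hx hfib]
  let σ' : Equiv.Perm ι := Equiv.ofBijective σ (Finite.injective_iff_bijective.mp (hη.injective ht))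
  let e : ι → Γ₁ := fun i => hg.hom (c i) * ε i
  have he : ∀ i, g * matSL (x i).out⁻¹ = matSL (e i : SL(2, ℤ)) * η i := fun i => by
    rw [hc i]; exact hmove _ _
  have key : ∀ i, conjPull hg φ (Additive.ofMul (cellG (γ : SL(2, ℤ)) (x (σ i))))
      = φ (Additive.ofMul (δ i)) + (φ (Additive.ofMul (e i)) - φ (Additive.ofMul (e (σ i)))) := by
    intro i
    have hZ : (x i).out⁻¹ * (γ : SL(2, ℤ)) ∈ Γ :=
      Γ.mul_mem (by rw [hc i]; exact Γ.mul_mem (h (c i).2) (r i).2) γ.2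
    have hgZ : g * matSL ((x i).out⁻¹ * (γ : SL(2, ℤ)))
        = matSL ((e i * δ i : Γ₁) : SL(2, ℤ)) * η (σ i) := by
      rw [matSL_mul, ← Matrix.mul_assoc, he, Matrix.mul_assoc, ht i, ← Matrix.mul_assoc, ← matSL_mul]
      rfl
    obtain ⟨j, hj⟩ := hsurj ⟨_, hZ⟩
    obtain rfl : σ i = j := by
      have h1 := hmove ⟨_, hj⟩ j
      rw [inv_mul_cancel_right, hgZ] at h1
      refine hη _ _ (((e i * δ i : Γ₁) : SL(2, ℤ))⁻¹ * ((hg.hom ⟨_, hj⟩ * ε j : Γ₁) : SL(2, ℤ))) ?_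
      rw [matSL_mul, Matrix.mul_assoc, ← h1, matSL_inv_mul_cancel]
    have hmem : (x i).out⁻¹ * ((γ : SL(2, ℤ)) * (x (σ i)).out) ∈ Γ' := by
      have := Γ'.mul_mem hj (Γ'.inv_mem (c (σ i)).2)
      convert this using 1
      rw [show (x (σ i)).out = (r (σ i) : SL(2, ℤ))⁻¹ * (c (σ i) : SL(2, ℤ))⁻¹ by
        rw [← mul_inv_rev, ← hc, inv_inv]]
      simp only [mul_assoc]
    have hsmul : (γ : SL(2, ℤ)) • x (σ i) = x i := by
      conv_lhs => rw [← QuotientGroup.out_eq' (x (σ i))]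
      conv_rhs => rw [← QuotientGroup.out_eq' (x i)]
      exact (QuotientGroup.eq.mpr hmem).symm
    have hhom : hg.hom (cellG (γ : SL(2, ℤ)) (x (σ i))) = e i * δ i * (e (σ i))⁻¹ := by
      refine hg.hom_eq ?_
      show g * matSL (((γ : SL(2, ℤ)) • x (σ i)).out⁻¹ * ((γ : SL(2, ℤ)) * (x (σ i)).out)) = _
      rw [hsmul, ← mul_assoc, matSL_mul, ← Matrix.mul_assoc, hgZ,
        Subgroup.coe_mul (H := Γ₁) (e i * δ i) (e (σ i))⁻¹, Subgroup.coe_inv, matSL_mul,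
        Matrix.mul_assoc, Matrix.mul_assoc]
      congr 1
      rw [show η (σ i) = matSL (e (σ i) : SL(2, ℤ))⁻¹ * (g * matSL (x (σ i)).out⁻¹) by
          rw [he, matSL_inv_mul_cancel], Matrix.mul_assoc, Matrix.mul_assoc, ← matSL_mul,
        inv_mul_cancel, matSL_one, Matrix.mul_one]
    rw [conjPull_apply, hhom, ofMul_mul, ofMul_mul, map_add, map_add, ofMul_inv, map_neg]
    abel
  rw [← Equiv.sum_comp σ' (fun i => conjPull hg φ (Additive.ofMul (cellG (γ : SL(2, ℤ)) (x i))))]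
  show ∑ i, conjPull hg φ (Additive.ofMul (cellG (γ : SL(2, ℤ)) (x (σ i)))) = _
  simp only [key, Finset.sum_add_distrib, Finset.sum_sub_distrib]
  rw [show ∑ i, φ (Additive.ofMul (e (σ i))) = ∑ i, φ (Additive.ofMul (e i)) from
    Equiv.sum_comp σ' (fun i => φ (Additive.ofMul (e i))), sub_self, add_zero]

/-- Transfer of a restriction is multiplication by the index. -/
theorem cores_resHom_eq (h : Γ' ≤ Γ) (r : ι → Γ)
    (hinj : ∀ i j, ((r i : SL(2, ℤ)) * (r j : SL(2, ℤ))⁻¹) ∈ Γ' → i = j)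
    (hsurj : ∀ γ : Γ, ∃ i, ((γ : SL(2, ℤ)) * (r i : SL(2, ℤ))⁻¹) ∈ Γ')
    (φ : Additive Γ →+ A) : cores h (resHom h φ) = Fintype.card ι • φ := by
  classical
  refine AddMonoidHom.ext fun γ => ?_
  obtain ⟨x, c, hx, hfib, hc⟩ := exists_fibre_param h r hinj hsurj
  obtain ⟨γ, rfl⟩ := Additive.ofMul.surjective γ
  rw [cores_apply_param h x hx hfib]
  have hout : ∀ i, (x i).out ∈ Γ := fun i => by
    rw [← inv_inv (x i).out, hc i]; exact Γ.inv_mem (Γ.mul_mem (h (c i).2) (r i).2)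
  have hsm : ∀ i, ∃ j, x j = (γ : SL(2, ℤ)) • x i := fun i => by
    refine (hfib _).mp ?_
    rw [cosMap_smul, (hfib _).mpr ⟨i, rfl⟩, smul_base_of_mem γ.2]
  choose s hs using hsm
  have hsinj : Function.Injective s := fun i j e =>
    hx (MulAction.injective (γ : SL(2, ℤ)) (by
      show (γ : SL(2, ℤ)) • x i = (γ : SL(2, ℤ)) • x j
      rw [← hs, ← hs, e]))
  let s' : Equiv.Perm ι := Equiv.ofBijective s (Finite.injective_iff_bijective.mp hsinj)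
  let o : ι → A := fun i => φ (Additive.ofMul (⟨(x i).out, hout i⟩ : Γ))
  have key : ∀ i, resHom h φ (Additive.ofMul (cellG (γ : SL(2, ℤ)) (x i)))
      = φ (Additive.ofMul γ) + (o i - o (s i)) := by
    intro i
    rw [resHom_apply, show (⟨(cellG (γ : SL(2, ℤ)) (x i) : SL(2, ℤ)), h (cellG _ _).2⟩ : Γ)
      = (⟨(x (s i)).out, hout _⟩ : Γ)⁻¹ * (γ * ⟨(x i).out, hout i⟩) from
      Subtype.ext (by simp [cellG, hs i]), ofMul_mul, ofMul_mul, ofMul_inv, map_add, map_add, map_neg]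
    simp only [o]
    abel
  simp only [key, Finset.sum_add_distrib, Finset.sum_sub_distrib, Finset.sum_const,
    Finset.card_univ, AddMonoidHom.smul_apply]
  rw [show ∑ i, o (s i) = ∑ i, o i from Equiv.sum_comp s' o, sub_self, add_zero]

end Fibre

end FLTAgent.LevelRaise
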