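import Mathlib.Algebra.Group.Subgroup.Basic
import Mathlib.Tactic.Abel

/-!
# Homomorphisms on a group acting on a tree

A group with two subgroups and a height function behaving like the distance to a base vertex in a
tree is their amalgam: compatible homomorphisms on the subgroups extend.
-/

set_option autoImplicit false

namespace FLTAgent.LevelRaise

variable {G : Type*} [Group G] {k : Type*} [AddCommGroup k]

/-- The data of a group acting on a tree with an edge as fundamental domain. -/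
structure TreeData (G : Type*) [Group G] where
  K : ℕ → Subgroup G
  Lev : ℕ → G → Prop
  periodic : ∀ n, K (n + 2) = K n
  lev_zero : ∀ g, Lev 0 g ↔ g ∈ K 0
  mono : ∀ n g, Lev n g → Lev (n + 1) g
  exhaust : ∀ g, ∃ n, Lev n g
  invariant : ∀ n g, Lev n g → ∀ a ∈ K n, Lev n (g * a)
  lower : ∀ n g, Lev (n + 1) g → ∃ a ∈ K (n + 1), Lev n (g * a)
  unique : ∀ n g, Lev (n + 1) g → ∀ c ∈ K (n + 2), Lev (n + 1) (g * c) →
    c ∈ K (n + 1) ∨ Lev n g

namespace TreeData

variable (D : TreeData G) (φ : ℕ → G → k)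

open Classical in
/-- The extension, level by level. -/
noncomputable def ext : ℕ → G → k
  | 0, g => φ 0 g
  | n + 1, g => if h : ∃ a ∈ D.K (n + 1), D.Lev n (g * a) then
      ext n (g * h.choose) - φ (n + 1) h.choose else 0

theorem periodic_add (n j : ℕ) : D.K (n + 2 * j) = D.K n := by
  induction j with
  | zero => rfl
  | succ j ih => rw [show n + 2 * (j + 1) = n + 2 * j + 2 by omega, D.periodic, ih]

theorem mono_le {n m : ℕ} (h : n ≤ m) {g : G} (hg : D.Lev n g) : D.Lev m g := by
  induction h with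
  | refl => exact hg
  | step _ ih => exact D.mono _ _ ih

/-- Compatible homomorphisms on the two subgroups extend to the whole group. -/
theorem exists_extension (hper : ∀ n, φ (n + 2) = φ n)
    (hhom : ∀ n, ∀ a ∈ D.K n, ∀ b ∈ D.K n, φ n (a * b) = φ n a + φ n b)
    (hagree : ∀ n, ∀ g ∈ D.K n, g ∈ D.K (n + 1) → φ n g = φ (n + 1) g) :
    ∃ χ : G → k, (∀ g h, χ (g * h) = χ g + χ h) ∧ ∀ n, ∀ a ∈ D.K n, χ a = φ n a := by
  classical
  have hone : ∀ n, φ n 1 = 0 := fun n => by
    have h := hhom n 1 (one_mem _) 1 (one_mem _)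
    rwa [one_mul, left_eq_add] at h
  have key : ∀ n, (∀ g, D.Lev n g → ∀ a ∈ D.K n, D.ext φ n (g * a) = D.ext φ n g + φ n a) ∧
      ∀ g, ∀ a ∈ D.K (n + 1), D.Lev n (g * a) →
        D.ext φ (n + 1) g = D.ext φ n (g * a) - φ (n + 1) a := by
    intro n
    induction n with
    | zero =>
      have hP : ∀ g, D.Lev 0 g → ∀ a ∈ D.K 0, D.ext φ 0 (g * a) = D.ext φ 0 g + φ 0 a :=
        fun g hg a ha => hhom 0 g ((D.lev_zero g).mp hg) a ha
      refine ⟨hP, fun g a ha hga => ?_⟩
      have hex : ∃ b ∈ D.K (0 + 1), D.Lev 0 (g * b) := ⟨a, ha, hga⟩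
      show dite _ _ _ = _
      rw [dif_pos hex]
      obtain ⟨hb, hgb⟩ := hex.choose_spec
      have hc1 : hex.choose⁻¹ * a ∈ D.K 1 := mul_mem (inv_mem hb) ha
      have hc0 : hex.choose⁻¹ * a ∈ D.K 0 := by
        have := mul_mem (inv_mem ((D.lev_zero _).mp hgb)) ((D.lev_zero _).mp hga)
        simpa [mul_assoc] using this
      have h1 := hP _ hgb _ hc0
      rw [hagree 0 _ hc0 hc1, mul_assoc, mul_inv_cancel_left] at h1
      have h2 := hhom 1 _ hb _ hc1
      rw [mul_inv_cancel_left] at h2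
      rw [h1, h2]; abel
    | succ m ih =>
      obtain ⟨hPm, hWm⟩ := ih
      have hP : ∀ g, D.Lev (m + 1) g → ∀ a ∈ D.K (m + 1),
          D.ext φ (m + 1) (g * a) = D.ext φ (m + 1) g + φ (m + 1) a := by
        intro g hg a ha
        obtain ⟨b, hb, hb'⟩ := D.lower m _ (D.invariant _ _ hg a ha)
        rw [hWm _ b hb hb', hWm g (a * b) (mul_mem ha hb) (by rwa [← mul_assoc]),
          hhom _ a ha b hb, ← mul_assoc]
        abel
      refine ⟨hP, fun g a ha hga => ?_⟩
      have hex : ∃ b ∈ D.K (m + 1 + 1), D.Lev (m + 1) (g * b) := ⟨a, ha, hga⟩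
      show dite _ _ _ = _
      rw [dif_pos hex]
      obtain ⟨hb, hgb⟩ := hex.choose_spec
      obtain ⟨c, hc⟩ : ∃ c, c = hex.choose⁻¹ * a := ⟨_, rfl⟩
      have hc2 : c ∈ D.K (m + 2) := hc ▸ mul_mem (inv_mem hb) ha
      obtain ⟨g', hg'⟩ : ∃ g', g' = g * hex.choose := ⟨_, rfl⟩
      have hg'c : g' * c = g * a := by rw [hc, hg']; simp [mul_assoc]
      have hstep : D.ext φ (m + 1) (g' * c) = D.ext φ (m + 1) g' + φ (m + 2) c := by
        rw [← hg'] at hgb
        rcases D.unique m g' hgb c hc2 (by rwa [hg'c]) with h | h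
        · rw [hP g' hgb c h, hagree _ c h hc2]
        · have hcm : c ∈ D.K m := D.periodic m ▸ hc2
          have hE : ∀ x, D.Lev m x → D.ext φ (m + 1) x = D.ext φ m x := fun x hx => by
            rw [hWm x 1 (one_mem _) (by rwa [mul_one]), mul_one, hone, sub_zero]
          rw [hE _ (D.invariant _ _ h c hcm), hE _ h, hPm g' h c hcm, hper]
      have h2 := hhom (m + 2) _ hb c hc2
      rw [hc, mul_inv_cancel_left] at h2
      rw [← hg', ← hg'c, hstep, h2, hc]; abel
  have hE : ∀ n g, D.Lev n g → D.ext φ (n + 1) g = D.ext φ n g := fun n g hg => by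
    rw [(key n).2 g 1 (one_mem _) (by rwa [mul_one]), mul_one, hone, sub_zero]
  have hE' : ∀ n m g, n ≤ m → D.Lev n g → D.ext φ m g = D.ext φ n g := by
    intro n m g h hg
    induction h with
    | refl => rfl
    | step h ih => rw [hE _ g (D.mono_le h hg), ih]
  choose lv hlv using D.exhaust
  let F : G → k := fun g => D.ext φ (lv g) g
  have hF : ∀ n g, D.Lev n g → D.ext φ n g = F g := fun n g hg => by
    rw [← hE' n _ g (le_max_left n (lv g)) hg, hE' (lv g) _ g (le_max_right _ _) (hlv g)]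
  have hper' : ∀ n j, φ (n + 2 * j) = φ n := fun n j => by
    induction j with
    | zero => rfl
    | succ j ih => rw [show n + 2 * (j + 1) = n + 2 * j + 2 by omega, hper, ih]
  have heq : ∀ n g, ∀ a ∈ D.K n, F (g * a) = F g + φ n a := by
    intro n g a ha
    have hg := D.mono_le (show lv g ≤ n + 2 * lv g by omega) (hlv g)
    have ha' : a ∈ D.K (n + 2 * lv g) := by rwa [D.periodic_add]
    rw [← hF _ _ (D.invariant _ _ hg a ha'), (key _).1 g hg a ha', hF _ _ hg, hper']
  have h1 : F 1 = 0 := by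
    rw [← hF 0 1 ((D.lev_zero _).mpr (one_mem _))]; exact hone 0
  have hval : ∀ n, ∀ a ∈ D.K n, F a = φ n a := fun n a ha => by
    rw [← one_mul a, heq n 1 a ha, h1, zero_add, one_mul]
  refine ⟨F, fun h g => ?_, hval⟩
  suffices ∀ n g, D.Lev n g → F (h * g) = F h + F g from this _ g (hlv g)
  intro n
  induction n with
  | zero =>
    intro g hg
    have hg0 := (D.lev_zero g).mp hg
    rw [heq 0 h g hg0, hval 0 g hg0]
  | succ m ih =>
    intro g hg
    obtain ⟨a, ha, hga⟩ := D.lower m g hg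
    have h2 := ih _ hga
    rw [← mul_assoc, heq _ _ a ha, heq _ g a ha, ← add_assoc] at h2
    exact add_right_cancel h2

end TreeData

end FLTAgent.LevelRaise
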